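import Fermat.Agent.TWPrimes.Flat.Ordinary

/-!
# The lower left entry in the exceptional case

At `p = 3` the connected part of the models decides: the stable line is the multiplicative one and
flat classes respect it (`entry10_vanish_of_three`, `not_dA_eq_one`). Used by `Flat.Main`.
-/

set_option autoImplicit false

open Matrix Module

noncomputable section

namespace FLTAgent.TWPrimes

open FLTAgent.LocalDuality FLTAgent.FlatBound
open FLTAgent.Density (GalQ Qbar)

variable {k : Type} [Field k] [Finite k] {p : ℕ} [Fact p.Prime] [CharP k p] [Algebra (ZMod p) k]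
  {r : GalQ →* GL (Fin 2) k} {W : Submodule k (GalQ → Matrix (Fin 2) (Fin 2) k)}
  {F K L : IntermediateField ℚ_[p] (PadicAlgCl p)} {ζ l : PadicAlgCl p} {e : ℕ} {τ : LocalGal p}
  [FiniteDimensional ℚ_[p] F] [FiniteDimensional ℚ_[p] L]

/-- The standard action of `r` on `k²`. -/
def stdAct (r : GalQ →* GL (Fin 2) k) : GalQ →* AddMonoid.End (Fin 2 → k) where
  toFun g := AddMonoidHom.mk' (fun w => mat r g *ᵥ w) fun _ _ => Matrix.mulVec_add _ _ _
  map_one' := AddMonoidHom.ext fun w => by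
    show mat r 1 *ᵥ w = w
    rw [mat_one, Matrix.one_mulVec]
  map_mul' g h := AddMonoidHom.ext fun w => by
    show mat r (g * h) *ᵥ w = mat r g *ᵥ (mat r h *ᵥ w)
    rw [Matrix.mulVec_mulVec, mat_mul]

theorem liftAct_sub (r : GalQ →* GL (Fin 2) k) (c : GalQ → Matrix (Fin 2) (Fin 2) k)
    (hc : IsAdCocycleOn r c) (g : GalQ) (x w : Fin 2 → k) :
    liftAct r c hc g (x, w) - (x, w) =
      (mat r g *ᵥ x - x, mat r g *ᵥ w - w + (c g * mat r g) *ᵥ x) := by
  rw [liftAct_apply, Prod.mk_sub_mk]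
  exact Prod.ext rfl (by simp only; abel)

namespace Triangle

variable (T : Triangle r W F K L ζ l e τ)
include T

/-- At `p = 3`, with tame inertia acting trivially on the quotient line, flat classes preserve the
stable line. -/
theorem entry10_vanish_of_three (hp3 : p = 3) (hD : dD p r τ = 1) (he : e = 2) :
    ∀ c ∈ W.map (resLin p), ∀ σ : LocalGal p, (∀ x ∈ L, σ x = x) → c σ 1 0 = 0 := by
  classical
  have : Fintype k := Fintype.ofFinite k
  have : Module.Finite (ZMod p) k := Module.Finite.of_finite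
  rintro _ ⟨c, hcW, rfl⟩ σ hσ
  obtain ⟨hc, H₀, h₀, hval⟩ := T.flat.models c hcW
  obtain ⟨hV, -, -⟩ := padicFun_spec h₀
  let ι : (Fin 2 → k) →+ (Fin 2 → k) × (Fin 2 → k) := AddMonoidHom.inr _ _
  have h₀' : FiniteFlat.IsFlatModel p (stdAct r) (H₀.map (FiniteFlat.pullback p ι)) := by
    refine isFlatModel_map_pullback h₀ ι (fun a b h => congrArg Prod.snd h) fun g x => ?_
    show (0, mat r g *ᵥ x) = liftAct r c hc g (0, x)
    simp [liftAct_apply]
  obtain ⟨hX, -, hb⟩ := padicFun_spec h₀'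
  obtain ⟨e', hnorm, hmul⟩ := T.ks.exists_exponent
  have he' : e' = 1 := by subst hp3; omega
  obtain ⟨-, a, ha, ha1⟩ := T.flat.det_tau T.ks.le T.ks.stableL T.ks.tame T.ks.mem hp3 T.gen
  set v : Fin 2 → k := c (toGlobal p σ) *ᵥ ![1, 0]
  obtain ⟨hA1, hD1⟩ := T.diag σ hσ
  have hmove : ((0 : Fin 2 → k), v) ∈ hV.connectedPart := by
    have h1 := hV.sub_mem_connectedPart hval
      ((mem_inertiaAt_iff T.flat.unram).mpr fun x hx => hσ x (T.ks.tame.totRam.le hx))
      ((![1, 0], 0) : (Fin 2 → k) × (Fin 2 → k))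
    have h2 : mat r (toGlobal p σ) *ᵥ (![1, 0] : Fin 2 → k) = ![1, 0] := by
      have e1 : mat r (toGlobal p σ) 1 0 = 0 := T.upper σ
      have e2 : mat r (toGlobal p σ) 0 0 = 1 := hA1
      funext i
      fin_cases i <;> simp [Matrix.mulVec, dotProduct, Fin.sum_univ_two, e1, e2]
    rwa [liftAct_sub, h2, sub_self, Matrix.mulVec_zero, sub_zero, zero_add, ← Matrix.mulVec_mulVec,
      h2] at h1
  have hv : v ∈ hX.connectedPart := fun f hf => by
    obtain ⟨g, hg, rfl⟩ := mem_padicFun_pullback ι hf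
    exact hmove g hg
  have hfun : ∀ μ : Dual (ZMod p) k, μ (v 1) = 0 := fun μ => by
    let φ : (Fin 2 → k) →+ ZMod p :=
      μ.toAddMonoidHom.comp (Pi.evalAddMonoidHom (fun _ : Fin 2 => k) 1)
    have hφ : ∀ g : LocalGal p, dD p r g = 1 → ∀ x, φ (stdAct r (toGlobal p g) x) = φ x := by
      intro g hg x
      show μ ((mat r (toGlobal p g) *ᵥ x) 1) = μ (x 1)
      have e1 : mat r (toGlobal p g) 1 0 = 0 := T.upper g
      have e2 : mat r (toGlobal p g) 1 1 = 1 := hg
      simp [Matrix.mulVec, dotProduct, Fin.sum_univ_two, e1, e2]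
    exact hX.functional_eq_zero hb T.ks.stableL T.ks.tame T.flat.prim
      (by rw [hnorm, he', pow_one]) T.ks.mem φ (fun g hg => hφ g (T.diag g hg).2) T.gen.fixed
      (hφ τ hD) ha ha1 hv
  have := (Module.forall_dual_apply_eq_zero_iff (ZMod p) _).mp hfun
  show c (toGlobal p σ) 1 0 = 0
  simpa [v, Matrix.mulVec, dotProduct, Fin.sum_univ_two] using this

/-- A wild extension does not have tame inertia trivial on the stable line. -/
theorem not_dA_eq_one {σ₀ : LocalGal p} (hσ₀ : ∀ x ∈ L, σ₀ x = x) (hwild : locHom p r σ₀ ≠ 1) :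
    dA p r τ ≠ 1 := by
  classical
  have : Fintype k := Fintype.ofFinite k
  intro hA
  obtain ⟨hc, H₀, h₀, hval⟩ := T.flat.models 0 (Submodule.zero_mem _)
  obtain ⟨hV, -, -⟩ := padicFun_spec h₀
  obtain ⟨hA1, hD1⟩ := T.diag σ₀ hσ₀
  set β := mat (locHom p r) σ₀ 0 1
  have hdA : ∀ σ : LocalGal p, (∀ x ∈ K, σ x = x) → dA p r σ = 1 := fun σ hσ => by
    obtain ⟨i, h, hh, rfl⟩ := T.gen.decomp σ hσ
    rw [(upper_mul T.upper _ _).1, (T.diag h hh).1, mul_one]
    clear hσ
    induction i with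
    | zero => rw [pow_zero]; exact (dA_one T.upper).1
    | succ i ih => rw [pow_succ, (upper_mul T.upper _ _).1, hA, mul_one]; exact ih
  have hmove : ((0 : Fin 2 → k), (![β, 0] : Fin 2 → k)) ∈ hV.connectedPart := by
    have h1 := hV.sub_mem_connectedPart hval
      ((mem_inertiaAt_iff T.flat.unram).mpr fun x hx => hσ₀ x (T.ks.tame.totRam.le hx))
      ((0, ![0, 1]) : (Fin 2 → k) × (Fin 2 → k))
    have h2 : mat r (toGlobal p σ₀) *ᵥ (![0, 1] : Fin 2 → k) - ![0, 1] = ![β, 0] := by
      have e1 : mat r (toGlobal p σ₀) 0 1 = β := rfl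
      have e2 : mat r (toGlobal p σ₀) 1 1 = 1 := hD1
      funext i
      fin_cases i <;> simp [e1, e2]
    rwa [liftAct_sub, Matrix.mulVec_zero, sub_zero, Matrix.mulVec_zero, add_zero, h2] at h1
  have h0 := hV.eq_zero_of_fixed killed_prod T.odd T.flat.unram (fun g => map_zero _) hmove
    fun g hg => by
      have e1 : mat r (toGlobal p g) 0 0 = 1 := hdA g hg
      have e2 : mat r (toGlobal p g) 1 0 = 0 := T.upper g
      rw [liftAct_apply]
      refine Prod.ext (by simp) (funext fun i => ?_)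
      fin_cases i <;> simp [e1, e2]
  have hβ : β = 0 := by simpa using congr_fun (congrArg Prod.snd h0) 0
  exact T.span_ext_inf hσ₀ hwild (by rw [show mat (locHom p r) σ₀ 0 1 = β from rfl, hβ, zero_div])

end Triangle

end FLTAgent.TWPrimes
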