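import Fermat.Agent.TWPrimes.Flat.Frame
import Fermat.Agent.TWPrimes.Flat.Lower

/-!
# The local bound at `p` for flat classes

`classDim_le_of_flat`: flat classes at `p` form a space of dimension at most `h⁰ + 1`. Used by
`Existence`, level lowering and the modularity lifting start inputs.
-/

set_option autoImplicit false

open Matrix Module

noncomputable section

namespace FLTAgent.TWPrimes

open FLTAgent.LocalDuality FLTAgent.FlatBound
open FLTAgent.Density (GalQ Qbar)

variable {k : Type} [Field k] [Finite k] {p : ℕ} [Fact p.Prime] [CharP k p]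

omit [Finite k] [CharP k p] in
theorem map_resLin_conjFun (W : Submodule k (GalQ → Matrix (Fin 2) (Fin 2) k)) (P : GL (Fin 2) k) :
    (W.map (conjFun GalQ P)).map (resLin p) = (W.map (resLin p)).map (conjFun (LocalGal p) P) := by
  rw [← Submodule.map_comp, ← Submodule.map_comp]
  rfl

omit [Finite k] [CharP k p] in
theorem locHom_conj (r : GalQ →* GL (Fin 2) k) (P : GL (Fin 2) k) :
    locHom p ((MulAut.conj P⁻¹).toMonoidHom.comp r) =
      (MulAut.conj P⁻¹).toMonoidHom.comp (locHom p r) := rfl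

omit [CharP k p] in
theorem classDim_le_of_conj (r : GalQ →* GL (Fin 2) k)
    (W : Submodule k (GalQ → Matrix (Fin 2) (Fin 2) k)) [Module.Finite k W] (P : GL (Fin 2) k)
    {d : ℕ} (h : classDim (locHom p ((MulAut.conj P⁻¹).toMonoidHom.comp r))
      ((W.map (conjFun GalQ P)).map (resLin p)) ≤ d) :
    classDim (locHom p r) (W.map (resLin p)) ≤ d := by
  have : Module.Finite k (W.map (resLin p)) := Module.Finite.map W _
  refine (classDim_le_conj (locHom p r) P (W.map (resLin p))).trans ?_
  rw [← map_resLin_conjFun, ← locHom_conj]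
  exact h

variable [Algebra (ZMod p) k] {r : GalQ →* GL (Fin 2) k}
  {W : Submodule k (GalQ → Matrix (Fin 2) (Fin 2) k)}
  {F K L : IntermediateField ℚ_[p] (PadicAlgCl p)} {ζ l : PadicAlgCl p} {e : ℕ}
  [FiniteDimensional ℚ_[p] F] [FiniteDimensional ℚ_[p] L]

theorem eq_two_of_sq_fixed (hL : IsTame L K l e) {τ : LocalGal p}
    (hτ : IsTameGen (L := L) K l e τ) (h : (τ * τ) l = l) {e' : ℕ} (hmul : (p - 1) * e' = e)
    (hp3 : p = 3) : e = 2 := by
  have := finiteDimensional_of_le hL.totRam.le
  have hl0 := hL.totRam.ne_zero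
  have hη : τ (τ l / l) = τ l / l := hτ.fixed _ (hL.roots _ hτ.primitive.pow_eq_one)
  have h2 : (τ l / l) ^ 2 = 1 := by
    rw [AlgEquiv.mul_apply] at h
    rw [map_div₀, h] at hη
    rw [sq]
    nth_rewrite 2 [← hη]
    field_simp
    exact div_self ((map_ne_zero_iff τ τ.injective).mpr hl0)
  have h3 := Nat.le_of_dvd two_pos (hτ.primitive.dvd_of_pow_eq_one 2 h2)
  have := hL.totRam.pos
  subst hp3
  omega

/-- The exceptional tame case. -/
theorem classDim_le_of_exceptional (hp2 : p ≠ 2) (D : FlatLevel r W F K ζ) [Module.Finite k W]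
    (hLF : L ≤ F) (hst : ∀ g : LocalGal p, ∀ x ∈ L, g x ∈ L) (hL : IsTame L K l e) (hζL : ζ ∈ L)
    {τ : LocalGal p} (hτ : IsTameGen (L := L) K l e τ)
    (hiff : ∀ σ : LocalGal p, (∀ x ∈ L, σ x = x) ↔ locHom p r σ = 1 ∧ σ ∈ inertiaAt F)
    (hp3 : p = 3) {m : Matrix (Fin 2) (Fin 2) k} (hm : m.trace = 0)
    (hmτ : adAct (locHom p r) τ m = -m) (hm0 : m ≠ 0) :
    classDim (locHom p r) (W.map (resLin p)) ≤ finrank k (adFixed (locHom p r)) + 1 := by
  have h2 := two_ne_zero_of_odd (k := k) hp2
  obtain ⟨hdet, -⟩ := D.det_tau hLF hst hL hζL hp3 hτ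
  set R := mat (locHom p r) τ with hR
  have hRm : R * m = -(m * R) := by
    have h := congrArg (fun x => x * R) hmτ
    simp only [adAct, hR, mul_assoc, mat_inv_mul, mul_one, neg_mul] at h ⊢
    exact h
  have htr : R.trace = 0 := by
    have e1 : R * m + m * R = R.trace • m + (R * m).trace • 1 := by
      have hm' : m 1 1 = -m 0 0 := by
        rw [Matrix.trace_fin_two] at hm; exact eq_neg_of_add_eq_zero_right hm
      ext i j
      fin_cases i <;> fin_cases j <;>
        simp [Matrix.mul_apply, Matrix.trace_fin_two, Fin.sum_univ_two, hm'] <;> ring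
    have e2 : (R * m).trace = 0 := by
      have e3 : (R * m).trace = -(R * m).trace := by
        conv_lhs => rw [hRm]
        rw [Matrix.trace_neg, Matrix.trace_mul_comm]
      have e4 : (2 : k) * (R * m).trace = 0 := by linear_combination e3
      exact (mul_eq_zero.mp e4).resolve_left h2
    rw [e2, hRm, neg_add_cancel, zero_smul, add_zero, eq_comm, smul_eq_zero] at e1
    exact e1.resolve_right hm0
  have hR2 : R * R = 1 := by
    rw [Matrix.det_fin_two] at hdet
    have h11 : R 1 1 = -R 0 0 := by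
      rw [Matrix.trace_fin_two] at htr; exact eq_neg_of_add_eq_zero_right htr
    rw [h11] at hdet
    ext i j
    fin_cases i <;> fin_cases j <;> simp [Matrix.mul_apply, Fin.sum_univ_two, h11] <;>
      first | ring1 | linear_combination -hdet
  have hR1 : R ≠ 1 := fun h => by
    rw [h, Matrix.trace_one, Fintype.card_fin] at htr
    exact h2 (by exact_mod_cast htr)
  have hcomm : ∀ g : LocalGal p, adAct (locHom p r) g R = R := fun g => by
    obtain ⟨i, h, hh, hih⟩ := hτ.decomp _ (D.normal g τ hτ.fixed)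
    have h1 : adAct (locHom p r) g R = R ^ i := by
      have e1 : adAct (locHom p r) g R = mat (locHom p r) (g * τ * g⁻¹) := by
        rw [mat_mul, mat_mul]; rfl
      rw [e1, hih, mat_mul, mat, mat, ((hiff h).mp hh).1, Units.val_one, mul_one, map_pow,
        Units.val_pow_eq_pow_val]
    rcases Nat.even_or_odd i with ⟨j, rfl⟩ | ⟨j, rfl⟩
    · rw [← two_mul, pow_mul, sq, hR2, one_pow] at h1
      refine absurd ?_ hR1
      have h2 := congrArg (fun x => mat (locHom p r) g⁻¹ * x * mat (locHom p r) g) h1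
      simp only [adAct, mul_assoc, mat_inv_mul, mul_one] at h2
      rwa [← mul_assoc, mat_inv_mul, one_mul] at h2
    · rw [h1, pow_succ, pow_mul, sq, hR2, one_pow, one_mul]
  obtain ⟨P, hP⟩ := exists_frame_of_involution hp2 htr hdet
  refine classDim_le_of_conj r W P ?_
  set r' := (MulAut.conj P⁻¹).toMonoidHom.comp r with hr'
  have hmat : ∀ g, mat (locHom p r') g = (P⁻¹ : GL (Fin 2) k).1 * mat (locHom p r) g * P.1 :=
    fun g => by
      show ((MulAut.conj P⁻¹ (r (toGlobal p g))) : GL (Fin 2) k).1 = _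
      rw [MulAut.conj_apply, inv_inv, Units.val_mul, Units.val_mul]
      rfl
  have hτ' : mat (locHom p r') τ = !![-1, 0; 0, 1] := by rw [hmat, ← hR, hP]
  have hup : IsUpper p r' := fun g => by
    have h1 : mat (locHom p r') g * mat (locHom p r') τ =
        mat (locHom p r') τ * mat (locHom p r') g := by
      have h3 : mat (locHom p r) g * R = R * mat (locHom p r) g := by
        conv_rhs => rw [← hcomm g]
        simp only [adAct, mul_assoc, mat_inv_mul, mul_one]
      simp only [hmat, mul_assoc, Units.mul_inv_cancel_left]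
      rw [← mul_assoc (mat (locHom p r) g), h3]
      simp only [mul_assoc]
      rfl
    have h3 := congr_fun (congr_fun h1 1) 0
    simp [hτ', Matrix.mul_apply, Fin.sum_univ_two] at h3
    have h4 : (2 : k) * mat (locHom p r') g 1 0 = 0 := by linear_combination -h3
    exact (mul_eq_zero.mp h4).resolve_left h2
  have T : Triangle r' (W.map (conjFun GalQ P)) F K L ζ l e τ :=
    { flat := D.conj P, upper := hup, ks := (D.conj P).kummer hLF hst hL hζL, gen := hτ
      diag := fun σ hσ => by
        have h1 : mat (locHom p r') σ = 1 := by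
          rw [hmat, mat, ((hiff σ).mp hσ).1, Units.val_one, mul_one, ← Units.val_mul,
            inv_mul_cancel, Units.val_one]
        exact ⟨by simp [dA, h1], by simp [dD, h1]⟩
      odd := hp2 }
  have hA : dA p r' τ = -1 := by simp [dA, hτ']
  have hD : dD p r' τ = 1 := by simp [dD, hτ']
  have hne : dA p r' τ ≠ dD p r' τ := by
    rw [hA, hD]
    intro h
    exact h2 (by linear_combination -h)
  obtain ⟨e', -, hmul⟩ := T.ks.exists_exponent
  have he : e = 2 := by
    refine eq_two_of_sq_fixed hL hτ ?_ hmul hp3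
    refine (hiff (τ * τ)).mpr ⟨Units.ext ?_, mul_mem ((mem_inertiaAt_iff D.unram).mpr hτ.fixed)
      ((mem_inertiaAt_iff D.unram).mpr hτ.fixed)⟩ l hL.totRam.mem
    show mat (locHom p r) (τ * τ) = 1
    rw [mat_mul, hR2]
  have : Module.Finite k (W.map (conjFun GalQ P)) := Module.Finite.map W _
  have hle := T.classDim_le_two hne (T.entry10_vanish_of_three hp3 hD he)
  have h0 : 1 ≤ finrank k (adFixed (locHom p r)) :=
    Submodule.one_le_finrank_iff.mpr fun hbot => hR1 (by
      have h := (Submodule.mem_bot k).mp (hbot ▸ (mem_adFixed_iff.mpr ⟨htr, hcomm⟩ :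
        R ∈ adFixed (locHom p r)))
      rw [h, mul_zero] at hR2
      exact h.trans hR2)
  omega

/-- The wild case. -/
theorem classDim_le_of_wild (hp2 : p ≠ 2) (D : FlatLevel r W F K ζ) [Module.Finite k W]
    (hup : IsUpper p r) {σ₀ : LocalGal p} (hσ₀ : σ₀ ∈ inertiaAt F) (hA : dA p r σ₀ = 1)
    (hD : dD p r σ₀ = 1) (hne : locHom p r σ₀ ≠ 1) :
    classDim (locHom p r) (W.map (resLin p)) ≤ 1 := by
  have := finiteDimensional_of_le D.unram.le
  let ψ : LocalGal p →* kˣ × kˣ := MonoidHom.mk'
    (fun g => (Units.mk0 _ (dA_ne_zero hup g).1, Units.mk0 _ (dA_ne_zero hup g).2))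
    fun g h => Prod.ext (Units.ext (upper_mul hup g h).1) (Units.ext (upper_mul hup g h).2.1)
  have hψ1 : ∀ g, ψ g = 1 ↔ dA p r g = 1 ∧ dD p r g = 1 := fun g => by
    simp [ψ, Prod.ext_iff, Units.ext_iff]
  have hψ : F.fixingSubgroup ≤ ψ.ker := fun σ hσ => by
    rw [MonoidHom.mem_ker, hψ1]
    have h1 : mat (locHom p r) σ = 1 := by
      rw [mat, D.kill σ ((IntermediateField.mem_fixingSubgroup_iff F σ).mp hσ)]; rfl
    exact ⟨by simp [dA, h1], by simp [dD, h1]⟩
  obtain ⟨L, hLF, hKL, hfd, hst, hKu, hiff⟩ := exists_cutField F D.stable D.unram ψ hψ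
  have := hfd
  obtain ⟨l, e, hL⟩ := exists_isTame_of_wild hst hKu fun ϖ n hT σ hσ => by
    have hk : ¬ p ∣ Nat.card kˣ := by
      classical
      have : Fintype k := Fintype.ofFinite k
      obtain ⟨m, -, hm⟩ := FiniteField.card k p
      rw [Nat.card_eq_fintype_card, Fintype.card_units, hm]
      intro hd
      have hp := (Fact.out : p.Prime)
      have hpm : p ∣ p ^ (m : ℕ) := dvd_pow_self p (by positivity)
      have h1 : 1 ≤ p ^ (m : ℕ) := Nat.one_le_pow _ _ hp.pos
      have := Nat.dvd_sub hpm hd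
      rw [show p ^ (m : ℕ) - (p ^ (m : ℕ) - 1) = 1 by omega] at this
      exact hp.ne_one (Nat.dvd_one.mp this)
    refine hT.wild_eq_of_pow hst hσ hk ((hiff _).mpr ⟨?_, (mem_inertiaAt_iff D.unram).mpr
      (hT.isWild_pow hst hσ _).1⟩ ϖ hT.mem)
    rw [map_pow]
    exact Prod.ext pow_card_eq_one' pow_card_eq_one'
  have hσL : ∀ x ∈ L, σ₀ x = x := (hiff σ₀).mpr ⟨(hψ1 σ₀).mpr ⟨hA, hD⟩, hσ₀⟩
  have hζL : ζ ∈ L := mem_of_forall_fixed L fun σ hσ => by
    obtain ⟨h1, h2⟩ := (hψ1 σ).mp ((hiff σ).mp hσ).1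
    exact D.zeta_fixed (by rw [det_upper hup, h1, h2, one_mul])
  obtain ⟨τ, hτ⟩ := hL.exists_tameGen
  have T : Triangle r W F K L ζ l e τ :=
    { flat := D, upper := hup, ks := D.kummer hLF hst hL hζL, gen := hτ
      diag := fun σ hσ => (hψ1 σ).mp ((hiff σ).mp hσ).1
      odd := hp2 }
  obtain ⟨e', -, hmul⟩ := T.ks.exists_exponent
  by_cases hexc : p = 3 ∧ dA p r τ = -dD p r τ
  · obtain ⟨hp3, hAD⟩ := hexc
    obtain ⟨hdet, -⟩ := D.det_tau hLF hst hL hζL hp3 hτ
    rw [det_upper hup, hAD, neg_mul, neg_inj] at hdet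
    have hDτ : dD p r τ = 1 := by
      rcases mul_self_eq_one_iff.mp hdet with h | h
      · exact h
      · exact absurd (by rw [hAD, h, neg_neg]) (T.not_dA_eq_one hσL hne)
    have hAτ : dA p r τ = -1 := by rw [hAD, hDτ]
    have he : e = 2 := by
      refine eq_two_of_sq_fixed hL hτ ?_ hmul hp3
      refine (hiff (τ * τ)).mpr ⟨(hψ1 _).mpr ⟨?_, ?_⟩,
        mul_mem ((mem_inertiaAt_iff D.unram).mpr hτ.fixed)
          ((mem_inertiaAt_iff D.unram).mpr hτ.fixed)⟩ l hL.totRam.mem
      · rw [(upper_mul hup τ τ).1, hAτ, neg_mul_neg, one_mul]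
      · rw [(upper_mul hup τ τ).2.1, hDτ, one_mul]
    exact T.classDim_le_one hσL hne (T.entry10_vanish_of_three hp3 hDτ he)
  · exact T.classDim_le_one hσL hne
      (T.entry10_vanish hσL hne fun h3 h4 => hexc ⟨h3, h4⟩)

theorem classDim_le_of_flat_finite (hp2 : p ≠ 2) (hr : GaloisFactorsThroughFiniteLevel r)
    (hdet : ∀ g, (mat r g).det =
      ZMod.castHom (dvd_refl p) k (ExtCitation.cycloChar p g : ZMod p))
    [Module.Finite k W] (hW : ∀ c ∈ W, IsFlatClass p r c) :
    classDim (locHom p r) (W.map (resLin p)) ≤ finrank k (adFixed (locHom p r)) + 1 := by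
  obtain ⟨F, K, ζ, hF, D⟩ := exists_flatLevel r hdet W hW
  have := hF
  have := finiteDimensional_of_le D.unram.le
  obtain ⟨L, hLF, hKL, hfd, hst, hKu, hiff⟩ := exists_cutField F D.stable D.unram (locHom p r)
    fun σ hσ => D.kill σ ((IntermediateField.mem_fixingSubgroup_iff F σ).mp hσ)
  have := hfd
  have hζL : ζ ∈ L := mem_of_forall_fixed L fun σ hσ => by
    refine D.zeta_fixed ?_
    rw [mat, ((hiff σ).mp hσ).1, Units.val_one, Matrix.det_one]
  by_cases hw : ∀ ϖ n, IsTotRam K L ϖ n → ∀ σ, IsWild K ϖ σ → σ ϖ = ϖ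
  · obtain ⟨l, e, hL⟩ := exists_isTame_of_wild hst hKu hw
    obtain ⟨τ, hτ⟩ := hL.exists_tameGen
    by_cases h3 : p = 3 → ∀ m : Matrix (Fin 2) (Fin 2) k, m.trace = 0 →
        adAct (locHom p r) τ m = -m → m = 0
    · exact classDim_le_of_tame hp2 hr D hLF hst hL hζL hτ (fun σ hσ => ((hiff σ).mp hσ).1) h3
    · push Not at h3
      obtain ⟨hp3, m, hm, hmτ, hm0⟩ := h3
      exact classDim_le_of_exceptional hp2 D hLF hst hL hζL hτ hiff hp3 hm hmτ hm0
  · push Not at hw
    obtain ⟨ϖ, n, hT, σ₀, hσ₀, hne⟩ := hw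
    obtain ⟨P, hup, hA, hD, hne1⟩ := exists_frame_of_wild D hst hiff hT hσ₀ hne
    refine classDim_le_of_conj r W P ?_
    have : Module.Finite k (W.map (conjFun GalQ P)) := Module.Finite.map W _
    refine le_trans (classDim_le_of_wild hp2 (D.conj P) hup
      ((mem_inertiaAt_iff D.unram).mpr hσ₀.1) hA hD fun h => hne1 ?_) (Nat.le_add_left 1 _)
    exact (MulAut.conj P⁻¹).injective (h.trans (map_one _).symm)

end FLTAgent.TWPrimes

namespace FLTAgent.TWPrimes

open FLTAgent.LocalDuality
open FLTAgent.Density (GalQ Qbar)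

variable {k : Type} [Field k] [Finite k]
variable (p : ℕ) [Fact p.Prime] [CharP k p]

/-- Flat classes at `p` form a space of dimension at most `h⁰ + 1`. -/
theorem classDim_le_of_flat (hp2 : p ≠ 2) (r : GalQ →* GL (Fin 2) k)
    (hr : GaloisFactorsThroughFiniteLevel r)
    (hdet : ∀ g, (mat r g).det =
      ZMod.castHom (dvd_refl p) k (ExtCitation.cycloChar p g : ZMod p))
    (W : Submodule k (GalQ → Matrix (Fin 2) (Fin 2) k))
    (hW : ∀ c ∈ W, IsFlatClass p r c) :
    Module.Finite k ((W.map (resLin p)).map (adCob (locHom p r)).mkQ) ∧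
      classDim (locHom p r) (W.map (resLin p)) ≤
        Module.finrank k (adFixed (locHom p r)) + 1 := by
  classical
  let : Algebra (ZMod p) k := ZMod.algebra k p
  set n := Module.finrank k (adFixed (locHom p r)) + 1
  set S := (W.map (resLin p)).map (adCob (locHom p r)).mkQ
  have hrank : Module.rank k S ≤ n := by
    refine rank_le fun s hs => ?_
    have hmem : ∀ x : s, ∃ c ∈ W, (adCob (locHom p r)).mkQ (resLin p c) = ((x : S) :
        (LocalGal p → Matrix (Fin 2) (Fin 2) k) ⧸ adCob (locHom p r)) := fun x => by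
      obtain ⟨_, ⟨c, hc, rfl⟩, hx⟩ := (x : S).2
      exact ⟨c, hc, hx⟩
    choose c hc hcx using hmem
    set W' := Submodule.span k (Set.range c)
    have : Module.Finite k W' := Module.Finite.span_of_finite k (Set.finite_range c)
    have hW' : W' ≤ W := Submodule.span_le.mpr (Set.range_subset_iff.mpr hc)
    have h1 := classDim_le_of_flat_finite hp2 hr hdet (W := W') fun x hx => hW x (hW' hx)
    have : Module.Finite k (W'.map (resLin p)) := Module.Finite.map W' _
    have : Module.Finite k ((W'.map (resLin p)).map (adCob (locHom p r)).mkQ) :=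
      Module.Finite.map _ _
    have h2 : LinearIndependent k fun x : s =>
        (⟨((x : S) : (LocalGal p → Matrix (Fin 2) (Fin 2) k) ⧸ adCob (locHom p r)),
          hcx x ▸ Submodule.mem_map_of_mem (Submodule.mem_map_of_mem
            (Submodule.subset_span ⟨x, rfl⟩))⟩ :
          (W'.map (resLin p)).map (adCob (locHom p r)).mkQ) := by
      refine LinearIndependent.of_comp (Submodule.subtype _) ?_
      exact hs.map' S.subtype S.ker_subtype
    have h3 := h2.fintype_card_le_finrank
    rw [Fintype.card_coe] at h3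
    exact h3.trans h1
  have : Module.Free k S := Module.Free.of_divisionRing k S
  have hfin : Module.Finite k S :=
    Module.rank_lt_aleph0_iff.mp (hrank.trans_lt Cardinal.natCast_lt_aleph0)
  exact ⟨hfin, Module.finrank_le_of_rank_le hrank⟩

end FLTAgent.TWPrimes
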