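import Fermat.Agent.TWPrimes.Flat.KummerBound
import Fermat.Agent.TWPrimes.DecompositionLift

/-!
# A local Galois element killing all flat modules of exponent `p`

`exists_kills_flat`: an element of the decomposition group fixing `μ_p` and moving a `p`-th root
of `p` acts trivially on every flat module killed by `p`. Used by the modularity lifting start
inputs and `Flat.NormalForm`.
-/

set_option autoImplicit false

noncomputable section

open Polynomial
open scoped IntermediateField Pointwise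

namespace FLTAgent.FlatBound

open FLTAgent.LocalDuality FLTAgent.Density

variable {p : ℕ} [Fact p.Prime]

/-- A flat model killed by `p` with coordinates in a finite extension. -/
structure PModel (p : ℕ) [Fact p.Prime] where
  /-- The module. -/
  V : Type
  [grp : AddCommGroup V]
  [fin : Fintype V]
  /-- The Galois action. -/
  act : LocalGal p → V → V
  /-- The ring of functions. -/
  H : Subring (V → PadicAlgCl p)
  isModel : IsPadicModel p act H
  killed : ∀ x : V, p • x = 0
  finite_values : ∃ E : IntermediateField ℚ_[p] (PadicAlgCl p), FiniteDimensional ℚ_[p] E ∧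
    ∀ f ∈ H, ∀ x, f x ∈ E

attribute [instance] PModel.grp PModel.fin

/-- The coordinates of all the points. -/
def PModel.values (M : PModel p) : Set (PadicAlgCl p) :=
  {z | ∃ f ∈ M.H, ∃ x, f x = z}

/-- The field generated over `L` by the coordinates of a family of models. -/
def pointField (L : IntermediateField ℚ_[p] (PadicAlgCl p)) {ι : Type} (M : ι → PModel p) :
    IntermediateField ℚ_[p] (PadicAlgCl p) :=
  IntermediateField.adjoin ℚ_[p] ((L : Set (PadicAlgCl p)) ∪ ⋃ i, (M i).values)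

section PointField

variable (L : IntermediateField ℚ_[p] (PadicAlgCl p)) {ι : Type} (M : ι → PModel p)

theorem le_pointField : L ≤ pointField L M :=
  fun _ hx => IntermediateField.subset_adjoin _ _ (Or.inl hx)

theorem value_mem_pointField (i : ι) {f : (M i).V → PadicAlgCl p} (hf : f ∈ (M i).H) (x : (M i).V) :
    f x ∈ pointField L M :=
  IntermediateField.subset_adjoin _ _ (Or.inr (Set.mem_iUnion.mpr ⟨i, f, hf, x, rfl⟩))

theorem pointField_fixed {σ : LocalGal p} (hL : ∀ a ∈ L, σ a = a)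
    (hv : ∀ i, ∀ f ∈ (M i).H, ∀ x, σ (f x) = f x) : ∀ z ∈ pointField L M, σ z = z := by
  intro z hz
  induction hz using IntermediateField.adjoin_induction with
  | mem z hz =>
    rcases hz with hz | hz
    · exact hL z hz
    · obtain ⟨i, f, hf, x, rfl⟩ := Set.mem_iUnion.mp hz
      exact hv i f hf x
  | algebraMap a => exact σ.commutes a
  | add x y _ _ hx hy => rw [map_add, hx, hy]
  | inv x _ hx => rw [map_inv₀, hx]
  | mul x y _ _ hx hy => rw [map_mul, hx, hy]

theorem pointField_stable (hst : ∀ σ : LocalGal p, ∀ x ∈ L, σ x ∈ L) :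
    ∀ σ : LocalGal p, ∀ x ∈ pointField L M, σ x ∈ pointField L M := by
  intro σ z hz
  induction hz using IntermediateField.adjoin_induction with
  | mem z hz =>
    rcases hz with hz | hz
    · exact le_pointField L M (hst σ z hz)
    · obtain ⟨i, f, hf, x, rfl⟩ := Set.mem_iUnion.mp hz
      rw [← (M i).isModel.equivariant f hf σ x]
      exact value_mem_pointField L M i hf _
  | algebraMap a => rw [σ.commutes]; exact IntermediateField.algebraMap_mem _ a
  | add x y _ _ hx hy => rw [map_add]; exact add_mem hx hy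
  | inv x _ hx => rw [map_inv₀]; exact inv_mem hx
  | mul x y _ _ hx hy => rw [map_mul]; exact mul_mem hx hy

theorem finiteDimensional_pointField [FiniteDimensional ℚ_[p] L] [Finite ι] :
    FiniteDimensional ℚ_[p] (pointField L M) := by
  choose E hE hval using fun i => (M i).finite_values
  have : ∀ i, FiniteDimensional ℚ_[p] (E i) := hE
  have : FiniteDimensional ℚ_[p] (⨆ i, E i : IntermediateField ℚ_[p] (PadicAlgCl p)) :=
    IntermediateField.finiteDimensional_iSup_of_finite
  refine finiteDimensional_of_le (B := L ⊔ ⨆ i, E i)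
    (IntermediateField.adjoin_le_iff.mpr ?_)
  rintro z (hz | hz)
  · exact (le_sup_left : L ≤ L ⊔ ⨆ i, E i) hz
  · obtain ⟨i, f, hf, x, rfl⟩ := Set.mem_iUnion.mp hz
    exact ((le_iSup E i).trans (le_sup_right : _ ≤ L ⊔ ⨆ i, E i)) (hval i f hf x)

/-- A low-level `p`-th root is outside every point field. -/
theorem not_mem_pointField_of_lt [FiniteDimensional ℚ_[p] L] [Finite ι]
    (hst : ∀ σ : LocalGal p, ∀ x ∈ L, σ x ∈ L) {K₀ : IntermediateField ℚ_[p] (PadicAlgCl p)}
    {l : PadicAlgCl p} {e : ℕ} (hL : IsTame L K₀ l e) {ζ : PadicAlgCl p}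
    (hζ : IsPrimitiveRoot ζ p) {y c : PadicAlgCl p} (hc : c ∈ K₀) (hy : y ^ p ∈ L) {m : ℤ}
    (hm : ¬ (p : ℤ) ∣ m) (hu : ‖y - c‖ ^ p = ‖l‖ ^ m) {δ : ℝ} (hδ0 : 0 ≤ δ)
    (hδ : ‖ζ - 1‖ * ‖y‖ ≤ δ * ‖y - c‖) (hδp : δ ^ (p * (p - 1)) < ‖(p : PadicAlgCl p)‖) :
    y ∉ pointField L M := by
  have := finiteDimensional_pointField L M
  exact not_mem_pointField hL (le_pointField L M) (pointField_stable L M hst)
    (fun i => (M i).isModel) (fun i => (M i).killed)
    (fun i f hf x => value_mem_pointField L M i hf x)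
    (fun σ hσL hσv => pointField_fixed L M hσL hσv) hζ hc hy hm hu hδ0 hδ hδp

end PointField

theorem exponent_le_finrank (L : IntermediateField ℚ_[p] (PadicAlgCl p))
    [FiniteDimensional ℚ_[p] L] {ϖ : PadicAlgCl p} (hϖ : ϖ ∈ L) {n : ℕ}
    (hn : ‖ϖ‖ ^ n = ‖(p : PadicAlgCl p)‖) : n ≤ Module.finrank ℚ_[p] L := by
  rcases Nat.eq_zero_or_pos n with rfl | hpos
  · exact Nat.zero_le _
  let K : IntermediateField ℚ_[p] (PadicAlgCl p) := ⊥
  have hU : IsUnif K ϖ n := by
    refine ⟨hpos, hn, fun x hx hx0 => ?_⟩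
    obtain ⟨a, rfl⟩ := IntermediateField.mem_bot.mp hx
    have ha : a ≠ 0 := fun h => hx0 (by rw [h, map_zero])
    refine ⟨a.valuation, ?_⟩
    rw [norm_algebraMap_padic, Padic.norm_eq_zpow_neg_valuation ha, norm_natCast_p, inv_zpow,
      zpow_neg]
  have hli : LinearIndependent ℚ_[p] fun i : Fin n => (⟨ϖ ^ (i : ℕ), pow_mem hϖ _⟩ : L) := by
    rw [Fintype.linearIndependent_iff]
    intro a ha i
    have h1 := congrArg (fun z : L => (z : PadicAlgCl p)) ha
    simp only [AddSubmonoidClass.coe_finsetSum, Algebra.smul_def,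
      ZeroMemClass.coe_zero] at h1
    have := hU.eq_zero_of_sum_eq_zero (fun j => algebraMap ℚ_[p] (PadicAlgCl p) (a j))
      (fun j => IntermediateField.algebraMap_mem _ _) h1 i
    exact (algebraMap ℚ_[p] (PadicAlgCl p)).injective (this.trans (map_zero _).symm)
  simpa using hli.fintype_card_le_finrank

/-- The cyclotomic field of level `p` is tame. -/
theorem exists_isTame_cyclotomic {ζ : PadicAlgCl p} (hζ : IsPrimitiveRoot ζ p) :
    (∀ σ : LocalGal p, ∀ x ∈ ℚ_[p]⟮ζ⟯, σ x ∈ ℚ_[p]⟮ζ⟯) ∧ ∃ K l e, IsTame ℚ_[p]⟮ζ⟯ K l e := by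
  have hp := (Fact.out : p.Prime)
  have : NeZero p := ⟨hp.ne_zero⟩
  have hint : IsIntegral ℚ_[p] ζ := Algebra.IsIntegral.isIntegral ζ
  have := IntermediateField.adjoin.finiteDimensional hint
  have hst : ∀ σ : LocalGal p, ∀ x ∈ ℚ_[p]⟮ζ⟯, σ x ∈ ℚ_[p]⟮ζ⟯ := by
    intro σ x hx
    induction hx using IntermediateField.adjoin_induction with
    | mem z hz =>
      rw [Set.mem_singleton_iff] at hz
      have h1 : (σ ζ) ^ p = 1 := by rw [← map_pow, hζ.pow_eq_one, map_one]
      obtain ⟨i, -, hi⟩ := hζ.eq_pow_of_pow_eq_one h1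
      rw [hz, ← hi]
      exact pow_mem (IntermediateField.mem_adjoin_simple_self _ ζ) i
    | algebraMap a => rw [σ.commutes]; exact IntermediateField.algebraMap_mem _ a
    | add x y _ _ hx hy => rw [map_add]; exact add_mem hx hy
    | inv x _ hx => rw [map_inv₀]; exact inv_mem hx
    | mul x y _ _ hx hy => rw [map_mul]; exact mul_mem hx hy
  refine ⟨hst, exists_isTame _ hst fun ϖ hϖ n hn _ hdvd => ?_⟩
  have hle : n ≤ p - 1 := by
    refine (exponent_le_finrank _ hϖ hn).trans ?_
    rw [IntermediateField.adjoin.finrank hint]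
    refine (natDegree_le_of_dvd (minpoly.dvd ℚ_[p] ζ (p := cyclotomic p ℚ_[p]) ?_)
      (cyclotomic_ne_zero p _)).trans_eq ?_
    · rw [aeval_def, ← eval_map, map_cyclotomic]
      exact hζ.isRoot_cyclotomic hp.pos
    · rw [natDegree_cyclotomic, Nat.totient_prime hp]
  have hn0 : n ≠ 0 := fun h0 => by
    rw [h0, pow_zero] at hn
    exact (norm_natCast_p_lt_one p).ne hn.symm
  have := Nat.le_of_dvd (Nat.pos_of_ne_zero hn0) hdvd
  have := hp.two_le
  omega

/-- A local Galois element fixing `μ_p`, moving a root of `X ^ p - p` and fixing all coordinates of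
points of flat models killed by `p`. -/
theorem exists_local_kills (p : ℕ) [Fact p.Prime] {ζ : PadicAlgCl p} (hζ : IsPrimitiveRoot ζ p)
    {y : PadicAlgCl p} (hy : y ^ p = (p : PadicAlgCl p)) :
    ∃ σ : LocalGal p, σ ζ = ζ ∧ σ y ≠ y ∧
      ∀ M : PModel p, ∀ f ∈ M.H, ∀ x, σ (f x) = f x := by
  classical
  have hp := (Fact.out : p.Prime)
  by_contra hcon
  push Not at hcon
  set S : Set (PadicAlgCl p) := insert ζ (⋃ M : PModel p, M.values)
  have hyS : y ∈ IntermediateField.adjoin ℚ_[p] S := by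
    refine mem_of_forall_fixed _ fun σ hσ => ?_
    by_contra hne
    obtain ⟨M, f, hf, x, hx⟩ :=
      hcon σ (hσ ζ (IntermediateField.subset_adjoin _ _ (Set.mem_insert _ _))) hne
    exact hx (hσ _ (IntermediateField.subset_adjoin _ _
      (Set.mem_insert_of_mem _ (Set.mem_iUnion.mpr ⟨M, f, hf, x, rfl⟩))))
  obtain ⟨T, hTS, hyT⟩ := IntermediateField.exists_finset_of_mem_adjoin hyS
  let T' := T.filter fun z => z ≠ ζ
  have hT' : ∀ z : T', ∃ M : PModel p, (z : PadicAlgCl p) ∈ M.values := fun z => by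
    obtain ⟨hz, hne⟩ := Finset.mem_filter.mp z.2
    rcases hTS hz with h | h
    · exact absurd h hne
    · exact Set.mem_iUnion.mp h
  choose M hM using hT'
  obtain ⟨hst, K, l, e, hL⟩ := exists_isTame_cyclotomic hζ
  have := IntermediateField.adjoin.finiteDimensional (Algebra.IsIntegral.isIntegral (R := ℚ_[p]) ζ)
  obtain ⟨hζ1, -⟩ := norm_zeta_sub_one hζ
  have hpe : ¬ (p : ℤ) ∣ (e : ℤ) := fun h => hL.not_dvd (by exact_mod_cast h)
  refine not_mem_pointField_of_lt ℚ_[p]⟮ζ⟯ M hst hL hζ (y := y) (c := 0) (zero_mem K)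
    (by rw [hy]; exact natCast_mem _ p) hpe ?_ (δ := ‖ζ - 1‖) (norm_nonneg _)
    (by rw [sub_zero]) ?_ ?_
  · rw [sub_zero, ← norm_pow, hy, zpow_natCast, hL.totRam.norm_pow]
  · rw [mul_comm, pow_mul, hζ1]
    exact pow_lt_self_of_lt_one₀ (norm_pos_iff.mpr (natCast_p_ne_zero p))
      (norm_natCast_p_lt_one p) hp.one_lt
  · refine IntermediateField.adjoin_le_iff.mpr ?_ hyT
    intro z hz
    by_cases h : z = ζ
    · exact le_pointField _ M (h ▸ IntermediateField.mem_adjoin_simple_self ℚ_[p] ζ)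
    · obtain ⟨f, hf, x, hx⟩ := hM ⟨z, Finset.mem_filter.mpr ⟨hz, h⟩⟩
      show z ∈ pointField _ M
      have hm := value_mem_pointField ℚ_[p]⟮ζ⟯ M _ hf x
      rw [hx] at hm
      exact hm

/-- A Galois element in a decomposition group at `p` fixing `μ_p`, moving a `p`-th root of `p`
and acting trivially on every flat module killed by `p`. -/
theorem exists_kills_flat (p : ℕ) [Fact p.Prime] (P : ValuationSubring Qbar)
    (hP : P.LiesOverPrime p) :
    ∃ σ ∈ P.decompositionSubgroup ℚ, (∀ μ : Qbar, μ ^ p = 1 → σ μ = μ) ∧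
      (∃ x : Qbar, x ^ p = (p : Qbar) ∧ σ x ≠ x) ∧
      ∀ (M : Type) [AddCommGroup M] [Finite M] (act : GalQ →* AddMonoid.End M),
        (∀ x : M, p • x = 0) → FiniteFlat.HasFlatModel p act → act σ = 1 := by
  classical
  have hp := (Fact.out : p.Prime)
  have : NeZero p := ⟨hp.ne_zero⟩
  obtain ⟨ζ, hζ⟩ := HasEnoughRootsOfUnity.exists_primitiveRoot (PadicAlgCl p) p
  obtain ⟨x₀, hx₀⟩ := IsAlgClosed.exists_pow_nat_eq (p : Qbar) hp.pos
  obtain ⟨τ, hτζ, hτy, hτM⟩ := exists_local_kills p hζ (y := padicEmbedding p x₀)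
    (by rw [← map_pow, hx₀, map_natCast])
  set σ₀ := toGlobal p τ
  have hσe : ∀ x, padicEmbedding p (σ₀ x) = τ (padicEmbedding p x) :=
    padicEmbedding_localGaloisToGlobal p τ
  have hμ : ∀ μ : Qbar, μ ^ p = 1 → σ₀ μ = μ := fun μ hμ => by
    apply (padicEmbedding p).injective
    show padicEmbedding p (σ₀ μ) = padicEmbedding p μ
    rw [hσe]
    obtain ⟨i, -, hi⟩ := hζ.eq_pow_of_pow_eq_one
      (show (padicEmbedding p μ) ^ p = 1 by rw [← map_pow, hμ, map_one])
    rw [← hi, map_pow, hτζ]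
  obtain ⟨g, hg⟩ := exists_smul_eq_of_liesOverPrime hp
    (TWPrimes.padicPlace_liesOverPrime p) hP
  refine ⟨g * σ₀ * g⁻¹, ?_, fun μ hμ' => ?_, ⟨g x₀, ?_, ?_⟩, ?_⟩
  · rw [MulAction.mem_stabilizer_iff, ← hg, smul_smul, inv_mul_cancel_right, mul_smul]
    exact congrArg (g • ·) (MulAction.mem_stabilizer_iff.mp
      (localGaloisToGlobal_mem_decompositionSubgroup p τ))
  · rw [AlgEquiv.mul_apply, AlgEquiv.mul_apply, hμ _ (by rw [← map_pow, hμ', map_one]),
      ← AlgEquiv.mul_apply, mul_inv_cancel, AlgEquiv.one_apply]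
  · rw [← map_pow, hx₀, map_natCast]
  · rw [← AlgEquiv.mul_apply, inv_mul_cancel_right, AlgEquiv.mul_apply]
    exact fun h => hτy (by rw [← hσe, g.injective h])
  · intro M _ _ act hM hflat
    have := Fintype.ofFinite M
    obtain ⟨H, hH, hE⟩ := exists_isPadicModel hflat
    have h1 : act σ₀ = 1 := AddMonoidHom.ext fun x => hH.separates _ _ fun f hf => by
      have := hH.equivariant f hf τ x
      rw [hτM ⟨M, fun σ x => act (toGlobal p σ) x, H, hH, hM, hE⟩ f hf x] at this
      exact this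
    rw [map_mul, map_mul, h1, mul_one, ← map_mul, mul_inv_cancel, map_one]

end FLTAgent.FlatBound
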