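import Fermat.Agent.TWPrimes.Flat.NormalForm
import Mathlib.FieldTheory.Galois.Infinite
import Mathlib.GroupTheory.PGroup

/-!
# Inertia and wild elements at a finite level

For a finite Galois extension `F` of `ℚ_p`: `inertiaAt`, the fields cut out by characters
(`exists_cutField`), wild elements and tameness (`exists_isTame_of_wild`), and the generator of
tame inertia (`IsTame.exists_tameGen`).
-/

set_option autoImplicit false
set_option linter.unusedSectionVars false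

noncomputable section

open scoped IntermediateField Pointwise

namespace FLTAgent.FlatBound

open FLTAgent.LocalDuality

variable {p : ℕ} [Fact p.Prime] (F : IntermediateField ℚ_[p] (PadicAlgCl p))
  [FiniteDimensional ℚ_[p] F]

/-- The elements acting trivially on the residue field of `F`. -/
def inertiaAt : Subgroup (LocalGal p) where
  carrier := {σ | ∀ z ∈ residueSubfield F, galRed σ z = z}
  mul_mem' hσ hτ z hz := by rw [galRed_mul, hτ z hz, hσ z hz]
  one_mem' z _ := galRed_one z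
  inv_mem' {σ} hσ z hz := by
    conv_lhs => rw [← hσ z hz, ← galRed_mul, inv_mul_cancel, galRed_one]

theorem fixed_residue_stable (hst : ∀ σ : LocalGal p, ∀ x ∈ F, σ x ∈ F) (g : LocalGal p)
    {z : Resid p} (hz : z ∈ residueSubfield F) : galRed g z ∈ residueSubfield F := by
  obtain ⟨x, hx, hx1, rfl⟩ := hz
  rw [galRed_red g hx1]
  exact red_mem_residueSubfield F (hst g x hx) ((norm_galois g x).trans_le hx1)

theorem inertiaAt_normal (hst : ∀ σ : LocalGal p, ∀ x ∈ F, σ x ∈ F) :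
    (inertiaAt F).Normal where
  conj_mem σ hσ g z hz := by
    rw [galRed_mul, galRed_mul, hσ _ (fixed_residue_stable F hst g⁻¹ hz), ← galRed_mul,
      mul_inv_cancel, galRed_one]

theorem isLocalInertia_le {σ : LocalGal p} (hσ : ∀ x : PadicAlgCl p, ‖x‖ ≤ 1 → ‖σ x - x‖ < 1) :
    σ ∈ inertiaAt F := by
  intro z _
  obtain ⟨x, hx, rfl⟩ := exists_red_eq z
  rw [galRed_red σ hx, red_eq_iff ((norm_galois σ x).trans_le hx) hx]
  exact hσ x hx

variable {F} {K : IntermediateField ℚ_[p] (PadicAlgCl p)}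

theorem mem_inertiaAt_iff (hK : IsUnramifiedPart F K) {σ : LocalGal p} :
    σ ∈ inertiaAt F ↔ ∀ x ∈ K, σ x = x :=
  ⟨fun h x hx => hK.fixed σ h x hx, fun h => hK.apply_eq_of_fixed h⟩

theorem fixingSubgroup_le_inertiaAt : F.fixingSubgroup ≤ inertiaAt F := by
  intro σ hσ z hz
  obtain ⟨x, hx, hx1, rfl⟩ := hz
  rw [galRed_red σ hx1, (IntermediateField.mem_fixingSubgroup_iff F σ).mp hσ x hx]

variable (F) in
/-- A subgroup containing a level is the stabiliser of a subfield. -/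
theorem exists_fixedField (N : Subgroup (LocalGal p)) [N.Normal] (hN : F.fixingSubgroup ≤ N) :
    ∃ L : IntermediateField ℚ_[p] (PadicAlgCl p), L ≤ F ∧ FiniteDimensional ℚ_[p] L ∧
      (∀ g : LocalGal p, ∀ x ∈ L, g x ∈ L) ∧ ∀ σ, (∀ x ∈ L, σ x = x) ↔ σ ∈ N := by
  have hclosed : IsClosed (N : Set (LocalGal p)) :=
    OpenSubgroup.isClosed ⟨N, Subgroup.isOpen_mono hN (IntermediateField.fixingSubgroup_isOpen F)⟩
  have hfix : (IntermediateField.fixedField N).fixingSubgroup = N :=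
    InfiniteGalois.fixingSubgroup_fixedField ⟨N, hclosed⟩
  have hle : IntermediateField.fixedField N ≤ F := fun x hx =>
    mem_of_forall_fixed F fun σ hσ => (IntermediateField.mem_fixedField_iff _ _).mp hx σ
      (hN ((IntermediateField.mem_fixingSubgroup_iff F σ).mpr hσ))
  refine ⟨_, hle, finiteDimensional_of_le hle, fun g x hx => ?_, fun σ => ?_⟩
  · rw [IntermediateField.mem_fixedField_iff] at hx ⊢
    intro σ hσ
    have h1 := congrArg g (hx (g⁻¹ * σ * g) (by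
      simpa using (inferInstance : N.Normal).conj_mem σ hσ g⁻¹))
    rwa [← AlgEquiv.mul_apply, show g * (g⁻¹ * σ * g) = σ * g by group, AlgEquiv.mul_apply] at h1
  · rw [← IntermediateField.mem_fixingSubgroup_iff, hfix]

variable (F) in
/-- The field cut out by a homomorphism on the inertia group of `F`. -/
theorem exists_cutField (hst : ∀ σ : LocalGal p, ∀ x ∈ F, σ x ∈ F) (hK : IsUnramifiedPart F K)
    {Q : Type} [Group Q] (ψ : LocalGal p →* Q) (hψ : F.fixingSubgroup ≤ ψ.ker) :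
    ∃ L : IntermediateField ℚ_[p] (PadicAlgCl p), L ≤ F ∧ K ≤ L ∧ FiniteDimensional ℚ_[p] L ∧
      (∀ g : LocalGal p, ∀ x ∈ L, g x ∈ L) ∧ IsUnramifiedPart L K ∧
      ∀ σ, (∀ x ∈ L, σ x = x) ↔ ψ σ = 1 ∧ σ ∈ inertiaAt F := by
  have := inertiaAt_normal F hst
  obtain ⟨L, hLF, hfd, hLst, hiff⟩ := exists_fixedField F (ψ.ker ⊓ inertiaAt F)
    (le_inf hψ fixingSubgroup_le_inertiaAt)
  have := hfd
  have hKL : K ≤ L := fun x hx => mem_of_forall_fixed L fun σ hσ =>
    (mem_inertiaAt_iff hK).mp ((hiff σ).mp hσ).2 x hx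
  have hres : residueSubfield L = residueSubfield F := by
    refine le_antisymm ?_ ?_
    · rintro _ ⟨x, hx, hx1, rfl⟩
      exact red_mem_residueSubfield F (hLF hx) hx1
    · rw [← hK.residue]
      rintro _ ⟨x, hx, hx1, rfl⟩
      exact red_mem_residueSubfield L (hKL hx) hx1
  exact ⟨L, hLF, hKL, hfd, hLst,
    { le := hKL, values := hK.values, residue := by rw [hres, hK.residue],
      fixed := by rw [hres]; exact hK.fixed, roots := by rw [hres]; exact hK.roots,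
      frobenius := by rw [hres]; exact hK.frobenius }, hiff⟩

section TotRam

variable {L : IntermediateField ℚ_[p] (PadicAlgCl p)} [FiniteDimensional ℚ_[p] L]
  [FiniteDimensional ℚ_[p] K] {ϖ : PadicAlgCl p} {n : ℕ}

/-- Wild elements. -/
def IsWild (K : IntermediateField ℚ_[p] (PadicAlgCl p)) (ϖ : PadicAlgCl p) (σ : LocalGal p) :
    Prop :=
  (∀ x ∈ K, σ x = x) ∧ ‖σ ϖ - ϖ‖ < ‖ϖ‖

theorem IsTotRam.apply_eq (h : IsTotRam K L ϖ n) {σ : LocalGal p} (hσ : ∀ x ∈ K, σ x = x)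
    (hϖ : σ ϖ = ϖ) : ∀ x ∈ L, σ x = x := by
  intro x hx
  obtain ⟨c, hc, rfl⟩ := h.exists_coord hx
  rw [map_sum]
  exact Finset.sum_congr rfl fun j _ => by rw [map_mul, map_pow, hσ _ (hc j), hϖ]

theorem IsTotRam.norm_sub_le (h : IsTotRam K L ϖ n) {σ : LocalGal p} (hσ : ∀ x ∈ K, σ x = x)
    {x : PadicAlgCl p} (hx : x ∈ L) : ‖σ x - x‖ ≤ ‖σ ϖ - ϖ‖ / ‖ϖ‖ * ‖x‖ := by
  have hl := h.norm_pos
  obtain ⟨c, hc, rfl⟩ := h.exists_coord hx
  rw [map_sum, ← Finset.sum_sub_distrib]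
  refine IsUltrametricDist.norm_sum_le_of_forall_le_of_nonneg (by positivity) fun j _ => ?_
  rw [map_mul, map_pow, hσ _ (hc j), ← mul_sub, norm_mul]
  refine le_trans ?_ (mul_le_mul_of_nonneg_left (h.norm_term_le c hc j) (by positivity))
  rw [norm_mul, _root_.norm_pow, mul_left_comm]
  refine mul_le_mul_of_nonneg_left ?_ (norm_nonneg _)
  rcases Nat.eq_zero_or_pos (j : ℕ) with h0 | h0
  · rw [h0]; simp; positivity
  refine (norm_pow_sub_pow_le ((norm_galois σ ϖ).le) le_rfl _).trans_eq ?_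
  have e : ‖ϖ‖ ^ (j : ℕ) = ‖ϖ‖ ^ ((j : ℕ) - 1) * ‖ϖ‖ := by
    rw [← pow_succ, Nat.sub_add_cancel h0]
  rw [e]
  field_simp

theorem IsTotRam.norm_pow_apply (h : IsTotRam K L ϖ n)
    (hst : ∀ g : LocalGal p, ∀ x ∈ L, g x ∈ L) {σ : LocalGal p} (hσ : IsWild K ϖ σ) (m : ℕ) :
    ‖(σ ^ m) ϖ - ϖ‖ ≤ ‖σ ϖ - ϖ‖ ∧
      (σ ϖ ≠ ϖ → ‖(σ ^ m) ϖ - ϖ - m * (σ ϖ - ϖ)‖ < ‖σ ϖ - ϖ‖) := by
  have hl := h.norm_pos
  induction m with
  | zero => simp [sub_ne_zero]
  | succ m ih =>
    set d := σ ϖ - ϖ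
    set z := (σ ^ m) ϖ - ϖ with hz
    have hzL : z ∈ L := L.sub_mem (hst _ _ h.mem) h.mem
    have hσz : ‖σ z - z‖ ≤ ‖d‖ / ‖ϖ‖ * ‖z‖ := h.norm_sub_le hσ.1 hzL
    have hc : ‖d‖ / ‖ϖ‖ < 1 := (div_lt_one hl).mpr hσ.2
    have e : (σ ^ (m + 1)) ϖ - ϖ = (σ z - z) + (z + d) := by
      rw [pow_succ', AlgEquiv.mul_apply, hz, map_sub]
      ring
    rw [e]
    refine ⟨(IsUltrametricDist.norm_add_le_max _ _).trans (max_le ?_
      ((IsUltrametricDist.norm_add_le_max _ _).trans (max_le ih.1 le_rfl))), fun hd => ?_⟩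
    · exact hσz.trans ((mul_le_of_le_one_left (norm_nonneg _) hc.le).trans ih.1)
    · have hd0 : 0 < ‖d‖ := norm_pos_iff.mpr (sub_ne_zero.mpr hd)
      rw [show σ z - z + (z + d) - ((m + 1 : ℕ) : PadicAlgCl p) * d =
        (σ z - z) + (z - m * d) by push_cast; ring]
      refine (IsUltrametricDist.norm_add_le_max _ _).trans_lt (max_lt ?_ (ih.2 hd))
      exact (hσz.trans (mul_le_mul_of_nonneg_left ih.1 (by positivity))).trans_lt
        (mul_lt_of_lt_one_left hd0 hc)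

/-- A wild element with a power prime to `p` acting trivially acts trivially. -/
theorem IsTotRam.wild_eq_of_pow (h : IsTotRam K L ϖ n)
    (hst : ∀ g : LocalGal p, ∀ x ∈ L, g x ∈ L) {σ : LocalGal p} (hσ : IsWild K ϖ σ) {m : ℕ}
    (hm : ¬ p ∣ m) (hfix : (σ ^ m) ϖ = ϖ) : σ ϖ = ϖ := by
  by_contra hne
  have := (h.norm_pow_apply hst hσ m).2 hne
  rw [hfix, sub_self, zero_sub, norm_neg, norm_mul, norm_natCast_eq_one hm, one_mul] at this
  exact lt_irrefl _ this

theorem IsTotRam.isWild_pow (h : IsTotRam K L ϖ n)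
    (hst : ∀ g : LocalGal p, ∀ x ∈ L, g x ∈ L) {σ : LocalGal p} (hσ : IsWild K ϖ σ) (m : ℕ) :
    IsWild K ϖ (σ ^ m) := by
  refine ⟨fun x hx => ?_, (h.norm_pow_apply hst hσ m).1.trans_lt hσ.2⟩
  induction m with
  | zero => simp
  | succ m ih => rw [pow_succ, AlgEquiv.mul_apply, hσ.1 x hx, ih]

/-- If the ramification index is divisible by `p`, some wild element moves the uniformiser. -/
theorem IsTotRam.exists_wild (h : IsTotRam K L ϖ n) (hdvd : p ∣ n) :
    ∃ σ, IsWild K ϖ σ ∧ σ ϖ ≠ ϖ := by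
  classical
  obtain ⟨m, rfl⟩ := hdvd
  have hp := (Fact.out : p.Prime)
  have hl := h.norm_pos
  have hm : 0 < m := Nat.pos_of_ne_zero fun h0 => by have := h.pos; simp [h0] at this
  set u := ϖ ^ (p * m) / (p : PadicAlgCl p) with hu
  have hu1 : ‖u‖ = 1 := by
    rw [norm_div, _root_.norm_pow, h.norm_pow,
      div_self (norm_ne_zero_iff.mpr (natCast_p_ne_zero p))]
  have huL : u ∈ L := L.div_mem (pow_mem h.mem _) (natCast_mem L p)
  set f : PadicAlgCl p → Resid p := fun r => red (r / ϖ)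
  have hroot : ∀ r ∈ conjRoots K ϖ,
      f r ∈ (Polynomial.X ^ m - Polynomial.C (1 : Resid p)).roots.toFinset := by
    intro r hr
    obtain ⟨σ, rfl⟩ := mem_conjRoots_iff.mp hr
    have hn : ‖σ ϖ / ϖ‖ = 1 := by rw [norm_div, norm_base_galois, div_self hl.ne']
    have e : (σ ϖ / ϖ) ^ (p * m) = σ u / u := by
      rw [hu, map_div₀, map_pow, map_natCast, div_div_div_cancel_right₀ (natCast_p_ne_zero p),
        div_pow]
    obtain ⟨w, hwK, hw1, hw⟩ := h.residue (red_mem_residueSubfield L huL hu1.le)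
    have hσu : red (σ u) = red u := by
      show red (σ.restrictScalars ℚ_[p] u) = red u
      rw [← galRed_red _ hu1.le, ← hw, galRed_red _ hw1]
      exact congrArg red (σ.commutes ⟨w, hwK⟩)
    rw [Multiset.mem_toFinset, Polynomial.mem_roots (Polynomial.X_pow_sub_C_ne_zero hm 1),
      Polynomial.IsRoot.def, Polynomial.eval_sub, Polynomial.eval_pow, Polynomial.eval_X,
      Polynomial.eval_C, sub_eq_zero]
    have hq : red (σ ϖ / ϖ) ^ (p * m) = 1 := by
      rw [← red_pow hn.le, e]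
      have h2 : red (σ u / u) * red u = red u := by
        rw [← red_mul (by rw [norm_div, norm_base_galois, hu1, div_one]) hu1.le,
          div_mul_cancel₀ _ (norm_pos_iff.mp (hu1 ▸ one_pos)), hσu]
      exact (mul_eq_right₀ (fun h0 => by
        rw [red_eq_zero_iff hu1.le, hu1] at h0; exact lt_irrefl _ h0)).mp h2
    refine frobenius_inj (Resid p) p ?_
    rw [map_one, frobenius_def, ← pow_mul, mul_comm]
    exact hq
  obtain ⟨r, hr, s, hs, hne, heq⟩ := Finset.exists_ne_map_eq_of_card_lt_of_maps_to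
    (t := (Polynomial.X ^ m - Polynomial.C (1 : Resid p)).roots.toFinset) (f := f) (by
      rw [h.card_conjRoots]
      refine ((Multiset.toFinset_card_le _).trans ((Polynomial.card_roots' _).trans
        Polynomial.natDegree_X_pow_sub_C.le)).trans_lt ?_
      exact lt_mul_of_one_lt_left hm hp.one_lt) (fun r hr => hroot r hr)
  obtain ⟨σ, rfl⟩ := mem_conjRoots_iff.mp hr
  obtain ⟨τ, rfl⟩ := mem_conjRoots_iff.mp hs
  have hd : ‖τ ϖ - σ ϖ‖ < ‖ϖ‖ := by
    have h1 : ∀ ρ : PadicAlgCl p ≃ₐ[K] PadicAlgCl p, ‖ρ ϖ / ϖ‖ ≤ 1 := fun ρ => by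
      rw [norm_div, norm_base_galois, div_self hl.ne']
    have h2 := (red_eq_iff (h1 τ) (h1 σ)).mp heq.symm
    rwa [← sub_div, norm_div, div_lt_one hl] at h2
  refine ⟨(σ⁻¹ * τ).restrictScalars ℚ_[p], ⟨fun x hx => (σ⁻¹ * τ).commutes ⟨x, hx⟩, ?_⟩,
    fun h0 => ?_⟩
  · show ‖σ⁻¹ (τ ϖ) - ϖ‖ < ‖ϖ‖
    rwa [← norm_base_galois σ, map_sub, ← AlgEquiv.mul_apply σ σ⁻¹, mul_inv_cancel,
      AlgEquiv.one_apply]
  · refine hne ?_
    have h1 := congrArg σ (show σ⁻¹ (τ ϖ) = ϖ from h0)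
    rw [← AlgEquiv.mul_apply, mul_inv_cancel, AlgEquiv.one_apply] at h1
    exact h1.symm

end TotRam

/-- Wild inertia is trivial at a tame level. -/
theorem exists_isTame_of_wild {L : IntermediateField ℚ_[p] (PadicAlgCl p)}
    [FiniteDimensional ℚ_[p] L] (hst : ∀ g : LocalGal p, ∀ x ∈ L, g x ∈ L)
    (hK : IsUnramifiedPart L K)
    (hw : ∀ ϖ n, IsTotRam K L ϖ n → ∀ σ, IsWild K ϖ σ → σ ϖ = ϖ) :
    ∃ l e, IsTame L K l e := by
  have := finiteDimensional_of_le hK.le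
  obtain ⟨K', l, e, hL⟩ := exists_isTame L hst fun ϖ hϖ n hn hv hdvd => by
    have hT : IsTotRam K L ϖ n :=
      { pos := Nat.pos_of_ne_zero fun h0 => (norm_natCast_p_lt_one p).ne (by
          rw [← hn, h0, pow_zero])
        norm_pow := hn, values_base := hK.values, le := hK.le, mem := hϖ, values := hv,
        residue := hK.residue.ge }
    obtain ⟨σ, hσ, hne⟩ := hT.exists_wild hdvd
    exact hne (hw ϖ n hT σ hσ)
  have := finiteDimensional_of_le hL.unram.le
  obtain rfl : K' = K := le_antisymm (hK.mono hL.unram le_rfl) (hL.unram.mono hK le_rfl)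
  exact ⟨l, e, hL⟩

/-- A generator of tame inertia. -/
structure IsTameGen {L : IntermediateField ℚ_[p] (PadicAlgCl p)}
    (K : IntermediateField ℚ_[p] (PadicAlgCl p))
    (l : PadicAlgCl p) (e : ℕ) (τ : LocalGal p) : Prop where
  fixed : ∀ x ∈ K, τ x = x
  primitive : IsPrimitiveRoot (τ l / l) e
  decomp : ∀ σ : LocalGal p, (∀ x ∈ K, σ x = x) →
    ∃ (i : ℕ) (h : LocalGal p), (∀ x ∈ L, h x = x) ∧ σ = τ ^ i * h

theorem IsTame.exists_tameGen {L : IntermediateField ℚ_[p] (PadicAlgCl p)}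
    [FiniteDimensional ℚ_[p] L] {l : PadicAlgCl p} {e : ℕ} (hL : IsTame L K l e) :
    ∃ τ, IsTameGen (L := L) K l e τ := by
  have := finiteDimensional_of_le hL.totRam.le
  have : NeZero e := ⟨hL.totRam.pos.ne'⟩
  have hl0 := hL.totRam.ne_zero
  obtain ⟨η, hη⟩ : ∃ η : PadicAlgCl p, IsPrimitiveRoot η e :=
    (inferInstance : HasEnoughRootsOfUnity (PadicAlgCl p) e).prim
  classical
  have hroot : ∀ σ : LocalGal p, (∀ x ∈ K, σ x = x) → (σ l / l) ^ e = 1 := fun σ hσ => by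
    rw [div_pow, ← map_pow, hσ _ hL.pow_mem, div_self (pow_ne_zero e hl0)]
  have hmem : η * l ∈ conjRoots K l := by
    have hsub : conjRoots K l ⊆ (Finset.range e).image fun i => η ^ i * l := by
      intro r hr
      obtain ⟨σ, rfl⟩ := mem_conjRoots_iff.mp hr
      obtain ⟨i, hi, hie⟩ := hη.eq_pow_of_pow_eq_one
        (hroot (σ.restrictScalars ℚ_[p]) fun x hx => σ.commutes ⟨x, hx⟩)
      exact Finset.mem_image.mpr ⟨i, Finset.mem_range.mpr hi, by
        rw [hie]; exact div_mul_cancel₀ _ hl0⟩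
    rw [Finset.eq_of_subset_of_card_le hsub (Finset.card_image_le.trans_eq (by
      rw [Finset.card_range, hL.totRam.card_conjRoots]))]
    rcases eq_or_ne e 1 with rfl | he
    · exact Finset.mem_image.mpr ⟨0, by simp, by simp [IsPrimitiveRoot.one_right_iff.mp hη]⟩
    · exact Finset.mem_image.mpr ⟨1, Finset.mem_range.mpr (by
        have := hL.totRam.pos; omega), by rw [pow_one]⟩
  obtain ⟨τ, hτ⟩ := mem_conjRoots_iff.mp hmem
  have hτK : ∀ x ∈ K, τ.restrictScalars ℚ_[p] x = x := fun x hx => τ.commutes ⟨x, hx⟩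
  have hτl : τ.restrictScalars ℚ_[p] l = η * l := hτ
  refine ⟨τ.restrictScalars ℚ_[p], hτK, by rw [hτl, mul_div_cancel_right₀ _ hl0]; exact hη,
    fun σ hσ => ?_⟩
  obtain ⟨i, -, hie⟩ := hη.eq_pow_of_pow_eq_one (hroot σ hσ)
  set t := τ.restrictScalars ℚ_[p]
  have htK : ∀ (j : ℕ), ∀ x ∈ K, (t ^ j) x = x := fun j x hx => by
    induction j with
    | zero => simp
    | succ j ih => rw [pow_succ, AlgEquiv.mul_apply, hτK x hx, ih]
  have htl : ∀ j : ℕ, (t ^ j) l = η ^ j * l := fun j => by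
    induction j with
    | zero => simp
    | succ j ih =>
      rw [pow_succ, AlgEquiv.mul_apply, hτl, map_mul, ih, htK j η (hL.roots η hη.pow_eq_one)]
      ring
  refine ⟨i, (t ^ i)⁻¹ * σ, hL.apply_eq (fun x hx => ?_) ?_, by rw [mul_inv_cancel_left]⟩
  · rw [AlgEquiv.mul_apply, hσ x hx]
    conv_lhs => rw [← htK i x hx, ← AlgEquiv.mul_apply, inv_mul_cancel, AlgEquiv.one_apply]
  · rw [AlgEquiv.mul_apply, show σ l = (t ^ i) l by
      rw [htl, hie, div_mul_cancel₀ _ hl0], ← AlgEquiv.mul_apply, inv_mul_cancel,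
        AlgEquiv.one_apply]

end FLTAgent.FlatBound
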