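import Fermat.Agent.TWPrimes.Flat.Setting

/-!
# Cocycles at a tame level

Cocycles vanishing on the stabiliser of a tame field are coboundaries on inertia
(`exists_cob_on_inertia`); the counting bound in `k`-linear form; dimensions of classes along a
filtration (`classDim_le_add`). Used by `Flat.Triangular`.
-/

set_option autoImplicit false

open Module

noncomputable section

namespace FLTAgent.FlatBound

open FLTAgent.LocalDuality

variable {p : ℕ} [Fact p.Prime] {N : Type} [AddCommGroup N] [Module (ZMod p) N]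

/-- A linear action of the local Galois group. -/
structure IsAction (A : LocalGal p → N →ₗ[ZMod p] N) : Prop where
  one : ∀ x, A 1 x = x
  mul : ∀ g h x, A (g * h) x = A g (A h x)

/-- A cocycle for `A`. -/
def IsCocycleFor (A : LocalGal p → N →ₗ[ZMod p] N) (c : LocalGal p → N) : Prop :=
  ∀ g h, c (g * h) = c g + A g (c h)

variable {A : LocalGal p → N →ₗ[ZMod p] N} {c : LocalGal p → N}
  {L F K : IntermediateField ℚ_[p] (PadicAlgCl p)} {l : PadicAlgCl p} {e : ℕ}

theorem IsAction.surjective (hA : IsAction A) (g : LocalGal p) : Function.Surjective (A g) :=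
  fun x => ⟨A g⁻¹ x, by rw [← hA.mul, mul_inv_cancel, hA.one]⟩

theorem IsAction.apply_inv (hA : IsAction A) (g : LocalGal p) :
    A g⁻¹ ∘ₗ A g = LinearMap.id :=
  LinearMap.ext fun x => by rw [LinearMap.comp_apply, ← hA.mul, inv_mul_cancel, hA.one]; rfl

theorem IsCocycleFor.one (hA : IsAction A) (hc : IsCocycleFor A c) : c 1 = 0 := by
  have := hc 1 1
  rw [mul_one, hA.one] at this
  exact left_eq_add.mp this

theorem IsCocycleFor.isTwisted (hA : IsAction A) (hc : IsCocycleFor A c)
    (hAL : ∀ σ : LocalGal p, (∀ x ∈ L, σ x = x) → ∀ x, A σ x = x)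
    (hkill : ∀ σ : LocalGal p, (∀ x ∈ F, σ x = x) → c σ = 0) : IsTwisted L F A c where
  add σ τ hσ _ := by rw [hc, hAL σ hσ]
  equiv g σ hσ := by
    have h1 := hc g g⁻¹
    rw [mul_inv_cancel, hc.one hA] at h1
    rw [hc, hc, hA.mul, hAL σ hσ, add_right_comm, ← h1, zero_add]
  kill := hkill

variable [FiniteDimensional ℚ_[p] L]

theorem IsTameGen.pow_fix {τ : LocalGal p} (hL : IsTame L K l e) (hτ : IsTameGen (L := L) K l e τ) :
    ∀ x ∈ L, (τ ^ e) x = x := by
  have := finiteDimensional_of_le hL.totRam.le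
  have hl0 := hL.totRam.ne_zero
  have hK : ∀ (j : ℕ), ∀ x ∈ K, (τ ^ j) x = x := fun j x hx => by
    induction j with
    | zero => simp
    | succ j ih => rw [pow_succ, AlgEquiv.mul_apply, hτ.fixed x hx, ih]
  set η := τ l / l
  have hl : ∀ j : ℕ, (τ ^ j) l = η ^ j * l := fun j => by
    induction j with
    | zero => simp
    | succ j ih =>
      rw [pow_succ, AlgEquiv.mul_apply, show τ l = η * l from (div_mul_cancel₀ _ hl0).symm,
        map_mul, ih, hK j η (hL.roots η hτ.primitive.pow_eq_one)]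
      ring
  exact hL.apply_eq (hK e) (by rw [hl, hτ.primitive.pow_eq_one, one_mul])

/-- A cocycle vanishing on the stabiliser of `L` is a coboundary on inertia. -/
theorem exists_cob_on_inertia (hA : IsAction A) (hc : IsCocycleFor A c) (hL : IsTame L K l e)
    {τ : LocalGal p} (hτ : IsTameGen (L := L) K l e τ)
    (hAL : ∀ σ : LocalGal p, (∀ x ∈ L, σ x = x) → ∀ x, A σ x = x)
    (hv : ∀ σ : LocalGal p, (∀ x ∈ L, σ x = x) → c σ = 0) :
    ∃ m : N, ∀ σ : LocalGal p, (∀ x ∈ K, σ x = x) → c σ = A σ m - m := by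
  have he : (e : ZMod p) ≠ 0 := fun h0 => hL.not_dvd ((CharP.cast_eq_zero_iff (ZMod p) p _).mp h0)
  have hce : c (τ ^ e) = 0 := hv _ (IsTameGen.pow_fix hL hτ)
  set s := ∑ i ∈ Finset.range e, c (τ ^ i)
  refine ⟨-((e : ZMod p)⁻¹ • s), ?_⟩
  have hsum : A τ s = s - (e : ZMod p) • c τ := by
    have h1 : ∀ i, A τ (c (τ ^ i)) = c (τ ^ (i + 1)) - c τ := fun i => by
      rw [pow_succ', hc]; abel
    simp only [s, map_sum, h1, Finset.sum_sub_distrib, Finset.sum_const, Finset.card_range,
      ← Nat.cast_smul_eq_nsmul (ZMod p)]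
    congr 1
    have h2 := Finset.sum_range_succ' (fun i => c (τ ^ i)) e
    rw [Finset.sum_range_succ, hce, add_zero, pow_zero, hc.one hA, add_zero] at h2
    exact h2.symm
  have hτm : c τ = A τ (-((e : ZMod p)⁻¹ • s)) - -((e : ZMod p)⁻¹ • s) := by
    rw [map_neg, map_smul, hsum, smul_sub, smul_smul, inv_mul_cancel₀ he, one_smul]
    abel
  intro σ hσ
  obtain ⟨i, h, hh, rfl⟩ := hτ.decomp σ hσ
  set m := -((e : ZMod p)⁻¹ • s)
  have hpow : ∀ j : ℕ, c (τ ^ j) = A (τ ^ j) m - m := fun j => by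
    induction j with
    | zero => rw [pow_zero, hc.one hA, hA.one, sub_self]
    | succ j ih => rw [pow_succ, hc, ih, hτm, map_sub, ← hA.mul]; abel
  rw [hc, hv h hh, map_zero, add_zero, hA.mul, hAL h hh, hpow]

/-- A cocycle vanishing on inertia vanishes if tame inertia has no fixed vectors. -/
theorem eq_zero_of_free (hA : IsAction A) (hc : IsCocycleFor A c)
    (hnorm : ∀ g σ : LocalGal p, (∀ x ∈ K, σ x = x) → ∀ x ∈ K, (g * σ * g⁻¹) x = x)
    (hv : ∀ σ : LocalGal p, (∀ x ∈ K, σ x = x) → c σ = 0) {τ : LocalGal p}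
    (hτ : ∀ x ∈ K, τ x = x) (hfree : ∀ x, A τ x = x → x = 0) (g : LocalGal p) : c g = 0 := by
  have h1 := hv _ (hnorm g τ hτ)
  rw [hc, hc, hA.mul, hv τ hτ, map_zero, add_zero] at h1
  have h2 := hc g g⁻¹
  rw [mul_inv_cancel, hc.one hA] at h2
  have h3 : A g (A τ (c g⁻¹)) = A g (c g⁻¹) := add_left_cancel (h1.trans h2)
  have h4 := congrArg (A g⁻¹) h3
  rw [← hA.mul, ← hA.mul, ← hA.mul, inv_mul_cancel, one_mul, hA.one] at h4
  rw [hfree _ h4, map_zero, add_zero] at h2
  exact h2.symm

/-- Functions vanishing on the stabiliser of `L`, over `k`. -/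
def vanishK (k : Type) [Field k] (L : IntermediateField ℚ_[p] (PadicAlgCl p)) (N : Type)
    [AddCommGroup N] [Module k N] : Submodule k (LocalGal p → N) :=
  ⨅ (σ : LocalGal p) (_ : ∀ x ∈ L, σ x = x), LinearMap.ker (LinearMap.proj σ)

theorem mem_vanishK {k : Type} [Field k] {L : IntermediateField ℚ_[p] (PadicAlgCl p)} {N : Type}
    [AddCommGroup N] [Module k N] {c : LocalGal p → N} :
    c ∈ vanishK k L N ↔ ∀ σ : LocalGal p, (∀ x ∈ L, σ x = x) → c σ = 0 := by
  simp [vanishK]

variable {k : Type} [Field k] [Finite k] [Algebra (ZMod p) k] [Module k N]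
  [IsScalarTower (ZMod p) k N] [Module.Finite (ZMod p) N] [FiniteDimensional ℚ_[p] F]

omit [IsScalarTower (ZMod p) k N] in
/-- The counting bound for `k`-spaces. -/
theorem KummerSetting.finrank_le_vanish {ζ : PadicAlgCl p} (S : KummerSetting L F K l e ζ)
    {e' : ℕ} (hnorm : ‖ζ - 1‖ = ‖l‖ ^ e') (hmul : (p - 1) * e' = e) (hA : IsAction A)
    {τ : LocalGal p} (hτ : IsTameGen (L := L) K l e τ) (U : Submodule k (LocalGal p → N))
    [Module.Finite k U] (hU : ∀ c ∈ U, IsTwisted L F A c) {d : ℕ}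
    (hd : finrank (Resid p) (eigS (κ := Resid p) (red (τ l / l)) e e' (A τ⁻¹)) ≤
      d * finrank (ZMod p) k) :
    finrank k U ≤ finrank k (U ⊓ vanishK k L N : Submodule k (LocalGal p → N)) + d := by
  have : Module.Finite (ZMod p) k := Module.Finite.of_finite
  have : Module.Finite (ZMod p) U := Module.Finite.trans k U
  have : Module.Finite (ZMod p) (U.restrictScalars (ZMod p)) :=
    (inferInstance : Module.Finite (ZMod p) U)
  have h := S.finrank_le_add hnorm hmul hA.surjective hτ (U.restrictScalars (ZMod p))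
    fun c hc => hU c hc
  have hres : ∀ V : Submodule k (LocalGal p → N),
      finrank (ZMod p) (V.restrictScalars (ZMod p)) =
        finrank (ZMod p) k * finrank k V := fun V => by
    rw [Module.finrank_mul_finrank (ZMod p) k V]; rfl
  have e2 : (U.restrictScalars (ZMod p) ⊓ vanishOn L N : Submodule (ZMod p) (LocalGal p → N)) =
      (U ⊓ vanishK k L N).restrictScalars (ZMod p) := by
    ext c
    simp [mem_vanishOn, mem_vanishK]
  rw [e2, hres, hres] at h
  have hf : 0 < finrank (ZMod p) k := finrank_pos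
  refine le_of_mul_le_mul_left ?_ hf
  rw [mul_add]
  exact h.trans (Nat.add_le_add_left (hd.trans_eq (mul_comm _ _)) _)

omit [IsScalarTower (ZMod p) k N] in
/-- With no eigenspace in range, everything vanishes on the stabiliser of `L`. -/
theorem KummerSetting.le_vanish {ζ : PadicAlgCl p} (S : KummerSetting L F K l e ζ)
    {e' : ℕ} (hnorm : ‖ζ - 1‖ = ‖l‖ ^ e') (hmul : (p - 1) * e' = e) (hA : IsAction A)
    {τ : LocalGal p} (hτ : IsTameGen (L := L) K l e τ) (U : Submodule k (LocalGal p → N))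
    [Module.Finite k U] (hU : ∀ c ∈ U, IsTwisted L F A c)
    (h0 : eigS (κ := Resid p) (red (τ l / l)) e e' (A τ⁻¹) = ⊥) : U ≤ vanishK k L N := by
  have h := S.finrank_le_vanish hnorm hmul hA hτ U hU (d := 0) (by rw [h0, finrank_bot, zero_mul])
  rw [add_zero] at h
  exact inf_eq_left.mp (Submodule.eq_of_le_of_finrank_le inf_le_left h)

end FLTAgent.FlatBound

namespace FLTAgent.TWPrimes

variable {k : Type} [Field k] {Γ : Type} [Group Γ] (r : Γ →* Matrix.GeneralLinearGroup (Fin 2) k)

theorem classDim_le_add {W W' : Submodule k (Γ → Matrix (Fin 2) (Fin 2) k)} [Module.Finite k W]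
    (hW' : W' ≤ W) {d : ℕ} (hd : finrank k W ≤ finrank k W' + d) :
    classDim r W ≤ classDim r W' + d := by
  have : Module.Finite k W' := Submodule.finiteDimensional_of_le hW'
  set q := (adCob r).mkQ
  have h1 := (q.domRestrict W).finrank_range_add_finrank_ker
  have h2 := (q.domRestrict W').finrank_range_add_finrank_ker
  rw [LinearMap.range_domRestrict] at h1 h2
  have h3 : finrank k (LinearMap.ker (q.domRestrict W')) ≤
      finrank k (LinearMap.ker (q.domRestrict W)) :=
    LinearMap.finrank_le_finrank_of_injective (f :=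
      ({ toFun := fun c => ⟨⟨c.1.1, hW' c.1.2⟩, c.2⟩
         map_add' := fun _ _ => rfl
         map_smul' := fun _ _ => rfl } :
        LinearMap.ker (q.domRestrict W') →ₗ[k] LinearMap.ker (q.domRestrict W)))
      fun a b hab => Subtype.ext (Subtype.ext (congrArg (fun x => x.1.1) hab :))
  show finrank k (W.map q) ≤ finrank k (W'.map q) + d
  omega

theorem classDim_mono_sup {W W' : Submodule k (Γ → Matrix (Fin 2) (Fin 2) k)} [Module.Finite k W']
    (h : W ≤ W' ⊔ adCob r) : classDim r W ≤ classDim r W' := by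
  refine Submodule.finrank_mono ((Submodule.map_mono h).trans ?_)
  rw [Submodule.map_sup]
  simp

theorem classDim_eq_zero {W : Submodule k (Γ → Matrix (Fin 2) (Fin 2) k)} (h : W ≤ adCob r) :
    classDim r W = 0 := by
  unfold classDim
  rw [show W.map (adCob r).mkQ = ⊥ by
    rw [eq_bot_iff]
    exact (Submodule.map_mono h).trans (by simp)]
  exact finrank_bot k _

end FLTAgent.TWPrimes
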