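import Fermat.Agent.TWPrimes.Flat.Inertia

/-!
# The connected part of a flat model

Inertia moves points by elements of the connected part (`sub_mem_connectedPart`); it has no points
fixed by inertia (`eq_zero_of_fixed`) and is killed by functionals fixed by inertia
(`functional_eq_zero`). Used by `Flat.Setting`.
-/

set_option autoImplicit false
set_option linter.unusedSectionVars false

noncomputable section

open AddMonoidAlgebra (single)

namespace FLTAgent.FlatBound

open FLTAgent.LocalDuality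

variable {p : ℕ} [Fact p.Prime]

/-- A flat model restricts to a stable subgroup. -/
theorem isFlatModel_map_pullback {M N : Type} [AddCommGroup M] [AddCommGroup N]
    {act : (AlgebraicClosure ℚ ≃ₐ[ℚ] AlgebraicClosure ℚ) →* AddMonoid.End M}
    {actN : (AlgebraicClosure ℚ ≃ₐ[ℚ] AlgebraicClosure ℚ) →* AddMonoid.End N}
    {H : Subalgebra (GaloisRep.ratLocalizedAt p) (M → AlgebraicClosure ℚ)}
    (h : FiniteFlat.IsFlatModel p act H) (ι : N →+ M) (hι : Function.Injective ι)
    (heq : ∀ σ x, ι (actN σ x) = act σ (ι x)) :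
    FiniteFlat.IsFlatModel p actN (H.map (FiniteFlat.pullback p ι)) where
  equivariant := by
    rintro _ ⟨f, hf, rfl⟩ σ x
    show f (ι (actN σ x)) = σ (f (ι x))
    rw [heq, h.equivariant f hf]
  integral := by
    rintro _ ⟨f, hf, rfl⟩ x
    exact h.integral f hf (ι x)
  separates x y hxy := hι (h.separates _ _ fun f hf => hxy _ ⟨f, hf, rfl⟩)
  add_mem := by
    rintro _ ⟨f, hf, rfl⟩
    let g2 : N × N → M × M := fun q => (ι q.1, ι q.2)
    have h1 : FiniteFlat.pullback p (fun q : N × N => q.1 + q.2) (FiniteFlat.pullback p ι f) =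
        FiniteFlat.pullback p g2 (FiniteFlat.pullback p (fun q : M × M => q.1 + q.2) f) :=
      funext fun q => by simp [g2]
    show FiniteFlat.pullback p (fun q : N × N => q.1 + q.2) (FiniteFlat.pullback p ι f) ∈ _
    rw [h1]
    suffices H.map (FiniteFlat.pullback p (Prod.fst : M × M → M)) ⊔
        H.map (FiniteFlat.pullback p (Prod.snd : M × M → M)) ≤
        ((H.map (FiniteFlat.pullback p ι)).map (FiniteFlat.pullback p (Prod.fst : N × N → N)) ⊔
          (H.map (FiniteFlat.pullback p ι)).map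
            (FiniteFlat.pullback p (Prod.snd : N × N → N))).comap (FiniteFlat.pullback p g2) from
      this (h.add_mem f hf)
    refine sup_le (Subalgebra.map_le.mpr fun v hv => ?_) (Subalgebra.map_le.mpr fun v hv => ?_)
    · exact (le_sup_left : _ ≤ (H.map (FiniteFlat.pullback p ι)).map
        (FiniteFlat.pullback p (Prod.fst : N × N → N)) ⊔ _)
        ⟨FiniteFlat.pullback p ι v, ⟨v, hv, rfl⟩, rfl⟩
    · exact (le_sup_right : _ ≤ _ ⊔ (H.map (FiniteFlat.pullback p ι)).map
        (FiniteFlat.pullback p (Prod.snd : N × N → N)))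
        ⟨FiniteFlat.pullback p ι v, ⟨v, hv, rfl⟩, rfl⟩

theorem mem_padicFun_pullback {M N : Type}
    {H : Subalgebra (GaloisRep.ratLocalizedAt p) (M → AlgebraicClosure ℚ)} (ι : N → M)
    {f : N → PadicAlgCl p} (hf : f ∈ padicFun p (H.map (FiniteFlat.pullback p ι))) :
    ∃ g ∈ padicFun p H, f = g ∘ ι := by
  obtain ⟨_, ⟨g, hg, rfl⟩, rfl⟩ := hf
  exact ⟨_, ⟨g, hg, rfl⟩, rfl⟩

variable {V : Type} [AddCommGroup V] [Fintype V] {act : LocalGal p → V → V}
  {H : Subring (V → PadicAlgCl p)}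
  {F K : IntermediateField ℚ_[p] (PadicAlgCl p)} [FiniteDimensional ℚ_[p] F]

namespace IsPadicModel

/-- Inertia moves points by elements of the connected part. -/
theorem sub_mem_connectedPart (h : IsPadicModel p act H) (hF : ∀ f ∈ H, ∀ x, f x ∈ F)
    {σ : LocalGal p} (hσ : σ ∈ inertiaAt F) (x : V) : act σ x - x ∈ h.connectedPart := by
  intro f hf
  obtain ⟨n, g, k, hg, hk, hgk⟩ := h.coalg.comul f hf
  have e : f (act σ x - x) - f 0 = ∑ i, (σ (g i x) - g i x) * k i (-x) := by
    have e1 : f 0 = ∑ i, g i x * k i (-x) := by rw [← hgk, add_neg_cancel]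
    rw [sub_eq_add_neg (act σ x), hgk, e1, ← Finset.sum_sub_distrib]
    exact Finset.sum_congr rfl fun i _ => by rw [h.equivariant _ (hg i)]; ring
  rw [e]
  rcases isEmpty_or_nonempty (Fin n) with hn | hn
  · simp
  obtain ⟨i, -, hi⟩ := IsUltrametricDist.exists_norm_finsetSum_le_of_nonempty
    (Finset.univ_nonempty (α := Fin n)) (fun i => (σ (g i x) - g i x) * k i (-x))
  refine hi.trans_lt ?_
  rw [norm_mul]
  refine lt_of_le_of_lt (mul_le_of_le_one_right (norm_nonneg _) (h.coalg.norm_le _ (hk i) _)) ?_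
  have h1 : ‖g i x‖ ≤ 1 := h.coalg.norm_le _ (hg i) x
  have h2 := hσ _ (red_mem_residueSubfield F (hF _ (hg i) x) h1)
  rwa [galRed_red σ h1, red_eq_iff ((norm_galois σ _).trans_le h1) h1] at h2

/-- The connected part has no points fixed by inertia. -/
theorem eq_zero_of_fixed (h : IsPadicModel p act H) (hV : ∀ x : V, p • x = 0) (hp2 : p ≠ 2)
    (hK : IsUnramifiedPart F K) (h0 : ∀ σ, act σ 0 = 0) {x : V} (hx : x ∈ h.connectedPart)
    (hfix : ∀ σ : LocalGal p, (∀ a ∈ K, σ a = a) → act σ x = x) : x = 0 := by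
  have hp := (Fact.out : p.Prime)
  refine h.eq_of_close hV (c := ‖(p : PadicAlgCl p)‖) (norm_nonneg _) ?_ fun f hf => ?_
  · refine pow_lt_self_of_lt_one₀ ?_ (norm_natCast_p_lt_one p) (by have := hp.two_le; omega)
    exact norm_pos_iff.mpr (natCast_p_ne_zero p)
  have hmem : f x - f 0 ∈ K := mem_of_forall_fixed K fun σ hσ => by
    rw [map_sub, ← h.equivariant f hf, ← h.equivariant f hf, hfix σ hσ, h0]
  rcases eq_or_ne (f x - f 0) 0 with hz | hz
  · rw [hz, norm_zero]; exact norm_nonneg _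
  obtain ⟨n, hn⟩ := hK.values _ hmem hz
  have hlt := hx f hf
  have hpos : 0 < ‖(p : PadicAlgCl p)‖ := norm_pos_iff.mpr (natCast_p_ne_zero p)
  rw [hn] at hlt ⊢
  have : 1 ≤ n := by
    by_contra hle
    push Not at hle
    exact absurd hlt (not_lt.mpr (one_le_zpow_of_nonpos₀ hpos (norm_natCast_p_lt_one p).le
      (by omega)))
  calc ‖(p : PadicAlgCl p)‖ ^ n ≤ ‖(p : PadicAlgCl p)‖ ^ (1 : ℤ) :=
        zpow_le_zpow_right_of_le_one₀ hpos (norm_natCast_p_lt_one p).le this
    _ = _ := zpow_one _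

/-- The Galois action is surjective. -/
theorem act_surjective (h : IsPadicModel p act H) (σ : LocalGal p) :
    Function.Surjective (act σ) :=
  Finite.injective_iff_surjective.mp fun x y hxy => h.separates x y fun f hf => σ.injective (by
    rw [← h.equivariant f hf, ← h.equivariant f hf, hxy])

/-- A functional fixed by inertia kills the connected part, over a tame base where `ζ - 1` is a
uniformiser and inertia moves `ζ`. -/
theorem functional_eq_zero (h : IsPadicModel p act H) (hb : HasIntegralBasis H)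
    {L : IntermediateField ℚ_[p] (PadicAlgCl p)} [FiniteDimensional ℚ_[p] L]
    (hst : ∀ g : LocalGal p, ∀ x ∈ L, g x ∈ L) {l : PadicAlgCl p} {e : ℕ}
    (hL : IsTame L K l e) {ζ : PadicAlgCl p} (hζ : IsPrimitiveRoot ζ p)
    (hl : ‖l‖ = ‖ζ - 1‖) (hζL : ζ ∈ L) (φ : V →+ ZMod p)
    (hφL : ∀ σ : LocalGal p, (∀ x ∈ L, σ x = x) → ∀ x, φ (act σ x) = φ x)
    {τ : LocalGal p} (hτ : ∀ x ∈ K, τ x = x) (hφτ : ∀ x, φ (act τ x) = φ x) {a : ℕ}
    (ha : τ ζ = ζ ^ a) (ha1 : (a : ZMod p) ≠ 1) {x : V} (hx : x ∈ h.connectedPart) : φ x = 0 := by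
  classical
  have hp := (Fact.out : p.Prime)
  obtain ⟨n, b, hli, hbH, hint⟩ := hb
  have hspan : ⊤ ≤ Submodule.span (PadicAlgCl p) (Set.range b) := by
    rw [← h.coalg.span_eq_top, Submodule.span_le]
    intro f hf
    obtain ⟨o, -, rfl⟩ := hint f hf
    exact Submodule.sum_mem _ fun i _ => Submodule.smul_mem _ _ (Submodule.subset_span ⟨i, rfl⟩)
  let B := Module.Basis.mk hli hspan
  have hB : ∀ (o : Fin n → PadicAlgCl p) i, B.repr (∑ j, o j • b j) i = o i := fun o i => by
    have : ∑ j, o j • b j = B.equivFun.symm o := by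
      rw [Module.Basis.equivFun_symm_apply]; simp [B, Module.Basis.mk_apply]
    rw [this, ← Module.Basis.equivFun_apply, LinearEquiv.apply_symm_apply]
  let ψ : ZMod p → V → PadicAlgCl p := fun s v => ζ ^ (s * φ v).val
  have hadd : ∀ s : ZMod p, ∀ v w, ψ s (v + w) = ψ s v * ψ s w := fun s v w => by
    simp only [ψ, map_add, mul_add, ← pow_add, ZMod.val_add]
    exact (pow_eq_pow_mod _ hζ.pow_eq_one).symm
  -- coordinates of characters are integral
  have hone : ∀ s : ZMod p, ∀ i, ‖B.repr (ψ s) i‖ ≤ 1 := by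
    intro s i
    let lam : AddMonoidAlgebra (PadicAlgCl p) V :=
      ∑ v, single v (B.repr (Pi.single v 1) i)
    have hpair : ∀ g, pair lam g = B.repr g i := fun g => by
      conv_rhs => rw [pi_eq_sum_univ' g, map_sum, Finsupp.finsetSum_apply]
      rw [pair_sum_left]
      exact Finset.sum_congr rfl fun v _ => by
        rw [pair_single, map_smul, Finsupp.smul_apply, smul_eq_mul, mul_comm]
    have hbd : Bd (H : Set (V → PadicAlgCl p)) 1 lam := fun f hf => by
      obtain ⟨o, ho, rfl⟩ := hint f hf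
      rw [hpair, hB]
      exact ho i
    have hpow : ∀ m : ℕ, pair (lam ^ m) (ψ s) = pair lam (ψ s) ^ m := by
      intro m
      induction m with
      | zero => rw [pow_zero, pow_zero, pair_one]; simp [ψ]
      | succ m ih =>
        rw [pow_succ, pair_mul (n := 1) (g := fun _ => ψ s) (h := fun _ => ψ s) _ _
          (fun v w => by rw [Fin.sum_univ_one]; exact hadd s v w), Fin.sum_univ_one, ih, pow_succ]
    obtain ⟨C, -, hC⟩ := exists_norm_pair_le h.coalg (ψ s)
    rw [← hpair]
    by_contra hgt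
    push Not at hgt
    obtain ⟨m, hm⟩ := pow_unbounded_of_one_lt C hgt
    have := hC _ 1 zero_le_one (hbd.pow_one_le h.coalg m)
    rw [hpow, norm_pow, mul_one] at this
    exact absurd this (not_le.mpr hm)
  -- Galois action on coordinates
  have hgal : ∀ (σ : LocalGal p) (c : ℕ), σ ζ = ζ ^ c → (∀ v, φ (act σ v) = φ v) →
      ∀ i, B.repr (ψ c) i = σ (B.repr (ψ 1) i) := by
    intro σ c hc hφσ
    have : ψ c = ∑ i, σ (B.repr (ψ 1) i) • b i := by
      funext v
      obtain ⟨w, rfl⟩ := h.act_surjective σ v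
      have h1 := congrArg σ (congrFun (B.sum_repr (ψ 1)) w)
      simp only [Finset.sum_apply, Pi.smul_apply, smul_eq_mul, map_sum, map_mul, B,
        Module.Basis.mk_apply] at h1 ⊢
      simp only [← h.equivariant _ (hbH _)] at h1
      rw [h1]
      simp only [ψ, hφσ, map_pow, hc, one_mul, ← pow_mul]
      rw [ZMod.val_mul, ZMod.val_natCast, Nat.mod_mul_mod, ← pow_eq_pow_mod _ hζ.pow_eq_one]
    intro i
    rw [this, hB]
  have hoL : ∀ i, B.repr (ψ 1) i ∈ L := fun i => mem_of_forall_fixed L fun σ hσ => by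
    have := hgal σ 1 (by rw [pow_one, hσ ζ hζL]) (hφL σ hσ) i
    rw [Nat.cast_one] at this
    exact this.symm
  have hsmall : ∀ i, ‖B.repr (ψ 1) i - B.repr (ψ a) i‖ ≤ ‖l‖ := by
    intro i
    rw [hgal τ a ha hφτ i]
    set o := B.repr (ψ 1) i
    have hlt : ‖o - τ o‖ < 1 := by
      have h1 := hL.unram.apply_eq_of_fixed hτ _ (red_mem_residueSubfield L (hoL i) (hone 1 i))
      rw [galRed_red τ (hone 1 i), red_eq_iff ((norm_galois τ o).trans_le (hone 1 i)) (hone 1 i),
        norm_sub_rev] at h1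
      exact h1
    rcases eq_or_ne (o - τ o) 0 with h0 | h0
    · rw [h0, norm_zero]; exact norm_nonneg _
    obtain ⟨k, hk⟩ := hL.totRam.values _ (L.sub_mem (hoL i) (hst τ _ (hoL i))) h0
    have hl0 := hL.totRam.norm_pos
    have hl1 := hL.totRam.norm_lt_one
    rw [hk] at hlt ⊢
    have : 1 ≤ k := by
      by_contra hle
      push Not at hle
      exact absurd hlt (not_lt.mpr (one_le_zpow_of_nonpos₀ hl0 hl1.le (by omega)))
    exact (zpow_le_zpow_right_of_le_one₀ hl0 hl1.le this).trans_eq (zpow_one _)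
  by_contra hne
  -- compare at `x` and at the origin
  have hlhs : ‖ψ 1 x - ψ a x‖ = ‖ζ - 1‖ := by
    have h1 : ψ a x = ψ 1 x * ζ ^ (((a : ZMod p) - 1) * φ x).val := by
      simp only [ψ]
      rw [← pow_add, one_mul, pow_eq_pow_mod ((φ x).val + _) hζ.pow_eq_one, ← ZMod.val_add]
      congr 2
      ring
    have hn1 : ‖ψ 1 x‖ = 1 := by
      rw [norm_pow, (pow_eq_one_iff_of_nonneg (norm_nonneg ζ) hp.ne_zero).mp
        (by rw [← norm_pow, hζ.pow_eq_one, norm_one]), one_pow]
    rw [h1, norm_sub_rev, ← mul_sub_one, norm_mul, hn1, one_mul]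
    have hη : IsPrimitiveRoot (ζ ^ (((a : ZMod p) - 1) * φ x).val) p := hζ.pow_of_coprime _
      (Nat.Coprime.symm (hp.coprime_iff_not_dvd.mpr fun hd => mul_ne_zero (sub_ne_zero.mpr ha1) hne
        ((ZMod.val_eq_zero _).mp (Nat.eq_zero_of_dvd_of_lt hd (ZMod.val_lt _)))))
    exact (pow_left_inj₀ (norm_nonneg _) (norm_nonneg _) (Nat.sub_ne_zero_of_lt hp.one_lt)).mp
      ((norm_zeta_sub_one hη).1.trans (norm_zeta_sub_one hζ).1.symm)
  have hrhs : ‖ψ 1 x - ψ a x‖ < ‖l‖ := by
    have h0 : ∀ s : ZMod p, ψ s 0 = 1 := fun s => by simp [ψ]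
    have hexp : ∀ (s : ZMod p) (v : V), ψ s v = ∑ i, B.repr (ψ s) i * b i v := fun s v => by
      have := congrFun (B.sum_repr (ψ s)) v
      simp only [Finset.sum_apply, Pi.smul_apply, smul_eq_mul, B, Module.Basis.mk_apply] at this
      exact this.symm
    have e : ψ 1 x - ψ a x =
        ∑ i, (B.repr (ψ 1) i - B.repr (ψ a) i) * (b i x - b i 0) := by
      have e0 : ψ 1 x - ψ a x = (ψ 1 x - ψ a x) - (ψ 1 0 - ψ a 0) := by
        rw [h0, h0, sub_self, sub_zero]
      rw [e0, hexp 1 x, hexp a x, hexp 1 0, hexp a 0, ← Finset.sum_sub_distrib,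
        ← Finset.sum_sub_distrib, ← Finset.sum_sub_distrib]
      exact Finset.sum_congr rfl fun i _ => by ring
    rw [e]
    rcases isEmpty_or_nonempty (Fin n) with hn | hn
    · simpa using hL.totRam.norm_pos
    obtain ⟨i, -, hi⟩ := IsUltrametricDist.exists_norm_finsetSum_le_of_nonempty
      (Finset.univ_nonempty (α := Fin n))
      (fun i => (B.repr (ψ 1) i - B.repr (ψ a) i) * (b i x - b i 0))
    refine hi.trans_lt ?_
    rw [norm_mul]
    exact lt_of_le_of_lt (mul_le_mul_of_nonneg_right (hsmall i) (norm_nonneg _))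
      (mul_lt_of_lt_one_right hL.totRam.norm_pos (hx _ (hbH i)))
  rw [hlhs, hl] at hrhs
  exact lt_irrefl _ hrhs

end IsPadicModel

end FLTAgent.FlatBound
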