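import Mathlib.Algebra.MonoidAlgebra.Basic
import Mathlib.Algebra.MonoidAlgebra.MapDomain
import Mathlib.Analysis.Normed.Field.Lemmas
import Mathlib.Analysis.Normed.Field.Ultra
import Mathlib.Data.Nat.Choose.Dvd
import Mathlib.Analysis.Normed.Group.Ultra
import Mathlib.Analysis.SpecificLimits.Basic
import Mathlib.LinearAlgebra.Span.Basic

/-!
# Convolution of functionals on a finite group with a lattice of functions

A set of functions of norm at most one on a finite abelian group, stable under comultiplication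
(`IsCoalg`), bounds functionals submultiplicatively; functionals with `p`-th power close to `1`
are close to a unique one with `p`-th power `1` (`exists_pow_eq_one`). Used by `Flat.Model`.
-/

set_option autoImplicit false
set_option linter.unusedSectionVars false

noncomputable section

open Filter Topology

namespace FLTAgent.FlatBound

variable {C : Type} [NormedField C] [IsUltrametricDist C]
  {V : Type} [AddCommGroup V] [Fintype V]

/-- A spanning set of integral functions stable under comultiplication. -/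
structure IsCoalg (S : Set (V → C)) : Prop where
  norm_le : ∀ f ∈ S, ∀ x, ‖f x‖ ≤ 1
  comul : ∀ f ∈ S, ∃ (n : ℕ) (g h : Fin n → V → C), (∀ i, g i ∈ S) ∧ (∀ i, h i ∈ S) ∧
    ∀ x y, f (x + y) = ∑ i, g i x * h i y
  span_eq_top : Submodule.span C S = ⊤

/-- Evaluation of a functional at a function. -/
def pair (l : AddMonoidAlgebra C V) (f : V → C) : C := ∑ v, l.coeff v * f v

@[simp] theorem pair_zero_left (f : V → C) : pair (0 : AddMonoidAlgebra C V) f = 0 := by
  simp [pair]

theorem pair_add_left (a b : AddMonoidAlgebra C V) (f : V → C) :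
    pair (a + b) f = pair a f + pair b f := by
  simp [pair, add_mul, Finset.sum_add_distrib]

theorem pair_smul_left (c : C) (a : AddMonoidAlgebra C V) (f : V → C) :
    pair (c • a) f = c * pair a f := by
  simp [pair, Finset.mul_sum, mul_assoc]

theorem pair_neg_left (a : AddMonoidAlgebra C V) (f : V → C) : pair (-a) f = -pair a f := by
  simp [pair, Finset.sum_neg_distrib]

theorem pair_sub_left (a b : AddMonoidAlgebra C V) (f : V → C) :
    pair (a - b) f = pair a f - pair b f := by
  rw [sub_eq_add_neg, pair_add_left, pair_neg_left, sub_eq_add_neg]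

theorem pair_sum_left {α : Type} (s : Finset α) (a : α → AddMonoidAlgebra C V) (f : V → C) :
    pair (∑ i ∈ s, a i) f = ∑ i ∈ s, pair (a i) f := by
  classical
  induction s using Finset.induction with
  | empty => simp
  | insert i s his ih => rw [Finset.sum_insert his, Finset.sum_insert his, pair_add_left, ih]

@[simp] theorem pair_single (v : V) (a : C) (f : V → C) :
    pair (AddMonoidAlgebra.single v a) f = a * f v := by
  classical
  simp [pair, Finsupp.single_apply, ite_mul]

theorem pair_one (f : V → C) : pair (1 : AddMonoidAlgebra C V) f = f 0 := by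
  rw [AddMonoidAlgebra.one_def, pair_single, one_mul]

theorem pair_add_right (l : AddMonoidAlgebra C V) (f g : V → C) :
    pair l (f + g) = pair l f + pair l g := by
  simp [pair, mul_add, Finset.sum_add_distrib]

theorem pair_smul_right (l : AddMonoidAlgebra C V) (c : C) (f : V → C) :
    pair l (c • f) = c * pair l f := by
  simp [pair, Finset.mul_sum, mul_left_comm]

theorem pair_sum_right {α : Type} (l : AddMonoidAlgebra C V) (s : Finset α) (f : α → V → C) :
    pair l (∑ i ∈ s, f i) = ∑ i ∈ s, pair l (f i) := by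
  simp only [pair, Finset.sum_apply, Finset.mul_sum]
  rw [Finset.sum_comm]

theorem pair_mul (a b : AddMonoidAlgebra C V) {f : V → C} {n : ℕ} {g h : Fin n → V → C}
    (hf : ∀ x y, f (x + y) = ∑ i, g i x * h i y) :
    pair (a * b) f = ∑ i, pair a (g i) * pair b (h i) := by
  induction a using AddMonoidAlgebra.induction_linear with
  | zero => simp
  | add x y hx hy =>
    simp only [add_mul, pair_add_left, hx, hy, Finset.sum_add_distrib]
  | single m r =>
    induction b using AddMonoidAlgebra.induction_linear with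
    | zero => simp
    | add x y hx hy =>
      simp only [mul_add, pair_add_left, hx, hy, Finset.sum_add_distrib]
    | single m' r' =>
      simp only [AddMonoidAlgebra.single_mul_single, pair_single, hf, Finset.mul_sum]
      exact Finset.sum_congr rfl fun i _ => by ring

/-- A functional is bounded by `c` on `S`. -/
def Bd (S : Set (V → C)) (c : ℝ) (l : AddMonoidAlgebra C V) : Prop :=
  ∀ f ∈ S, ‖pair l f‖ ≤ c

/-- The contraction factor. -/
def theta (C : Type) [NormedField C] (p : ℕ) (c : ℝ) : ℝ := max c (c ^ (p - 1) / ‖(p : C)‖)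

namespace Bd

variable {S : Set (V → C)} {a b : AddMonoidAlgebra C V} {c d : ℝ}

theorem mono (h : Bd S c a) (hcd : c ≤ d) : Bd S d a := fun f hf => (h f hf).trans hcd

theorem neg (h : Bd S c a) : Bd S c (-a) := fun f hf => by
  rw [pair_neg_left, norm_neg]; exact h f hf

theorem add (h : Bd S c a) (h' : Bd S c b) : Bd S c (a + b) := fun f hf => by
  rw [pair_add_left]
  exact (IsUltrametricDist.norm_add_le_max _ _).trans (max_le (h f hf) (h' f hf))

theorem sub (h : Bd S c a) (h' : Bd S c b) : Bd S c (a - b) := by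
  rw [sub_eq_add_neg]; exact h.add h'.neg

theorem sum {α : Type} {s : Finset α} {x : α → AddMonoidAlgebra C V} (hc : 0 ≤ c)
    (h : ∀ i ∈ s, Bd S c (x i)) : Bd S c (∑ i ∈ s, x i) := fun f hf => by
  rw [pair_sum_left]
  exact IsUltrametricDist.norm_sum_le_of_forall_le_of_nonneg hc fun i hi => h i hi f hf

theorem smul (h : Bd S c a) (t : C) : Bd S (‖t‖ * c) (t • a) := fun f hf => by
  rw [pair_smul_left, norm_mul]
  exact mul_le_mul_of_nonneg_left (h f hf) (norm_nonneg _)

theorem mul (hS : IsCoalg S) (hc : 0 ≤ c) (hd : 0 ≤ d) (h : Bd S c a) (h' : Bd S d b) :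
    Bd S (c * d) (a * b) := fun f hf => by
  obtain ⟨n, g, k, hg, hk, hfgk⟩ := hS.comul f hf
  rw [pair_mul a b hfgk]
  refine IsUltrametricDist.norm_sum_le_of_forall_le_of_nonneg (mul_nonneg hc hd) fun i _ => ?_
  rw [norm_mul]
  exact mul_le_mul (h _ (hg i)) (h' _ (hk i)) (norm_nonneg _) hc

theorem one (hS : IsCoalg S) : Bd S 1 (1 : AddMonoidAlgebra C V) := fun f hf => by
  rw [pair_one]; exact hS.norm_le f hf 0

theorem pow (hS : IsCoalg S) (hc : 0 ≤ c) (h : Bd S c a) (n : ℕ) : Bd S (c ^ n) (a ^ n) := by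
  induction n with
  | zero => rw [pow_zero, pow_zero]; exact one hS
  | succ n ih => rw [pow_succ, pow_succ]; exact ih.mul hS (pow_nonneg hc n) hc h

theorem pow_one_le (hS : IsCoalg S) (h : Bd S 1 a) (n : ℕ) : Bd S 1 (a ^ n) := by
  simpa using h.pow hS zero_le_one n

theorem pow_sub_pow (hS : IsCoalg S) (hc : 0 ≤ c) (ha : Bd S 1 a) (hb : Bd S 1 b)
    (h : Bd S c (a - b)) (n : ℕ) : Bd S c (a ^ n - b ^ n) := by
  induction n with
  | zero => intro f _; simpa [pair_sub_left] using hc
  | succ n ih =>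
    have h1 : Bd S c (a ^ n * (a - b)) := by
      simpa using (ha.pow_one_le hS n).mul hS zero_le_one hc h
    have h2 : Bd S c ((a ^ n - b ^ n) * b) := by
      simpa using ih.mul hS hc zero_le_one hb
    rw [show a ^ (n + 1) - b ^ (n + 1) = a ^ n * (a - b) + (a ^ n - b ^ n) * b by ring]
    exact h1.add h2

end Bd

variable {S : Set (V → C)}

theorem exists_norm_pair_le (hS : IsCoalg S) (f : V → C) :
    ∃ K : ℝ, 0 ≤ K ∧ ∀ (l : AddMonoidAlgebra C V) (c : ℝ), 0 ≤ c → Bd S c l →
      ‖pair l f‖ ≤ K * c := by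
  have hf : f ∈ Submodule.span C S := hS.span_eq_top ▸ Submodule.mem_top
  induction hf using Submodule.span_induction with
  | mem g hg => exact ⟨1, zero_le_one, fun l c _ h => by simpa using h g hg⟩
  | zero => exact ⟨0, le_rfl, fun l c _ _ => by simp [pair]⟩
  | add g g' _ _ hg hg' =>
    obtain ⟨K, hK, hg⟩ := hg
    obtain ⟨K', hK', hg'⟩ := hg'
    refine ⟨K + K', add_nonneg hK hK', fun l c hc h => ?_⟩
    rw [pair_add_right, add_mul]
    exact (norm_add_le _ _).trans (add_le_add (hg l c hc h) (hg' l c hc h))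
  | smul t g _ hg =>
    obtain ⟨K, hK, hg⟩ := hg
    refine ⟨‖t‖ * K, by positivity, fun l c hc h => ?_⟩
    rw [pair_smul_right, norm_mul, mul_assoc]
    exact mul_le_mul_of_nonneg_left (hg l c hc h) (norm_nonneg _)

theorem exists_norm_coeff_le (hS : IsCoalg S) :
    ∃ K : ℝ, 0 ≤ K ∧ ∀ (l : AddMonoidAlgebra C V) (c : ℝ), 0 ≤ c → Bd S c l →
      ∀ v, ‖l.coeff v‖ ≤ K * c := by
  classical
  choose K hK h using fun v => exists_norm_pair_le hS (Pi.single v (1 : C))
  refine ⟨∑ v, K v, Finset.sum_nonneg fun v _ => hK v, fun l c hc hl v => ?_⟩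
  have h1 := h v l c hc hl
  rw [show pair l (Pi.single v (1 : C)) = l.coeff v by simp [pair, Pi.single_apply]] at h1
  exact h1.trans (mul_le_mul_of_nonneg_right
    (Finset.single_le_sum (fun i _ => hK i) (Finset.mem_univ v)) hc)

theorem Bd.eq_zero_of_le (hS : IsCoalg S) {a : AddMonoidAlgebra C V} {u : ℕ → ℝ}
    (hu : Tendsto u atTop (𝓝 0)) (hu0 : ∀ n, 0 ≤ u n) (h : ∀ n, Bd S (u n) a) : a = 0 := by
  obtain ⟨K, hK, hKa⟩ := exists_norm_coeff_le hS
  refine AddMonoidAlgebra.ext (Finsupp.ext fun v => ?_)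
  have h1 : ‖a.coeff v‖ ≤ 0 := ge_of_tendsto' (by simpa using hu.const_mul K)
    fun n => hKa a _ (hu0 n) (h n) v
  simpa using norm_le_zero_iff.mp h1

variable {p : ℕ} [hp : Fact p.Prime]

theorem theta_nonneg {c : ℝ} (hc : 0 ≤ c) : 0 ≤ theta C p c := le_max_of_le_left hc

theorem theta_mono {c d : ℝ} (hc : 0 ≤ c) (hcd : c ≤ d) : theta C p c ≤ theta C p d :=
  max_le_max hcd (div_le_div_of_nonneg_right (pow_le_pow_left₀ hc hcd _) (norm_nonneg _))

theorem theta_lt_one {c : ℝ} (hp0 : (p : C) ≠ 0) (hp1 : ‖(p : C)‖ < 1)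
    (h : c ^ (p - 1) < ‖(p : C)‖) : theta C p c < 1 := by
  refine max_lt ?_ ((div_lt_one (norm_pos_iff.mpr hp0)).mpr h)
  by_contra hle
  push Not at hle
  exact absurd ((one_le_pow₀ hle).trans_lt (h.trans hp1)) (lt_irrefl _)

theorem mul_theta_le {c : ℝ} (hp0 : (p : C) ≠ 0) : c ^ (p - 1) ≤ ‖(p : C)‖ * theta C p c := by
  rw [mul_comm, ← div_le_iff₀ (norm_pos_iff.mpr hp0)]
  exact le_max_right _ _

theorem bd_binomial (hS : IsCoalg S) (hp0 : (p : C) ≠ 0) {c : ℝ} (hc : 0 ≤ c) (hc1 : c ≤ 1)
    {y : AddMonoidAlgebra C V} (h : Bd S c y) :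
    Bd S (‖(p : C)‖ * (theta C p c * c)) ((1 + y) ^ p - 1 - (p : C) • y) := by
  have h2 : 2 ≤ p := hp.out.two_le
  have hsplit : (1 + y) ^ p - 1 - (p : C) • y =
      ∑ k ∈ Finset.Ico 2 (p + 1), (p.choose k : C) • y ^ k := by
    rw [add_comm (1 : AddMonoidAlgebra C V) y, add_pow, Finset.sum_range_eq_add_Ico _ (by omega),
      Finset.sum_eq_sum_Ico_succ_bot (a := 1) (b := p + 1) (by omega)]
    simp [Nat.cast_smul_eq_nsmul, nsmul_eq_mul, mul_comm]
  rw [hsplit]
  have hθ : 0 ≤ theta C p c := theta_nonneg hc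
  refine Bd.sum (by positivity) fun k hk => ?_
  rw [Finset.mem_Ico] at hk
  refine ((h.pow hS hc k).smul _).mono ?_
  rcases Nat.lt_or_eq_of_le (Nat.lt_succ_iff.mp hk.2) with hkp | rfl
  · obtain ⟨m, hm⟩ := hp.out.dvd_choose_self (by omega) hkp
    have hnorm : ‖(p.choose k : C)‖ ≤ ‖(p : C)‖ := by
      rw [hm, Nat.cast_mul, norm_mul]
      exact mul_le_of_le_one_right (norm_nonneg _) (IsUltrametricDist.norm_natCast_le_one C m)
    refine mul_le_mul hnorm ?_ (pow_nonneg hc k) (norm_nonneg _)
    obtain ⟨j, rfl⟩ : ∃ j, k = j + 2 := ⟨k - 2, by omega⟩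
    rw [show j + 2 = (j + 1) + 1 from rfl, pow_succ]
    exact mul_le_mul_of_nonneg_right ((pow_le_of_le_one hc hc1 (by omega)).trans
      (le_max_left _ _)) hc
  · rw [Nat.choose_self, Nat.cast_one, norm_one, one_mul, ← mul_assoc,
      show c ^ k = c ^ (k - 1) * c by rw [← pow_succ, Nat.sub_add_cancel (by omega)]]
    exact mul_le_mul_of_nonneg_right (mul_theta_le hp0) hc

/-- Functionals with `p`-th power one which are close are equal. -/
theorem eq_of_pow_eq_one (hS : IsCoalg S) (hp0 : (p : C) ≠ 0) {c : ℝ} (hc : 0 ≤ c)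
    (hθ : theta C p c < 1) {a b : AddMonoidAlgebra C V} (hb : Bd S 1 b)
    (hap : a ^ p = 1) (hbp : b ^ p = 1) (h : Bd S c (a - b)) : a = b := by
  have hp1 : 1 ≤ p := hp.out.one_lt.le
  set θ := theta C p c with hθdef
  have hθ0 : 0 ≤ θ := theta_nonneg hc
  set y := (a - b) * b ^ (p - 1) with hy
  have hb1 : b * b ^ (p - 1) = 1 := by rw [← pow_succ', Nat.sub_add_cancel hp1, hbp]
  have hy1 : 1 + y = a * b ^ (p - 1) := by rw [hy, sub_mul, hb1]; abel
  have hyp : (1 + y) ^ p = 1 := by
    rw [hy1, mul_pow, hap, one_mul, ← pow_mul, mul_comm, pow_mul, hbp, one_pow]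
  have key : ∀ n, Bd S (θ ^ n * c) y := by
    intro n
    induction n with
    | zero => simpa [hy] using h.mul hS hc zero_le_one (hb.pow_one_le hS _)
    | succ n ih =>
      have hle : θ ^ n * c ≤ c := mul_le_of_le_one_left hc (pow_le_one₀ hθ0 hθ.le)
      have hpos : 0 ≤ θ ^ n * c := by positivity
      have h1 := bd_binomial hS hp0 hpos ((hle.trans (le_max_left _ _)).trans hθ.le) ih
      rw [hyp, sub_self, zero_sub] at h1
      intro f hf
      have h2 := h1 f hf
      rw [pair_neg_left, norm_neg, pair_smul_left, norm_mul,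
        mul_le_mul_iff_right₀ (norm_pos_iff.mpr hp0)] at h2
      refine h2.trans ?_
      rw [pow_succ' θ n, mul_assoc θ]
      exact mul_le_mul_of_nonneg_right (theta_mono hpos hle) hpos
  have hy0 : y = 0 := Bd.eq_zero_of_le hS
    (by simpa using (tendsto_pow_atTop_nhds_zero_of_lt_one hθ0 hθ).mul_const c)
    (fun n => by positivity) key
  have := congrArg (· * b) (hy.symm.trans hy0)
  simp only [zero_mul, mul_assoc] at this
  rw [mul_comm (b ^ (p - 1)), hb1, mul_one, sub_eq_zero] at this
  exact this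

theorem coeff_mem_of_range {F : Subfield C} {l : AddMonoidAlgebra C V}
    (h : l ∈ (AddMonoidAlgebra.mapRingHom V F.subtype).range) (v : V) : l.coeff v ∈ F := by
  obtain ⟨x, rfl⟩ := h
  simp

theorem mem_range_of_coeff {F : Subfield C} {l : AddMonoidAlgebra C V}
    (h : ∀ v, l.coeff v ∈ F) : l ∈ (AddMonoidAlgebra.mapRingHom V F.subtype).range := by
  classical
  have : l = ∑ v, AddMonoidAlgebra.single v (l.coeff v) :=
    AddMonoidAlgebra.ext (Finsupp.ext fun w => by
      simp)
  rw [this]
  refine Subring.sum_mem _ fun v _ => ⟨AddMonoidAlgebra.single v ⟨_, h v⟩, ?_⟩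
  ext w
  simp

/-- A functional with `p`-th power close to one is close to one with `p`-th power equal to one. -/
theorem exists_pow_eq_one (hS : IsCoalg S) (hp0 : (p : C) ≠ 0) (hp1 : ‖(p : C)‖ ≤ 1)
    (F : Subfield C) [CompleteSpace F] {ε : ℝ} (hε : 0 ≤ ε) (hθ : theta C p ε < 1)
    {l₀ : AddMonoidAlgebra C V} (hl₀ : Bd S 1 l₀) (hF : ∀ v, l₀.coeff v ∈ F)
    (h : Bd S (‖(p : C)‖ * ε) (l₀ ^ p - 1)) :
    ∃ L : AddMonoidAlgebra C V, Bd S 1 L ∧ Bd S ε (L - l₀) ∧ L ^ p = 1 := by
  classical
  set θ := theta C p ε with hθdef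
  have hθ0 : 0 ≤ θ := theta_nonneg hε
  set R := (AddMonoidAlgebra.mapRingHom V F.subtype).range
  set e : AddMonoidAlgebra C V → AddMonoidAlgebra C V := fun l => (p : C)⁻¹ • (l ^ p - 1)
  let step : AddMonoidAlgebra C V → AddMonoidAlgebra C V := fun l => l * (1 - e l)
  let u : ℕ → AddMonoidAlgebra C V := fun n => step^[n] l₀
  have hεθ : ε ≤ θ := le_max_left _ _
  have hc : ∀ n : ℕ, θ ^ n * ε ≤ ε := fun n => mul_le_of_le_one_left hε (pow_le_one₀ hθ0 hθ.le)
  have inv : ∀ n, Bd S 1 (u n) ∧ u n ∈ R ∧ Bd S (‖(p : C)‖ * (θ ^ n * ε)) (u n ^ p - 1) := by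
    intro n
    induction n with
    | zero => exact ⟨hl₀, mem_range_of_coeff hF, by simpa [u] using h⟩
    | succ n ih =>
      obtain ⟨h1, hR, hp'⟩ := ih
      have hu : u (n + 1) = u n * (1 - e (u n)) := Function.iterate_succ_apply' step n l₀
      have hc0 : 0 ≤ θ ^ n * ε := by positivity
      have he : Bd S (θ ^ n * ε) (e (u n)) := by
        have := hp'.smul (p : C)⁻¹
        rwa [norm_inv, inv_mul_cancel_left₀ (norm_ne_zero_iff.mpr hp0)] at this
      have hne : Bd S (θ ^ n * ε) (-e (u n)) := he.neg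
      have hR' : u (n + 1) ∈ R := by
        rw [hu]
        refine mul_mem hR (sub_mem (one_mem _) (mem_range_of_coeff fun v => ?_))
        have := coeff_mem_of_range (sub_mem (pow_mem hR p) (one_mem R)) v
        simpa [e] using mul_mem (inv_mem (natCast_mem F p)) this
      refine ⟨?_, hR', ?_⟩
      · rw [hu]
        simpa using h1.mul hS zero_le_one zero_le_one
          ((Bd.one hS).sub (he.mono ((hc n).trans (hεθ.trans hθ.le))))
      · have hb := bd_binomial hS hp0 hc0 ((hc n).trans (hεθ.trans hθ.le)) hne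
        rw [← sub_eq_add_neg] at hb
        have hpe : (p : C) • e (u n) = u n ^ p - 1 := by simp [e, smul_smul, hp0]
        rw [smul_neg, hpe, sub_neg_eq_add] at hb
        have heq : u (n + 1) ^ p - 1 = -((u n ^ p - 1) * (u n ^ p - 1)) +
            u n ^ p * ((1 - e (u n)) ^ p - 1 + (u n ^ p - 1)) := by
          rw [hu, mul_pow]; ring
        have hbound : theta C p (θ ^ n * ε) * (θ ^ n * ε) ≤ θ ^ (n + 1) * ε := by
          rw [pow_succ' θ n, mul_assoc θ]
          exact mul_le_mul_of_nonneg_right (theta_mono hc0 (hc n)) hc0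
        rw [heq]
        refine Bd.add (Bd.neg ((hp'.mul hS (by positivity) (by positivity) hp').mono ?_)) ?_
        · calc ‖(p : C)‖ * (θ ^ n * ε) * (‖(p : C)‖ * (θ ^ n * ε))
              ≤ ‖(p : C)‖ * (θ ^ n * ε) * (1 * θ) := by
                refine mul_le_mul_of_nonneg_left (mul_le_mul hp1 ((hc n).trans hεθ) hc0 zero_le_one)
                  (by positivity)
            _ = ‖(p : C)‖ * (θ ^ (n + 1) * ε) := by ring
        · refine ((h1.pow_one_le hS p).mul hS zero_le_one (mul_nonneg (norm_nonneg _)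
            (mul_nonneg (theta_nonneg hc0) hc0)) hb).mono ?_
          rw [one_mul]
          exact mul_le_mul_of_nonneg_left hbound (norm_nonneg _)
  have hstep : ∀ n, Bd S (θ ^ n * ε) (u (n + 1) - u n) := fun n => by
    obtain ⟨h1, -, hp'⟩ := inv n
    have he := hp'.smul (p : C)⁻¹
    rw [norm_inv, inv_mul_cancel_left₀ (norm_ne_zero_iff.mpr hp0)] at he
    rw [show u (n + 1) = step (u n) from Function.iterate_succ_apply' step n l₀]
    simpa [step, mul_sub, e] using (h1.mul hS zero_le_one (by positivity) he).neg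
  have hdiff : ∀ n m, n ≤ m → Bd S (θ ^ n * ε) (u m - u n) := by
    intro n m hnm
    induction m, hnm using Nat.le_induction with
    | base => intro f _; simpa [pair_sub_left] using (by positivity : 0 ≤ θ ^ n * ε)
    | succ m hnm ih =>
      rw [← sub_add_sub_cancel (u (m + 1)) (u m) (u n)]
      exact ((hstep m).mono (mul_le_mul_of_nonneg_right
        (pow_le_pow_of_le_one hθ0 hθ.le hnm) hε)).add ih
  obtain ⟨K, hK, hKc⟩ := exists_norm_coeff_le hS
  have hlim : ∀ v, ∃ a ∈ F, Tendsto (fun n => (u n).coeff v) atTop (𝓝 a) := by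
    intro v
    let w : ℕ → F := fun n => ⟨(u n).coeff v, coeff_mem_of_range (inv n).2.1 v⟩
    have hw : CauchySeq w := by
      refine cauchySeq_of_le_geometric θ (K * ε) hθ fun n => ?_
      show dist ((u n).coeff v) ((u (n + 1)).coeff v) ≤ _
      rw [dist_comm, dist_eq_norm, mul_assoc, mul_comm ε]
      simpa using hKc _ _ (by positivity) (hstep n) v
    obtain ⟨a, ha⟩ := cauchySeq_tendsto_of_complete hw
    exact ⟨a, a.2, (continuous_subtype_val.tendsto a).comp ha⟩
  choose a haF ha using hlim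
  set L : AddMonoidAlgebra C V := ∑ v, AddMonoidAlgebra.single v (a v) with hLdef
  have hL : ∀ v, L.coeff v = a v := fun v => by
    simp [hLdef, Finsupp.finsetSum_apply, Finsupp.single_apply]
  have hpair : ∀ f, Tendsto (fun n => pair (u n) f) atTop (𝓝 (pair L f)) := fun f => by
    refine tendsto_finsetSum _ fun v _ => ?_
    rw [hL]
    exact (ha v).mul_const _
  have hsubn : ∀ n, Bd S (θ ^ n * ε) (L - u n) := fun n f hf => by
    rw [pair_sub_left]
    refine le_of_tendsto (((hpair f).sub_const _).norm) (eventually_atTop.mpr ⟨n, fun m hm => ?_⟩)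
    rw [← pair_sub_left]
    exact hdiff n m hm f hf
  have hL1 : Bd S 1 L := fun f hf =>
    le_of_tendsto' ((hpair f).norm) fun n => (inv n).1 f hf
  refine ⟨L, hL1, by simpa [u] using hsubn 0, ?_⟩
  refine sub_eq_zero.mp (Bd.eq_zero_of_le hS
    (by simpa using (tendsto_pow_atTop_nhds_zero_of_lt_one hθ0 hθ).mul_const ε)
    (fun n => by positivity) fun n => ?_)
  have h1 := Bd.pow_sub_pow hS (by positivity) hL1 (inv n).1 (hsubn n) p
  rw [← sub_add_sub_cancel (L ^ p) (u n ^ p) 1]
  exact h1.add ((inv n).2.2.mono (mul_le_of_le_one_left (by positivity) hp1))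

end FLTAgent.FlatBound
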