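import Fermat.Agent.TWPrimes.Flat.Eigen
import Fermat.Agent.TWPrimes.Flat.Inertia
import Fermat.Agent.LocalDuality.Kummer

/-!
# Counting classes of level at least `e`

Functions on the Galois group additive on the stabiliser of a tame field `L`, equivariant, trivial
on a level `F` with all roots of level at least `e` (`KummerSetting`): modulo those vanishing on
that stabiliser they fill at most the eigenspaces in `[e - e', e)` (`finrank_le_add`).
-/

set_option autoImplicit false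
set_option linter.unusedSectionVars false

noncomputable section

open Module
open scoped IntermediateField

namespace FLTAgent.FlatBound

open FLTAgent.LocalDuality

variable {p : ℕ} [Fact p.Prime]

instance algebraResid : Algebra (ZMod p) (Resid p) := ZMod.algebra _ p

/-- A tame field `L` inside a level `F` of flat models. -/
structure KummerSetting (L F K : IntermediateField ℚ_[p] (PadicAlgCl p)) (l : PadicAlgCl p) (e : ℕ)
    (ζ : PadicAlgCl p) : Prop where
  le : L ≤ F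
  stableL : ∀ g : LocalGal p, ∀ x ∈ L, g x ∈ L
  stableF : ∀ g : LocalGal p, ∀ x ∈ F, g x ∈ F
  tame : IsTame L K l e
  prim : IsPrimitiveRoot ζ p
  mem : ζ ∈ L
  inert : ∀ σ : LocalGal p, (∀ x ∈ L, σ x = x) → σ ∈ inertiaAt F
  level : ∀ y ∈ F, y ≠ 0 → y ^ p ∈ L →
    ∃ z ∈ L, z ≠ 0 ∧ ‖(y * z) ^ p - 1‖ ≤ ‖(p : PadicAlgCl p)‖

variable {L F K : IntermediateField ℚ_[p] (PadicAlgCl p)} [FiniteDimensional ℚ_[p] L]
  [FiniteDimensional ℚ_[p] F] {l : PadicAlgCl p} {e : ℕ} {ζ : PadicAlgCl p}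
  {N : Type} [AddCommGroup N] [Module (ZMod p) N] [Module.Finite (ZMod p) N]

/-- Additive and equivariant on the stabiliser of `L`, trivial on the level `F`. -/
structure IsTwisted (L F : IntermediateField ℚ_[p] (PadicAlgCl p))
    (A : LocalGal p → N →ₗ[ZMod p] N) (c : LocalGal p → N) : Prop where
  add : ∀ σ τ : LocalGal p, (∀ x ∈ L, σ x = x) → (∀ x ∈ L, τ x = x) → c (σ * τ) = c σ + c τ
  equiv : ∀ g σ : LocalGal p, (∀ x ∈ L, σ x = x) → c (g * σ * g⁻¹) = A g (c σ)
  kill : ∀ σ : LocalGal p, (∀ x ∈ F, σ x = x) → c σ = 0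

/-- A Kummer root for `φ ∘ c`. -/
def IsRoot (L F : IntermediateField ℚ_[p] (PadicAlgCl p)) (ζ : PadicAlgCl p) (c : LocalGal p → N)
    (φ : Dual (ZMod p) N) (y : PadicAlgCl p) : Prop :=
  y ∈ F ∧ y ≠ 0 ∧ ∀ σ : LocalGal p, (∀ x ∈ L, σ x = x) → σ y = ζ ^ (φ (c σ)).val * y

theorem zeta_pow_add (hζ : IsPrimitiveRoot ζ p) (a b : ZMod p) :
    ζ ^ (a + b).val = ζ ^ a.val * ζ ^ b.val := by
  rw [← pow_add, ZMod.val_add, ← pow_eq_pow_mod _ hζ.pow_eq_one]

theorem zeta_pow_natCast (hζ : IsPrimitiveRoot ζ p) (n : ℕ) : ζ ^ (n : ZMod p).val = ζ ^ n := by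
  rw [ZMod.val_natCast, ← pow_eq_pow_mod _ hζ.pow_eq_one]

theorem IsRoot.pow_mem {c : LocalGal p → N} {φ : Dual (ZMod p) N} {y : PadicAlgCl p}
    (hζ : IsPrimitiveRoot ζ p) (h : IsRoot L F ζ c φ y) : y ^ p ∈ L :=
  mem_of_forall_fixed L fun σ hσ => by
    rw [map_pow, h.2.2 σ hσ, mul_pow, ← pow_mul, mul_comm _ p, pow_mul, hζ.pow_eq_one, one_pow,
      one_mul]

theorem IsRoot.mul_mem {c : LocalGal p → N} {φ : Dual (ZMod p) N} {y z : PadicAlgCl p}
    (hLF : L ≤ F) (h : IsRoot L F ζ c φ y) (hz : z ∈ L) (hz0 : z ≠ 0) :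
    IsRoot L F ζ c φ (y * z) :=
  ⟨MulMemClass.mul_mem h.1 (hLF hz), mul_ne_zero h.2.1 hz0, fun σ hσ => by
    rw [map_mul, h.2.2 σ hσ, hσ z hz, mul_assoc]⟩

theorem norm_mul_sub_one_le {a b : PadicAlgCl p} {r : ℝ} (ha : ‖a‖ ≤ 1) (ha' : ‖a - 1‖ ≤ r)
    (hb : ‖b - 1‖ ≤ r) : ‖a * b - 1‖ ≤ r := by
  rw [show a * b - 1 = a * (b - 1) + (a - 1) by ring]
  refine (IsUltrametricDist.norm_add_le_max _ _).trans (max_le ?_ ha')
  rw [norm_mul]
  exact (mul_le_of_le_one_left (norm_nonneg _) ha).trans hb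

namespace KummerSetting

variable (S : KummerSetting L F K l e ζ)
include S

theorem exists_exponent : ∃ e' : ℕ, ‖ζ - 1‖ = ‖l‖ ^ e' ∧ (p - 1) * e' = e := by
  have hl := S.tame.totRam.norm_pos
  have hl1 := S.tame.totRam.norm_lt_one
  obtain ⟨k, hk⟩ := S.tame.totRam.values _ (L.sub_mem S.mem L.one_mem)
    (sub_ne_zero.mpr (S.prim.ne_one (Fact.out : p.Prime).one_lt))
  have h1 : ‖l‖ ^ ((p - 1 : ℕ) * k : ℤ) = ‖l‖ ^ (e : ℤ) := by
    rw [mul_comm, zpow_mul, zpow_natCast, zpow_natCast, ← hk, (norm_zeta_sub_one S.prim).1,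
      S.tame.totRam.norm_pow]
  have h2 := S.tame.totRam.zpow_inj h1
  have hk0 : 0 ≤ k := by
    by_contra hneg
    push Not at hneg
    have := S.tame.totRam.pos
    have : ((p - 1 : ℕ) : ℤ) * k ≤ 0 := mul_nonpos_of_nonneg_of_nonpos (by positivity) hneg.le
    omega
  obtain ⟨e', rfl⟩ := Int.eq_ofNat_of_zero_le hk0
  exact ⟨e', by rw [hk, zpow_natCast], by exact_mod_cast h2⟩

theorem le_pow_succ {x : PadicAlgCl p} (hx : x ∈ L) {i : ℕ} (h : ‖x‖ < ‖l‖ ^ i) :
    ‖x‖ ≤ ‖l‖ ^ (i + 1) := by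
  rcases eq_or_ne x 0 with rfl | h0
  · rw [norm_zero]; positivity
  obtain ⟨k, hk⟩ := S.tame.totRam.values _ hx h0
  rw [hk, ← zpow_natCast] at h ⊢
  refine zpow_le_zpow_right_of_le_one₀ S.tame.totRam.norm_pos S.tame.totRam.norm_lt_one.le ?_
  have := (zpow_lt_zpow_iff_right_of_lt_one₀ S.tame.totRam.norm_pos S.tame.totRam.norm_lt_one).mp h
  push_cast
  omega

theorem norm_pow_le_one {y : PadicAlgCl p} {i : ℕ} (h : ‖y ^ p - 1‖ ≤ ‖l‖ ^ i) : ‖y ^ p‖ ≤ 1 := by
  rw [← sub_add_cancel (y ^ p) 1]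
  exact (IsUltrametricDist.norm_add_le_max _ _).trans (max_le
    (h.trans (pow_le_one₀ (norm_nonneg _) S.tame.totRam.norm_lt_one.le)) norm_one.le)

theorem exists_root {A : LocalGal p → N →ₗ[ZMod p] N} {c : LocalGal p → N}
    (hc : IsTwisted L F A c) (φ : Dual (ZMod p) N) : ∃ y, IsRoot L F ζ c φ y := by
  set H := L.fixingSubgroup
  have hH : ∀ σ : H, ∀ x ∈ L, (σ : LocalGal p) x = x := fun σ =>
    (IntermediateField.mem_fixingSubgroup_iff L _).mp σ.2
  let ζu : (PadicAlgCl p)ˣ := Units.mk0 ζ (S.prim.ne_zero (Fact.out : p.Prime).ne_zero)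
  let f : H → (PadicAlgCl p)ˣ := fun σ => ζu ^ (φ (c σ)).val
  obtain ⟨m, hm⟩ := LocalDuality.hilbert90 (q := p) (j := H.subtype) f (fun g h => Units.ext (by
      show ζ ^ (φ (c (g * h : LocalGal p))).val = (g : LocalGal p) (ζ ^ _) * ζ ^ _
      rw [hc.add _ _ (hH g) (hH h), map_add, map_pow, hH g ζ S.mem, ← zeta_pow_add S.prim,
        add_comm]))
    (by
      obtain ⟨E, hE, hle⟩ := exists_level_le p F
      refine ⟨E, hE, fun g s hs => Units.ext ?_⟩
      have h0 : c (s : LocalGal p) = 0 :=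
        hc.kill _ ((IntermediateField.mem_fixingSubgroup_iff F _).mp (hle hs))
      show ζ ^ (φ (c (g * s : LocalGal p))).val = ζ ^ _
      rw [hc.add _ _ (hH g) (hH s), h0, add_zero])
  have key : ∀ σ : LocalGal p, (∀ x ∈ L, σ x = x) →
      σ (m : PadicAlgCl p) = ζ ^ (φ (c σ)).val * m := fun σ hσ => by
    have h1 := congrArg Units.val
      (hm ⟨σ, (IntermediateField.mem_fixingSubgroup_iff L σ).mpr hσ⟩)
    rw [Units.val_div_eq_div_val, Units.coe_map, eq_div_iff m.ne_zero] at h1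
    exact h1.symm
  refine ⟨m, mem_of_forall_fixed F fun σ hσ => ?_, m.ne_zero, key⟩
  rw [key σ fun x hx => hσ x (S.le hx), hc.kill σ hσ, map_zero, ZMod.val_zero, pow_zero, one_mul]

end KummerSetting

/-- Functions all of whose roots can be chosen of level at least `i`. -/
def levelSub (S : KummerSetting L F K l e ζ) (i : ℕ) :
    Submodule (ZMod p) (LocalGal p → N) where
  carrier := {c | ∀ φ, ∃ y, IsRoot L F ζ c φ y ∧ ‖y ^ p - 1‖ ≤ ‖l‖ ^ i}
  zero_mem' φ := ⟨1, ⟨F.one_mem, one_ne_zero, fun σ _ => by simp⟩, by simp⟩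
  add_mem' {a b} ha hb φ := by
    obtain ⟨y, hy, hyi⟩ := ha φ
    obtain ⟨z, hz, hzi⟩ := hb φ
    refine ⟨y * z, ⟨MulMemClass.mul_mem hy.1 hz.1, mul_ne_zero hy.2.1 hz.2.1, fun σ hσ => ?_⟩, ?_⟩
    · rw [map_mul, hy.2.2 σ hσ, hz.2.2 σ hσ, Pi.add_apply, map_add, zeta_pow_add S.prim]
      ring
    · rw [mul_pow]
      exact norm_mul_sub_one_le (S.norm_pow_le_one hyi) hyi hzi
  smul_mem' a b hb φ := by
    obtain ⟨y, hy, hyi⟩ := hb (a • φ)
    exact ⟨y, ⟨hy.1, hy.2.1, fun σ hσ => by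
      rw [hy.2.2 σ hσ, Pi.smul_apply, map_smul, LinearMap.smul_apply]⟩, hyi⟩

/-- Functions vanishing on the stabiliser of `L`. -/
def vanishOn (L : IntermediateField ℚ_[p] (PadicAlgCl p)) (N : Type) [AddCommGroup N]
    [Module (ZMod p) N] : Submodule (ZMod p) (LocalGal p → N) :=
  ⨅ (σ : LocalGal p) (_ : ∀ x ∈ L, σ x = x), LinearMap.ker (LinearMap.proj σ)

theorem mem_vanishOn {c : LocalGal p → N} :
    c ∈ vanishOn L N ↔ ∀ σ : LocalGal p, (∀ x ∈ L, σ x = x) → c σ = 0 := by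
  simp [vanishOn]

namespace KummerSetting

variable (S : KummerSetting L F K l e ζ) {e' : ℕ} (hnorm : ‖ζ - 1‖ = ‖l‖ ^ e')
  (hmul : (p - 1) * e' = e)
include S hnorm hmul

theorem top_exponent : p * e' = e + e' := by
  have := (Fact.out : p.Prime).one_lt
  rw [← hmul, ← Nat.succ_mul, Nat.succ_eq_add_one, Nat.sub_add_cancel this.le]

/-- Two roots have the same leading coefficient. -/
theorem lead_unique {c : LocalGal p → N} {φ : Dual (ZMod p) N} {y y' : PadicAlgCl p} {i : ℕ}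
    (hi0 : 0 < i) (hi : i < e + e') (hpi : ¬ p ∣ i) (hy : IsRoot L F ζ c φ y)
    (hyi : ‖y ^ p - 1‖ ≤ ‖l‖ ^ i) (hy' : IsRoot L F ζ c φ y') (hyi' : ‖y' ^ p - 1‖ ≤ ‖l‖ ^ i) :
    red ((y ^ p - 1) / l ^ i) = red ((y' ^ p - 1) / l ^ i) := by
  have hl := S.tame.totRam.norm_pos
  have hl1 := S.tame.totRam.norm_lt_one
  have hbound : ∀ z : PadicAlgCl p, ‖z ^ p - 1‖ ≤ ‖l‖ ^ i → ‖(z ^ p - 1) / l ^ i‖ ≤ 1 := fun z hz =>
    by rw [norm_div, norm_pow, div_le_one (pow_pos hl i)]; exact hz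
  set w := y' / y
  have hwL : w ∈ L := mem_of_forall_fixed L fun σ hσ => by
    have hne : ζ ^ (φ (c σ)).val ≠ 0 :=
      pow_ne_zero _ (S.prim.ne_zero (Fact.out : p.Prime).ne_zero)
    rw [map_div₀, hy.2.2 σ hσ, hy'.2.2 σ hσ, mul_div_mul_left _ _ hne]
  have h1 : ‖y ^ p‖ = 1 := by
    rw [← add_sub_cancel 1 (y ^ p)]
    exact norm_one_add (hyi.trans_lt (pow_lt_one₀ hl.le hl1 hi0.ne'))
  have hwp : ‖w ^ p - 1‖ ≤ ‖l‖ ^ i := by
    rw [div_pow, div_sub_one (pow_ne_zero p hy.2.1), norm_div, h1, div_one,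
      show y' ^ p - y ^ p = (y' ^ p - 1) - (y ^ p - 1) by ring, sub_eq_add_neg]
    exact (IsUltrametricDist.norm_add_le_max _ _).trans (max_le hyi' ((norm_neg _).trans_le hyi))
  have hwlt : ‖w ^ p - 1‖ < ‖l‖ ^ i := by
    refine lt_of_le_of_ne hwp fun heq => ?_
    have hwn : ‖w‖ = 1 := norm_eq_one_of_pow_sub_one (hwp.trans_lt (pow_lt_one₀ hl.le hl1 hi0.ne'))
    by_cases hle : ‖w - 1‖ ≤ ‖ζ - 1‖
    · have h2 := norm_pow_sub_one_le S.prim hwn.le hle
      rw [heq, hnorm, ← pow_mul, mul_comm, S.top_exponent hnorm hmul] at h2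
      exact absurd h2 (not_le.mpr (pow_lt_pow_right_of_lt_one₀ hl hl1 hi))
    · push Not at hle
      have h2 := norm_pow_sub_one_of_lt S.prim hwn.le hle
      rw [heq] at h2
      have h0 : w - 1 ≠ 0 := fun h0 => by
        rw [h0, norm_zero] at hle; exact absurd hle (not_lt.mpr (norm_nonneg _))
      obtain ⟨m, hm⟩ := S.tame.totRam.values _ (L.sub_mem hwL L.one_mem) h0
      rw [hm, ← zpow_natCast, ← zpow_natCast, ← zpow_mul] at h2
      exact hpi (Int.natCast_dvd_natCast.mp ⟨m, by rw [S.tame.totRam.zpow_inj h2]; ring⟩)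
  rw [red_eq_iff (hbound y hyi) (hbound y' hyi'), ← sub_div, norm_div, norm_pow,
    div_lt_one (pow_pos hl i)]
  have e1 : y ^ p - 1 - (y' ^ p - 1) = -(y ^ p * (w ^ p - 1)) := by
    rw [div_pow, mul_sub, mul_div_cancel₀ _ (pow_ne_zero p hy.2.1)]
    ring
  rw [e1, norm_neg, norm_mul, h1, one_mul]
  exact hwlt

/-- Levels divisible by `p` improve. -/
theorem levelSub_step_of_dvd {i : ℕ} (hi0 : 0 < i) (hi : i < e + e') (hpi : p ∣ i) :
    levelSub (N := N) S i ≤ levelSub S (i + 1) := by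
  intro c hc φ
  obtain ⟨y, hy, hyi⟩ := hc φ
  have hxL := hy.pow_mem S.prim
  rcases lt_or_eq_of_le hyi with hlt | heq
  · exact ⟨y, hy, S.le_pow_succ (L.sub_mem hxL L.one_mem) hlt⟩
  obtain ⟨j, rfl⟩ := hpi
  have hj : j < e' := by
    by_contra hle
    push Not at hle
    exact absurd (Nat.mul_le_mul_left p hle) (by rw [S.top_exponent hnorm hmul]; omega)
  have hj0 : 0 < j := Nat.pos_of_ne_zero fun h0 => by simp [h0] at hi0
  obtain ⟨z, hzL, hz0, hz⟩ := S.tame.exists_improve S.prim hxL hj0 heq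
    (hnorm ▸ pow_lt_pow_right_of_lt_one₀ S.tame.totRam.norm_pos S.tame.totRam.norm_lt_one hj)
  rw [heq, ← mul_pow] at hz
  refine ⟨y * z, hy.mul_mem S.le hzL hz0, S.le_pow_succ (L.sub_mem ?_ L.one_mem) hz⟩
  rw [mul_pow]
  exact MulMemClass.mul_mem hxL (_root_.pow_mem hzL p)

theorem top_le_vanishOn : levelSub (N := N) S (e + e') ≤ vanishOn L N := by
  intro c hc
  rw [mem_vanishOn]
  intro σ hσ
  refine (Module.forall_dual_apply_eq_zero_iff (ZMod p) _).mp fun φ => ?_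
  obtain ⟨y, hy, hyi⟩ := hc φ
  have hp := (Fact.out : p.Prime)
  have hl := S.tame.totRam.norm_pos
  have hl1 := S.tame.totRam.norm_lt_one
  have hn0 : e + e' ≠ 0 := by have := S.tame.totRam.pos; omega
  have hy1 : ‖y‖ = 1 := norm_eq_one_of_pow_sub_one (hyi.trans_lt (pow_lt_one₀ hl.le hl1 hn0))
  have hle : ‖y - 1‖ ≤ ‖ζ - 1‖ := by
    by_contra hlt
    push Not at hlt
    rw [norm_pow_sub_one_of_lt S.prim hy1.le hlt, ← S.top_exponent hnorm hmul, mul_comm p,
      pow_mul, ← hnorm] at hyi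
    exact absurd hyi (not_le.mpr (pow_lt_pow_left₀ hlt (norm_nonneg _) hp.ne_zero))
  by_contra hne
  set a := (φ (c σ)).val
  have hη : IsPrimitiveRoot (ζ ^ a) p := S.prim.pow_of_coprime _
    (Nat.Coprime.symm (hp.coprime_iff_not_dvd.mpr fun hdvd => hne ((ZMod.val_eq_zero _).mp
      (Nat.eq_zero_of_dvd_of_lt hdvd (ZMod.val_lt _)))))
  have hηn : ‖ζ ^ a - 1‖ = ‖ζ - 1‖ := by
    have h1 := (norm_zeta_sub_one hη).1.trans (norm_zeta_sub_one S.prim).1.symm
    exact (pow_left_inj₀ (norm_nonneg _) (norm_nonneg _) (Nat.sub_ne_zero_of_lt hp.one_lt)).mp h1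
  set w := (y - 1) / (ζ - 1)
  have hζ0 : 0 < ‖ζ - 1‖ := norm_zeta_sub_one_pos S.prim
  have hw1 : ‖w‖ ≤ 1 := by rw [norm_div, div_le_one hζ0]; exact hle
  have hwF : w ∈ F := F.div_mem (F.sub_mem hy.1 F.one_mem) (F.sub_mem (S.le S.mem) F.one_mem)
  have h2 := S.inert σ hσ _ (red_mem_residueSubfield F hwF hw1)
  rw [galRed_red σ hw1, red_eq_iff ((norm_galois σ w).trans_le hw1) hw1] at h2
  have h3 : σ w - w = (ζ ^ a - 1) * y / (ζ - 1) := by
    rw [map_div₀, map_sub, map_sub, map_one, hσ ζ S.mem, hy.2.2 σ hσ]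
    ring
  rw [h3, norm_div, norm_mul, hy1, mul_one, hηn, div_self hζ0.ne'] at h2
  exact lt_irrefl _ h2

omit hnorm hmul in
/-- Galois moves roots to roots. -/
theorem root_apply {A : LocalGal p → N →ₗ[ZMod p] N} {c : LocalGal p → N}
    (hc : IsTwisted L F A c) {φ : Dual (ZMod p) N} {y : PadicAlgCl p} (hy : IsRoot L F ζ c φ y)
    (g : LocalGal p) {a : ℕ} (ha : g ζ = ζ ^ a) :
    IsRoot L F ζ c ((a : ZMod p) • (φ ∘ₗ A g⁻¹)) (g y) := by
  refine ⟨S.stableF g y hy.1, (map_ne_zero_iff g g.injective).mpr hy.2.1, fun σ hσ => ?_⟩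
  have hconj : ∀ x ∈ L, (g⁻¹ * σ * g) x = x := fun x hx => by
    rw [AlgEquiv.mul_apply, AlgEquiv.mul_apply, hσ _ (S.stableL g x hx), ← AlgEquiv.mul_apply,
      inv_mul_cancel, AlgEquiv.one_apply]
  have h1 : c (g⁻¹ * σ * g) = A g⁻¹ (c σ) := by
    have h2 := hc.equiv g⁻¹ σ hσ
    rwa [inv_inv] at h2
  calc σ (g y) = g ((g⁻¹ * σ * g) y) := by
        rw [← AlgEquiv.mul_apply g, ← mul_assoc, ← mul_assoc, mul_inv_cancel, one_mul,
          AlgEquiv.mul_apply]
    _ = g (ζ ^ (φ (A g⁻¹ (c σ))).val * y) := by rw [hy.2.2 _ hconj, h1]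
    _ = _ := by
        rw [map_mul, map_pow, ha, LinearMap.smul_apply, LinearMap.comp_apply, smul_eq_mul,
          ← pow_mul, ← zeta_pow_natCast S.prim, Nat.cast_mul, ZMod.natCast_zmod_val]

omit hnorm hmul in
theorem norm_apply_div (g : LocalGal p) : ‖g l / l‖ = 1 := by
  rw [norm_div, norm_galois, div_self S.tame.totRam.norm_pos.ne']

omit hnorm hmul in
theorem red_apply (g : LocalGal p) {y : PadicAlgCl p} {i : ℕ} (hy : ‖y ^ p - 1‖ ≤ ‖l‖ ^ i) :
    red ((g y ^ p - 1) / l ^ i) = galRed g (red ((y ^ p - 1) / l ^ i)) * red (g l / l) ^ i := by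
  have hl := S.tame.totRam.norm_pos
  have hw : ‖(y ^ p - 1) / l ^ i‖ ≤ 1 := by
    rw [norm_div, norm_pow, div_le_one (pow_pos hl i)]; exact hy
  rw [galRed_red g hw, ← red_pow (S.norm_apply_div g).le, ← red_mul ((norm_galois g _).trans_le hw)
    (by rw [norm_pow, S.norm_apply_div g, one_pow]), map_div₀, map_sub, map_one, map_pow, map_pow,
    div_pow, div_mul_div_cancel₀ (pow_ne_zero i ((map_ne_zero_iff g g.injective).mpr
      S.tame.totRam.ne_zero))]

/-- The character `χ` on tame inertia is the `e'`-th power of the fundamental character. -/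
theorem natCast_eq_pow {τ : LocalGal p} (hτ : ∀ x ∈ K, τ x = x) {a : ℕ} (ha : τ ζ = ζ ^ a) :
    (a : Resid p) = red (τ l / l) ^ e' := by
  have hζ0 : ζ - 1 ≠ 0 := sub_ne_zero.mpr (S.prim.ne_one (Fact.out : p.Prime).one_lt)
  set u := (ζ - 1) / l ^ e'
  have hu1 : ‖u‖ = 1 := by
    rw [norm_div, norm_pow, ← hnorm, div_self (norm_ne_zero_iff.mpr hζ0)]
  have huL : u ∈ L := L.div_mem (L.sub_mem S.mem L.one_mem) (_root_.pow_mem S.tame.totRam.mem _)
  have hu0 : red u ≠ 0 := fun h0 => by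
    rw [red_eq_zero_iff hu1.le, hu1] at h0; exact lt_irrefl _ h0
  obtain ⟨w, hwK, hw1, hw⟩ := S.tame.totRam.residue (red_mem_residueSubfield L huL hu1.le)
  have hτu : red (τ u) = red u := by
    rw [← galRed_red τ hu1.le, ← hw, galRed_red τ hw1, hτ w hwK]
  have hζn : ∀ i : ℕ, ‖ζ ^ i‖ ≤ 1 := fun i => by
    rw [norm_pow, (pow_eq_one_iff_of_nonneg (norm_nonneg ζ) (Fact.out : p.Prime).ne_zero).mp
      (by rw [← norm_pow, S.prim.pow_eq_one, norm_one]), one_pow]
  have hgeom : (∑ i ∈ Finset.range a, ζ ^ i) * u = τ u * (τ l / l) ^ e' := by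
    rw [map_div₀, map_sub, map_one, ha, map_pow, div_pow,
      div_mul_div_cancel₀ (pow_ne_zero e' ((map_ne_zero_iff τ τ.injective).mpr
        S.tame.totRam.ne_zero)), ← mul_div_assoc, geom_sum_mul]
  have hsum : red (∑ i ∈ Finset.range a, ζ ^ i) = (a : Resid p) := by
    rw [red_sum _ _ fun i _ => hζn i]
    have h1 : ∀ i, red (ζ ^ i) = 1 := fun i => by
      rw [← red_one, red_eq_iff (hζn i) norm_one.le]
      exact lt_of_le_of_lt ((norm_zeta_sub_one S.prim).2 (ζ ^ i)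
        (by rw [← pow_mul, mul_comm, pow_mul, S.prim.pow_eq_one, one_pow]))
        (norm_zeta_sub_one_lt_one S.prim)
    simp [h1]
  have h2 := congrArg red hgeom
  rw [red_mul (IsUltrametricDist.norm_sum_le_of_forall_le_of_nonneg zero_le_one fun i _ => hζn i)
    hu1.le, red_mul ((norm_galois τ u).trans_le hu1.le) (by rw [norm_pow, S.norm_apply_div τ,
      one_pow]), hsum, red_pow (S.norm_apply_div τ).le, hτu, mul_comm] at h2
  exact mul_left_cancel₀ hu0 h2

/-- One graded piece. -/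
theorem finrank_step {A : LocalGal p → N →ₗ[ZMod p] N} (hA : ∀ g, Function.Surjective (A g))
    {τ : LocalGal p} (hτ : ∀ x ∈ K, τ x = x) (U : Submodule (ZMod p) (LocalGal p → N))
    [Module.Finite (ZMod p) U] (hU : ∀ c ∈ U, IsTwisted L F A c) {i : ℕ} (hi : e ≤ i)
    (hi' : i < e + e') (hpi : ¬ p ∣ i) :
    finrank (ZMod p) (U ⊓ levelSub S i : Submodule (ZMod p) (LocalGal p → N)) ≤
      finrank (ZMod p) (U ⊓ levelSub S (i + 1) : Submodule (ZMod p) (LocalGal p → N)) +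
      finrank (Resid p) ((twist (κ := Resid p) (A τ⁻¹)).eigenspace
        (red (τ l / l) ^ (i - e'))) := by
  classical
  have hp := (Fact.out : p.Prime)
  have hl := S.tame.totRam.norm_pos
  have hi0 : 0 < i := lt_of_lt_of_le S.tame.totRam.pos hi
  set V := U ⊓ levelSub S i
  have : Module.Finite (ZMod p) V := Submodule.finiteDimensional_of_le inf_le_left
  have : Module.Finite (ZMod p) (U ⊓ levelSub S (i + 1) : Submodule (ZMod p) (LocalGal p → N)) :=
    Submodule.finiteDimensional_of_le inf_le_left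
  choose y hy hyi using fun (c : V) (φ : Dual (ZMod p) N) => c.2.2 φ
  let β : V → Dual (ZMod p) N → Resid p := fun c φ => red ((y c φ ^ p - 1) / l ^ i)
  have huniq : ∀ (c : V) φ z, IsRoot L F ζ (c : LocalGal p → N) φ z → ‖z ^ p - 1‖ ≤ ‖l‖ ^ i →
      β c φ = red ((z ^ p - 1) / l ^ i) := fun c φ z hz hzi =>
    S.lead_unique hnorm hmul hi0 hi' hpi (hy c φ) (hyi c φ) hz hzi
  have hmul' : ∀ z w : PadicAlgCl p, ‖z ^ p - 1‖ ≤ ‖l‖ ^ i → ‖w ^ p - 1‖ ≤ ‖l‖ ^ i →
      red (((z * w) ^ p - 1) / l ^ i) = red ((z ^ p - 1) / l ^ i) + red ((w ^ p - 1) / l ^ i) := by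
    intro z w hz hw
    have hb : ∀ v : PadicAlgCl p, ‖v ^ p - 1‖ ≤ ‖l‖ ^ i → ‖(v ^ p - 1) / l ^ i‖ ≤ 1 := fun v hv =>
      by rw [norm_div, norm_pow, div_le_one (pow_pos hl i)]; exact hv
    have h3 : ‖(z ^ p - 1) * ((w ^ p - 1) / l ^ i)‖ < 1 := by
      rw [norm_mul]
      exact lt_of_le_of_lt (mul_le_of_le_one_right (norm_nonneg _) (hb w hw))
        (hz.trans_lt (pow_lt_one₀ hl.le S.tame.totRam.norm_lt_one hi0.ne'))
    rw [mul_pow, show (z ^ p * w ^ p - 1) / l ^ i = (z ^ p - 1) / l ^ i + (w ^ p - 1) / l ^ i +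
      (z ^ p - 1) * ((w ^ p - 1) / l ^ i) by ring,
      red_add ((IsUltrametricDist.norm_add_le_max _ _).trans (max_le (hb z hz) (hb w hw))) h3.le,
      red_add (hb z hz) (hb w hw), (red_eq_zero_iff h3.le).mpr h3, add_zero]
  have hadd : ∀ (c : V) φ ψ, β c (φ + ψ) = β c φ + β c ψ := fun c φ ψ => by
    rw [huniq c (φ + ψ) (y c φ * y c ψ) ⟨MulMemClass.mul_mem (hy c φ).1 (hy c ψ).1,
      mul_ne_zero (hy c φ).2.1 (hy c ψ).2.1, fun σ hσ => by
        rw [map_mul, (hy c φ).2.2 σ hσ, (hy c ψ).2.2 σ hσ, LinearMap.add_apply,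
          zeta_pow_add S.prim]
        ring⟩ (by rw [mul_pow]; exact norm_mul_sub_one_le
                    (S.norm_pow_le_one (hyi c φ)) (hyi c φ) (hyi c ψ))]
    exact hmul' _ _ (hyi c φ) (hyi c ψ)
  have hadd' : ∀ (c d : V) φ, β (c + d) φ = β c φ + β d φ := fun c d φ => by
    rw [huniq (c + d) φ (y c φ * y d φ) ⟨MulMemClass.mul_mem (hy c φ).1 (hy d φ).1,
      mul_ne_zero (hy c φ).2.1 (hy d φ).2.1, fun σ hσ => by
        rw [map_mul, (hy c φ).2.2 σ hσ, (hy d φ).2.2 σ hσ, Submodule.coe_add, Pi.add_apply,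
          map_add, zeta_pow_add S.prim]
        ring⟩ (by rw [mul_pow]; exact norm_mul_sub_one_le
                    (S.norm_pow_le_one (hyi c φ)) (hyi c φ) (hyi d φ))]
    exact hmul' _ _ (hyi c φ) (hyi d φ)
  let B : V →ₗ[ZMod p] Lead p (Resid p) N := (AddMonoidHom.mk'
    (fun c => (AddMonoidHom.mk' (β c) (hadd c)).toZModLinearMap p)
    (fun c d => LinearMap.ext fun φ => hadd' c d φ)).toZModLinearMap p
  have hB : ∀ c φ, B c φ = β c φ := fun _ _ => rfl
  have hker : LinearMap.ker B ≤ (U ⊓ levelSub S (i + 1)).comap V.subtype := by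
    intro c hc
    refine ⟨c.2.1, fun φ => ⟨y c φ, hy c φ,
      S.le_pow_succ (L.sub_mem ((hy c φ).pow_mem S.prim) L.one_mem) ?_⟩⟩
    have h1 : red ((y c φ ^ p - 1) / l ^ i) = 0 := LinearMap.congr_fun (LinearMap.mem_ker.mp hc) φ
    rwa [red_eq_zero_iff (by rw [norm_div, norm_pow, div_le_one (pow_pos hl i)]; exact hyi c φ),
      norm_div, norm_pow, div_lt_one (pow_pos hl i)] at h1
  have hk : finrank (ZMod p) (LinearMap.ker B) ≤
      finrank (ZMod p) (U ⊓ levelSub S (i + 1) : Submodule (ZMod p) (LocalGal p → N)) :=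
    LinearMap.finrank_le_finrank_of_injective (f :=
      ({ toFun := fun c => ⟨c.1.1, hker c.2⟩
         map_add' := fun _ _ => rfl
         map_smul' := fun _ _ => rfl } : LinearMap.ker B →ₗ[ZMod p]
          (U ⊓ levelSub S (i + 1) : Submodule (ZMod p) (LocalGal p → N))))
      fun a b hab => Subtype.ext (Subtype.ext (congrArg Subtype.val hab :))
  -- action of a Galois element on leading coefficients
  have hchar : ∀ g : LocalGal p, ∃ a : ℕ, g ζ = ζ ^ a := fun g => by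
    have : NeZero p := ⟨hp.ne_zero⟩
    obtain ⟨a, -, ha⟩ := S.prim.eq_pow_of_pow_eq_one
      (show (g ζ) ^ p = 1 by rw [← map_pow, S.prim.pow_eq_one, map_one])
    exact ⟨a, ha.symm⟩
  have hact : ∀ (c : V) (g : LocalGal p) (a : ℕ), g ζ = ζ ^ a → ∀ φ,
      B c ((a : ZMod p) • (φ ∘ₗ A g⁻¹)) = galRed g (B c φ) * red (g l / l) ^ i := by
    intro c g a ha φ
    have hg : ‖g (y c φ) ^ p - 1‖ ≤ ‖l‖ ^ i := by
      rw [← map_pow, ← map_one g, ← map_sub, norm_galois]
      exact hyi c φ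
    rw [hB, hB, huniq c _ _ (S.root_apply (hU _ c.2.1) (hy c φ) g ha) hg]
    exact S.red_apply g (hyi c φ)
  obtain ⟨Φ, hΦ, -⟩ := S.tame.unram.frobenius
  obtain ⟨a, ha⟩ := hchar Φ
  obtain ⟨b, hb⟩ := hchar τ
  have ha0 : (a : ZMod p) ≠ 0 := by
    intro h0
    rw [← zeta_pow_natCast S.prim, h0, ZMod.val_zero, pow_zero] at ha
    exact S.prim.ne_one hp.one_lt (Φ.injective (ha.trans (map_one Φ).symm))
  have hQ : Function.Surjective (fun φ : Dual (ZMod p) N => (a : ZMod p) • (φ ∘ₗ A Φ⁻¹)) := by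
    have : Finite (Dual (ZMod p) N) := Module.finite_of_finite (ZMod p)
    refine Finite.injective_iff_surjective.mp fun φ ψ h => LinearMap.ext fun x => ?_
    obtain ⟨x, rfl⟩ := hA Φ⁻¹ x
    exact smul_right_injective _ ha0 (LinearMap.congr_fun h x)
  have hθ0 : red (τ l / l) ≠ 0 := fun h0 => by
    rw [red_eq_zero_iff (S.norm_apply_div τ).le, S.norm_apply_div τ] at h0; exact lt_irrefl _ h0
  have hrange : finrank (ZMod p) (LinearMap.range B) ≤
      finrank (Resid p) ((twist (κ := Resid p) (A τ⁻¹)).eigenspace (red (τ l / l) ^ (i - e'))) := by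
    refine finrank_le_of_semilinear (LinearMap.range B) _ hQ (c := red (Φ l / l) ^ i) ?_ _ ?_
    · rintro _ ⟨c, rfl⟩ φ
      rw [hact c Φ a ha φ, hB]
      show galRed Φ (red _) * _ = _ * red _ ^ p
      rw [hΦ _ (red_mem_residueSubfield L (L.div_mem (L.sub_mem ((hy c φ).pow_mem S.prim) L.one_mem)
        (_root_.pow_mem S.tame.totRam.mem _)) (by
          rw [norm_div, norm_pow, div_le_one (pow_pos hl i)]; exact hyi c φ)), mul_comm]
    · rintro _ ⟨c, rfl⟩
      rw [mem_eig_iff]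
      intro φ
      have h1 := hact c τ b hb φ
      rw [map_smul, Algebra.smul_def, map_natCast, S.natCast_eq_pow hnorm hmul hτ hb] at h1
      have h2 : galRed τ (B c φ) = B c φ := by
        refine S.tame.unram.apply_eq_of_fixed hτ _ ?_
        rw [hB]
        exact red_mem_residueSubfield L (L.div_mem (L.sub_mem ((hy c φ).pow_mem S.prim) L.one_mem)
          (_root_.pow_mem S.tame.totRam.mem _)) (by
            rw [norm_div, norm_pow, div_le_one (pow_pos hl i)]; exact hyi c φ)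
      rw [h2] at h1
      have he' : e' ≤ i := by
        refine le_trans ?_ hi
        rw [← hmul]
        exact Nat.le_mul_of_pos_left e' (by have := hp.two_le; omega)
      refine mul_left_cancel₀ (pow_ne_zero e' hθ0) (h1.trans ?_)
      rw [← mul_assoc, ← pow_add, Nat.add_sub_cancel' he', mul_comm]
  have := B.finrank_range_add_finrank_ker
  omega

/-- Classes modulo those vanishing on the stabiliser of `L` fill at most `eigS`. -/
theorem finrank_le_add {A : LocalGal p → N →ₗ[ZMod p] N} (hA : ∀ g, Function.Surjective (A g))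
    {τ : LocalGal p} (hτ : IsTameGen (L := L) K l e τ)
    (U : Submodule (ZMod p) (LocalGal p → N)) [Module.Finite (ZMod p) U]
    (hU : ∀ c ∈ U, IsTwisted L F A c) :
    finrank (ZMod p) U ≤ finrank (ZMod p) (U ⊓ vanishOn L N : Submodule (ZMod p) (LocalGal p → N))
      + finrank (Resid p) (eigS (κ := Resid p) (red (τ l / l)) e e' (A τ⁻¹)) := by
  classical
  set θ := red (τ l / l)
  have hfin : ∀ V : Submodule (ZMod p) (LocalGal p → N),
      Module.Finite (ZMod p) (U ⊓ V : Submodule (ZMod p) (LocalGal p → N)) := fun V =>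
    Submodule.finiteDimensional_of_le inf_le_left
  have := hfin (vanishOn L N)
  have hθ : IsPrimitiveRoot θ e := by
    have hn1 := (S.norm_apply_div τ).le
    refine IsPrimitiveRoot.mk_of_lt _ S.tame.totRam.pos ?_ fun j hj hje => fun h1 => ?_
    · rw [← red_pow hn1, hτ.primitive.pow_eq_one, red_one]
    · refine hτ.primitive.pow_ne_one_of_pos_of_lt hj.ne' hje ?_
      refine eq_of_pow_eq_one_of_red_eq S.tame.not_dvd ?_ (one_pow e) ?_
      · rw [← pow_mul, mul_comm, pow_mul, hτ.primitive.pow_eq_one, one_pow]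
      · rw [red_pow hn1, h1, red_one]
  let E : Resid p → Submodule (Resid p) (Lead p (Resid p) N) :=
    fun c => (twist (κ := Resid p) (A τ⁻¹)).eigenspace c
  have hind : iSupIndep E := Module.End.eigenspaces_iSupIndep _
  let Sum : ℕ → Submodule (Resid p) (Lead p (Resid p) N) := fun i =>
    ⨆ c ∈ (fun j => θ ^ j) '' Set.Ico (i - e') e, E c
  have key : ∀ d i, e ≤ i → i + d = e + e' →
      finrank (ZMod p) (U ⊓ levelSub S i : Submodule (ZMod p) (LocalGal p → N)) ≤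
        finrank (ZMod p) (U ⊓ vanishOn L N : Submodule (ZMod p) (LocalGal p → N)) +
          finrank (Resid p) (Sum i) := by
    intro d
    induction d with
    | zero =>
      intro i _ hi
      obtain rfl : i = e + e' := by omega
      have := hfin (levelSub S (e + e'))
      exact (Submodule.finrank_mono
        (inf_le_inf_left U (S.top_le_vanishOn hnorm hmul))).trans (Nat.le_add_right _ _)
    | succ d ih =>
      intro i hi hid
      have hepos : 0 < e := S.tame.totRam.pos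
      have h2 := ih (i + 1) (by omega) (by omega)
      have := hfin (levelSub S (i + 1))
      by_cases hpi : p ∣ i
      · refine (Submodule.finrank_mono (inf_le_inf_left U (S.levelSub_step_of_dvd hnorm hmul
          (lt_of_lt_of_le S.tame.totRam.pos hi) (by omega) hpi))).trans (h2.trans ?_)
        refine Nat.add_le_add_left (Submodule.finrank_mono (biSup_mono ?_)) _
        rintro _ ⟨j, hj, rfl⟩
        exact ⟨j, ⟨by have := hj.1; omega, hj.2⟩, rfl⟩
      · have h3 := S.finrank_step hnorm hmul hA hτ.fixed U hU hi (by omega) hpi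
        have hle : E (θ ^ (i - e')) ⊔ Sum (i + 1) ≤ Sum i := by
          refine sup_le (le_iSup₂
            (f := fun c (_ : c ∈ (fun j => θ ^ j) '' Set.Ico (i - e') e) => E c)
            (θ ^ (i - e')) ⟨i - e', ⟨le_rfl, by omega⟩, rfl⟩) (biSup_mono ?_)
          rintro _ ⟨j, hj, rfl⟩
          exact ⟨j, ⟨by have := hj.1; omega, hj.2⟩, rfl⟩
        have hdis : Disjoint (E (θ ^ (i - e'))) (Sum (i + 1)) := hind.disjoint_biSup (by
          rintro ⟨j, hj, hje⟩
          have h4 := hθ.pow_inj hj.2 (by omega) hje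
          have he' : e' ≤ i := by
            refine le_trans ?_ hi
            rw [← hmul]
            exact Nat.le_mul_of_pos_left e' (by have := (Fact.out : p.Prime).two_le; omega)
          have := hj.1
          omega)
        have h5 := Submodule.finrank_sup_add_finrank_inf_eq (E (θ ^ (i - e'))) (Sum (i + 1))
        rw [hdis.eq_bot, finrank_bot, add_zero] at h5
        have h6 := Submodule.finrank_mono hle
        rw [h5] at h6
        refine le_trans h3 ?_
        show _ + finrank (Resid p) (E (θ ^ (i - e'))) ≤ _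
        omega
  have htop : U ≤ levelSub S e := fun c hc φ => by
    obtain ⟨y, hy⟩ := S.exists_root (hU c hc) φ
    obtain ⟨z, hzL, hz0, hz⟩ := S.level y hy.1 hy.2.1 (hy.pow_mem S.prim)
    exact ⟨y * z, hy.mul_mem S.le hzL hz0, hz.trans_eq S.tame.totRam.norm_pow.symm⟩
  have := key e' e le_rfl rfl
  rwa [inf_eq_left.mpr htop] at this

end KummerSetting

end FLTAgent.FlatBound
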