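import Mathlib.LinearAlgebra.Eigenspace.Basic
import Mathlib.LinearAlgebra.FreeModule.Finite.Matrix
import Mathlib.LinearAlgebra.Dual.Lemmas
import Mathlib.FieldTheory.Finite.Basic
import Mathlib.RingTheory.RootsOfUnity.PrimitiveRoots

/-!
# Linear algebra for the counting of Kummer classes

Semilinear descent from `κ` to `𝔽_p` (`finrank_le_of_semilinear`) and the size of the eigenspaces
which can carry classes (`eigS`, `finrank_eigS_le`). Used by `Flat.Counting`.
-/

set_option autoImplicit false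
set_option linter.unusedSectionVars false

noncomputable section

open Module

namespace FLTAgent.FlatBound

variable {p : ℕ} [Fact p.Prime] {κ : Type} [Field κ] [CharP κ p] [Algebra (ZMod p) κ]
  {N : Type} [AddCommGroup N] [Module (ZMod p) N] [Module.Finite (ZMod p) N]

/-- The space carrying the leading coefficients. -/
abbrev Lead (p : ℕ) [Fact p.Prime] (κ : Type) [Field κ] [Algebra (ZMod p) κ] (N : Type)
    [AddCommGroup N] [Module (ZMod p) N] : Type :=
  Dual (ZMod p) N →ₗ[ZMod p] κ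

theorem finrank_lead : finrank κ (Lead p κ N) = finrank (ZMod p) N := by
  rw [Module.finrank_linearMap (ZMod p) κ (Dual (ZMod p) N) κ, Module.finrank_self, mul_one,
    Subspace.dual_finrank_eq]

/-- Semilinear descent: solutions of `β (Q x) = c * (β x) ^ p` are as independent over `κ` as over
`𝔽_p`. -/
theorem finrank_le_of_semilinear {D : Type} [AddCommGroup D] [Module (ZMod p) D]
    [Module.Finite (ZMod p) D] (X : Submodule (ZMod p) (D →ₗ[ZMod p] κ)) (Q : D → D)
    (hQ : Function.Surjective Q) {c : κ}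
    (hX : ∀ β ∈ X, ∀ x, β (Q x) = c * (β x) ^ p) (E : Submodule κ (D →ₗ[ZMod p] κ))
    (hXE : ∀ β ∈ X, β ∈ E) [Module.Finite (ZMod p) X] : finrank (ZMod p) X ≤ finrank κ E := by
  classical
  let b := Module.finBasis (ZMod p) X
  let b' : Fin (finrank (ZMod p) X) → E := fun i => ⟨(b i : D →ₗ[ZMod p] κ), hXE _ (b i).2⟩
  suffices hli : LinearIndependent κ fun i => (b i : D →ₗ[ZMod p] κ) by
    have : Module.Finite κ E := Module.Finite.of_injective E.subtype E.injective_subtype
    have h2 : LinearIndependent κ b' := LinearIndependent.of_comp E.subtype hli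
    simpa using h2.fintype_card_le_finrank
  have hp := (Fact.out : p.Prime)
  rw [linearIndependent_iff']
  intro s
  induction s using Finset.induction with
  | empty => simp
  | insert a s has ih =>
    intro g hg
    by_cases ha : g a = 0
    · rw [Finset.sum_insert has, ha, zero_smul, zero_add] at hg
      intro i hi
      rcases Finset.mem_insert.mp hi with rfl | hi
      exacts [ha, ih g hg i hi]
    exfalso
    set h : Fin (finrank (ZMod p) X) → κ := fun i => g i / g a
    have hh : ∀ x, ∑ i ∈ insert a s, h i * (b i : D →ₗ[ZMod p] κ) x = 0 := fun x => by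
      have := congrArg (fun β : D →ₗ[ZMod p] κ => β x / g a) hg
      simp only [LinearMap.coe_sum, Finset.sum_apply, LinearMap.smul_apply, smul_eq_mul,
        LinearMap.zero_apply, zero_div] at this
      rw [← this, div_eq_mul_inv, Finset.sum_mul]
      exact Finset.sum_congr rfl fun i _ => by simp only [h]; ring
    have hp' : ∀ x, ∑ i ∈ insert a s, h i ^ p * (b i : D →ₗ[ZMod p] κ) x = 0 := fun x => by
      obtain ⟨y, rfl⟩ := hQ x
      have h1 := congrArg (fun z : κ => c * frobenius κ p z) (hh y)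
      simp only [map_sum, Finset.mul_sum, map_mul, map_zero, mul_zero, frobenius_def] at h1
      rw [← h1]
      exact Finset.sum_congr rfl fun i _ => by rw [hX _ (b i).2]; ring
    have ha1 : h a = 1 := div_self ha
    have hzero : ∀ i ∈ s, h i ^ p - h i = 0 :=
      ih (fun i => h i ^ p - h i) (LinearMap.ext fun x => by
      have h1 := hp' x
      have h2 := hh x
      rw [Finset.sum_insert has, ha1, one_pow] at h1
      rw [Finset.sum_insert has, ha1] at h2
      simp only [LinearMap.coe_sum, Finset.sum_apply, LinearMap.smul_apply, smul_eq_mul,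
        LinearMap.zero_apply, sub_mul, Finset.sum_sub_distrib]
      linear_combination h1 - h2)
    have hmem : ∀ i ∈ insert a s, ∃ t : ZMod p, algebraMap (ZMod p) κ t = h i := by
      intro i hi
      rcases Finset.mem_insert.mp hi with rfl | hi
      · exact ⟨1, by rw [map_one, ha1]⟩
      · have h1 := (Subfield.mem_bot_iff_pow_eq_self (F := κ) (p := p)).mpr
          (sub_eq_zero.mp (hzero i hi))
        obtain ⟨n, hn⟩ : ∃ t : ZMod p, algebraMap (ZMod p) κ t = h i := by
          have hle : (⊥ : Subfield κ) ≤ (algebraMap (ZMod p) κ).fieldRange := bot_le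
          exact RingHom.mem_fieldRange.mp (hle h1)
        exact ⟨n, hn⟩
    choose! t ht using hmem
    have h0 : ∑ i ∈ insert a s, t i • b i = 0 := Subtype.ext (LinearMap.ext fun x => by
      simp only [AddSubmonoidClass.coe_finsetSum, Submodule.coe_smul, LinearMap.coe_sum,
        Finset.sum_apply, LinearMap.smul_apply, ZeroMemClass.coe_zero, LinearMap.zero_apply]
      rw [← hh x]
      exact Finset.sum_congr rfl fun i hi => by rw [← ht i hi, Algebra.smul_def])
    have := linearIndependent_iff'.mp b.linearIndependent _ t h0 a (Finset.mem_insert_self a s)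
    have h1 := ht a (Finset.mem_insert_self a s)
    rw [this, map_zero, ha1] at h1
    exact zero_ne_one h1

/-- Precomposition with the transpose of `f`. -/
def twist (f : N →ₗ[ZMod p] N) : Module.End κ (Lead p κ N) where
  toFun β := β ∘ₗ f.dualMap
  map_add' _ _ := rfl
  map_smul' _ _ := rfl

theorem mem_eig_iff {f : N →ₗ[ZMod p] N} {c : κ} {β : Lead p κ N} :
    β ∈ (twist (κ := κ) f).eigenspace c ↔ ∀ φ : Dual (ZMod p) N, β (φ ∘ₗ f) = c * β φ := by
  rw [Module.End.mem_eigenspace_iff, LinearMap.ext_iff]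
  rfl

variable (θ : κ) (e e' : ℕ)

/-- The eigenspaces which can carry classes above level `e`. -/
def eigS (f : N →ₗ[ZMod p] N) : Submodule κ (Lead p κ N) :=
  ⨆ c ∈ (fun j => θ ^ j) '' Set.Ico (e - e') e, (twist (κ := κ) f).eigenspace c

variable {θ e e'}

variable (hθ : IsPrimitiveRoot θ e) (he : 0 < e) (hee' : (p - 1) * e' = e) (hp2 : p ≠ 2)
include hθ he hee' hp2

theorem lt_of_mul_eq : e' < e := by
  have hp := (Fact.out : p.Prime).two_le
  have : 2 ≤ p - 1 := by omega
  rcases Nat.eq_zero_or_pos e' with h0 | h0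
  · omega
  · calc e' < 2 * e' := by omega
      _ ≤ (p - 1) * e' := Nat.mul_le_mul_right _ this
      _ = e := hee'

theorem pow_ne_one_of_mem {j : ℕ} (h1 : e - e' ≤ j) (h2 : j < e) : θ ^ j ≠ 1 :=
  hθ.pow_ne_one_of_pos_of_lt (by have := lt_of_mul_eq hθ he hee' hp2; omega) h2

/-- Two exponents in the range are opposite only for `p = 3`, where both give `-1`. -/
theorem opposite_pow {i j : ℕ} (hi1 : e - e' ≤ i) (hi2 : i < e) (hj1 : e - e' ≤ j) (hj2 : j < e)
    (h : θ ^ i * θ ^ j = 1) : p = 3 ∧ θ ^ j = -1 := by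
  have hlt := lt_of_mul_eq hθ he hee' hp2
  rw [← pow_add, hθ.pow_eq_one_iff_dvd] at h
  obtain ⟨d, hd⟩ := h
  have hd1 : d = 1 := by
    rcases d with _ | _ | d
    · omega
    · rfl
    · have : 2 * e ≤ e * (d + 1 + 1) := by rw [Nat.mul_comm]; gcongr; omega
      omega
  subst hd1
  have hp := (Fact.out : p.Prime).two_le
  have h3 : p = 3 := by
    by_contra hne
    have : 3 ≤ p - 1 := by omega
    have := Nat.mul_le_mul_right e' this
    omega
  subst h3
  have hj : j + j = e := by omega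
  refine ⟨rfl, ?_⟩
  have hne : θ ^ j ≠ 1 := pow_ne_one_of_mem hθ he hee' hp2 hj1 hj2
  have h1 : θ ^ j * θ ^ j = 1 := by rw [← pow_add, hj, hθ.pow_eq_one]
  exact (mul_self_eq_one_iff.mp h1).resolve_left hne

omit hθ he hee' hp2 in
theorem eig_neg_one_eq_bot {f : N →ₗ[ZMod p] N}
    (hf : Function.Injective (f + LinearMap.id : N →ₗ[ZMod p] N)) :
    (twist (κ := κ) f).eigenspace (-1) = ⊥ := by
  rw [eq_bot_iff]
  intro β hβ
  rw [mem_eig_iff] at hβ
  refine (Submodule.mem_bot _).mpr (LinearMap.ext fun φ => ?_)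
  obtain ⟨ψ, rfl⟩ := (LinearMap.dualMap_surjective_iff.mpr hf) φ
  show β (ψ ∘ₗ (f + LinearMap.id)) = 0
  rw [LinearMap.comp_add, LinearMap.comp_id, map_add, hβ]
  ring

/-- No eigenvector for the identity. -/
theorem eigS_id : eigS θ e e' (LinearMap.id : N →ₗ[ZMod p] N) = ⊥ := by
  simp only [eigS, iSup_eq_bot]
  rintro _ ⟨j, hj, rfl⟩
  rw [eq_bot_iff]
  intro β hβ
  rw [mem_eig_iff] at hβ
  refine (Submodule.mem_bot _).mpr (LinearMap.ext fun φ => ?_)
  have h0 := pow_ne_one_of_mem hθ he hee' hp2 hj.1 hj.2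
  have h1 := hβ φ
  rw [LinearMap.comp_id, eq_comm, mul_left_eq_self₀] at h1
  exact h1.resolve_left h0

omit hθ he hee' hp2 in
theorem mem_eig_inv {f g : N →ₗ[ZMod p] N} (hfg : f ∘ₗ g = LinearMap.id) {c : κ}
    (hc : c ≠ 0) {β : Lead p κ N} (hβ : β ∈ (twist (κ := κ) g).eigenspace c) :
    β ∈ (twist (κ := κ) f).eigenspace c⁻¹ := by
  rw [mem_eig_iff] at hβ ⊢
  intro φ
  refine mul_left_cancel₀ hc ?_
  rw [mul_inv_cancel_left₀ hc, ← hβ, LinearMap.comp_assoc, hfg, LinearMap.comp_id]

/-- An eigenspace in the range for an inverse is disjoint from those in the range, except when it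
vanishes. -/
theorem disjoint_eig_inv {f : N →ₗ[ZMod p] N}
    (h3 : p = 3 → Function.Injective (f + LinearMap.id : N →ₗ[ZMod p] N))
    {g : N →ₗ[ZMod p] N} (hfg : f ∘ₗ g = LinearMap.id) {j : ℕ} (h1 : e - e' ≤ j) (h2 : j < e) :
    Disjoint ((twist (κ := κ) g).eigenspace (θ ^ j)) (eigS θ e e' f) := by
  have hθ0 : θ ≠ 0 := hθ.ne_zero he.ne'
  refine Disjoint.mono_left (fun β hβ => mem_eig_inv hfg (pow_ne_zero j hθ0) hβ) ?_
  by_cases hmem : (θ ^ j)⁻¹ ∈ (fun i => θ ^ i) '' Set.Ico (e - e') e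
  · obtain ⟨i, ⟨hi1, hi2⟩, hi⟩ := hmem
    obtain ⟨hp3, hj⟩ := opposite_pow hθ he hee' hp2 hi1 hi2 h1 h2 (by
      show θ ^ i * θ ^ j = 1
      rw [show θ ^ i = (θ ^ j)⁻¹ from hi, inv_mul_cancel₀ (pow_ne_zero j hθ0)])
    rw [hj, inv_neg, inv_one, eig_neg_one_eq_bot (h3 hp3)]
    exact disjoint_bot_left
  · exact (Module.End.eigenspaces_iSupIndep (twist (κ := κ) f)).disjoint_biSup hmem

/-- If the classes fill everything for `f`, there are none for its inverse. -/
theorem eigS_inv_eq_bot {f g : N →ₗ[ZMod p] N} (hfg : f ∘ₗ g = LinearMap.id)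
    (h3 : p = 3 → Function.Injective (f + LinearMap.id : N →ₗ[ZMod p] N))
    (htop : eigS θ e e' f = (⊤ : Submodule κ (Lead p κ N))) :
    eigS θ e e' g = (⊥ : Submodule κ (Lead p κ N)) := by
  simp only [eigS, iSup_eq_bot]
  rintro _ ⟨j, hj, rfl⟩
  have h := disjoint_eig_inv hθ he hee' hp2 h3 hfg hj.1 hj.2
  rwa [htop, disjoint_top] at h

/-- The spaces for `f`, for its inverse, and the fixed space, are independent. -/
theorem eigS_disjoint {f g : N →ₗ[ZMod p] N} (hfg : f ∘ₗ g = LinearMap.id)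
    (h3 : p = 3 → Function.Injective (f + LinearMap.id : N →ₗ[ZMod p] N)) :
    Disjoint (eigS (κ := κ) θ e e' f) (eigS θ e e' g) ∧
      Disjoint (eigS (κ := κ) θ e e' f ⊔ eigS θ e e' g) ((twist (κ := κ) f).eigenspace 1) := by
  set U : Set κ := (fun j => θ ^ j) '' Set.Ico (e - e') e with hU
  set W : Set κ := {c | c⁻¹ ∈ U ∧ c ∉ U}
  have hθ0 : θ ≠ 0 := hθ.ne_zero he.ne'
  let E : κ → Submodule κ (Lead p κ N) := fun c => (twist (κ := κ) f).eigenspace c
  have hind : iSupIndep E := Module.End.eigenspaces_iSupIndep (twist (κ := κ) f)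
  have hf : eigS θ e e' f = ⨆ c ∈ U, E c := rfl
  have hg : eigS (κ := κ) θ e e' g ≤ ⨆ c ∈ W, E c := by
    refine iSup₂_le fun c hc => ?_
    obtain ⟨j, hj, rfl⟩ := hc
    intro β hβ
    have hβ' : β ∈ E (θ ^ j)⁻¹ := mem_eig_inv hfg (pow_ne_zero j hθ0) hβ
    by_cases hU' : (θ ^ j)⁻¹ ∈ U
    · obtain ⟨i, hi, hie⟩ := hU'
      obtain ⟨hp3, hj'⟩ := opposite_pow hθ he hee' hp2 hi.1 hi.2 hj.1 hj.2 (by
        show θ ^ i * θ ^ j = 1
        rw [show θ ^ i = (θ ^ j)⁻¹ from hie, inv_mul_cancel₀ (pow_ne_zero j hθ0)])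
      rw [hj', inv_neg, inv_one] at hβ'
      have h0 : β ∈ (⊥ : Submodule κ (Lead p κ N)) := by
        rw [← eig_neg_one_eq_bot (κ := κ) (h3 hp3)]; exact hβ'
      rw [(Submodule.mem_bot κ).mp h0]
      exact Submodule.zero_mem _
    · exact le_iSup₂ (f := fun c (_ : c ∈ W) => E c) (θ ^ j)⁻¹
        ⟨by rw [inv_inv]; exact ⟨j, hj, rfl⟩, hU'⟩ hβ'
  rw [hf]
  refine ⟨Disjoint.mono_right hg (hind.disjoint_biSup_biSup
    (Set.disjoint_left.mpr fun c hc hW => hW.2 hc)), ?_⟩
  refine Disjoint.mono_left (sup_le (biSup_mono fun _ h => Or.inl h)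
    (hg.trans (biSup_mono fun _ h => Or.inr h)) : _ ≤ ⨆ c ∈ U ∪ W, E c)
    ((hind.disjoint_biSup (x := (1 : κ)) ?_).symm)
  rintro (⟨j, hj, hj1⟩ | ⟨⟨j, hj, hj1⟩, -⟩)
  · exact pow_ne_one_of_mem hθ he hee' hp2 hj.1 hj.2 hj1
  · exact pow_ne_one_of_mem hθ he hee' hp2 hj.1 hj.2 (by rwa [inv_one] at hj1)

/-- If `Ψ` turns `f` into its inverse and `ι` lands in the fixed space, the classes fill at most
half of the rest. -/
theorem finrank_eigS_le {f g : N →ₗ[ZMod p] N} (hfg : f ∘ₗ g = LinearMap.id)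
    (h3 : p = 3 → Function.Injective (f + LinearMap.id : N →ₗ[ZMod p] N))
    (Ψ : N ≃ₗ[ZMod p] N) (hΨ : ∀ x, Ψ (f x) = g (Ψ x))
    {M : Type} [AddCommGroup M] [Module (ZMod p) M] (ι : M →ₗ[ZMod p] N)
    (hι : Function.Injective ι) (hfix : ∀ m, f (ι m) = ι m) :
    2 * finrank κ (eigS (κ := κ) θ e e' f) + finrank (ZMod p) M ≤ finrank (ZMod p) N := by
  have : Module.Finite (ZMod p) M := Module.Finite.of_injective ι hι
  -- transport by `Ψ`
  let T : Lead p κ N ≃ₗ[κ] Lead p κ N :=
    { toFun := fun β => β ∘ₗ (Ψ : N →ₗ[ZMod p] N).dualMap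
      invFun := fun β => β ∘ₗ (Ψ.symm : N →ₗ[ZMod p] N).dualMap
      map_add' := fun _ _ => rfl
      map_smul' := fun _ _ => rfl
      left_inv := fun β => LinearMap.ext fun φ => congrArg β (LinearMap.ext fun x => by simp)
      right_inv := fun β => LinearMap.ext fun φ => congrArg β (LinearMap.ext fun x => by simp) }
  set S := eigS (κ := κ) θ e e' f
  set S' := eigS (κ := κ) θ e e' g
  have hSS' : S.map (T : Lead p κ N →ₗ[κ] Lead p κ N) ≤ S' := by
    simp only [S, S', eigS, Submodule.map_iSup, iSup_le_iff]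
    intro c hc
    refine le_trans ?_ (le_iSup₂ (f := fun c (_ : c ∈ (fun j => θ ^ j) '' Set.Ico (e - e') e) =>
      (twist (κ := κ) g).eigenspace c) c hc)
    rintro _ ⟨β, hβ, rfl⟩
    rw [SetLike.mem_coe, mem_eig_iff] at hβ
    rw [mem_eig_iff]
    intro φ
    show β ((φ ∘ₗ g) ∘ₗ (Ψ : N →ₗ[ZMod p] N)) = c * β (φ ∘ₗ (Ψ : N →ₗ[ZMod p] N))
    rw [← hβ]
    exact congrArg β (LinearMap.ext fun x => congrArg φ (hΨ x).symm)
  -- the fixed part
  let R : Lead p κ M →ₗ[κ] Lead p κ N :=
    { toFun := fun β => β ∘ₗ ι.dualMap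
      map_add' := fun _ _ => rfl
      map_smul' := fun _ _ => rfl }
  have hR : Function.Injective R := fun a b hab => LinearMap.ext fun ψ => by
    obtain ⟨φ, rfl⟩ := (LinearMap.dualMap_surjective_iff.mpr hι) ψ
    exact LinearMap.congr_fun hab φ
  have hR1 : LinearMap.range R ≤ (twist (κ := κ) f).eigenspace 1 := by
    rintro _ ⟨β, rfl⟩
    rw [mem_eig_iff]
    intro φ
    rw [one_mul]
    exact congrArg β (LinearMap.ext fun m => congrArg φ (hfix m))
  obtain ⟨hd1, hd2⟩ := eigS_disjoint hθ he hee' hp2 hfg h3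
  have hd2 : Disjoint (S ⊔ S') (LinearMap.range R) := hd2.mono_right hR1
  have e1 := Submodule.finrank_sup_add_finrank_inf_eq S S'
  have e2 := Submodule.finrank_sup_add_finrank_inf_eq (S ⊔ S') (LinearMap.range R)
  rw [hd1.eq_bot, finrank_bot, add_zero] at e1
  rw [hd2.eq_bot, finrank_bot, add_zero, LinearMap.finrank_range_of_inj hR, finrank_lead] at e2
  have e3 := Submodule.finrank_le (S ⊔ S' ⊔ LinearMap.range R)
  rw [e2, e1, finrank_lead] at e3
  have e4 : finrank κ S ≤ finrank κ S' := by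
    rw [← LinearEquiv.finrank_map_eq T S]
    exact Submodule.finrank_mono hSS'
  omega

end FLTAgent.FlatBound
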