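import Fermat.Agent.TWPrimes.Flat.TotallyRamified

/-!
# Fontaine's bound for rigid totally ramified extensions

If every root of a perturbation, smaller than `|p| ^ (p / (p - 1))`, of the minimal polynomial of
a uniformiser generates a field containing the extension (`IsRigid`), the product of the distances
to the conjugates times the least of them is at least that bound (`fontaine_bound`).
-/

set_option autoImplicit false

noncomputable section

open Polynomial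
open scoped IntermediateField

namespace FLTAgent.FlatBound

open FLTAgent.LocalDuality

variable {p : ℕ} [Fact p.Prime]

/-- Roots of monic polynomials with Eisenstein coefficient bounds. -/
theorem norm_pow_of_root {K : IntermediateField ℚ_[p] (PadicAlgCl p)} {P : K[X]} {n : ℕ}
    (hn : 0 < n) (hP : P.natDegree = n) (hlead : P.coeff n = 1)
    (h0 : ‖(P.coeff 0 : PadicAlgCl p)‖ = ‖(p : PadicAlgCl p)‖)
    (hi : ∀ i < n, ‖(P.coeff i : PadicAlgCl p)‖ ≤ ‖(p : PadicAlgCl p)‖) {α : PadicAlgCl p}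
    (hα : aeval α P = 0) : ‖α‖ ^ n = ‖(p : PadicAlgCl p)‖ := by
  have hp0 : (0 : ℝ) < ‖(p : PadicAlgCl p)‖ := norm_pos_iff.mpr (natCast_p_ne_zero p)
  rw [aeval_eq_sum_range, hP, Finset.sum_range_succ, hlead, one_smul] at hα
  have hα' : ∑ i ∈ Finset.range n, P.coeff i • α ^ i = -α ^ n := eq_neg_of_add_eq_zero_left hα
  have hterm : ∀ i, i < n → ‖P.coeff i • α ^ i‖ ≤ ‖(p : PadicAlgCl p)‖ * ‖α‖ ^ i := by
    intro i hin
    rw [Algebra.smul_def, norm_mul, IntermediateField.algebraMap_apply, _root_.norm_pow]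
    exact mul_le_mul_of_nonneg_right (hi i hin) (by positivity)
  have hlt1 : ‖α‖ < 1 := by
    by_contra hle
    push Not at hle
    obtain ⟨i, hin, hb⟩ := IsUltrametricDist.exists_norm_finsetSum_le_of_nonempty
      (Finset.nonempty_range_iff.mpr hn.ne') (fun i => P.coeff i • α ^ i)
    rw [Finset.mem_range] at hin
    rw [hα', norm_neg, _root_.norm_pow] at hb
    have h1 := hb.trans (hterm i hin)
    have h2 : ‖α‖ ^ i ≤ ‖α‖ ^ n := pow_le_pow_right₀ hle hin.le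
    have h3 : (0 : ℝ) < ‖α‖ ^ n := by positivity
    nlinarith [norm_natCast_p_lt_one p]
  rw [Finset.sum_range_eq_add_Ico _ hn] at hα'
  have hc0 : ‖P.coeff 0 • α ^ 0‖ = ‖(p : PadicAlgCl p)‖ := by
    rw [pow_zero, Algebra.smul_def, mul_one, IntermediateField.algebraMap_apply, h0]
  have hrest : ‖∑ i ∈ Finset.Ico 1 n, P.coeff i • α ^ i‖ < ‖(p : PadicAlgCl p)‖ := by
    rcases (Finset.Ico 1 n).eq_empty_or_nonempty with he | he
    · rw [he, Finset.sum_empty, norm_zero]; exact hp0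
    · obtain ⟨i, hin, hb⟩ := IsUltrametricDist.exists_norm_finsetSum_le_of_nonempty he
        (fun i => P.coeff i • α ^ i)
      rw [Finset.mem_Ico] at hin
      exact (hb.trans (hterm i hin.2)).trans_lt
        (mul_lt_of_lt_one_right hp0 (pow_lt_one₀ (norm_nonneg _) hlt1 (by omega)))
  have := congrArg (fun x => ‖x‖) hα'
  simp only [norm_neg, _root_.norm_pow] at this
  rw [IsUltrametricDist.norm_add_eq_max_of_norm_ne_norm (hc0 ▸ hrest.ne'), hc0,
    max_eq_left hrest.le] at this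
  exact this.symm

/-- Products of ultrametrically close factors are close. -/
theorem norm_prod_sub_prod_lt {ι : Type} (s : Finset ι) (a b : ι → PadicAlgCl p) (c : ι → ℝ)
    (hs : s.Nonempty) (ha : ∀ i ∈ s, ‖a i‖ ≤ c i) (hb : ∀ i ∈ s, ‖b i‖ ≤ c i)
    (hab : ∀ i ∈ s, ‖a i - b i‖ < c i) :
    ‖∏ i ∈ s, a i - ∏ i ∈ s, b i‖ < ∏ i ∈ s, c i := by
  classical
  induction hs using Finset.Nonempty.cons_induction with
  | singleton i => simpa using hab i (Finset.mem_singleton_self i)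
  | cons i s his hs ih =>
    simp only [Finset.forall_mem_cons] at ha hb hab
    rw [Finset.prod_cons, Finset.prod_cons, Finset.prod_cons,
      show a i * ∏ j ∈ s, a j - b i * ∏ j ∈ s, b j =
        (a i - b i) * ∏ j ∈ s, a j + b i * (∏ j ∈ s, a j - ∏ j ∈ s, b j) by ring]
    have hc : 0 < c i := (norm_nonneg _).trans_lt hab.1
    have hcs : ∀ j ∈ s, 0 < c j := fun j hj => (norm_nonneg _).trans_lt (hab.2 j hj)
    refine (IsUltrametricDist.norm_add_le_max _ _).trans_lt (max_lt ?_ ?_)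
    · rw [norm_mul, norm_prod]
      refine (mul_le_mul_of_nonneg_left (Finset.prod_le_prod (fun j _ => norm_nonneg _) ha.2)
        (norm_nonneg _)).trans_lt (mul_lt_mul_of_pos_right hab.1 (Finset.prod_pos hcs))
    · rw [norm_mul]
      exact (mul_le_mul_of_nonneg_right hb.1 (norm_nonneg _)).trans_lt
        (mul_lt_mul_of_pos_left (ih ha.2 hb.2 hab.2) hc)

/-- Approximate roots of the minimal polynomial generate a field containing the extension. -/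
def IsRigid (K F : IntermediateField ℚ_[p] (PadicAlgCl p)) (ϖ : PadicAlgCl p) (n : ℕ) : Prop :=
  ∀ (α : PadicAlgCl p) (ε : ℝ), 0 ≤ ε → ε ^ (p - 1) < ‖(p : PadicAlgCl p)‖ →
    ‖α‖ ^ n = ‖(p : PadicAlgCl p)‖ →
    ‖aeval α (minpoly K ϖ)‖ ≤ ‖(p : PadicAlgCl p)‖ * ε →
    ∀ σ : PadicAlgCl p ≃ₐ[K] PadicAlgCl p, σ α = α → ∀ x ∈ F, σ x = x

variable {K F : IntermediateField ℚ_[p] (PadicAlgCl p)} {ϖ : PadicAlgCl p} {n : ℕ}
  [FiniteDimensional ℚ_[p] K]

theorem IsTotRam.mem_of_root (h : IsTotRam K F ϖ n) (hrig : IsRigid K F ϖ n) {P : K[X]}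
    (hP : P.natDegree = n) {α : PadicAlgCl p} (hα : aeval α P = 0) {ε : ℝ} (hε : 0 ≤ ε)
    (hε' : ε ^ (p - 1) < ‖(p : PadicAlgCl p)‖) (hαn : ‖α‖ ^ n = ‖(p : PadicAlgCl p)‖)
    (hsmall : ‖aeval α (minpoly K ϖ)‖ ≤ ‖(p : PadicAlgCl p)‖ * ε) : α ∈ F := by
  have hint : IsIntegral K α := Algebra.IsIntegral.isIntegral α
  have : FiniteDimensional K K⟮α⟯ := IntermediateField.adjoin.finiteDimensional hint
  have hle : K⟮ϖ⟯ ≤ K⟮α⟯ := by
    rw [IntermediateField.adjoin_simple_le_iff, ← InfiniteGalois.fixedField_fixingSubgroup K⟮α⟯]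
    intro σ
    refine hrig α ε hε hε' hαn hsmall σ ?_ ϖ h.mem
    exact (IntermediateField.mem_fixingSubgroup_iff _ _).mp σ.2 α
      (IntermediateField.mem_adjoin_simple_self K α)
  have hdeg : Module.finrank K K⟮α⟯ ≤ Module.finrank K K⟮ϖ⟯ := by
    rw [IntermediateField.adjoin.finrank hint,
      IntermediateField.adjoin.finrank (Algebra.IsIntegral.isIntegral ϖ), h.minpoly_spec.1, ← hP]
    exact natDegree_le_of_dvd (minpoly.dvd K α hα) fun h0 => by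
      rw [h0, natDegree_zero] at hP; exact h.pos.ne hP
  have heq := IntermediateField.eq_of_le_of_finrank_le hle hdeg
  have hF : K⟮ϖ⟯ ≤ IntermediateField.extendScalars h.le := by
    rw [IntermediateField.adjoin_simple_le_iff]
    exact h.mem
  exact hF (heq ▸ IntermediateField.mem_adjoin_simple_self K α)

omit [FiniteDimensional ℚ_[p] K] in
/-- An element of `F` of norm below `‖p‖` has the norm of a monomial `p ^ a * ϖ ^ j` with `1 ≤ a`,
and `2 ≤ a` when `j = 0`. -/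
private theorem IsTotRam.exists_monomial_of_lt (h : IsTotRam K F ϖ n) {x : PadicAlgCl p}
    (hx : x ∈ F) (hx0 : x ≠ 0) (hlt : ‖x‖ < ‖(p : PadicAlgCl p)‖) :
    ∃ (a : ℤ) (j : Fin n), ‖(p : PadicAlgCl p) ^ a * ϖ ^ (j : ℕ)‖ = ‖x‖ ∧ 1 ≤ a ∧
      ((j : ℕ) = 0 → 2 ≤ a) := by
  obtain ⟨N, hN⟩ := h.values x hx hx0
  obtain ⟨a, j, hNaj, hmono⟩ := h.exists_monomial N
  rw [← hN] at hmono
  have hNn : (n : ℤ) < N := by
    by_contra hle
    push Not at hle
    refine absurd hlt (not_lt.mpr ?_)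
    rw [hN, ← h.norm_pow, ← zpow_natCast]
    exact zpow_le_zpow_right_of_le_one₀ h.norm_pos h.norm_lt_one.le hle
  have ha : 1 ≤ a := by
    by_contra hle
    push Not at hle
    have hj : ((j : ℕ) : ℤ) < n := by exact_mod_cast j.2
    have hn0 : (0 : ℤ) ≤ n := by positivity
    nlinarith
  refine ⟨a, j, hmono, ha, fun hj0 => ?_⟩
  by_contra hle
  push Not at hle
  rw [hj0, show a = 1 by omega] at hNaj
  simp only [mul_one, Nat.cast_zero, add_zero] at hNaj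
  omega

open scoped Classical in
/-- If the product of `ρ` and the distances to the conjugates is below `‖p‖`, the least distance
is less than `‖ϖ‖`. -/
private theorem IsTotRam.minDist_lt (h : IsTotRam K F ϖ n) {ρ : ℝ} {r₁ : PadicAlgCl p}
    (hr₁ : r₁ ∈ conjRoots K ϖ) (hρ₁ : ρ = ‖ϖ - r₁‖)
    (hρ : ∀ r ∈ conjRoots K ϖ, r ≠ ϖ → ρ ≤ ‖ϖ - r‖)
    (hlt : ρ * ∏ r ∈ (conjRoots K ϖ).erase ϖ, ‖ϖ - r‖ < ‖(p : PadicAlgCl p)‖) : ρ < ‖ϖ‖ := by
  have hle : ∀ r ∈ conjRoots K ϖ, ‖ϖ - r‖ ≤ ‖ϖ‖ := fun r hr => by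
    obtain ⟨σ, rfl⟩ := mem_conjRoots_iff.mp hr
    rw [sub_eq_add_neg]
    exact (IsUltrametricDist.norm_add_le_max _ _).trans
      (max_le le_rfl (by rw [norm_neg, norm_base_galois]))
  refine lt_of_le_of_ne (hρ₁ ▸ hle r₁ hr₁) fun heq => hlt.ne ?_
  rw [Finset.prod_congr rfl (g := fun _ => ‖ϖ‖) (fun r hr =>
      le_antisymm (hle r (Finset.mem_of_mem_erase hr))
        (heq ▸ hρ r (Finset.mem_of_mem_erase hr) (Finset.ne_of_mem_erase hr))),
    Finset.prod_const, Finset.card_erase_of_mem (self_mem_conjRoots K ϖ), h.card_conjRoots, heq,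
    ← pow_succ', Nat.sub_add_cancel h.pos, h.norm_pow]

open scoped Classical in
/-- The residual function `u ↦ ∏ (ϖ + (r₁ - ϖ) u - r) / c₀` misses a unit residue of `K`, as it
takes the same value at `0` and `1`. -/
private theorem IsTotRam.exists_unit_not_residual_value (h : IsTotRam K F ϖ n)
    (hRF : ∀ r ∈ conjRoots K ϖ, r ∈ F) {ρ : ℝ} {r₁ : PadicAlgCl p} (hr₁ : r₁ ∈ conjRoots K ϖ)
    (hr₁ne : r₁ ≠ ϖ) (hρ₁ : ρ = ‖ϖ - r₁‖) (hρ : ∀ r ∈ conjRoots K ϖ, r ≠ ϖ → ρ ≤ ‖ϖ - r‖)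
    {c₀ : PadicAlgCl p} (hc₀F : c₀ ∈ F)
    (hc₀ : ‖c₀‖ = ρ * ∏ r ∈ (conjRoots K ϖ).erase ϖ, ‖ϖ - r‖) :
    ∃ c ∈ K, ‖c‖ = 1 ∧ ∀ u ∈ F, ‖u‖ ≤ 1 →
      red ((∏ r ∈ conjRoots K ϖ, (ϖ + (r₁ - ϖ) * u - r)) / c₀) ≠ red c := by
  set R := conjRoots K ϖ
  set γ := r₁ - ϖ with hγdef
  let q : PadicAlgCl p → PadicAlgCl p := fun u => (∏ r ∈ R, (ϖ + γ * u - r)) / c₀
  let bd : PadicAlgCl p → ℝ := fun r => if r = ϖ then ρ else ‖ϖ - r‖
  have hγ : ‖γ‖ = ρ := by rw [hγdef, norm_sub_rev, hρ₁]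
  have hρ0 : 0 < ρ := hρ₁ ▸ norm_pos_iff.mpr (sub_ne_zero.mpr hr₁ne.symm)
  have hbd : ∏ r ∈ R, bd r = ‖c₀‖ := by
    rw [← Finset.mul_prod_erase R _ (self_mem_conjRoots K ϖ), hc₀]
    exact congrArg₂ (· * ·) (if_pos rfl)
      (Finset.prod_congr rfl fun r hr => if_neg (Finset.ne_of_mem_erase hr))
  have hρbd : ∀ r ∈ R, ρ ≤ bd r := fun r hr => by
    simp only [bd]; split_ifs with he
    · exact le_rfl
    · exact hρ r hr he
  have hc₀pos : 0 < ‖c₀‖ := hbd ▸ Finset.prod_pos fun r hr => hρ0.trans_le (hρbd r hr)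
  have hfac : ∀ u : PadicAlgCl p, ‖u‖ ≤ 1 → ∀ r ∈ R, ‖ϖ + γ * u - r‖ ≤ bd r := by
    intro u hu r hr
    rw [show ϖ + γ * u - r = γ * u + (ϖ - r) by ring]
    refine (IsUltrametricDist.norm_add_le_max _ _).trans (max_le ?_ ?_)
    · rw [norm_mul, hγ]
      exact (mul_le_of_le_one_right hρ0.le hu).trans (hρbd r hr)
    · simp only [bd]; split_ifs with he
      · rw [he, sub_self, norm_zero]; exact hρ0.le
      · exact le_rfl
  have hq1 : ∀ u : PadicAlgCl p, ‖u‖ ≤ 1 → ‖q u‖ ≤ 1 := by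
    intro u hu
    rw [norm_div, div_le_one hc₀pos, norm_prod, ← hbd]
    exact Finset.prod_le_prod (fun r _ => norm_nonneg _) (hfac u hu)
  have hqcongr : ∀ u v : PadicAlgCl p, ‖u‖ ≤ 1 → ‖v‖ ≤ 1 → red u = red v →
      red (q u) = red (q v) := by
    intro u v hu hv huv
    rw [red_eq_iff (hq1 u hu) (hq1 v hv), ← sub_div, norm_div, div_lt_one hc₀pos, ← hbd]
    refine norm_prod_sub_prod_lt R _ _ bd ⟨ϖ, self_mem_conjRoots K ϖ⟩ (hfac u hu) (hfac v hv)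
      fun r hr => ?_
    rw [show ϖ + γ * u - r - (ϖ + γ * v - r) = γ * (u - v) by ring, norm_mul, hγ]
    exact lt_of_lt_of_le (mul_lt_of_lt_one_right hρ0 ((red_eq_iff hu hv).mp huv)) (hρbd r hr)
  have hqF : ∀ u ∈ F, q u ∈ F := fun u hu => F.div_mem (prod_mem fun r hr => F.sub_mem
    (F.add_mem h.mem (mul_mem (F.sub_mem (hRF _ hr₁) h.mem) hu)) (hRF r hr)) hc₀F
  choose lift hliftK hlift1 hliftr using
    fun x : residueSubfield K => (mem_residueSubfield K).mp x.2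
  let Φ : residueSubfield K → residueSubfield K := fun x => ⟨red (q (lift x)), h.residue
    (red_mem_residueSubfield F (hqF _ (h.le (hliftK x))) (hq1 _ (hlift1 x)))⟩
  have hΦeq : ∀ (x : residueSubfield K) (u : PadicAlgCl p), ‖u‖ ≤ 1 → red u = x →
      (Φ x : Resid p) = red (q u) :=
    fun x u hu hux => hqcongr _ _ (hlift1 x) hu ((hliftr x).trans hux.symm)
  have hq0 : ∀ u, (∃ r ∈ R, ϖ + γ * u - r = 0) → red (q u) = 0 := fun u ⟨r, hr, hr0⟩ => by
    simp only [q]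
    rw [Finset.prod_eq_zero hr hr0, zero_div, red_zero]
  have hΦ0 : (Φ 0 : Resid p) = 0 := by
    rw [hΦeq 0 0 (norm_zero.trans_le zero_le_one) (by rw [red_zero, ZeroMemClass.coe_zero])]
    exact hq0 _ ⟨ϖ, self_mem_conjRoots K ϖ, by rw [mul_zero, add_zero, sub_self]⟩
  have hΦ1 : (Φ 1 : Resid p) = 0 := by
    rw [hΦeq 1 1 norm_one.le (by rw [red_one, OneMemClass.coe_one])]
    exact hq0 _ ⟨r₁, hr₁, by rw [hγdef, mul_one, add_sub_cancel, sub_self]⟩
  obtain ⟨z, hz⟩ : ∃ z : residueSubfield K, ∀ x, Φ x ≠ z := by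
    by_contra hsurj
    push Not at hsurj
    exact zero_ne_one (Finite.injective_iff_surjective.mpr hsurj
      (Subtype.ext (hΦ0.trans hΦ1.symm)))
  obtain ⟨c, hcK, hc1, hcz⟩ := (mem_residueSubfield K).mp z.2
  have hcn : ‖c‖ = 1 := le_antisymm hc1 (not_lt.mp fun hlt => hz 0 (Subtype.ext
    (by rw [hΦ0, ← hcz, (red_eq_zero_iff hc1).mpr hlt])))
  exact ⟨c, hcK, hcn, fun u hu hu1 he => hz ⟨red u, h.residue (red_mem_residueSubfield F hu hu1)⟩
    (Subtype.ext ((hΦeq _ u hu1 rfl).trans (he.trans hcz)))⟩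

/-- The minimal polynomial of `ϖ` minus `b X ^ j`, `‖b‖ ≤ ‖p‖`, has a root of norm `‖ϖ‖` nearest to
`ϖ` among its conjugates. -/
private theorem IsTotRam.exists_perturbed_root (h : IsTotRam K F ϖ n) {b : K} {j : Fin n}
    (hb : ‖(b : PadicAlgCl p)‖ ≤ ‖(p : PadicAlgCl p)‖)
    (hb0 : (j : ℕ) = 0 → ‖(b : PadicAlgCl p)‖ < ‖(p : PadicAlgCl p)‖) :
    ∃ (Q : K[X]) (α : PadicAlgCl p), Q.natDegree = n ∧ aeval α Q = 0 ∧ ‖α‖ = ‖ϖ‖ ∧
      aeval α (minpoly K ϖ) = (b : PadicAlgCl p) * α ^ (j : ℕ) ∧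
      ∀ r ∈ conjRoots K ϖ, ‖α - ϖ‖ ≤ ‖α - r‖ := by
  set P0 := ‖(p : PadicAlgCl p)‖ with hP0def
  set Q : K[X] := minpoly K ϖ - C b * X ^ (j : ℕ) with hQ
  have hcoef : ∀ i, (Q.coeff i : PadicAlgCl p) =
      ((minpoly K ϖ).coeff i : PadicAlgCl p) - if i = (j : ℕ) then (b : PadicAlgCl p) else 0 := by
    intro i
    rw [hQ, coeff_sub, coeff_C_mul_X_pow]
    split_ifs <;> simp
  obtain ⟨hgdeg, hg0, hgi⟩ := h.minpoly_spec
  have hdeg : Q.natDegree = n := by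
    rw [hQ, natDegree_sub_eq_left_of_natDegree_lt
      ((natDegree_C_mul_X_pow_le b _).trans_lt (hgdeg.symm ▸ j.2)), hgdeg]
  have hlead : Q.coeff n = 1 := by
    rw [hQ, coeff_sub, coeff_C_mul_X_pow, if_neg j.2.ne', sub_zero, ← hgdeg,
      (minpoly.monic (Algebra.IsIntegral.isIntegral ϖ)).coeff_natDegree]
  have hQ0 : ‖(Q.coeff 0 : PadicAlgCl p)‖ = P0 := by
    rw [hcoef]
    split_ifs with hj0
    · have hlt' : ‖-(b : PadicAlgCl p)‖ < P0 := (norm_neg _).trans_lt (hb0 hj0.symm)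
      rw [sub_eq_add_neg, IsUltrametricDist.norm_add_eq_max_of_norm_ne_norm (hg0 ▸ hlt'.ne'),
        hg0, max_eq_left hlt'.le]
    · rw [sub_zero, hg0]
  have hQi : ∀ i < n, ‖(Q.coeff i : PadicAlgCl p)‖ ≤ P0 := by
    intro i hi
    rw [hcoef, sub_eq_add_neg]
    refine (IsUltrametricDist.norm_add_le_max _ _).trans (max_le (hgi i hi) ?_)
    rw [norm_neg]
    split_ifs
    · exact hb
    · rw [norm_zero, hP0def]; exact norm_nonneg _
  obtain ⟨α₀, hα₀⟩ := IsAlgClosed.exists_root (Q.map (algebraMap K (PadicAlgCl p)))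
    (fun hdeg0 => by
      rw [degree_map, degree_eq_natDegree (fun h0 => by
        rw [h0, natDegree_zero] at hdeg; exact h.pos.ne hdeg), hdeg] at hdeg0
      exact h.pos.ne' (by exact_mod_cast hdeg0))
  rw [IsRoot.def, eval_map, ← aeval_def] at hα₀
  obtain ⟨r₀, hr₀, hmin⟩ := (conjRoots K ϖ).exists_min_image (fun r => ‖α₀ - r‖)
    ⟨ϖ, self_mem_conjRoots K ϖ⟩
  obtain ⟨σ, hσ⟩ := mem_conjRoots_iff.mp hr₀
  have hα : aeval (σ.symm α₀) Q = 0 := by rw [aeval_algHom_apply, hα₀, map_zero]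
  refine ⟨Q, σ.symm α₀, hdeg, hα, (pow_left_inj₀ (norm_nonneg _) (norm_nonneg _) h.pos.ne').mp
    ((norm_pow_of_root h.pos hdeg hlead hQ0 hQi hα).trans h.norm_pow.symm), ?_, fun r hr => ?_⟩
  · rw [hQ, map_sub, sub_eq_zero] at hα
    rw [hα, map_mul, aeval_C, aeval_X_pow]
    rfl
  · obtain ⟨τ, rfl⟩ := mem_conjRoots_iff.mp hr
    set α := σ.symm α₀
    have h1 := hmin (σ (τ ϖ)) (mem_conjRoots_iff.mpr ⟨σ * τ, rfl⟩)
    simp only [← hσ] at h1
    rwa [show α₀ = σ α from (σ.apply_symm_apply α₀).symm, ← map_sub, ← map_sub, norm_base_galois,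
      norm_base_galois] at h1

omit [FiniteDimensional ℚ_[p] K] in
open scoped Classical in
/-- A point nearest to `ϖ` among the conjugates, at which the minimal polynomial has norm `ρ` times
the product of the distances to them, is at distance `ρ` from `ϖ`. -/
private theorem norm_sub_eq_of_nearest {α : PadicAlgCl p} {ρ : ℝ}
    (hρ : ∀ r ∈ conjRoots K ϖ, r ≠ ϖ → ρ ≤ ‖ϖ - r‖)
    (hnear : ∀ r ∈ conjRoots K ϖ, ‖α - ϖ‖ ≤ ‖α - r‖)
    (hval : ‖aeval α (minpoly K ϖ)‖ = ρ * ∏ r ∈ (conjRoots K ϖ).erase ϖ, ‖ϖ - r‖) :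
    ‖α - ϖ‖ = ρ := by
  set R := conjRoots K ϖ
  set δ := ‖α - ϖ‖
  have hD0 : 0 < ∏ r ∈ R.erase ϖ, ‖ϖ - r‖ := Finset.prod_pos fun r hr =>
    norm_pos_iff.mpr (sub_ne_zero.mpr (Finset.ne_of_mem_erase hr).symm)
  have hmax : ∀ r ∈ R.erase ϖ, ‖α - r‖ = max δ ‖ϖ - r‖ := by
    intro r hr
    have h1 : ‖α - r‖ ≤ max δ ‖ϖ - r‖ := by
      rw [← sub_add_sub_cancel α ϖ r]
      exact IsUltrametricDist.norm_add_le_max _ _
    refine le_antisymm h1 (max_le (hnear r (Finset.mem_of_mem_erase hr)) ?_)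
    rw [← sub_add_sub_cancel ϖ α r]
    refine (IsUltrametricDist.norm_add_le_max _ _).trans (max_le ?_ le_rfl)
    rw [norm_sub_rev]
    exact hnear r (Finset.mem_of_mem_erase hr)
  rw [aeval_minpoly_eq_prod, norm_prod, ← Finset.mul_prod_erase R _ (self_mem_conjRoots K ϖ),
    Finset.prod_congr rfl hmax] at hval
  rcases le_or_gt δ ρ with hle | hgt
  · rw [Finset.prod_congr rfl (g := fun r => ‖ϖ - r‖) (fun r hr => max_eq_right (hle.trans
      (hρ r (Finset.mem_of_mem_erase hr) (Finset.ne_of_mem_erase hr))))] at hval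
    exact mul_right_cancel₀ hD0.ne' hval
  · refine absurd hval (ne_of_gt ?_)
    refine lt_of_lt_of_le (mul_lt_mul_of_pos_right hgt hD0) ?_
    exact mul_le_mul_of_nonneg_left (Finset.prod_le_prod (fun r _ => norm_nonneg _)
      fun r _ => le_max_right _ _) (norm_nonneg _)

/-- Fontaine's bound. -/
theorem IsTotRam.fontaine_bound (h : IsTotRam K F ϖ n) (hrig : IsRigid K F ϖ n)
    (hst : ∀ σ : LocalGal p, ∀ x ∈ F, σ x ∈ F) {ρ : ℝ}
    (hρ : ∀ r ∈ conjRoots K ϖ, r ≠ ϖ → ρ ≤ ‖ϖ - r‖)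
    {r₁ : PadicAlgCl p} (hr₁ : r₁ ∈ conjRoots K ϖ) (hr₁ne : r₁ ≠ ϖ) (hρ₁ : ρ = ‖ϖ - r₁‖) :
    ‖(p : PadicAlgCl p)‖ ^ p ≤
      (ρ * ∏ r ∈ @Finset.erase _ (Classical.decEq _) (conjRoots K ϖ) ϖ, ‖ϖ - r‖) ^ (p - 1) := by
  classical
  set R := conjRoots K ϖ with hR
  rw [show @Finset.erase _ (Classical.decEq _) R ϖ = R.erase ϖ by congr!]
  set P := ρ * ∏ r ∈ R.erase ϖ, ‖ϖ - r‖ with hPdef
  by_contra hlt
  push Not at hlt
  set P0 := ‖(p : PadicAlgCl p)‖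
  have hP0 : 0 < P0 := norm_pos_iff.mpr (natCast_p_ne_zero p)
  have hP01 : P0 < 1 := norm_natCast_p_lt_one p
  have hRF : ∀ r ∈ R, r ∈ F := fun r hr => by
    obtain ⟨σ, rfl⟩ := mem_conjRoots_iff.mp hr
    exact h.galois_mem hst σ h.mem
  have hρ0 : 0 < ρ := hρ₁ ▸ norm_pos_iff.mpr (sub_ne_zero.mpr hr₁ne.symm)
  -- `P < ‖p‖` is the norm of a monomial
  have hPpos : 0 < P := mul_pos hρ0 (Finset.prod_pos fun r hr =>
    norm_pos_iff.mpr (sub_ne_zero.mpr (Finset.ne_of_mem_erase hr).symm))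
  have hPlt : P < P0 := by
    by_contra hle
    push Not at hle
    exact hlt.not_ge ((pow_le_pow_of_le_one hP0.le hP01.le (Nat.sub_le p 1)).trans
      (pow_le_pow_left₀ hP0.le hle _))
  obtain ⟨a, j, hmono, ha, ha2⟩ := h.exists_monomial_of_lt
    (x := (ϖ - r₁) * ∏ r ∈ R.erase ϖ, (ϖ - r))
    (mul_mem (F.sub_mem h.mem (hRF _ hr₁))
      (prod_mem fun r hr => F.sub_mem h.mem (hRF r (Finset.mem_of_mem_erase hr))))
    (mul_ne_zero (sub_ne_zero.mpr hr₁ne.symm) (Finset.prod_ne_zero_iff.mpr fun r hr =>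
      sub_ne_zero.mpr (Finset.ne_of_mem_erase hr).symm))
    (by rwa [norm_mul, norm_prod, ← hρ₁])
  rw [norm_mul (ϖ - r₁), norm_prod, ← hρ₁, ← hPdef] at hmono
  set c₀ := (p : PadicAlgCl p) ^ a * ϖ ^ (j : ℕ)
  have hc₀0 : c₀ ≠ 0 := norm_pos_iff.mp (hmono ▸ hPpos)
  -- a unit of `K` whose residue is not a value of the residual function
  obtain ⟨c, hcK, hc1, hc⟩ := h.exists_unit_not_residual_value hRF hr₁ hr₁ne hρ₁ hρ
    (mul_mem (zpow_mem (natCast_mem F p) a) (pow_mem h.mem _)) hmono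
  -- the root of the perturbed polynomial nearest to `ϖ`
  let b : K := ⟨c * (p : PadicAlgCl p) ^ a, mul_mem hcK (zpow_mem (natCast_mem K p) a)⟩
  have hbnorm : ‖(b : PadicAlgCl p)‖ = P0 ^ a := by
    show ‖c * _‖ = _
    rw [norm_mul, hc1, one_mul, norm_zpow]
  obtain ⟨Q, α, hQ, hα, hαn, hαg, hnear⟩ := h.exists_perturbed_root (b := b) (j := j)
    (hbnorm.trans_le ((zpow_le_zpow_right_of_le_one₀ hP0 hP01.le ha).trans_eq (zpow_one _)))
    (fun hj0 => hbnorm.trans_lt (((zpow_lt_zpow_iff_right_of_lt_one₀ hP0 hP01).mpr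
      (lt_of_lt_of_le one_lt_two (ha2 hj0))).trans_eq (zpow_one _)))
  have hαP : ‖aeval α (minpoly K ϖ)‖ = P := by
    rw [hαg, norm_mul, hbnorm, _root_.norm_pow, hαn, ← norm_zpow, ← _root_.norm_pow, ← norm_mul,
      hmono]
  -- rigidity puts it in `F`, at distance `ρ` from `ϖ`
  have hαF : α ∈ F := h.mem_of_root hrig hQ hα (ε := P / P0) (div_nonneg hPpos.le hP0.le)
    (by rwa [div_pow, div_lt_iff₀ (pow_pos hP0 _), ← pow_succ', Nat.sub_add_cancel
      (Fact.out : p.Prime).one_lt.le])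
    (by rw [hαn, h.norm_pow]) (by rw [hαP, mul_div_cancel₀ _ hP0.ne'])
  have hδρ : ‖α - ϖ‖ = ρ := norm_sub_eq_of_nearest hρ hnear hαP
  -- so the residual function takes the missing value
  have hγ0 : r₁ - ϖ ≠ 0 := sub_ne_zero.mpr hr₁ne
  set u := (α - ϖ) / (r₁ - ϖ) with hudef
  have hu1 : ‖u‖ = 1 := by rw [norm_div, hδρ, norm_sub_rev r₁ ϖ, ← hρ₁, div_self hρ0.ne']
  refine hc u (F.div_mem (F.sub_mem hαF h.mem) (F.sub_mem (hRF _ hr₁) h.mem)) hu1.le ?_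
  have hqu : (∏ r ∈ R, (ϖ + (r₁ - ϖ) * u - r)) / c₀ = c * (α / ϖ) ^ (j : ℕ) := by
    rw [show ϖ + (r₁ - ϖ) * u = α by rw [hudef, mul_div_cancel₀ _ hγ0, add_sub_cancel], hR,
      ← aeval_minpoly_eq_prod, hαg]
    show c * (p : PadicAlgCl p) ^ a * α ^ (j : ℕ) / c₀ = _
    rw [div_eq_iff hc₀0, div_pow]
    field_simp [pow_ne_zero (j : ℕ) h.ne_zero]
    ring
  have hn1 : ‖α / ϖ‖ = 1 := by rw [norm_div, hαn, div_self h.norm_pos.ne']
  have hratio : red (α / ϖ) = 1 := by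
    rw [← red_one, red_eq_iff hn1.le norm_one.le, div_sub_one h.ne_zero, norm_div, hδρ,
      div_lt_one h.norm_pos]
    exact h.minDist_lt hr₁ hρ₁ hρ hPlt
  rw [hqu, red_mul hc1.le (by rw [_root_.norm_pow, hn1, one_pow]), red_pow hn1.le, hratio,
    one_pow, mul_one]

end FLTAgent.FlatBound
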