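import Fermat.Agent.TWPrimes.Flat.TameBound
import Mathlib.GroupTheory.PGroup

/-!
# Frames for flat classes

A wild representation has a stable line (`exists_frame_of_wild`); an exceptional tame one is
diagonal (`exists_frame_of_involution`). Used by `Flat.Main`.
-/

set_option autoImplicit false

open Matrix Module

noncomputable section

namespace FLTAgent.TWPrimes

open FLTAgent.LocalDuality FLTAgent.FlatBound
open FLTAgent.Density (GalQ Qbar)

variable {k : Type} [Field k] [Finite k] {p : ℕ} [Fact p.Prime] [CharP k p]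
  {r : GalQ →* GL (Fin 2) k} {W : Submodule k (GalQ → Matrix (Fin 2) (Fin 2) k)}
  {F K L : IntermediateField ℚ_[p] (PadicAlgCl p)} {ζ : PadicAlgCl p}
  [FiniteDimensional ℚ_[p] F] [FiniteDimensional ℚ_[p] L]

omit [Finite k] in
theorem two_ne_zero_of_odd (hp2 : p ≠ 2) : (2 : k) ≠ 0 := fun h0 => hp2 (by
  have h := (CharP.cast_eq_zero_iff k p 2).mp (by exact_mod_cast h0)
  exact (Nat.prime_dvd_prime_iff_eq (Fact.out : p.Prime) Nat.prime_two).mp h)

omit [Finite k] [FiniteDimensional ℚ_[p] F] in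
/-- Elements of determinant one fix `ζ`. -/
theorem FlatLevel.zeta_fixed (D : FlatLevel r W F K ζ) {σ : LocalGal p}
    (h : (mat (locHom p r) σ).det = 1) : σ ζ = ζ := by
  obtain ⟨a, ha, hdet⟩ := D.det σ
  rw [h] at hdet
  have h1 : a % p = 1 := by
    have h2 : ((a : ℕ) : k) = ((1 : ℕ) : k) := by rw [Nat.cast_one]; exact hdet.symm
    rw [CharP.natCast_eq_natCast k p] at h2
    rwa [Nat.ModEq, Nat.mod_eq_of_lt (Fact.out : p.Prime).one_lt] at h2
  rw [ha, pow_eq_pow_mod a D.prim.pow_eq_one, h1, pow_one]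

/-- The wild elements form a group. -/
def wildGroup [FiniteDimensional ℚ_[p] K] {ϖ : PadicAlgCl p} {n : ℕ} (hT : IsTotRam K L ϖ n) :
    Subgroup (LocalGal p) where
  carrier := {σ | IsWild K ϖ σ}
  one_mem' := ⟨fun x _ => rfl, by simpa using hT.ne_zero⟩
  mul_mem' {σ τ} hσ hτ := ⟨fun x hx => by rw [AlgEquiv.mul_apply, hτ.1 x hx, hσ.1 x hx], by
    rw [AlgEquiv.mul_apply, ← sub_add_sub_cancel (σ (τ ϖ)) (σ ϖ) ϖ, ← map_sub]
    exact (IsUltrametricDist.norm_add_le_max _ _).trans_lt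
      (max_lt ((norm_galois σ _).trans_lt hτ.2) hσ.2)⟩
  inv_mem' {σ} hσ := ⟨fun x hx => by
      conv_lhs => rw [← hσ.1 x hx]
      rw [← AlgEquiv.mul_apply, inv_mul_cancel, AlgEquiv.one_apply], by
    rw [← norm_galois σ, map_sub, ← AlgEquiv.mul_apply, mul_inv_cancel, AlgEquiv.one_apply,
      norm_sub_rev]
    exact hσ.2⟩

/-- A wild representation fixes a line. -/
theorem exists_frame_of_wild (D : FlatLevel r W F K ζ) [FiniteDimensional ℚ_[p] K]
    (hst : ∀ g : LocalGal p, ∀ x ∈ L, g x ∈ L)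
    (hiff : ∀ σ : LocalGal p, (∀ x ∈ L, σ x = x) ↔ locHom p r σ = 1 ∧ σ ∈ inertiaAt F)
    {ϖ : PadicAlgCl p} {n : ℕ} (hT : IsTotRam K L ϖ n) {σ₀ : LocalGal p} (hσ₀ : IsWild K ϖ σ₀)
    (hne : σ₀ ϖ ≠ ϖ) :
    ∃ P : GL (Fin 2) k, IsUpper p ((MulAut.conj P⁻¹).toMonoidHom.comp r) ∧
      dA p ((MulAut.conj P⁻¹).toMonoidHom.comp r) σ₀ = 1 ∧
      dD p ((MulAut.conj P⁻¹).toMonoidHom.comp r) σ₀ = 1 ∧ locHom p r σ₀ ≠ 1 := by
  classical
  have hp := (Fact.out : p.Prime)
  have hne1 : locHom p r σ₀ ≠ 1 := fun h1 =>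
    hne ((hiff σ₀).mpr ⟨h1, (mem_inertiaAt_iff D.unram).mpr hσ₀.1⟩ ϖ hT.mem)
  set Wd := wildGroup hT
  set Q := Wd.map (locHom p r)
  -- the image is a `p`-group
  have hpow : ∀ σ, IsWild K ϖ σ → ∃ a : ℕ, locHom p r σ ^ p ^ a = 1 := by
    intro σ hσ
    obtain ⟨a, m, hm, hN⟩ := Nat.exists_eq_pow_mul_and_not_dvd
      (orderOf_pos (locHom p r σ)).ne' p hp.ne_one
    refine ⟨a, ?_⟩
    have hσ' := hT.isWild_pow hst hσ (p ^ a)
    have h1 : ((σ ^ p ^ a) ^ m) ϖ = ϖ := by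
      refine ((hiff _).mpr ⟨?_, (mem_inertiaAt_iff D.unram).mpr
        (hT.isWild_pow hst hσ' m).1⟩) ϖ hT.mem
      rw [map_pow, map_pow, ← pow_mul, ← hN, pow_orderOf_eq_one]
    have h2 := hT.apply_eq hσ'.1 (hT.wild_eq_of_pow hst hσ' hm h1)
    rw [← map_pow]
    exact ((hiff _).mp h2).1
  have hQ : IsPGroup p Q := by
    rintro ⟨_, σ, hσ, rfl⟩
    obtain ⟨a, ha⟩ := hpow σ hσ
    exact ⟨a, Subtype.ext ha⟩
  let : MulAction Q (Fin 2 → k) :=
    { smul := fun q v => (q : GL (Fin 2) k).1 *ᵥ v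
      one_smul := fun v => Matrix.one_mulVec v
      mul_smul := fun q q' v => (Matrix.mulVec_mulVec _ _ _).symm }
  have hdvd : p ∣ Nat.card (Fin 2 → k) := by
    have : Fintype k := Fintype.ofFinite k
    obtain ⟨m, -, hm⟩ := FiniteField.card k p
    rw [Nat.card_eq_fintype_card, Fintype.card_fun, Fintype.card_fin, hm, ← pow_mul]
    exact dvd_pow_self p (by positivity)
  obtain ⟨v, hv, hv0⟩ := hQ.exists_fixed_point_of_prime_dvd_card_of_fixed_point (Fin 2 → k) hdvd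
    (a := 0) (fun q => Matrix.mulVec_zero _)
  obtain ⟨P, hP⟩ : ∃ P : GL (Fin 2) k, P.1 *ᵥ ![1, 0] = v := by
    by_cases h0 : v 0 = 0
    · have h1 : v 1 ≠ 0 := fun h1 => hv0.symm (funext fun i => by fin_cases i <;> simp [h0, h1])
      refine ⟨GeneralLinearGroup.mkOfDetNeZero !![v 0, 1; v 1, 0]
        (by simp [Matrix.det_fin_two, h1]), funext fun i => ?_⟩
      fin_cases i <;>
        simp [GeneralLinearGroup.mkOfDetNeZero, Matrix.mulVec, dotProduct, Fin.sum_univ_two]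
    · refine ⟨GeneralLinearGroup.mkOfDetNeZero !![v 0, 0; v 1, 1]
        (by simp [Matrix.det_fin_two, h0]), funext fun i => ?_⟩
      fin_cases i <;>
        simp [GeneralLinearGroup.mkOfDetNeZero, Matrix.mulVec, dotProduct, Fin.sum_univ_two]
  set r' := (MulAut.conj P⁻¹).toMonoidHom.comp r with hr'
  have hloc : ∀ g, locHom p r' g = P⁻¹ * locHom p r g * P := fun g => by
    show MulAut.conj P⁻¹ (r (toGlobal p g)) = _
    rw [MulAut.conj_apply, inv_inv]
    rfl
  have hfix : ∀ σ, IsWild K ϖ σ → mat (locHom p r') σ *ᵥ (![1, 0] : Fin 2 → k) = ![1, 0] := by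
    intro σ hσ
    have h1 : (locHom p r σ).1 *ᵥ v = v := hv ⟨locHom p r σ, σ, hσ, rfl⟩
    rw [mat, hloc, Units.val_mul, Units.val_mul, mul_assoc, ← Matrix.mulVec_mulVec,
      ← Matrix.mulVec_mulVec, hP, h1, ← hP, Matrix.mulVec_mulVec, ← Units.val_mul, inv_mul_cancel,
      Units.val_one, Matrix.one_mulVec]
  have hcol : ∀ σ, IsWild K ϖ σ →
      mat (locHom p r') σ 0 0 = 1 ∧ mat (locHom p r') σ 1 0 = 0 := fun σ hσ => by
    have h := hfix σ hσ
    exact ⟨by simpa [Matrix.mulVec, dotProduct, Fin.sum_univ_two] using congr_fun h 0,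
      by simpa [Matrix.mulVec, dotProduct, Fin.sum_univ_two] using congr_fun h 1⟩
  have hd1 : mat (locHom p r') σ₀ 1 1 = 1 := by
    obtain ⟨a, ha⟩ := hpow σ₀ hσ₀
    have h1 : (mat (locHom p r') σ₀).det ^ p ^ a = 1 := by
      rw [mat, hloc, Units.val_mul, Units.val_mul, Matrix.det_units_conj', ← Matrix.det_pow,
        ← Units.val_pow_eq_pow_val, ha, Units.val_one, Matrix.det_one]
    rw [Matrix.det_fin_two, (hcol σ₀ hσ₀).1, (hcol σ₀ hσ₀).2, one_mul, mul_zero, sub_zero] at h1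
    have : ExpChar k p := ExpChar.prime hp
    refine iterateFrobenius_inj k p a ?_
    rw [iterateFrobenius_def, iterateFrobenius_def, one_pow, h1]
  refine ⟨P, fun g => ?_, (hcol σ₀ hσ₀).1, hd1, hne1⟩
  by_contra hg
  have hσ' : IsWild K ϖ (g⁻¹ * σ₀ * g) := by
    refine ⟨fun x hx => ?_, ?_⟩
    · have := D.normal g⁻¹ σ₀ hσ₀.1 x hx
      rwa [inv_inv] at this
    · have h1 := hT.norm_sub_le hσ₀.1 (hst g ϖ hT.mem)
      rw [norm_galois, div_mul_cancel₀ _ hT.norm_pos.ne'] at h1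
      rw [AlgEquiv.mul_apply, AlgEquiv.mul_apply, ← norm_galois g, map_sub, ← AlgEquiv.mul_apply g,
        mul_inv_cancel, AlgEquiv.one_apply]
      exact h1.trans_lt hσ₀.2
  have h2 := congrArg (fun u => mat (locHom p r') g *ᵥ u) (hfix _ hσ')
  simp only [Matrix.mulVec_mulVec, ← mat_mul] at h2
  rw [mul_assoc, mul_inv_cancel_left] at h2
  rw [mat_mul, ← Matrix.mulVec_mulVec] at h2
  refine hne1 ?_
  have e1 := congr_fun h2 0
  simp [Matrix.mulVec, dotProduct, Fin.sum_univ_two, (hcol σ₀ hσ₀).1] at e1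
  have hb : mat (locHom p r') σ₀ 0 1 = 0 := e1.resolve_right hg
  have h3 : locHom p r' σ₀ = 1 := Units.ext (Matrix.ext fun i j => by
    fin_cases i <;> fin_cases j
    exacts [(hcol σ₀ hσ₀).1, hb, (hcol σ₀ hσ₀).2, hd1])
  rw [hloc] at h3
  rwa [mul_assoc, inv_mul_eq_one, eq_comm, mul_eq_right] at h3

omit [Finite k] in
/-- A trace zero involution is diagonal in some frame. -/
theorem exists_frame_of_involution (hp2 : p ≠ 2) {R : Matrix (Fin 2) (Fin 2) k}
    (htr : R.trace = 0) (hdet : R.det = -1) :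
    ∃ P : GL (Fin 2) k, (P⁻¹ : GL (Fin 2) k).1 * R * P.1 = !![-1, 0; 0, 1] := by
  have h2 := two_ne_zero_of_odd (k := k) hp2
  rw [Matrix.trace_fin_two] at htr
  rw [Matrix.det_fin_two] at hdet
  have h11 : R 1 1 = -R 0 0 := eq_neg_of_add_eq_zero_right htr
  suffices ∃ P : GL (Fin 2) k, R * P.1 = P.1 * !![-1, 0; 0, 1] by
    obtain ⟨P, hP⟩ := this
    exact ⟨P, by rw [mul_assoc, hP, ← mul_assoc, ← Units.val_mul, inv_mul_cancel, Units.val_one,
      one_mul]⟩
  rw [h11] at hdet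
  by_cases ha : R 0 0 = 1
  · refine ⟨GeneralLinearGroup.mkOfDetNeZero !![R 0 1, R 0 0 + 1; R 1 1 - 1, R 1 0] ?_, ?_⟩
    · rw [Matrix.det_fin_two]
      simp only [Matrix.of_apply, Matrix.cons_val', Matrix.cons_val_zero, Matrix.cons_val_one,
        Matrix.cons_val_fin_one, Matrix.empty_val', h11, ha] at hdet ⊢
      intro h0
      refine mul_ne_zero h2 h2 ?_
      linear_combination h0 + hdet
    · ext i j
      fin_cases i <;> fin_cases j <;>
        simp [GeneralLinearGroup.mkOfDetNeZero, Matrix.mul_apply, Fin.sum_univ_two, h11, ha] <;>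
        simp [ha] at hdet <;> grind
  · refine ⟨GeneralLinearGroup.mkOfDetNeZero !![R 0 0 - 1, R 0 1; R 1 0, 1 - R 0 0] ?_, ?_⟩
    · rw [Matrix.det_fin_two]
      simp only [Matrix.of_apply, Matrix.cons_val', Matrix.cons_val_zero, Matrix.cons_val_one,
        Matrix.cons_val_fin_one, Matrix.empty_val']
      intro h0
      refine mul_ne_zero h2 (sub_ne_zero.mpr ha) ?_
      linear_combination h0 - hdet
    · ext i j
      fin_cases i <;> fin_cases j <;>
        simp [GeneralLinearGroup.mkOfDetNeZero, Matrix.mul_apply, Fin.sum_univ_two, h11] <;>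
        first | ring1 | linear_combination hdet | linear_combination -hdet

end FLTAgent.TWPrimes
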