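import Fermat.Agent.TWPrimes.Flat.Tame
import Mathlib.RingTheory.RootsOfUnity.PrimitiveRoots
import Mathlib.Algebra.Polynomial.Lifts

/-!
# Kummer extensions inside point fields of flat models

If a `p`-th root of an element of a tame extension lies in a point field, the element is, up to
`p`-th powers, congruent to one modulo `p`. The core `not_mem_pointField`: a root at a lower level
gives conjugates too close for Fontaine's bound.
-/

set_option autoImplicit false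
set_option linter.unusedSectionVars false

noncomputable section

open Polynomial
open scoped IntermediateField

namespace FLTAgent.FlatBound

open FLTAgent.LocalDuality

variable {p : ℕ} [Fact p.Prime]

theorem norm_coeff_prod_le_one {ι : Type} (s : Finset ι) (r : ι → PadicAlgCl p)
    (h : ∀ i ∈ s, ‖r i‖ ≤ 1) (m : ℕ) : ‖(∏ i ∈ s, (X - C (r i))).coeff m‖ ≤ 1 := by
  have hmem : (∏ i ∈ s, (X - C (r i))) ∈ (Polynomial.mapRingHom (padicIntegers p).subtype).range :=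
    prod_mem fun i hi => ⟨X - C ⟨r i, mem_integers.mpr (h i hi)⟩, by simp⟩
  obtain ⟨P, hP⟩ := hmem
  rw [← hP, coe_mapRingHom, coeff_map]
  exact mem_integers.mp (P.coeff m).2

theorem norm_pow_sub_pow_le {a b : PadicAlgCl p} {r : ℝ} (ha : ‖a‖ ≤ r) (hb : ‖b‖ ≤ r) (n : ℕ) :
    ‖a ^ n - b ^ n‖ ≤ ‖a - b‖ * r ^ (n - 1) := by
  have hr : 0 ≤ r := (norm_nonneg _).trans ha
  rw [← geom_sum₂_mul, norm_mul, mul_comm]
  refine mul_le_mul_of_nonneg_left ?_ (norm_nonneg _)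
  refine IsUltrametricDist.norm_sum_le_of_forall_le_of_nonneg (pow_nonneg hr _) fun i hi => ?_
  rw [Finset.mem_range] at hi
  rw [norm_mul, _root_.norm_pow, _root_.norm_pow]
  calc ‖a‖ ^ i * ‖b‖ ^ (n - 1 - i) ≤ r ^ i * r ^ (n - 1 - i) :=
        mul_le_mul (pow_le_pow_left₀ (norm_nonneg _) ha i) (pow_le_pow_left₀ (norm_nonneg _) hb _)
          (by positivity) (pow_nonneg hr i)
    _ = r ^ (n - 1) := by rw [← pow_add]; congr 1; omega

/-- Distances in a fibre of `σ ↦ σ w` are bounded by the distance of `w` and its image. -/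
theorem norm_prod_fibre_le {K E F : IntermediateField ℚ_[p] (PadicAlgCl p)}
    [FiniteDimensional ℚ_[p] K] {ϖ : PadicAlgCl p} {n : ℕ} (h : IsTotRam K F ϖ n)
    (σ : PadicAlgCl p ≃ₐ[K] PadicAlgCl p) {d : ℝ} (hd : 0 ≤ d)
    (hE : ∀ c ∈ E, ‖c‖ ≤ 1 → ‖σ c - c‖ ≤ d) :
    ‖∏ h ∈ conjRoots E ϖ, (ϖ - σ h)‖ ≤ d := by
  classical
  set m := minpoly E ϖ
  have hnorm : ∀ r ∈ conjRoots E ϖ, ‖r‖ ≤ 1 := fun r hr => by
    obtain ⟨θ, rfl⟩ := mem_conjRoots_iff.mp hr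
    rw [norm_base_galois]; exact h.norm_lt_one.le
  have hcoef : ∀ i, ‖(m.coeff i : PadicAlgCl p)‖ ≤ 1 := by
    intro i
    have e : m.map (algebraMap E (PadicAlgCl p)) = ∏ r ∈ conjRoots E ϖ, (X - C r) := by
      rw [conjRoots, Finset.prod_eq_multiset_prod, Multiset.toFinset_val, Multiset.dedup_eq_self.mpr
        (Polynomial.nodup_roots (show (minpoly E ϖ).Separable from
          Algebra.IsSeparable.isSeparable E ϖ).map)]
      exact (IsAlgClosed.splits _).eq_prod_roots_of_monic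
        ((minpoly.monic (Algebra.IsIntegral.isIntegral ϖ)).map _)
    have := norm_coeff_prod_le_one (conjRoots E ϖ) id hnorm i
    simp only [id_eq, ← e, coeff_map] at this
    exact this
  have h1 : ∏ h ∈ conjRoots E ϖ, (ϖ - σ h) = σ (aeval (σ.symm ϖ) m) := by
    rw [aeval_minpoly_eq_prod, map_prod]
    simp
  have h2 : σ (aeval (σ.symm ϖ) m) =
      ∑ i ∈ Finset.range (m.natDegree + 1), σ (m.coeff i : PadicAlgCl p) * ϖ ^ i := by
    rw [aeval_eq_sum_range, map_sum]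
    exact Finset.sum_congr rfl fun i _ => by
      rw [Algebra.smul_def, map_mul, map_pow, AlgEquiv.apply_symm_apply]; rfl
  have h3 : (0 : PadicAlgCl p) =
      ∑ i ∈ Finset.range (m.natDegree + 1), (m.coeff i : PadicAlgCl p) * ϖ ^ i := by
    rw [← minpoly.aeval E ϖ, aeval_eq_sum_range]
    exact Finset.sum_congr rfl fun i _ => by rw [Algebra.smul_def]; rfl
  rw [h1, h2, ← sub_zero (∑ i ∈ Finset.range (m.natDegree + 1), σ _ * _), h3,
    ← Finset.sum_sub_distrib]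
  refine IsUltrametricDist.norm_sum_le_of_forall_le_of_nonneg hd fun i _ => ?_
  rw [← sub_mul, norm_mul, _root_.norm_pow]
  exact (mul_le_of_le_one_right (norm_nonneg _)
    (pow_le_one₀ (norm_nonneg _) h.norm_lt_one.le)).trans
    (hE _ (m.coeff i).2 (hcoef i))

section Twist

variable {L K₀ K : IntermediateField ℚ_[p] (PadicAlgCl p)} {l : PadicAlgCl p} {e : ℕ}

/-- Exponents turning the value `m / p` into `1 / p`. -/
theorem exists_twist_exponents {m : ℤ} (hm : ¬ (p : ℤ) ∣ m) :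
    ∃ (A : ℕ) (B : ℤ), 0 < A ∧ (A : ℤ) * m + B * p = 1 := by
  have hp := (Fact.out : p.Prime)
  obtain ⟨a, b, hab⟩ : IsCoprime m (p : ℤ) :=
    ((Nat.prime_iff_prime_int.mp hp).coprime_iff_not_dvd.mpr hm).symm
  have hppos : (0 : ℤ) < p := by exact_mod_cast hp.pos
  have hAB : (((a % p).toNat : ℕ) : ℤ) * m + (b + (a / p) * m) * p = 1 := by
    rw [Int.toNat_of_nonneg (Int.emod_nonneg _ hppos.ne')]
    linear_combination hab + m * (Int.emod_add_ediv_mul a p)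
  refine ⟨(a % p).toNat, b + (a / p) * m, Nat.pos_of_ne_zero fun hA => ?_, hAB⟩
  rw [hA, Nat.cast_zero, zero_mul, zero_add] at hAB
  have : (p : ℤ) ∣ 1 := ⟨b + (a / p) * m, by linear_combination -hAB⟩
  exact hp.ne_one (by exact_mod_cast Int.eq_one_of_dvd_one (by positivity) this)

/-- The twist of `u` has the norm of a `p`-th root of `l`. -/
theorem norm_twist_pow {u : PadicAlgCl p} {A : ℕ} {B m : ℤ} (hl : ‖l‖ ≠ 0)
    (hu : ‖u‖ ^ p = ‖l‖ ^ m) (hAB : (A : ℤ) * m + B * p = 1) :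
    ‖u ^ A * l ^ B‖ ^ p = ‖l‖ := by
  rw [norm_mul, mul_pow, _root_.norm_pow, ← pow_mul, mul_comm A p, pow_mul, hu, norm_zpow,
    ← zpow_natCast, ← zpow_natCast, ← zpow_mul, ← zpow_mul, ← zpow_add₀ hl,
    mul_comm m (A : ℤ), hAB, zpow_one]

/-- The twist of a conjugate close to `u` is close to the twist of `u`. -/
theorem norm_twist_sub_le {u b : PadicAlgCl p} {δ : ℝ} (hδ1 : δ ≤ 1)
    (hd : ‖b - u‖ ≤ δ * ‖u‖) {A : ℕ} (hA : 0 < A) (B : ℤ) :
    ‖b ^ A * l ^ B - u ^ A * l ^ B‖ ≤ δ * ‖u ^ A * l ^ B‖ := by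
  have hbu : ‖b‖ ≤ ‖u‖ := by
    rw [← sub_add_cancel b u]
    exact (IsUltrametricDist.norm_add_le_max _ _).trans
      (max_le (hd.trans (mul_le_of_le_one_left (norm_nonneg _) hδ1)) le_rfl)
  rw [← sub_mul, norm_mul, norm_mul, ← mul_assoc, _root_.norm_pow]
  refine mul_le_mul_of_nonneg_right ?_ (norm_nonneg _)
  refine (norm_pow_sub_pow_le hbu le_rfl A).trans ?_
  refine (mul_le_mul_of_nonneg_right hd (by positivity)).trans (le_of_eq ?_)
  rw [mul_assoc, ← pow_succ', Nat.sub_add_cancel hA]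

variable [FiniteDimensional ℚ_[p] L] [FiniteDimensional ℚ_[p] K₀]

/-- The conjugates of a twist of `u` are parametrised by those of `l` and of `u`. -/
theorem exists_twist_param [DecidableEq (PadicAlgCl p)] (hL : IsTame L K₀ l e) (hK₀K : K₀ ≤ K)
    {u : PadicAlgCl p} {T₀ : Finset (PadicAlgCl p)}
    (hconj : ∀ τ : LocalGal p, (∀ a ∈ L, τ a = a) → τ u ∈ T₀) (A : ℕ) (B : ℤ) :
    ∃ f : PadicAlgCl p × PadicAlgCl p → PadicAlgCl p, (∀ b, f (1, b) = b ^ A * l ^ B) ∧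
      conjRoots K (u ^ A * l ^ B) ⊆
        (Polynomial.nthRootsFinset e (1 : PadicAlgCl p) ×ˢ T₀).image f := by
  classical
  have he0 : 0 < e := hL.totRam.pos
  have hl0 : l ≠ 0 := hL.totRam.ne_zero
  let Θ : PadicAlgCl p → (PadicAlgCl p ≃ₐ[K] PadicAlgCl p) := fun a =>
    if a = 1 then 1 else if ha : ∃ σ : PadicAlgCl p ≃ₐ[K] PadicAlgCl p, σ l = a * l then ha.choose
      else 1
  have hΘ : ∀ a (σ : PadicAlgCl p ≃ₐ[K] PadicAlgCl p), σ l = a * l → Θ a l = a * l := by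
    intro a σ hσ
    by_cases h1 : a = 1
    · simp [Θ, h1]
    · have hex : ∃ σ : PadicAlgCl p ≃ₐ[K] PadicAlgCl p, σ l = a * l := ⟨σ, hσ⟩
      simp only [Θ, if_neg h1, dif_pos hex]
      exact hex.choose_spec
  refine ⟨fun z => Θ z.1 (z.2 ^ A * l ^ B), fun b => by simp [Θ], fun r hr => ?_⟩
  have hσfix : ∀ (σ : PadicAlgCl p ≃ₐ[K] PadicAlgCl p), ∀ a ∈ K₀, σ a = a :=
    fun σ a ha => σ.commutes ⟨a, hK₀K ha⟩
  obtain ⟨σ, rfl⟩ := mem_conjRoots_iff.mp hr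
  set a := σ l / l
  have hal : σ l = a * l := (div_mul_cancel₀ _ hl0).symm
  set τ := σ.trans (Θ a).symm with hτ
  have hτl : τ l = l := by
    show (Θ a).symm (σ l) = l
    rw [AlgEquiv.symm_apply_eq, hΘ a σ hal, hal]
  refine Finset.mem_image.mpr ⟨(a, τ u),
    Finset.mem_product.mpr ⟨(Polynomial.mem_nthRootsFinset he0 _).mpr ?_,
      hconj (τ.restrictScalars ℚ_[p])
        (hL.apply_eq (σ := τ.restrictScalars ℚ_[p]) (hσfix τ) hτl)⟩, ?_⟩
  · rw [div_pow, ← map_pow, hσfix σ _ hL.pow_mem, div_self (pow_ne_zero _ hl0)]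
  · show Θ a ((τ u) ^ A * l ^ B) = σ (u ^ A * l ^ B)
    have e1 : (τ u) ^ A * l ^ B = τ (u ^ A * l ^ B) := by
      rw [map_mul, map_pow, map_zpow₀, hτl]
    rw [e1]
    exact (Θ a).apply_symm_apply (σ (u ^ A * l ^ B))

/-- The twist has `p * e` conjugates, `p - 1` of them close to it. -/
theorem exists_close_conjRoots [DecidableEq (PadicAlgCl p)] (hL : IsTame L K₀ l e) (hK₀K : K₀ ≤ K)
    {u : PadicAlgCl p} {T₀ : Finset (PadicAlgCl p)} (hu₀ : u ∈ T₀) (hcard : T₀.card ≤ p)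
    (hconj : ∀ τ : LocalGal p, (∀ a ∈ L, τ a = a) → τ u ∈ T₀) {A : ℕ} (hA : 0 < A) (B : ℤ)
    (hwU : IsUnif K (u ^ A * l ^ B) (p * e)) {δ : ℝ} (hδ1 : δ ≤ 1)
    (hδ : ∀ b ∈ T₀, ‖b - u‖ ≤ δ * ‖u‖) :
    (conjRoots K (u ^ A * l ^ B)).card = p * e ∧
      ∃ T ⊆ (conjRoots K (u ^ A * l ^ B)).erase (u ^ A * l ^ B), T.card = p - 1 ∧
        ∀ r ∈ T, ‖r - u ^ A * l ^ B‖ ≤ δ * ‖u ^ A * l ^ B‖ := by
  classical
  have he0 : 0 < e := hL.totRam.pos
  obtain ⟨f, hf1, hSim⟩ := exists_twist_param (K := K) hL hK₀K hconj A B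
  set w := u ^ A * l ^ B
  set S := conjRoots K w with hSdef
  set μe := Polynomial.nthRootsFinset e (1 : PadicAlgCl p)
  have hμe : μe.card ≤ e := by
    show (Polynomial.nthRootsFinset e (1 : PadicAlgCl p)).card ≤ e
    rw [Polynomial.nthRootsFinset_def]
    exact (Multiset.toFinset_card_le _).trans (Polynomial.card_nthRoots e 1)
  have hScard : p * e ≤ S.card := by
    rw [hSdef, FlatBound.card_conjRoots]
    by_contra hlt
    push Not at hlt
    exact minpoly.ne_zero (Algebra.IsIntegral.isIntegral w)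
      (hwU.eq_zero_of_aeval hlt (minpoly.aeval K w))
  have himle : ((μe ×ˢ T₀).image f).card ≤ p * e := by
    refine Finset.card_image_le.trans ?_
    rw [Finset.card_product, mul_comm p e]
    exact Nat.mul_le_mul hμe hcard
  have hSeq : S = (μe ×ˢ T₀).image f :=
    Finset.eq_of_subset_of_card_le hSim (himle.trans hScard)
  have hScard' : S.card = p * e := le_antisymm (hSeq ▸ himle) hScard
  have hinj : Set.InjOn f (μe ×ˢ T₀ : Finset (PadicAlgCl p × PadicAlgCl p)) := by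
    rw [← Finset.card_image_iff]
    refine le_antisymm Finset.card_image_le ?_
    rw [← hSeq, hScard', Finset.card_product, mul_comm p e]
    exact Nat.mul_le_mul hμe hcard
  have h1e : (1 : PadicAlgCl p) ∈ μe := (Polynomial.mem_nthRootsFinset he0 _).mpr (one_pow e)
  have hTp : T₀.card = p := by
    refine le_antisymm hcard (Nat.le_of_mul_le_mul_left (?_ : e * p ≤ e * T₀.card) he0)
    calc e * p = S.card := by rw [hScard', mul_comm]
      _ ≤ (μe ×ˢ T₀).card := hSeq ▸ Finset.card_image_le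
      _ ≤ e * T₀.card := by rw [Finset.card_product]; exact Nat.mul_le_mul_right _ hμe
  have hinj1 : ∀ b ∈ T₀, ∀ b' ∈ T₀, f (1, b) = f (1, b') → b = b' := fun b hb b' hb' h =>
    (Prod.ext_iff.mp (hinj (Finset.mem_product.mpr ⟨h1e, hb⟩)
      (Finset.mem_product.mpr ⟨h1e, hb'⟩) h)).2
  refine ⟨hScard', (T₀.erase u).image fun b => f (1, b), fun r hr => ?_, ?_, fun r hr => ?_⟩
  · obtain ⟨b, hb, rfl⟩ := Finset.mem_image.mp hr
    obtain ⟨hb1, hbT⟩ := Finset.mem_erase.mp hb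
    exact Finset.mem_erase.mpr ⟨fun he => hb1 (hinj1 b hbT u hu₀ (he.trans (hf1 u).symm)),
      hSeq ▸ Finset.mem_image_of_mem _ (Finset.mem_product.mpr ⟨h1e, hbT⟩)⟩
  · rw [Finset.card_image_of_injOn, Finset.card_erase_of_mem hu₀, hTp]
    exact fun b hb b' hb' h =>
      hinj1 b (Finset.mem_of_mem_erase hb) b' (Finset.mem_of_mem_erase hb') h
  · obtain ⟨b, hb, rfl⟩ := Finset.mem_image.mp hr
    rw [hf1]
    exact norm_twist_sub_le hδ1 (hδ b (Finset.mem_of_mem_erase hb)) hA B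

end Twist

section Fibres

variable {K F : IntermediateField ℚ_[p] (PadicAlgCl p)} [FiniteDimensional ℚ_[p] K]
  [FiniteDimensional ℚ_[p] F] {ϖ w : PadicAlgCl p} {n N : ℕ}

/-- Galois moves the integers of `K(w)` no further than it moves `w`. -/
theorem norm_galois_sub_le_of_mem_adjoin (hwU : IsUnif K w N)
    (hcard : (conjRoots K w).card = N) (σ : PadicAlgCl p ≃ₐ[K] PadicAlgCl p) {a : PadicAlgCl p}
    (ha : a ∈ K⟮w⟯) (ha1 : ‖a‖ ≤ 1) : ‖σ a - a‖ ≤ ‖σ w - w‖ := by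
  have hint : IsIntegral K w := Algebra.IsIntegral.isIntegral w
  let PB := IntermediateField.adjoin.powerBasis hint
  have hdim : PB.dim = N := (FlatBound.card_conjRoots K w).symm.trans hcard
  let cf : Fin N → PadicAlgCl p := fun j =>
    (PB.basis.repr ⟨a, ha⟩ (Fin.cast hdim.symm j) : K)
  have hsum : a = ∑ j, cf j * w ^ (j : ℕ) := by
    conv_lhs => rw [show a = ((⟨a, ha⟩ : K⟮w⟯) : PadicAlgCl p) from rfl,
      ← PB.basis.sum_repr ⟨a, ha⟩]
    simp only [AddSubmonoidClass.coe_finsetSum]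
    rw [← Equiv.sum_comp (finCongr hdim.symm)]
    refine Finset.sum_congr rfl fun j _ => ?_
    rw [PB.basis_eq_pow, IntermediateField.coe_smul, SubmonoidClass.coe_pow, Algebra.smul_def]
    rfl
  rw [hsum, map_sum, ← Finset.sum_sub_distrib]
  refine IsUltrametricDist.norm_sum_le_of_forall_le_of_nonneg (norm_nonneg _) fun j _ => ?_
  rw [map_mul, map_pow, show σ (cf j) = cf j from σ.commutes _, ← mul_sub, norm_mul]
  have hcj : ‖cf j‖ ≤ 1 := hwU.norm_coeff_le_one ha1 (SetLike.coe_mem _) j.2 (by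
    rw [hsum]; exact hwU.norm_term_le cf (fun i => SetLike.coe_mem _) j)
  refine (mul_le_of_le_one_left (norm_nonneg _) hcj).trans ?_
  refine (norm_pow_sub_pow_le (r := 1) ?_ hwU.norm_lt_one.le _).trans (by rw [one_pow, mul_one])
  rw [norm_base_galois]; exact hwU.norm_lt_one.le

/-- The image of `w` under a Galois element depends only on the image of `ϖ`. -/
theorem exists_fibre_map (hT : IsTotRam K F ϖ n) (hwF : w ∈ F) :
    ∃ π : PadicAlgCl p → PadicAlgCl p,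
      ∀ σ : PadicAlgCl p ≃ₐ[K] PadicAlgCl p, π (σ ϖ) = σ w := by
  classical
  refine ⟨fun r => if hr : r ∈ conjRoots K ϖ then (mem_conjRoots_iff.mp hr).choose w else w,
    fun σ => ?_⟩
  have hr : σ ϖ ∈ conjRoots K ϖ := mem_conjRoots_iff.mpr ⟨σ, rfl⟩
  simp only [dif_pos hr]
  obtain ⟨P, -, hP, -⟩ := hT.exists_coord_poly hwF
  rw [← hP, ← aeval_algHom_apply, ← aeval_algHom_apply, (mem_conjRoots_iff.mp hr).choose_spec]

variable {π : PadicAlgCl p → PadicAlgCl p}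
  (hπ : ∀ σ : PadicAlgCl p ≃ₐ[K] PadicAlgCl p, π (σ ϖ) = σ w)
include hπ

/-- The fibre over `σ w` is the image under `σ` of the conjugates over `K(w)`. -/
theorem filter_eq_image_conjRoots [DecidableEq (PadicAlgCl p)]
    (σ : PadicAlgCl p ≃ₐ[K] PadicAlgCl p) :
    (conjRoots K ϖ).filter (fun r => π r = σ w) =
      (conjRoots ((K⟮w⟯).restrictScalars ℚ_[p]) ϖ).image σ := by
  set E : IntermediateField ℚ_[p] (PadicAlgCl p) := (K⟮w⟯).restrictScalars ℚ_[p]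
  have hKE : K ≤ E := fun a ha => (K⟮w⟯).algebraMap_mem ⟨a, ha⟩
  have hwE : w ∈ E := IntermediateField.mem_adjoin_simple_self K w
  ext r
  simp only [Finset.mem_filter, Finset.mem_image]
  constructor
  · rintro ⟨hr, hπr⟩
    obtain ⟨τ, rfl⟩ := mem_conjRoots_iff.mp hr
    rw [hπ] at hπr
    have hKw : ∀ a ∈ E, (τ.trans σ.symm) a = a := by
      intro a ha
      have hle : K⟮w⟯ ≤ IntermediateField.fixedField (Subgroup.zpowers (τ.trans σ.symm)) := by
        rw [IntermediateField.adjoin_simple_le_iff]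
        rintro ⟨g, hg⟩
        obtain ⟨k, rfl⟩ := hg
        show ((τ.trans σ.symm) ^ k) w = w
        refine (MulAction.mem_stabilizer_iff (a := w)).mp (zpow_mem
          (show τ.trans σ.symm ∈ MulAction.stabilizer (PadicAlgCl p ≃ₐ[K] PadicAlgCl p) w
            from ?_) k)
        show σ.symm (τ w) = w
        rw [hπr, AlgEquiv.symm_apply_apply]
      exact hle ha ⟨_, Subgroup.mem_zpowers _⟩
    exact ⟨σ.symm (τ ϖ), mem_conjRoots_iff.mpr
      ⟨toBase ((τ.trans σ.symm).restrictScalars ℚ_[p]) hKw, rfl⟩, σ.apply_symm_apply _⟩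
  · rintro ⟨h, hh, rfl⟩
    obtain ⟨θ, rfl⟩ := mem_conjRoots_iff.mp hh
    let θ' := toBase (θ.restrictScalars ℚ_[p]) fun a ha => θ.commutes ⟨a, hKE ha⟩
    refine ⟨mem_conjRoots_iff.mpr ⟨θ'.trans σ, rfl⟩, ?_⟩
    rw [show σ (θ ϖ) = (θ'.trans σ) ϖ from rfl, hπ]
    exact congrArg σ (θ.commutes ⟨w, hwE⟩)

/-- The distances to the fibre over `σ w` multiply to at most `‖σ w - w‖`. -/
theorem prod_fibre_norm_le [DecidableEq (PadicAlgCl p)] (hT : IsTotRam K F ϖ n)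
    (hwU : IsUnif K w N) (hcard : (conjRoots K w).card = N)
    (σ : PadicAlgCl p ≃ₐ[K] PadicAlgCl p) :
    ∏ r ∈ (conjRoots K ϖ).filter (fun r => π r = σ w), ‖ϖ - r‖ ≤ ‖σ w - w‖ := by
  rw [filter_eq_image_conjRoots hπ σ, Finset.prod_image (fun a _ b _ h => σ.injective h),
    ← norm_prod]
  exact norm_prod_fibre_le hT σ (norm_nonneg _)
    fun a ha ha1 => norm_galois_sub_le_of_mem_adjoin hwU hcard σ ha ha1

/-- The nearest distance times those in the fibre of `w` is at most any `‖σ₁ w - w‖`. -/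
theorem mul_prod_erase_fibre_le [DecidableEq (PadicAlgCl p)] (hT : IsTotRam K F ϖ n)
    (hwU : IsUnif K w N) (hcard : (conjRoots K w).card = N)
    (σ₁ : PadicAlgCl p ≃ₐ[K] PadicAlgCl p) (hne : σ₁ w ≠ w) {ρ : ℝ}
    (hρ : ∀ r ∈ (conjRoots K ϖ).erase ϖ, ρ ≤ ‖ϖ - r‖) :
    ρ * ∏ h ∈ ((conjRoots K ϖ).filter (fun r => π r = w)).erase ϖ, ‖ϖ - h‖ ≤ ‖σ₁ w - w‖ := by
  have hR₁ : σ₁ ϖ ∈ (conjRoots K ϖ).filter (fun r => π r = σ₁ w) :=
    Finset.mem_filter.mpr ⟨mem_conjRoots_iff.mpr ⟨σ₁, rfl⟩, hπ σ₁⟩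
  obtain ⟨s₀, hs₀, hs₀min⟩ := ((conjRoots K ϖ).filter (fun r => π r = σ₁ w)).exists_min_image
    (fun r => ‖ϖ - r‖) ⟨_, hR₁⟩
  obtain ⟨hs₀R, hs₀π⟩ := Finset.mem_filter.mp hs₀
  have hs₀ne : s₀ ≠ ϖ := fun h => hne (by rw [← hs₀π, h]; exact hπ 1)
  obtain ⟨σ₀, hσ₀⟩ := mem_conjRoots_iff.mp hs₀R
  have hσ₀w : σ₀ w = σ₁ w := by rw [← hπ, hσ₀, hs₀π]
  set R₀ := conjRoots ((K⟮w⟯).restrictScalars ℚ_[p]) ϖ
  have hR₀ : R₀ = (conjRoots K ϖ).filter (fun r => π r = w) := by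
    have := filter_eq_image_conjRoots hπ 1
    rw [show ((1 : PadicAlgCl p ≃ₐ[K] PadicAlgCl p) : PadicAlgCl p → PadicAlgCl p) = id from rfl,
      Finset.image_id, id_eq] at this
    exact this.symm
  rw [← hR₀]
  have hϖ₀ : ϖ ∈ R₀ := self_mem_conjRoots _ ϖ
  have h1 := prod_fibre_norm_le hπ hT hwU hcard σ₀
  rw [filter_eq_image_conjRoots hπ σ₀, Finset.prod_image (fun a _ b _ h => σ₀.injective h),
    ← Finset.mul_prod_erase R₀ _ hϖ₀, hσ₀, hσ₀w] at h1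
  refine le_trans (mul_le_mul (hρ s₀ (Finset.mem_erase.mpr ⟨hs₀ne, hs₀R⟩))
    (Finset.prod_le_prod (fun h _ => norm_nonneg _) fun h hh => ?_)
    (Finset.prod_nonneg fun h _ => norm_nonneg _) (norm_nonneg _)) h1
  have hmem : σ₀ h ∈ (conjRoots K ϖ).filter (fun r => π r = σ₁ w) := by
    rw [← hσ₀w, filter_eq_image_conjRoots hπ σ₀]
    exact Finset.mem_image_of_mem _ (Finset.mem_of_mem_erase hh)
  have h2 : ‖ϖ - s₀‖ ≤ ‖ϖ - σ₀ h‖ := hs₀min _ hmem
  rw [← norm_base_galois σ₀ (ϖ - h), map_sub, hσ₀, ← sub_add_sub_cancel s₀ ϖ (σ₀ h)]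
  exact (IsUltrametricDist.norm_add_le_max _ _).trans
    (max_le ((norm_sub_rev s₀ ϖ).trans_le h2) le_rfl)

/-- The distances outside the fibre of `w` are bounded through the conjugates of `w`. -/
theorem prod_other_fibres_le [DecidableEq (PadicAlgCl p)] (hT : IsTotRam K F ϖ n)
    (hwU : IsUnif K w N) (hcard : (conjRoots K w).card = N) {T : Finset (PadicAlgCl p)}
    (hTS : T ⊆ (conjRoots K w).erase w) {d : ℝ} (hTle : ∀ r ∈ T, ‖r - w‖ ≤ d) :
    ∏ v ∈ (conjRoots K w).erase w, (∏ r ∈ (conjRoots K ϖ).filter (fun r => π r = v), ‖ϖ - r‖) ≤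
      d ^ T.card * ‖w‖ ^ (N - 1 - T.card) := by
  have hb : ∀ v ∈ (conjRoots K w).erase w,
      (∏ r ∈ (conjRoots K ϖ).filter (fun r => π r = v), ‖ϖ - r‖) ≤
        if v ∈ T then d else ‖w‖ := by
    intro v hv
    obtain ⟨hvne, hvS⟩ := Finset.mem_erase.mp hv
    obtain ⟨σ, rfl⟩ := mem_conjRoots_iff.mp hvS
    refine (prod_fibre_norm_le hπ hT hwU hcard σ).trans ?_
    split_ifs with hvT
    · exact hTle _ hvT
    · rw [sub_eq_add_neg]
      exact (IsUltrametricDist.norm_add_le_max _ _).trans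
        (max_le (norm_base_galois σ w).le (norm_neg w).le)
  refine (Finset.prod_le_prod (fun v _ => Finset.prod_nonneg fun r _ => norm_nonneg _) hb).trans
    (le_of_eq ?_)
  rw [Finset.prod_ite, Finset.prod_const, Finset.prod_const,
    Finset.filter_mem_eq_inter, Finset.inter_eq_right.mpr hTS,
    Finset.filter_notMem_eq_sdiff, Finset.card_sdiff_of_subset hTS,
    Finset.card_erase_of_mem (self_mem_conjRoots K w), hcard]

omit hπ in
/-- Close conjugates of `w` make the conjugates of `ϖ` close. -/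
theorem exists_nearest_mul_prod_le [DecidableEq (PadicAlgCl p)] (hT : IsTotRam K F ϖ n)
    (hwF : w ∈ F) (hwU : IsUnif K w N) (hcard : (conjRoots K w).card = N)
    {T : Finset (PadicAlgCl p)} (hTS : T ⊆ (conjRoots K w).erase w) (hTne : T.Nonempty)
    {d : ℝ} (hd : 0 ≤ d) (hTle : ∀ r ∈ T, ‖r - w‖ ≤ d) :
    ∃ r₁ ∈ (conjRoots K ϖ).erase ϖ, (∀ r ∈ (conjRoots K ϖ).erase ϖ, ‖ϖ - r₁‖ ≤ ‖ϖ - r‖) ∧
      ‖ϖ - r₁‖ * ∏ r ∈ (conjRoots K ϖ).erase ϖ, ‖ϖ - r‖ ≤
        d * (d ^ T.card * ‖w‖ ^ (N - 1 - T.card)) := by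
  classical
  obtain ⟨π, hπ⟩ := exists_fibre_map hT hwF
  have hπ1 : π ϖ = w := hπ 1
  obtain ⟨w₁, hw₁T⟩ := hTne
  obtain ⟨hw₁ne, hw₁S⟩ := Finset.mem_erase.mp (hTS hw₁T)
  obtain ⟨σ₁, rfl⟩ := mem_conjRoots_iff.mp hw₁S
  have hne : σ₁ ϖ ≠ ϖ := fun h => hw₁ne (by rw [← hπ, h, hπ1])
  obtain ⟨r₁, hr₁, hr₁min⟩ := ((conjRoots K ϖ).erase ϖ).exists_min_image (fun r => ‖ϖ - r‖)
    ⟨σ₁ ϖ, Finset.mem_erase.mpr ⟨hne, mem_conjRoots_iff.mpr ⟨σ₁, rfl⟩⟩⟩
  refine ⟨r₁, hr₁, hr₁min, ?_⟩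
  have hmaps : ∀ r ∈ (conjRoots K ϖ).erase ϖ, π r ∈ conjRoots K w := by
    intro r hr
    obtain ⟨τ, rfl⟩ := mem_conjRoots_iff.mp (Finset.mem_of_mem_erase hr)
    rw [hπ]
    exact mem_conjRoots_iff.mpr ⟨τ, rfl⟩
  rw [← Finset.prod_fiberwise_of_maps_to hmaps,
    ← Finset.mul_prod_erase (conjRoots K w) _ (self_mem_conjRoots K w), ← mul_assoc,
    Finset.filter_erase]
  refine mul_le_mul ((mul_prod_erase_fibre_le hπ hT hwU hcard σ₁ hw₁ne hr₁min).trans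
    (hTle _ hw₁T)) ((le_of_eq ?_).trans (prod_other_fibres_le hπ hT hwU hcard hTS hTle))
    (Finset.prod_nonneg fun v _ => Finset.prod_nonneg fun r _ => norm_nonneg _) hd
  refine Finset.prod_congr rfl fun v hv => ?_
  rw [Finset.filter_erase, Finset.erase_eq_of_notMem]
  exact fun h => Finset.ne_of_mem_erase hv ((Finset.mem_filter.mp h).2.symm.trans hπ1)

end Fibres

section Core

variable {L K₀ F : IntermediateField ℚ_[p] (PadicAlgCl p)} {l : PadicAlgCl p} {e : ℕ}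
  [FiniteDimensional ℚ_[p] L] [FiniteDimensional ℚ_[p] F]

/-- An element of fractional value with at most `p` conjugates, all close to it, lies outside point
fields. -/
theorem not_mem_pointField_of_conj (hL : IsTame L K₀ l e) (hLF : L ≤ F)
    (hFst : ∀ σ : LocalGal p, ∀ x ∈ F, σ x ∈ F) {ι : Type} {V : ι → Type}
    [∀ i, AddCommGroup (V i)] [∀ i, Fintype (V i)] {act : ∀ i, LocalGal p → V i → V i}
    {H : ∀ i, Subring (V i → PadicAlgCl p)} (hH : ∀ i, IsPadicModel p (act i) (H i))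
    (hV : ∀ i, ∀ x : V i, p • x = 0) (hval : ∀ i, ∀ f ∈ H i, ∀ x, f x ∈ F)
    (hgen : ∀ σ : LocalGal p, (∀ a ∈ L, σ a = a) → (∀ i, ∀ f ∈ H i, ∀ x, σ (f x) = f x) →
      ∀ x ∈ F, σ x = x)
    {u : PadicAlgCl p} {T₀ : Finset (PadicAlgCl p)} (hu₀ : u ∈ T₀) (hcard : T₀.card ≤ p)
    (hconj : ∀ τ : LocalGal p, (∀ a ∈ L, τ a = a) → τ u ∈ T₀) {m : ℤ} (hm : ¬ (p : ℤ) ∣ m)
    (hu : ‖u‖ ^ p = ‖l‖ ^ m) {δ : ℝ} (hδ0 : 0 ≤ δ) (hδ : ∀ b ∈ T₀, ‖b - u‖ ≤ δ * ‖u‖)
    (hδp : δ ^ (p * (p - 1)) < ‖(p : PadicAlgCl p)‖) : u ∉ F := by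
  classical
  intro huF
  have hp := (Fact.out : p.Prime)
  have := finiteDimensional_of_le hL.totRam.le
  obtain ⟨K, hK⟩ := exists_isUnramifiedPart F
  have := finiteDimensional_of_le hK.le
  have hK₀K : K₀ ≤ K := hK.mono hL.unram hLF
  obtain ⟨ϖ, n, hT⟩ := hK.exists_isTotRam
  have hlF : l ∈ F := hLF hL.totRam.mem
  have hrig : IsRigid K F ϖ n := isRigid_of_models hT hH hV hval hlF (hK₀K hL.pow_mem)
    hL.totRam.norm_pow hL.not_dvd (fun z hz => hK₀K (hL.roots z hz)) fun σ hσv hσl x hx =>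
      hgen (σ.restrictScalars ℚ_[p]) (fun a ha => hL.apply_eq
        (σ := σ.restrictScalars ℚ_[p]) (fun b hb => σ.commutes ⟨b, hK₀K hb⟩) hσl a ha) hσv x hx
  obtain ⟨A, B, hA, hAB⟩ := exists_twist_exponents hm
  have hwp : ‖u ^ A * l ^ B‖ ^ p = ‖l‖ := norm_twist_pow hL.totRam.norm_pos.ne' hu hAB
  have hwU : IsUnif K (u ^ A * l ^ B) (p * e) :=
    ⟨Nat.mul_pos hp.pos hL.totRam.pos, by rw [pow_mul, hwp, hL.totRam.norm_pow], hK.values⟩
  have hδ1 : δ < 1 := by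
    by_contra hle
    push Not at hle
    exact absurd ((one_le_pow₀ hle).trans hδp.le) (not_le.mpr (norm_natCast_p_lt_one p))
  obtain ⟨hScard, T, hTS, hTcard, hTle⟩ :=
    exists_close_conjRoots hL hK₀K hu₀ hcard hconj hA B hwU hδ1.le hδ
  obtain ⟨r₁, hr₁, hr₁min, hP⟩ := exists_nearest_mul_prod_le hT
    (mul_mem (pow_mem huF _) (zpow_mem hlF _)) hwU hScard hTS
    (Finset.card_pos.mp (by rw [hTcard]; have := hp.two_le; omega))
    (mul_nonneg hδ0 (norm_nonneg _)) hTle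
  obtain ⟨hr₁ne, hr₁R⟩ := Finset.mem_erase.mp hr₁
  have hF := hT.fontaine_bound hrig hFst (ρ := ‖ϖ - r₁‖)
    (fun r hr hne => hr₁min r (Finset.mem_erase.mpr ⟨hne, hr⟩)) hr₁R hr₁ne rfl
  rw [show @Finset.erase _ (Classical.decEq _) (conjRoots K ϖ) ϖ = (conjRoots K ϖ).erase ϖ by
    congr] at hF
  have hPp : ‖ϖ - r₁‖ * (∏ r ∈ (conjRoots K ϖ).erase ϖ, ‖ϖ - r‖) ≤
      δ ^ p * ‖(p : PadicAlgCl p)‖ := by
    refine hP.trans (le_of_eq ?_)
    have hpe : p ≤ p * e := Nat.le_mul_of_pos_right p hL.totRam.pos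
    rw [← hwU.norm_pow, hTcard, show p * e - 1 - (p - 1) = p * e - p by
      have := hp.two_le; omega, ← mul_assoc, ← pow_succ', Nat.sub_add_cancel hp.one_lt.le, mul_pow,
      mul_assoc, ← pow_add, Nat.add_sub_cancel' hpe]
  have hP0 : 0 < ‖(p : PadicAlgCl p)‖ := norm_pos_iff.mpr (natCast_p_ne_zero p)
  have hfinal := hF.trans (pow_le_pow_left₀ (mul_nonneg (norm_nonneg _)
    (Finset.prod_nonneg fun r _ => norm_nonneg _)) hPp (p - 1))
  rw [mul_pow, ← pow_mul] at hfinal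
  have hsplit : ‖(p : PadicAlgCl p)‖ ^ p =
      ‖(p : PadicAlgCl p)‖ * ‖(p : PadicAlgCl p)‖ ^ (p - 1) := by
    rw [← pow_succ', Nat.sub_add_cancel hp.one_lt.le]
  rw [hsplit] at hfinal
  exact absurd (le_of_mul_le_mul_right hfinal (pow_pos hP0 _)) (not_le.mpr hδp)

/-- A `p`-th root with a conjugate difference below Fontaine's bound lies outside point fields. -/
theorem not_mem_pointField (hL : IsTame L K₀ l e) (hLF : L ≤ F)
    (hFst : ∀ σ : LocalGal p, ∀ x ∈ F, σ x ∈ F) {ι : Type} {V : ι → Type}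
    [∀ i, AddCommGroup (V i)] [∀ i, Fintype (V i)] {act : ∀ i, LocalGal p → V i → V i}
    {H : ∀ i, Subring (V i → PadicAlgCl p)} (hH : ∀ i, IsPadicModel p (act i) (H i))
    (hV : ∀ i, ∀ x : V i, p • x = 0) (hval : ∀ i, ∀ f ∈ H i, ∀ x, f x ∈ F)
    (hgen : ∀ σ : LocalGal p, (∀ a ∈ L, σ a = a) → (∀ i, ∀ f ∈ H i, ∀ x, σ (f x) = f x) →
      ∀ x ∈ F, σ x = x)
    {ζ : PadicAlgCl p} (hζ : IsPrimitiveRoot ζ p) {y c : PadicAlgCl p} (hc : c ∈ K₀)
    (hy : y ^ p ∈ L) {m : ℤ} (hm : ¬ (p : ℤ) ∣ m) (hu : ‖y - c‖ ^ p = ‖l‖ ^ m) {δ : ℝ}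
    (hδ0 : 0 ≤ δ) (hδ : ‖ζ - 1‖ * ‖y‖ ≤ δ * ‖y - c‖)
    (hδp : δ ^ (p * (p - 1)) < ‖(p : PadicAlgCl p)‖) : y ∉ F := by
  classical
  intro hyF
  have hp := (Fact.out : p.Prime)
  have hcL : c ∈ L := hL.totRam.le hc
  refine not_mem_pointField_of_conj hL hLF hFst hH hV hval hgen (u := y - c)
    (T₀ := (Polynomial.nthRootsFinset p (1 : PadicAlgCl p)).image fun b => b * y - c)
    (Finset.mem_image.mpr ⟨1, (Polynomial.mem_nthRootsFinset hp.pos _).mpr (one_pow p),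
      by rw [one_mul]⟩)
    (Finset.card_image_le.trans hζ.card_nthRootsFinset.le) (fun τ hτ => ?_) hm hu hδ0
    (fun b hb => ?_) hδp (F.sub_mem hyF (hLF hcL))
  · refine Finset.mem_image.mpr ⟨if y = 0 then 1 else τ y / y,
      (Polynomial.mem_nthRootsFinset hp.pos _).mpr ?_, ?_⟩
    · split_ifs with hy0
      · exact one_pow p
      · rw [div_pow, ← map_pow, hτ _ hy, div_self (pow_ne_zero _ hy0)]
    · rw [map_sub, hτ c hcL]
      split_ifs with hy0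
      · rw [hy0, mul_zero, map_zero]
      · rw [div_mul_cancel₀ _ hy0]
  · obtain ⟨a, ha, rfl⟩ := Finset.mem_image.mp hb
    rw [Polynomial.mem_nthRootsFinset hp.pos] at ha
    rw [show a * y - c - (y - c) = (a - 1) * y by ring, norm_mul]
    exact (mul_le_mul_of_nonneg_right ((norm_zeta_sub_one hζ).2 a ha) (norm_nonneg _)).trans hδ

end Core

end FLTAgent.FlatBound
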