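import Fermat.Agent.TWPrimes.Flat.Model
import Fermat.Agent.LocalDuality.NormIndex.Units
import Mathlib.FieldTheory.Finite.Basic
import Mathlib.FieldTheory.PrimitiveElement
import Mathlib.RingTheory.IntegralDomain
import Mathlib.NumberTheory.Padics.RingHoms

/-!
# Residues, uniformisers and unramified subfields over `ℚ_p`

Everything lives inside `PadicAlgCl p`, whose residue field `Resid p` receives the residues (`red`)
of all finite extensions; `exists_uniformizer` and `exists_isUnramifiedPart` for a finite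
extension. Used by the rest of the flat local bound.
-/

set_option autoImplicit false

noncomputable section

open Filter Topology Polynomial
open scoped IntermediateField

namespace FLTAgent.FlatBound

open FLTAgent.LocalDuality

variable (p : ℕ) [Fact p.Prime]

/-- The residue field of `PadicAlgCl p`. -/
abbrev Resid : Type := IsLocalRing.ResidueField (padicIntegers p)

variable {p}

theorem mem_integers {x : PadicAlgCl p} : x ∈ padicIntegers p ↔ ‖x‖ ≤ 1 :=
  (mem_padicIntegers_iff p).trans NNReal.coe_le_coe.symm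

/-- The residue of an integral element (`0` elsewhere). -/
def red (x : PadicAlgCl p) : Resid p :=
  if h : ‖x‖ ≤ 1 then IsLocalRing.residue _ ⟨x, mem_integers.mpr h⟩ else 0

theorem red_of_le {x : PadicAlgCl p} (h : ‖x‖ ≤ 1) :
    red x = IsLocalRing.residue _ ⟨x, mem_integers.mpr h⟩ := dif_pos h

theorem red_add {x y : PadicAlgCl p} (hx : ‖x‖ ≤ 1) (hy : ‖y‖ ≤ 1) :
    red (x + y) = red x + red y := by
  rw [red_of_le hx, red_of_le hy,
    red_of_le ((IsUltrametricDist.norm_add_le_max x y).trans (max_le hx hy)), ← map_add]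
  rfl

theorem red_mul {x y : PadicAlgCl p} (hx : ‖x‖ ≤ 1) (hy : ‖y‖ ≤ 1) :
    red (x * y) = red x * red y := by
  rw [red_of_le hx, red_of_le hy,
    red_of_le (by rw [norm_mul]; exact mul_le_one₀ hx (norm_nonneg _) hy), ← map_mul]
  rfl

theorem red_neg {x : PadicAlgCl p} (hx : ‖x‖ ≤ 1) : red (-x) = -red x := by
  rw [red_of_le hx, red_of_le ((norm_neg x).le.trans hx), ← map_neg]
  rfl

@[simp] theorem red_one : red (1 : PadicAlgCl p) = 1 := by
  rw [red_of_le norm_one.le]; exact map_one (IsLocalRing.residue (padicIntegers p))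

@[simp] theorem red_zero : red (0 : PadicAlgCl p) = 0 := by
  rw [red_of_le (norm_zero.trans_le zero_le_one)]
  exact map_zero (IsLocalRing.residue (padicIntegers p))

theorem red_pow {x : PadicAlgCl p} (hx : ‖x‖ ≤ 1) (n : ℕ) : red (x ^ n) = red x ^ n := by
  induction n with
  | zero => simp
  | succ n ih =>
    rw [pow_succ, pow_succ, red_mul (by rw [norm_pow]; exact pow_le_one₀ (norm_nonneg _) hx) hx, ih]

theorem red_natCast (n : ℕ) : red (n : PadicAlgCl p) = n := by
  induction n with
  | zero => simp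
  | succ n ih =>
    rw [Nat.cast_succ, red_add (IsUltrametricDist.norm_natCast_le_one _ n) norm_one.le, ih,
      red_one, Nat.cast_succ]

theorem red_eq_zero_iff {x : PadicAlgCl p} (hx : ‖x‖ ≤ 1) : red x = 0 ↔ ‖x‖ < 1 := by
  rw [red_of_le hx, IsLocalRing.residue_eq_zero_iff, IsLocalRing.mem_maximalIdeal, mem_nonunits_iff]
  constructor
  · intro h
    refine lt_of_le_of_ne hx fun h1 => h ?_
    have hx0 : x ≠ 0 := norm_pos_iff.mp (h1 ▸ one_pos)
    refine isUnit_iff_exists_inv.mpr ⟨⟨x⁻¹, mem_integers.mpr ?_⟩, Subtype.ext ?_⟩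
    · rw [norm_inv, h1, inv_one]
    · simp [hx0]
  · intro h hu
    obtain ⟨⟨b, hb⟩, hab⟩ := isUnit_iff_exists_inv.mp hu
    have := congrArg (fun z : padicIntegers p => ‖(z : PadicAlgCl p)‖) hab
    simp only [MulMemClass.mk_mul_mk, norm_mul, OneMemClass.coe_one, norm_one] at this
    nlinarith [mem_integers.mp hb, norm_nonneg x, norm_nonneg b]

theorem red_eq_iff {x y : PadicAlgCl p} (hx : ‖x‖ ≤ 1) (hy : ‖y‖ ≤ 1) :
    red x = red y ↔ ‖x - y‖ < 1 := by
  rw [← red_eq_zero_iff (show ‖x - y‖ ≤ 1 by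
      rw [sub_eq_add_neg]
      exact (IsUltrametricDist.norm_add_le_max _ _).trans (max_le hx ((norm_neg y).trans_le hy))),
    sub_eq_add_neg, red_add hx ((norm_neg y).trans_le hy), red_neg hy, add_neg_eq_zero]

instance charP_resid : CharP (Resid p) p :=
  (CharP.charP_iff_prime_eq_zero (Fact.out : p.Prime)).mpr (by
      rw [← red_natCast, red_eq_zero_iff (IsUltrametricDist.norm_natCast_le_one _ _)]
      exact norm_natCast_p_lt_one p)

/-- The action of a local Galois element on the residue field. -/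
def galRed (σ : LocalGal p) : Resid p →+* Resid p :=
  letI φ : padicIntegers p →+* padicIntegers p :=
    ((σ : PadicAlgCl p →+* PadicAlgCl p).comp (padicIntegers p).subtype).codRestrict
      (padicIntegers p).toSubring fun x =>
      (mem_padicIntegers_iff p).mpr ((nnnorm_padicAlgCl_algEquiv p σ x).trans_le
        ((mem_padicIntegers_iff p).mp x.2))
  haveI : IsLocalHom φ := ⟨fun a ha => by
    by_contra hna
    obtain ⟨b, hb⟩ := isUnit_iff_exists_inv.mp ha
    refine hna (isUnit_iff_exists_inv.mpr ⟨⟨σ.symm b, ?_⟩, Subtype.ext ?_⟩)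
    · exact (mem_padicIntegers_iff p).mpr ((nnnorm_padicAlgCl_algEquiv p σ.symm b).trans_le
        ((mem_padicIntegers_iff p).mp b.2))
    · apply σ.injective
      have h2 : σ (a : PadicAlgCl p) * (b : PadicAlgCl p) = 1 := congrArg Subtype.val hb
      simpa using h2⟩
  IsLocalRing.ResidueField.map φ

theorem norm_galois (σ : LocalGal p) (x : PadicAlgCl p) : ‖σ x‖ = ‖x‖ :=
  congrArg ((↑) : NNReal → ℝ) (nnnorm_padicAlgCl_algEquiv p σ x)

theorem galRed_red (σ : LocalGal p) {x : PadicAlgCl p} (hx : ‖x‖ ≤ 1) :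
    galRed σ (red x) = red (σ x) := by
  rw [red_of_le hx, red_of_le ((norm_galois σ x).trans_le hx)]
  rfl

theorem exists_red_eq (z : Resid p) : ∃ x : PadicAlgCl p, ‖x‖ ≤ 1 ∧ red x = z := by
  obtain ⟨⟨x, hx⟩, rfl⟩ := IsLocalRing.residue_surjective z
  exact ⟨x, mem_integers.mp hx, red_of_le (mem_integers.mp hx)⟩

theorem norm_algebraMap_padic (a : ℚ_[p]) : ‖algebraMap ℚ_[p] (PadicAlgCl p) a‖ = ‖a‖ :=
  PadicAlgCl.norm_extends p a

/-- The residues of `ℚ_p` are prime field elements. -/
theorem exists_natCast_red (a : ℚ_[p]) (ha : ‖a‖ ≤ 1) :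
    ∃ n : ℕ, red (algebraMap ℚ_[p] (PadicAlgCl p) a) = n := by
  obtain ⟨n, -, hn⟩ := PadicInt.exists_mem_range (⟨a, ha⟩ : ℤ_[p])
  refine ⟨n, ?_⟩
  rw [← red_natCast, red_eq_iff ((norm_algebraMap_padic a).trans_le ha)
    (IsUltrametricDist.norm_natCast_le_one _ _), ← map_natCast (algebraMap ℚ_[p] (PadicAlgCl p)),
    ← map_sub, norm_algebraMap_padic]
  rw [IsLocalRing.mem_maximalIdeal, PadicInt.mem_nonunits] at hn
  exact hn

section Roots

/-- An approximate `n`-th root of an element of norm one can be corrected, uniquely, for `p ∤ n`. -/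
theorem existsUnique_root {n : ℕ} (hn : ‖(n : PadicAlgCl p)‖ = 1) {w x : PadicAlgCl p}
    (hx : ‖x‖ = 1) (hw : ‖x ^ n - w‖ < 1) : ∃! r : PadicAlgCl p, r ^ n = w ∧ ‖r - x‖ < 1 := by
  classical
  have hn0 : n ≠ 0 := fun h => by simp [h] at hn
  have hP : (X ^ n - C w : (PadicAlgCl p)[X]).Monic := monic_X_pow_sub_C w hn0
  have hs : (X ^ n - C w : (PadicAlgCl p)[X]).Splits := IsAlgClosed.splits _
  have hprod := hs.eval_eq_prod_roots_of_monic hP x
  simp only [eval_sub, eval_pow, eval_X, eval_C] at hprod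
  have hex : ∃ r ∈ (X ^ n - C w : (PadicAlgCl p)[X]).roots, ‖x - r‖ < 1 := by
    by_contra hne
    push Not at hne
    rw [hprod] at hw
    have hall : ∀ m : Multiset (PadicAlgCl p), (∀ r ∈ m, 1 ≤ ‖x - r‖) →
        1 ≤ ‖(m.map fun r => x - r).prod‖ := by
      intro m
      induction m using Multiset.induction_on with
      | empty => simp
      | cons a m ih =>
        intro h
        rw [Multiset.map_cons, Multiset.prod_cons, norm_mul]
        exact one_le_mul_of_one_le_of_one_le (h a (Multiset.mem_cons_self a m))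
          (ih fun r hr => h r (Multiset.mem_cons_of_mem hr))
    exact absurd (hall _ hne) (not_le.mpr hw)
  obtain ⟨r, hr, hrx⟩ := hex
  rw [mem_roots (hP.ne_zero), IsRoot.def, eval_sub, eval_pow, eval_X, eval_C, sub_eq_zero] at hr
  refine ⟨r, ⟨hr, (norm_sub_rev r x).trans_lt hrx⟩, fun s ⟨hs', hsx⟩ => ?_⟩
  have hnr : ∀ t : PadicAlgCl p, ‖t - x‖ < 1 → ‖t‖ = 1 := fun t ht => by
    rw [← sub_add_cancel t x, IsUltrametricDist.norm_add_eq_max_of_norm_ne_norm (hx ▸ ht.ne),
      max_eq_right (hx ▸ ht.le), hx]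
  have hr1 := hnr r ((norm_sub_rev r x).trans_lt hrx)
  have hs1 := hnr s hsx
  have hsr : ‖s - r‖ < 1 := by
    rw [← sub_add_sub_cancel s x r]
    exact (IsUltrametricDist.norm_add_le_max _ _).trans_lt (max_lt hsx hrx)
  have hg := geom_sum₂_mul s r n
  rw [hs', hr, sub_self] at hg
  have hS : ‖∑ i ∈ Finset.range n, s ^ i * r ^ (n - 1 - i)‖ = 1 := by
    have hb : ∀ i, ‖s ^ i * r ^ (n - 1 - i)‖ = 1 := fun i => by
      rw [norm_mul, norm_pow, norm_pow, hs1, hr1, one_pow, one_pow, one_mul]
    have hd : ∀ i ∈ Finset.range n, ‖s ^ i * r ^ (n - 1 - i) - r ^ (n - 1)‖ < 1 := by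
      intro i hi
      rw [Finset.mem_range] at hi
      have e : r ^ (n - 1) = r ^ i * r ^ (n - 1 - i) := by
        rw [← pow_add]; congr 1; omega
      rw [e, ← sub_mul, norm_mul, norm_pow, hr1, one_pow, mul_one, ← geom_sum₂_mul, norm_mul]
      refine (mul_le_of_le_one_left (norm_nonneg _) ?_).trans_lt hsr
      refine IsUltrametricDist.norm_sum_le_of_forall_le_of_nonneg zero_le_one fun j _ => ?_
      rw [norm_mul, norm_pow, norm_pow, hs1, hr1, one_pow, one_pow, one_mul]
    have e2 : ∑ i ∈ Finset.range n, s ^ i * r ^ (n - 1 - i) =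
        (∑ i ∈ Finset.range n, (s ^ i * r ^ (n - 1 - i) - r ^ (n - 1))) + n * r ^ (n - 1) := by
      rw [Finset.sum_sub_distrib, Finset.sum_const, Finset.card_range, nsmul_eq_mul, sub_add_cancel]
    have hlt : ‖∑ i ∈ Finset.range n, (s ^ i * r ^ (n - 1 - i) - r ^ (n - 1))‖ < 1 := by
      obtain ⟨i, hi, hle⟩ := IsUltrametricDist.exists_norm_finsetSum_le_of_nonempty
        (Finset.nonempty_range_iff.mpr hn0) (fun i => s ^ i * r ^ (n - 1 - i) - r ^ (n - 1))
      exact hle.trans_lt (hd i hi)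
    have hone : ‖(n : PadicAlgCl p) * r ^ (n - 1)‖ = 1 := by
      rw [norm_mul, hn, norm_pow, hr1, one_pow, one_mul]
    rw [e2, IsUltrametricDist.norm_add_eq_max_of_norm_ne_norm (hone ▸ hlt.ne), max_eq_right
      (hone ▸ hlt.le), hone]
  rcases mul_eq_zero.mp hg with h | h
  · rw [h, norm_zero] at hS; exact absurd hS zero_ne_one
  · exact sub_eq_zero.mp h

theorem norm_natCast_eq_one {n : ℕ} (hn : ¬ p ∣ n) : ‖(n : PadicAlgCl p)‖ = 1 := by
  rw [← map_natCast (algebraMap ℚ_[p] (PadicAlgCl p)), norm_algebraMap_padic]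
  exact Padic.norm_natCast_eq_one_iff.mpr ((Fact.out : p.Prime).coprime_iff_not_dvd.mpr hn)

/-- Roots of unity of order prime to `p` are determined by their residues. -/
theorem eq_of_pow_eq_one_of_red_eq {n : ℕ} (hn : ¬ p ∣ n) {r s : PadicAlgCl p} (hr : r ^ n = 1)
    (hs : s ^ n = 1) (h : red r = red s) : r = s := by
  have hn0 : n ≠ 0 := fun h0 => hn (h0 ▸ dvd_zero p)
  have h1 : ∀ t : PadicAlgCl p, t ^ n = 1 → ‖t‖ = 1 := fun t ht =>
    (pow_eq_one_iff_of_nonneg (norm_nonneg t) hn0).mp (by rw [← norm_pow, ht, norm_one])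
  obtain ⟨z, -, huniq⟩ := existsUnique_root (norm_natCast_eq_one hn) (h1 r hr) (w := 1)
    (by rw [hr, sub_self, norm_zero]; exact one_pos)
  rw [huniq r ⟨hr, by rw [sub_self, norm_zero]; exact one_pos⟩,
    huniq s ⟨hs, (red_eq_iff (h1 s hs).le (h1 r hr).le).mp h.symm⟩]

end Roots

section Fields

variable (E : IntermediateField ℚ_[p] (PadicAlgCl p))

/-- The residue field of a subfield. -/
def residueSubfield : Subfield (Resid p) where
  carrier := {z | ∃ x ∈ E, ‖x‖ ≤ 1 ∧ red x = z}
  one_mem' := ⟨1, E.one_mem, norm_one.le, red_one⟩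
  zero_mem' := ⟨0, E.zero_mem, norm_zero.trans_le zero_le_one, red_zero⟩
  mul_mem' := by
    rintro _ _ ⟨x, hxE, hx, rfl⟩ ⟨y, hyE, hy, rfl⟩
    exact ⟨x * y, E.mul_mem hxE hyE, by rw [norm_mul]; exact mul_le_one₀ hx (norm_nonneg _) hy,
      red_mul hx hy⟩
  add_mem' := by
    rintro _ _ ⟨x, hxE, hx, rfl⟩ ⟨y, hyE, hy, rfl⟩
    exact ⟨x + y, E.add_mem hxE hyE,
      (IsUltrametricDist.norm_add_le_max _ _).trans (max_le hx hy), red_add hx hy⟩
  neg_mem' := by
    rintro _ ⟨x, hxE, hx, rfl⟩
    exact ⟨-x, E.neg_mem hxE, (norm_neg x).trans_le hx, red_neg hx⟩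
  inv_mem' := by
    rintro _ ⟨x, hxE, hx, rfl⟩
    rcases lt_or_eq_of_le hx with h | h
    · exact ⟨0, E.zero_mem, norm_zero.trans_le zero_le_one,
        by rw [red_zero, (red_eq_zero_iff hx).mpr h, inv_zero]⟩
    · have hinv : ‖x⁻¹‖ ≤ 1 := by rw [norm_inv, h, inv_one]
      refine ⟨x⁻¹, E.inv_mem hxE, hinv, eq_inv_of_mul_eq_one_left ?_⟩
      rw [← red_mul hinv hx, inv_mul_cancel₀ (norm_pos_iff.mp (h ▸ one_pos)), red_one]

theorem mem_residueSubfield {z : Resid p} :
    z ∈ residueSubfield E ↔ ∃ x ∈ E, ‖x‖ ≤ 1 ∧ red x = z := Iff.rfl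

theorem red_mem_residueSubfield {x : PadicAlgCl p} (hx : x ∈ E) (h1 : ‖x‖ ≤ 1) :
    red x ∈ residueSubfield E := ⟨x, hx, h1, rfl⟩

variable [FiniteDimensional ℚ_[p] E]

instance finite_residueSubfield : Finite (residueSubfield E) := by
  have : ProperSpace E := FiniteDimensional.proper ℚ_[p] E
  obtain ⟨t, -, htf, hcov⟩ := finite_cover_balls_of_compact (isCompact_closedBall (0 : E) 1) one_pos
  have := htf.to_subtype
  refine Finite.of_surjective
    (fun c : t => if h : ‖((c : E) : PadicAlgCl p)‖ ≤ 1 then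
      (⟨red ((c : E) : PadicAlgCl p), red_mem_residueSubfield E c.1.2 h⟩ : residueSubfield E)
      else 0) ?_
  rintro ⟨_, x, hxE, hx, rfl⟩
  have hmem := hcov (show (⟨x, hxE⟩ : E) ∈ Metric.closedBall (0 : E) 1 by
    rw [Metric.mem_closedBall, dist_zero_right]; exact hx)
  simp only [Set.mem_iUnion, Metric.mem_ball] at hmem
  obtain ⟨c, hc, hxc⟩ := hmem
  have hxc' : ‖x - (c : PadicAlgCl p)‖ < 1 := by rw [dist_eq_norm] at hxc; exact hxc
  have hc1 : ‖(c : PadicAlgCl p)‖ ≤ 1 := by
    rw [← sub_sub_cancel x (c : PadicAlgCl p), sub_eq_add_neg]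
    exact (IsUltrametricDist.norm_add_le_max _ _).trans
      (max_le hx ((norm_neg _).trans_le hxc'.le))
  refine ⟨⟨c, hc⟩, Subtype.ext ?_⟩
  simp only [dif_pos hc1]
  exact ((red_eq_iff hx hc1).mpr hxc').symm

/-- A uniformiser. -/
theorem exists_uniformizer :
    ∃ ϖ ∈ E, ∃ e : ℕ, 0 < e ∧ ‖ϖ‖ < 1 ∧ ‖ϖ‖ ^ e = ‖(p : PadicAlgCl p)‖ ∧
      ∀ x ∈ E, x ≠ 0 → ∃ n : ℤ, ‖x‖ = ‖ϖ‖ ^ n := by
  let : NontriviallyNormedField E :=
    { (inferInstance : NormedField E) with
      non_trivial := ⟨(p : E)⁻¹, by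
        rw [norm_inv]
        refine one_lt_inv₀ ?_ |>.mpr ?_
        · exact norm_pos_iff.mpr (fun h => natCast_p_ne_zero p (by
            simpa using congrArg (fun z : E => (z : PadicAlgCl p)) h))
        · show ‖((p : E) : PadicAlgCl p)‖ < 1
          simpa using norm_natCast_p_lt_one p⟩ }
  have : ProperSpace E := FiniteDimensional.proper ℚ_[p] E
  obtain ⟨π, hπ1, hπ⟩ := LocalDuality.exists_uniformizer E
  have key : ∀ x ∈ E, x ≠ 0 → ∃ n : ℤ, ‖x‖ = ‖((π : E) : PadicAlgCl p)‖ ^ n := by
    intro x hx hx0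
    obtain ⟨n, hn⟩ := hπ (Units.mk0 ⟨x, hx⟩ fun h => hx0 (congrArg Subtype.val h))
    rw [LocalDuality.mem_normOneUnits, Units.val_mul, Units.val_zpow_eq_zpow_val, norm_mul,
      norm_zpow] at hn
    refine ⟨-n, ?_⟩
    rw [zpow_neg]
    exact eq_inv_of_mul_eq_one_right hn
  have hπpos : (0 : ℝ) < ‖((π : E) : PadicAlgCl p)‖ :=
    norm_pos_iff.mpr fun h => π.ne_zero (Subtype.ext h)
  obtain ⟨n, hn⟩ := key _ (natCast_mem E p) (natCast_p_ne_zero p)
  have hnpos : 0 < n := by
    by_contra hle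
    push Not at hle
    have := norm_natCast_p_lt_one p
    rw [hn] at this
    exact absurd (one_le_zpow_of_nonpos₀ hπpos hπ1.le hle) (not_le.mpr this)
  lift n to ℕ using hnpos.le
  exact ⟨_, (π : E).2, n, by exact_mod_cast hnpos, hπ1, by rw [hn, zpow_natCast], key⟩

end Fields

section Unramified

variable (E : IntermediateField ℚ_[p] (PadicAlgCl p)) [FiniteDimensional ℚ_[p] E]

/-- The unramified part of a finite extension of `ℚ_p`, with its residues and Frobenius. -/
structure IsUnramifiedPart (K : IntermediateField ℚ_[p] (PadicAlgCl p)) : Prop where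
  le : K ≤ E
  values : ∀ x ∈ K, x ≠ 0 → ∃ n : ℤ, ‖x‖ = ‖(p : PadicAlgCl p)‖ ^ n
  residue : residueSubfield K = residueSubfield E
  fixed : ∀ σ : LocalGal p, (∀ z ∈ residueSubfield E, galRed σ z = z) → ∀ x ∈ K, σ x = x
  roots : ∀ z : PadicAlgCl p, (∃ n : ℕ, ¬ p ∣ n ∧ z ^ n = 1) → red z ∈ residueSubfield E → z ∈ K
  frobenius : ∃ φ : LocalGal p, (∀ z ∈ residueSubfield E, galRed φ z = z ^ p) ∧
    ∀ σ : LocalGal p, ∃ k : ℕ, ∀ z ∈ residueSubfield E, galRed σ z = galRed (φ ^ k) z

theorem galRed_one (z : Resid p) : galRed (1 : LocalGal p) z = z := by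
  obtain ⟨x, hx, rfl⟩ := exists_red_eq z
  rw [galRed_red _ hx]; rfl

theorem galRed_mul (σ τ : LocalGal p) (z : Resid p) :
    galRed (σ * τ) z = galRed σ (galRed τ z) := by
  obtain ⟨x, hx, rfl⟩ := exists_red_eq z
  rw [galRed_red _ hx, galRed_red _ hx, galRed_red _ ((norm_galois τ x).trans_le hx)]
  rfl

theorem red_sum {ι : Type} (s : Finset ι) (f : ι → PadicAlgCl p) (h : ∀ i ∈ s, ‖f i‖ ≤ 1) :
    red (∑ i ∈ s, f i) = ∑ i ∈ s, red (f i) := by
  classical
  induction s using Finset.induction with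
  | empty => simp
  | insert i s his ih =>
    rw [Finset.sum_insert his, Finset.sum_insert his,
      red_add (h i (Finset.mem_insert_self i s))
        (IsUltrametricDist.norm_sum_le_of_forall_le_of_nonneg zero_le_one fun j hj =>
          h j (Finset.mem_insert_of_mem hj)),
      ih fun j hj => h j (Finset.mem_insert_of_mem hj)]

section Generator

variable {E}

omit [FiniteDimensional ℚ_[p] E] in
/-- A generator of the unit group of the residue field lifts to a root of unity in `E`. -/
theorem exists_teichmuller_lift [Fintype (residueSubfield E)] (g : (residueSubfield E)ˣ)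
    (hNp : ¬ p ∣ Fintype.card (residueSubfield E) - 1) :
    ∃ ω ∈ E, ω ^ (Fintype.card (residueSubfield E) - 1) = 1 ∧
      red ω = ((g : residueSubfield E) : Resid p) := by
  obtain ⟨x, hxE, hx1, hxg⟩ := ((g : residueSubfield E) : residueSubfield E).2
  set N := Fintype.card (residueSubfield E) - 1
  have hgN : (g : residueSubfield E) ^ N = 1 :=
    FiniteField.pow_card_sub_one_eq_one _ g.ne_zero
  have hxnorm : ‖x‖ = 1 := by
    refine le_antisymm hx1 (not_lt.mp fun hlt => g.ne_zero (Subtype.ext ?_))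
    rw [← hxg, (red_eq_zero_iff hx1).mpr hlt, ZeroMemClass.coe_zero]
  have hgN' : red x ^ N = 1 := by rw [hxg, ← SubmonoidClass.coe_pow, hgN, OneMemClass.coe_one]
  obtain ⟨ω, ⟨hωN, hωx⟩, hωuniq⟩ := existsUnique_root (norm_natCast_eq_one hNp) hxnorm (w := 1) (by
    rw [← red_eq_iff (by rw [norm_pow, hxnorm, one_pow]) norm_one.le, red_pow hx1, red_one, hgN'])
  have hω1 : ‖ω‖ = 1 := (pow_eq_one_iff_of_nonneg (norm_nonneg ω)
    (fun h0 : N = 0 => hNp (h0 ▸ dvd_zero p))).mp (by rw [← norm_pow, hωN, norm_one])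
  refine ⟨ω, ?_, hωN, by rw [← hxg, red_eq_iff hω1.le hx1]; exact hωx⟩
  rw [← InfiniteGalois.fixedField_fixingSubgroup E]
  intro σ
  show (σ : LocalGal p) ω = ω
  refine hωuniq _ ⟨by rw [← map_pow, hωN, map_one], ?_⟩
  have hσx : (σ : LocalGal p) x = x :=
    (IntermediateField.mem_fixingSubgroup_iff E _).mp σ.2 x hxE
  rw [← hσx, ← map_sub, norm_galois]
  exact hωx

/-- The Frobenius conjugates of a primitive `(p ^ f - 1)`-th root of unity are distinct. -/
theorem injOn_pow_pow {R : Type} [CommMonoid R] {N f : ℕ} {z : R} (hgen : IsPrimitiveRoot z N)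
    (hN : p ^ f = N + 1) (hNp : ¬ p ∣ N) :
    Set.InjOn (fun k => z ^ p ^ k) (Set.Iio f) := by
  have hp := (Fact.out : p.Prime)
  intro a ha b hb hab
  rw [Set.mem_Iio] at ha hb
  have hlt : ∀ c < f, p ^ c < N ∨ N = p ^ c := by
    intro c hc
    have h3 : p ^ c * 2 ≤ p ^ f := by
      calc p ^ c * 2 ≤ p ^ c * p := Nat.mul_le_mul_left _ hp.two_le
        _ = p ^ (c + 1) := (pow_succ p c).symm
        _ ≤ p ^ f := Nat.pow_le_pow_right hp.pos hc
    have : 1 ≤ p ^ c := Nat.one_le_pow _ _ hp.pos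
    omega
  rcases hlt a ha with ha' | ha'
  · rcases hlt b hb with hb' | hb'
    · exact Nat.pow_right_injective hp.two_le (hgen.pow_inj ha' hb' hab)
    · exact absurd (dvd_pow_self p (fun h0 => by
        rw [h0, pow_zero] at hb'; subst h0
        have : p ^ a < 1 := hb' ▸ ha'
        exact absurd this (not_lt.mpr (Nat.one_le_pow _ _ hp.pos))))
        (fun hd => hNp (hb'.symm ▸ hd))
  · rcases Nat.eq_zero_or_pos a with rfl | hapos
    · rcases hlt b hb with hb' | hb'
      · exact absurd hb' (not_lt.mpr (ha' ▸ Nat.one_le_pow _ _ hp.pos))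
      · exact Nat.pow_right_injective hp.two_le (ha'.symm.trans hb')
    · exact absurd (ha'.symm ▸ dvd_pow_self p hapos.ne') hNp

variable [Fintype (residueSubfield E)] [Algebra (ZMod p) (residueSubfield E)]

omit [FiniteDimensional ℚ_[p] E] in
/-- The residue field has `p ^ f` elements. -/
theorem card_residueSubfield_eq_pow :
    Fintype.card (residueSubfield E) = p ^ Module.finrank (ZMod p) (residueSubfield E) := by
  rw [Module.card_eq_pow_finrank (K := ZMod p), ZMod.card]

/-- `p ^ f - 1` is prime to `p`. -/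
theorem not_dvd_card_sub_one : ¬ p ∣ Fintype.card (residueSubfield E) - 1 := by
  intro hd
  have h1 : p ∣ p ^ Module.finrank (ZMod p) (residueSubfield E) :=
    dvd_pow_self p Module.finrank_pos.ne'
  have h2 : p ^ Module.finrank (ZMod p) (residueSubfield E) =
      Fintype.card (residueSubfield E) - 1 + 1 := by
    rw [← card_residueSubfield_eq_pow]; exact (Nat.sub_add_cancel Fintype.card_pos).symm
  exact (Fact.out : p.Prime).one_lt.ne' (Nat.dvd_one.mp ((Nat.dvd_add_right hd).mp (h2 ▸ h1)))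

/-- A root of unity of order dividing `p ^ f - 1` has norm one. -/
theorem norm_eq_one_of_pow_card_sub_one {ω : PadicAlgCl p}
    (hωN : ω ^ (Fintype.card (residueSubfield E) - 1) = 1) : ‖ω‖ = 1 :=
  (pow_eq_one_iff_of_nonneg (norm_nonneg ω)
    (fun h0 : Fintype.card (residueSubfield E) - 1 = 0 =>
      not_dvd_card_sub_one (E := E) (h0 ▸ dvd_zero p))).mp (by rw [← norm_pow, hωN, norm_one])

variable {g : (residueSubfield E)ˣ} (hg : ∀ x, x ∈ Subgroup.zpowers g) {ω : PadicAlgCl p}
  (hωN : ω ^ (Fintype.card (residueSubfield E) - 1) = 1)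
  (hredω : red ω = ((g : residueSubfield E) : Resid p))

omit [Fintype (residueSubfield E)] [Algebra (ZMod p) (residueSubfield E)] in
include hg hredω in
/-- The nonzero residues are powers of the residue of `ω`. -/
theorem exists_eq_red_pow {z : Resid p} (hz : z ∈ residueSubfield E) (hz0 : z ≠ 0) :
    ∃ i : ℕ, z = red ω ^ i := by
  obtain ⟨i, hi⟩ := (mem_powers_iff_mem_zpowers (y := Units.mk0 (⟨z, hz⟩ : residueSubfield E)
    fun h => hz0 (congrArg Subtype.val h)) (x := g)).mpr (hg _)
  refine ⟨i, ?_⟩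
  have := congrArg (fun u : (residueSubfield E)ˣ => ((u : residueSubfield E) : Resid p)) hi
  simpa [hredω] using this.symm

include hg hredω in
/-- A conjugate over `𝔽_p` of the residue of `ω` is a Frobenius conjugate of it. -/
theorem exists_eq_red_pow_of_eval₂ {z : Resid p}
    (hz : (minpoly (ZMod p) (g : residueSubfield E)).eval₂ (ZMod.castHom dvd_rfl (Resid p)) z = 0) :
    ∃ k < Module.finrank (ZMod p) (residueSubfield E), z = red ω ^ p ^ k := by
  classical
  set f := Module.finrank (ZMod p) (residueSubfield E)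
  let P : Polynomial (ZMod p) := minpoly (ZMod p) (g : residueSubfield E)
  let h : ZMod p →+* Resid p := ZMod.castHom dvd_rfl (Resid p)
  have hcomp : (residueSubfield E).subtype.comp (algebraMap (ZMod p) (residueSubfield E)) = h :=
    RingHom.ext_zmod _ _
  have hroots : ∀ k, P.eval₂ h (red ω ^ p ^ k) = 0 := by
    intro k
    have h0 : P.eval₂ h (red ω) = 0 := by
      rw [hredω, ← hcomp, ← Subfield.coe_subtype, ← Polynomial.hom_eval₂, ← Polynomial.aeval_def,
        minpoly.aeval, map_zero]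
    have hfr : (iterateFrobenius (Resid p) p k).comp h = h := RingHom.ext_zmod _ _
    rw [← iterateFrobenius_def, ← hfr, ← Polynomial.hom_eval₂, h0, map_zero]
  have hgen : IsPrimitiveRoot (red ω) (Fintype.card (residueSubfield E) - 1) := by
    rw [hredω]
    have ho : orderOf g = Fintype.card (residueSubfield E) - 1 := by
      rw [orderOf_eq_card_of_forall_mem_zpowers hg, Nat.card_eq_fintype_card, Fintype.card_units]
    exact (ho ▸ IsPrimitiveRoot.orderOf g).map_of_injective (f :=
      ((residueSubfield E).subtype.toMonoidHom.comp (Units.coeHom (residueSubfield E))))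
      (fun a b hab => Units.ext (Subtype.ext hab))
  let S : Finset (Resid p) := (Finset.range f).image fun k => red ω ^ p ^ k
  have hS : S.card = f := by
    rw [Finset.card_image_of_injOn, Finset.card_range]
    rw [Finset.coe_range]
    exact injOn_pow_pow hgen (by
      rw [← card_residueSubfield_eq_pow]; exact (Nat.sub_add_cancel Fintype.card_pos).symm)
      not_dvd_card_sub_one
  by_contra hcontra
  push Not at hcontra
  have hzS : z ∉ S := by
    simp only [S, Finset.mem_image, Finset.mem_range, not_exists, not_and]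
    exact fun k hk he => hcontra k hk he.symm
  have hne : P.map h ≠ 0 :=
    Polynomial.map_ne_zero (minpoly.ne_zero (Algebra.IsIntegral.isIntegral _))
  have hsub : insert z S ⊆ (P.map h).roots.toFinset := by
    intro y hy
    rw [Multiset.mem_toFinset, mem_roots hne, IsRoot.def, eval_map]
    rcases Finset.mem_insert.mp hy with rfl | hy
    · exact hz
    · obtain ⟨k, -, rfl⟩ := Finset.mem_image.mp hy
      exact hroots k
  have h4 := (Finset.card_le_card hsub).trans
    ((Multiset.toFinset_card_le _).trans (Polynomial.card_roots' _))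
  rw [Finset.card_insert_of_notMem hzS, hS] at h4
  have hdeg : P.natDegree ≤ f := minpoly.natDegree_le _
  exact absurd (h4.trans (Polynomial.natDegree_map_le.trans hdeg)) (by omega)

include hg hωN hredω in
/-- The conjugates of `ω` are among its Frobenius conjugates. -/
theorem exists_apply_eq_pow (σ : LocalGal p) :
    ∃ k < Module.finrank (ZMod p) (residueSubfield E), σ ω = ω ^ p ^ k := by
  let h : ZMod p →+* Resid p := ZMod.castHom dvd_rfl (Resid p)
  have hcomp : (residueSubfield E).subtype.comp (algebraMap (ZMod p) (residueSubfield E)) = h :=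
    RingHom.ext_zmod _ _
  have hgalh : (galRed σ).comp h = h := RingHom.ext_zmod _ _
  have h1 : (minpoly (ZMod p) (g : residueSubfield E)).eval₂ h (galRed σ (red ω)) = 0 := by
    rw [← hgalh, ← Polynomial.hom_eval₂, hredω, ← hcomp, ← Subfield.coe_subtype,
      ← Polynomial.hom_eval₂, ← Polynomial.aeval_def, minpoly.aeval, map_zero, map_zero]
  obtain ⟨k, hk, hkz⟩ := exists_eq_red_pow_of_eval₂ hg hredω h1
  have hω1 := norm_eq_one_of_pow_card_sub_one hωN
  refine ⟨k, hk, eq_of_pow_eq_one_of_red_eq (not_dvd_card_sub_one (E := E))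
    (by rw [← map_pow, hωN, map_one])
    (by rw [← pow_mul, mul_comm, pow_mul, hωN, one_pow]) ?_⟩
  rw [← galRed_red σ hω1.le, hkz, red_pow hω1.le]

omit [Fintype (residueSubfield E)] in
include hg in
/-- The first `f` powers of the generator are independent over `𝔽_p`. -/
theorem linearIndependent_pow_generator :
    LinearIndependent (ZMod p) fun j : Fin (Module.finrank (ZMod p) (residueSubfield E)) =>
      (g : residueSubfield E) ^ (j : ℕ) := by
  have hgen : Algebra.adjoin (ZMod p) {(g : residueSubfield E)} = ⊤ := by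
    refine eq_top_iff.mpr fun y _ => ?_
    rcases eq_or_ne y 0 with rfl | hy
    · exact zero_mem _
    obtain ⟨i, hi⟩ := (mem_powers_iff_mem_zpowers (y := Units.mk0 y hy)).mpr (hg _)
    have := congrArg Units.val hi
    simp only [Units.val_mk0] at this
    rw [← this, Units.val_pow_eq_pow_val]
    exact pow_mem (Algebra.self_mem_adjoin_singleton _ _) i
  have hint : IsIntegral (ZMod p) (g : residueSubfield E) := Algebra.IsIntegral.isIntegral _
  have hd : (minpoly (ZMod p) (g : residueSubfield E)).natDegree =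
      Module.finrank (ZMod p) (residueSubfield E) := by
    rw [← IntermediateField.adjoin.finrank hint,
      show IntermediateField.adjoin (ZMod p) {(g : residueSubfield E)} = ⊤ from
        IntermediateField.toSubalgebra_injective
          (by rw [IntermediateField.adjoin_simple_toSubalgebra_of_isAlgebraic hint.isAlgebraic,
            hgen, IntermediateField.top_toSubalgebra]),
      IntermediateField.finrank_top']
  exact hd ▸ linearIndependent_pow (g : residueSubfield E)

include hg hωN hredω in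
/-- The first `f` powers of `ω` are orthonormal. -/
theorem norm_coeff_le_norm_sum
    (a : Fin (Module.finrank (ZMod p) (residueSubfield E)) → ℚ_[p])
    (i : Fin (Module.finrank (ZMod p) (residueSubfield E))) :
    ‖a i‖ ≤ ‖∑ j, algebraMap ℚ_[p] (PadicAlgCl p) (a j) * ω ^ (j : ℕ)‖ := by
  have hω1 := norm_eq_one_of_pow_card_sub_one hωN
  obtain ⟨m, -, hm⟩ := Finset.exists_max_image Finset.univ (fun j => ‖a j‖)
    ⟨i, Finset.mem_univ i⟩
  rcases eq_or_ne (a m) 0 with hm0 | hm0
  · exact le_trans (by simpa [hm0] using hm i (Finset.mem_univ i)) (norm_nonneg _)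
  set b := fun j => a j / a m
  have hb : ∀ j, ‖b j‖ ≤ 1 := fun j => by
    rw [norm_div, div_le_one (norm_pos_iff.mpr hm0)]; exact hm j (Finset.mem_univ j)
  have hterm : ∀ j, ‖algebraMap ℚ_[p] (PadicAlgCl p) (b j) * ω ^ (j : ℕ)‖ ≤ 1 :=
    fun j => by rw [norm_mul, norm_pow, hω1, one_pow, mul_one, norm_algebraMap_padic]; exact hb j
  choose n hn using fun j => exists_natCast_red (b j) (hb j)
  have hne : red (∑ j, algebraMap ℚ_[p] (PadicAlgCl p) (b j) * ω ^ (j : ℕ)) ≠ 0 := by
    rw [red_sum _ _ fun j _ => hterm j]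
    intro h0
    have hg' : ∀ j, red (algebraMap ℚ_[p] (PadicAlgCl p) (b j) * ω ^ (j : ℕ)) =
        (((n j : ZMod p) • (g : residueSubfield E) ^ (j : ℕ) : residueSubfield E) : Resid p) := by
      intro j
      rw [red_mul ((norm_algebraMap_padic _).trans_le (hb j))
        (by rw [norm_pow, hω1, one_pow]), hn, red_pow hω1.le, hredω, Algebra.smul_def]
      simp
    simp only [hg', ← AddSubmonoidClass.coe_finsetSum] at h0
    have hzero : (∑ j, (n j : ZMod p) • (g : residueSubfield E) ^ (j : ℕ)) = 0 := Subtype.ext h0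
    have hnm := Fintype.linearIndependent_iff.mp (linearIndependent_pow_generator hg) _ hzero m
    have hbm : b m = 1 := div_self hm0
    have hnm' := hn m
    rw [hbm, map_one, red_one] at hnm'
    rw [ZMod.natCast_eq_zero_iff] at hnm
    rw [(CharP.cast_eq_zero_iff (Resid p) p _).mpr hnm] at hnm'
    exact one_ne_zero hnm'
  have heq : (∑ j, algebraMap ℚ_[p] (PadicAlgCl p) (a j) * ω ^ (j : ℕ)) =
      algebraMap ℚ_[p] (PadicAlgCl p) (a m) *
        ∑ j, algebraMap ℚ_[p] (PadicAlgCl p) (b j) * ω ^ (j : ℕ) := by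
    rw [Finset.mul_sum]
    exact Finset.sum_congr rfl fun j _ => by
      rw [← mul_assoc, ← map_mul, mul_div_cancel₀ _ hm0]
  have hle1 : ‖∑ j, algebraMap ℚ_[p] (PadicAlgCl p) (b j) * ω ^ (j : ℕ)‖ ≤ 1 :=
    IsUltrametricDist.norm_sum_le_of_forall_le_of_nonneg zero_le_one fun j _ => hterm j
  have hsum : ‖∑ j, algebraMap ℚ_[p] (PadicAlgCl p) (b j) * ω ^ (j : ℕ)‖ = 1 :=
    le_antisymm hle1 (not_lt.mp fun hlt => hne ((red_eq_zero_iff hle1).mpr hlt))
  rw [heq, norm_mul, hsum, mul_one, norm_algebraMap_padic]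
  exact hm i (Finset.mem_univ i)

include hg hωN hredω in
/-- The roots of the minimal polynomial of `ω` are Frobenius conjugates of `ω`. -/
theorem exists_eq_pow_of_mem_aroots {y : PadicAlgCl p}
    (hy : y ∈ (minpoly ℚ_[p] ω).aroots (PadicAlgCl p)) :
    ∃ k < Module.finrank (ZMod p) (residueSubfield E), ω ^ p ^ k = y := by
  rw [mem_aroots] at hy
  obtain ⟨σ, hσ⟩ := minpoly.exists_algEquiv_of_root' (Algebra.IsAlgebraic.isAlgebraic ω) hy.2
  obtain ⟨k, hk, hk'⟩ := exists_apply_eq_pow hg hωN hredω σ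
  exact ⟨k, hk, hk'.symm.trans hσ⟩

/-- The roots of a minimal polynomial are as many as its degree. -/
theorem card_aroots_toFinset_minpoly [DecidableEq (PadicAlgCl p)] (x : PadicAlgCl p) :
    ((minpoly ℚ_[p] x).aroots (PadicAlgCl p)).toFinset.card = (minpoly ℚ_[p] x).natDegree := by
  rw [Multiset.toFinset_card_of_nodup (Polynomial.nodup_roots
      (show (minpoly ℚ_[p] x).Separable from Algebra.IsSeparable.isSeparable ℚ_[p] x).map),
    ← (IsAlgClosed.splits _).natDegree_eq_card_roots, natDegree_map]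

include hg hωN hredω in
/-- `ω` has degree `f` over `ℚ_p`. -/
theorem natDegree_minpoly_teichmuller :
    (minpoly ℚ_[p] ω).natDegree = Module.finrank (ZMod p) (residueSubfield E) := by
  classical
  refine le_antisymm ?_ ?_
  · rw [← card_aroots_toFinset_minpoly ω]
    have hr : ((minpoly ℚ_[p] ω).aroots (PadicAlgCl p)).toFinset ⊆
        (Finset.range (Module.finrank (ZMod p) (residueSubfield E))).image fun k => ω ^ p ^ k :=
      fun y hy => by
        obtain ⟨k, hk, hky⟩ :=
          exists_eq_pow_of_mem_aroots hg hωN hredω (Multiset.mem_toFinset.mp hy)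
        exact Finset.mem_image.mpr ⟨k, Finset.mem_range.mpr hk, hky⟩
    exact (Finset.card_le_card hr).trans (Finset.card_image_le.trans (Finset.card_range _).le)
  · have hωint : IsIntegral ℚ_[p] ω := Algebra.IsIntegral.isIntegral ω
    have hli : LinearIndependent ℚ_[p]
        fun j : Fin (Module.finrank (ZMod p) (residueSubfield E)) => ω ^ (j : ℕ) := by
      rw [Fintype.linearIndependent_iff]
      intro a ha i
      have h5 := norm_coeff_le_norm_sum hg hωN hredω a i
      simp only [Algebra.smul_def] at ha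
      rw [ha, norm_zero] at h5
      exact norm_le_zero_iff.mp h5
    let K := IntermediateField.adjoin ℚ_[p] {ω}
    have hspan : ∀ j : Fin (Module.finrank (ZMod p) (residueSubfield E)), ω ^ (j : ℕ) ∈ K :=
      fun j => pow_mem (IntermediateField.mem_adjoin_simple_self _ _) _
    have : FiniteDimensional ℚ_[p] K := IntermediateField.adjoin.finiteDimensional hωint
    have h6 := (LinearIndependent.of_comp K.val.toLinearMap
      (show LinearIndependent ℚ_[p] (K.val.toLinearMap ∘ fun j => (⟨_, hspan j⟩ : K)) from hli)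
        ).fintype_card_le_finrank
    rwa [Fintype.card_fin, IntermediateField.adjoin.finrank hωint] at h6

include hg hωN hredω in
/-- The nonzero elements of `ℚ_p(ω)` have the norm of a power of `p`. -/
theorem norm_eq_zpow_of_mem_adjoin {y : PadicAlgCl p}
    (hy : y ∈ IntermediateField.adjoin ℚ_[p] {ω}) (hy0 : y ≠ 0) :
    ∃ n : ℤ, ‖y‖ = ‖(p : PadicAlgCl p)‖ ^ n := by
  have hω1 := norm_eq_one_of_pow_card_sub_one hωN
  have hωint : IsIntegral ℚ_[p] ω := Algebra.IsIntegral.isIntegral ω
  set f := Module.finrank (ZMod p) (residueSubfield E)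
  let B := IntermediateField.adjoin.powerBasis hωint
  have hBdim : B.dim = f := natDegree_minpoly_teichmuller hg hωN hredω
  have hsum : (y : PadicAlgCl p) = ∑ j : Fin B.dim,
      algebraMap ℚ_[p] (PadicAlgCl p) (B.basis.repr ⟨y, hy⟩ j) * ω ^ (j : ℕ) := by
    conv_lhs => rw [show y = ((⟨y, hy⟩ : IntermediateField.adjoin ℚ_[p] {ω}) : PadicAlgCl p)
      from rfl, ← B.basis.sum_repr ⟨y, hy⟩]
    simp only [AddSubmonoidClass.coe_finsetSum, B.basis_eq_pow, Algebra.smul_def]
    rfl
  let a : Fin f → ℚ_[p] := fun j => B.basis.repr ⟨y, hy⟩ (Fin.cast hBdim.symm j)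
  have hya : y = ∑ j : Fin f, algebraMap ℚ_[p] (PadicAlgCl p) (a j) * ω ^ (j : ℕ) := by
    rw [hsum, ← Equiv.sum_comp (finCongr hBdim.symm)]
    rfl
  obtain ⟨m, -, hm⟩ := Finset.exists_max_image Finset.univ (fun j => ‖a j‖)
    ⟨⟨0, Module.finrank_pos⟩, Finset.mem_univ _⟩
  have hyn : ‖y‖ = ‖a m‖ := by
    refine le_antisymm ?_ (hya ▸ norm_coeff_le_norm_sum hg hωN hredω a m)
    rw [hya]
    refine IsUltrametricDist.norm_sum_le_of_forall_le_of_nonneg (norm_nonneg _) fun j _ => ?_
    rw [norm_mul, norm_pow, hω1, one_pow, mul_one, norm_algebraMap_padic]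
    exact hm j (Finset.mem_univ j)
  have ham : a m ≠ 0 := fun h0 => hy0 (norm_eq_zero.mp (by rw [hyn, h0, norm_zero]))
  refine ⟨(a m).valuation, ?_⟩
  rw [hyn, Padic.norm_eq_zpow_neg_valuation ham, norm_natCast_p, inv_zpow, zpow_neg]

include hg hωN hredω in
/-- Some Galois element raises `ω` to the power `p`. -/
theorem exists_apply_eq_pow_self : ∃ φ : LocalGal p, φ ω = ω ^ p := by
  classical
  set f := Module.finrank (ZMod p) (residueSubfield E)
  by_cases hf1 : f = 1
  · refine ⟨1, ?_⟩
    have hN1 : Fintype.card (residueSubfield E) - 1 + 1 = p := by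
      rw [Nat.sub_add_cancel Fintype.card_pos, card_residueSubfield_eq_pow]
      exact (congrArg (p ^ ·) hf1).trans (pow_one p)
    calc (1 : LocalGal p) ω = ω ^ (Fintype.card (residueSubfield E) - 1) * ω := by
          rw [hωN, one_mul]; rfl
      _ = ω ^ p := by rw [← pow_succ, hN1]
  · have hf : 0 < f := Module.finrank_pos
    have hr : (minpoly ℚ_[p] ω).aeval (ω ^ p) = 0 := by
      by_contra hne
      have hsub : ((minpoly ℚ_[p] ω).aroots (PadicAlgCl p)).toFinset ⊆
          ((Finset.range f).image fun k => ω ^ p ^ k).erase (ω ^ p) := by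
        intro y hy
        rw [Multiset.mem_toFinset] at hy
        obtain ⟨k, hk, hky⟩ := exists_eq_pow_of_mem_aroots hg hωN hredω hy
        exact Finset.mem_erase.mpr ⟨fun h => hne (h ▸ (mem_aroots.mp hy).2),
          Finset.mem_image.mpr ⟨k, Finset.mem_range.mpr hk, hky⟩⟩
      have h1 := Finset.card_le_card hsub
      rw [Finset.card_erase_of_mem (Finset.mem_image.mpr
          ⟨1, Finset.mem_range.mpr (by omega), by rw [pow_one]⟩),
        card_aroots_toFinset_minpoly, natDegree_minpoly_teichmuller hg hωN hredω] at h1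
      have h2 : ((Finset.range f).image fun k => ω ^ p ^ k).card ≤ f :=
        Finset.card_image_le.trans (Finset.card_range f).le
      omega
    exact minpoly.exists_algEquiv_of_root' (Algebra.IsAlgebraic.isAlgebraic ω) hr

include hg hωN hredω in
/-- A Galois element acts on the residues as on the residue of `ω`. -/
theorem galRed_eq_pow_of_apply {σ : LocalGal p} {k : ℕ} (hσ : σ ω = ω ^ p ^ k) {z : Resid p}
    (hz : z ∈ residueSubfield E) : galRed σ z = z ^ p ^ k := by
  have hω1 := norm_eq_one_of_pow_card_sub_one hωN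
  have hσ' : galRed σ (red ω) = red ω ^ p ^ k := by
    rw [galRed_red σ hω1.le, hσ, red_pow hω1.le]
  rcases eq_or_ne z 0 with rfl | hz0
  · rw [map_zero, zero_pow (pow_ne_zero _ (Fact.out : p.Prime).ne_zero)]
  obtain ⟨i, rfl⟩ := exists_eq_red_pow hg hredω hz hz0
  rw [map_pow, hσ', ← pow_mul, ← pow_mul, mul_comm]

include hωN hredω in
/-- The Galois elements fixing the residues of `E` fix `ℚ_p(ω)`. -/
theorem apply_eq_self_of_galRed_eq {σ : LocalGal p}
    (hσ : ∀ z ∈ residueSubfield E, galRed σ z = z) {y : PadicAlgCl p}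
    (hy : y ∈ IntermediateField.adjoin ℚ_[p] {ω}) : σ y = y := by
  have hω1 := norm_eq_one_of_pow_card_sub_one hωN
  have hσω : σ ω = ω := by
    refine eq_of_pow_eq_one_of_red_eq (not_dvd_card_sub_one (E := E))
      (by rw [← map_pow, hωN, map_one]) hωN ?_
    rw [← galRed_red σ hω1.le, hσ _ (hredω ▸ (g : residueSubfield E).2)]
  have : IntermediateField.adjoin ℚ_[p] {ω} ≤
      IntermediateField.fixedField (Subgroup.zpowers σ) := by
    refine IntermediateField.adjoin_le_iff.mpr ?_
    rintro w hw ⟨τ, hτ⟩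
    rw [Set.mem_singleton_iff] at hw
    obtain ⟨j, rfl⟩ := hτ
    show (σ ^ j) w = w
    rw [hw]
    exact (MulAction.mem_stabilizer_iff (a := ω)).mp
      (zpow_mem (show σ ∈ MulAction.stabilizer (LocalGal p) ω from hσω) j)
  exact this hy ⟨σ, Subgroup.mem_zpowers σ⟩

include hg hωN hredω in
/-- Roots of unity of order prime to `p` with residue in `E` lie in `ℚ_p(ω)`. -/
theorem mem_adjoin_of_pow_eq_one {z : PadicAlgCl p} {n : ℕ} (hn : ¬ p ∣ n) (hzn : z ^ n = 1)
    (hz : red z ∈ residueSubfield E) : z ∈ IntermediateField.adjoin ℚ_[p] {ω} := by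
  have hω1 := norm_eq_one_of_pow_card_sub_one hωN
  have hz0 : red z ≠ 0 := by
    intro h0
    have hn0 : n ≠ 0 := fun h => hn (h ▸ dvd_zero p)
    have hz1 : ‖z‖ = 1 := (pow_eq_one_iff_of_nonneg (norm_nonneg z) hn0).mp
      (by rw [← norm_pow, hzn, norm_one])
    rw [red_eq_zero_iff hz1.le, hz1] at h0
    exact lt_irrefl _ h0
  obtain ⟨i, hi⟩ := exists_eq_red_pow hg hredω hz hz0
  set N := Fintype.card (residueSubfield E) - 1
  have : z = ω ^ i := eq_of_pow_eq_one_of_red_eq (n := n * N)
    (fun hd => ((Fact.out : p.Prime).dvd_mul.mp hd).elim hn not_dvd_card_sub_one)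
    (by rw [pow_mul, hzn, one_pow])
    (by rw [← pow_mul, show i * (n * N) = N * (i * n) by ring, pow_mul, hωN, one_pow])
    (by rw [red_pow hω1.le, hi])
  exact this ▸ pow_mem (IntermediateField.mem_adjoin_simple_self _ _) i

include hg hωN hredω in
/-- A Frobenius on the residues of `E`, whose powers give every Galois action there. -/
theorem exists_frobenius_residue :
    ∃ φ : LocalGal p, (∀ z ∈ residueSubfield E, galRed φ z = z ^ p) ∧
      ∀ σ : LocalGal p, ∃ k : ℕ, ∀ z ∈ residueSubfield E, galRed σ z = galRed (φ ^ k) z := by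
  obtain ⟨φ, hφ⟩ := exists_apply_eq_pow_self hg hωN hredω
  have hφred : ∀ z ∈ residueSubfield E, galRed φ z = z ^ p := fun z hz => by
    simpa using galRed_eq_pow_of_apply hg hωN hredω (k := 1) (hφ.trans (by rw [pow_one])) hz
  refine ⟨φ, hφred, fun σ => ?_⟩
  obtain ⟨k, -, hk⟩ := exists_apply_eq_pow hg hωN hredω σ
  refine ⟨k, fun z hz => ?_⟩
  rw [galRed_eq_pow_of_apply hg hωN hredω hk hz]
  clear hk
  induction k generalizing z with
  | zero => simp [galRed_one]
  | succ j ih =>
    rw [pow_succ φ j, galRed_mul, hφred z hz, ← ih _ (pow_mem hz p), ← pow_mul, ← pow_succ' p j]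

end Generator

/-- Every finite extension has an unramified part. -/
theorem exists_isUnramifiedPart : ∃ K, IsUnramifiedPart E K := by
  classical
  set κ := residueSubfield E
  have : Fintype κ := Fintype.ofFinite κ
  have : CharP κ p := (κ.subtype.charP_iff Subtype.val_injective p).mpr inferInstance
  let : Algebra (ZMod p) κ := ZMod.algebra κ p
  obtain ⟨g, hg⟩ := IsCyclic.exists_generator (α := κˣ)
  obtain ⟨ω, hωE, hωN, hredω⟩ := exists_teichmuller_lift g not_dvd_card_sub_one
  have hω1 := norm_eq_one_of_pow_card_sub_one hωN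
  have hKE : IntermediateField.adjoin ℚ_[p] {ω} ≤ E :=
    IntermediateField.adjoin_le_iff.mpr (by simpa using hωE)
  refine ⟨_, hKE, fun y hy => norm_eq_zpow_of_mem_adjoin hg hωN hredω hy, le_antisymm ?_ ?_,
    fun σ hσ y => apply_eq_self_of_galRed_eq hωN hredω hσ,
    fun z ⟨n, hn, hzn⟩ => mem_adjoin_of_pow_eq_one hg hωN hredω hn hzn,
    exists_frobenius_residue hg hωN hredω⟩
  · rintro z ⟨y, hy, hy1, rfl⟩
    exact ⟨y, hKE hy, hy1, rfl⟩
  · intro z hz
    rcases eq_or_ne z 0 with rfl | hz0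
    · exact zero_mem _
    obtain ⟨i, rfl⟩ := exists_eq_red_pow hg hredω hz hz0
    exact ⟨ω ^ i, pow_mem (IntermediateField.mem_adjoin_simple_self _ _) i,
      by rw [norm_pow, hω1, one_pow], red_pow hω1.le i⟩

end Unramified

end FLTAgent.FlatBound
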