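import Fermat.Agent.TWPrimes.Flat.Convolution
import Fermat.Agent.FiniteFlat.Model
import Fermat.Agent.LocalDuality.Fields

/-!
# Flat models inside the local algebraic closure

The functions of a finite flat model with values in `PadicAlgCl p` (`IsPadicModel`,
`exists_isPadicModel`): no two points are closer than `|p| ^ (1 / (p - 1))` (`eq_of_close`),
approximate points lift uniquely (`exists_point`), and the `connectedPart` is defined.
-/

set_option autoImplicit false

noncomputable section

open AddMonoidAlgebra (single)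

namespace FLTAgent.FlatBound

open FLTAgent.LocalDuality

section Products

variable {C : Type} [NormedField C] [IsUltrametricDist C] {V W : Type} [AddCommGroup V] [Fintype V]
  [AddCommGroup W]
  [Fintype W]

theorem pair_mapDomain (φ : V →+ W) (l : AddMonoidAlgebra C V) (f : W → C) :
    pair (AddMonoidAlgebra.mapDomainRingHom C φ l) f = pair l (f ∘ φ) := by
  induction l using AddMonoidAlgebra.induction_linear with
  | zero => simp
  | add a b ha hb => simp only [map_add, pair_add_left, ha, hb]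
  | single v r => simp

theorem pair_outer (a b : AddMonoidAlgebra C V) (f g : V → C) :
    pair (AddMonoidAlgebra.mapDomainRingHom C (AddMonoidHom.inl V V) a *
      AddMonoidAlgebra.mapDomainRingHom C (AddMonoidHom.inr V V) b) (fun q => f q.1 * g q.2) =
      pair a f * pair b g := by
  induction a using AddMonoidAlgebra.induction_linear with
  | zero => simp
  | add x y hx hy => simp only [map_add, add_mul, pair_add_left, hx, hy]
  | single v r =>
    induction b using AddMonoidAlgebra.induction_linear with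
    | zero => simp
    | add x y hx hy => simp only [map_add, mul_add, pair_add_left, hx, hy]
    | single w s =>
      simp [AddMonoidAlgebra.single_mul_single]
      ring

/-- Products of functions in `S` in separate variables. -/
def outerSet (S : Set (V → C)) : Set (V × V → C) :=
  {F | ∃ f ∈ S, ∃ g ∈ S, F = fun q => f q.1 * g q.2}

omit [IsUltrametricDist C] [AddCommGroup V] [Fintype V] in
theorem outer_mem_span {S : Set (V → C)} {f g : V → C} (hf : f ∈ Submodule.span C S)
    (hg : g ∈ Submodule.span C S) :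
    (fun q : V × V => f q.1 * g q.2) ∈ Submodule.span C (outerSet S) := by
  induction hf using Submodule.span_induction with
  | mem f hf =>
    induction hg using Submodule.span_induction with
    | mem g hg => exact Submodule.subset_span ⟨f, hf, g, hg, rfl⟩
    | zero => simpa [Pi.zero_def] using Submodule.zero_mem (Submodule.span C (outerSet S))
    | add a b _ _ ha hb => simpa [Pi.add_def, mul_add] using Submodule.add_mem _ ha hb
    | smul t a _ ha => simpa [Pi.smul_def, mul_left_comm] using Submodule.smul_mem _ t ha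
  | zero => simpa [Pi.zero_def] using Submodule.zero_mem (Submodule.span C (outerSet S))
  | add a b _ _ ha hb => simpa [Pi.add_def, add_mul] using Submodule.add_mem _ ha hb
  | smul t a _ ha => simpa [Pi.smul_def, mul_assoc] using Submodule.smul_mem _ t ha

omit [IsUltrametricDist C] in
theorem isCoalg_outerSet {S : Set (V → C)} (hS : IsCoalg S) : IsCoalg (outerSet S) where
  norm_le := by
    rintro _ ⟨f, hf, g, hg, rfl⟩ q
    rw [norm_mul]
    exact mul_le_one₀ (hS.norm_le f hf _) (norm_nonneg _) (hS.norm_le g hg _)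
  comul := by
    rintro _ ⟨f, hf, g, hg, rfl⟩
    obtain ⟨n, a, b, ha, hb, hab⟩ := hS.comul f hf
    obtain ⟨m, c, d, hc, hd, hcd⟩ := hS.comul g hg
    refine ⟨n * m, fun i q => a (finProdFinEquiv.symm i).1 q.1 * c (finProdFinEquiv.symm i).2 q.2,
      fun i q => b (finProdFinEquiv.symm i).1 q.1 * d (finProdFinEquiv.symm i).2 q.2,
      fun i => ⟨_, ha _, _, hc _, rfl⟩, fun i => ⟨_, hb _, _, hd _, rfl⟩, fun x y => ?_⟩
    simp only [Prod.fst_add, Prod.snd_add]
    rw [hab, hcd, Finset.sum_mul_sum, ← Fintype.sum_prod_type',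
      ← finProdFinEquiv.sum_comp]
    exact Finset.sum_congr rfl fun i _ => by simp only [Equiv.symm_apply_apply]; ring
  span_eq_top := by
    classical
    refine eq_top_iff.mpr fun F _ => ?_
    have : F = ∑ q : V × V, F q •
        (fun r : V × V => (Pi.single q.1 (1 : C) : V → C) r.1 *
          (Pi.single q.2 (1 : C) : V → C) r.2) := by
      funext r
      rw [Finset.sum_apply, Finset.sum_eq_single r]
      · simp
      · intro q _ hq
        by_cases h1 : r.1 = q.1
        · have h2 : r.2 ≠ q.2 := fun h2 => hq (Prod.ext h1.symm h2.symm)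
          simp [h2]
        · simp [h1]
      · simp
    rw [this]
    exact Submodule.sum_mem _ fun q _ => Submodule.smul_mem _ _
      (outer_mem_span (hS.span_eq_top ▸ Submodule.mem_top) (hS.span_eq_top ▸ Submodule.mem_top))

omit [IsUltrametricDist C] [AddCommGroup V] [Fintype V] in
theorem mul_mem_span {H : Subring (V → C)} {f g : V → C}
    (hf : f ∈ Submodule.span C (H : Set (V → C))) (hg : g ∈ Submodule.span C (H : Set (V → C))) :
    f * g ∈ Submodule.span C (H : Set (V → C)) := by
  induction hf using Submodule.span_induction with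
  | mem a ha =>
    induction hg using Submodule.span_induction with
    | mem b hb => exact Submodule.subset_span (H.mul_mem ha hb)
    | zero => simp
    | add x y _ _ hx hy => rw [mul_add]; exact Submodule.add_mem _ hx hy
    | smul t x _ hx => rw [mul_smul_comm]; exact Submodule.smul_mem _ t hx
  | zero => simp
  | add x y _ _ hx hy => rw [add_mul]; exact Submodule.add_mem _ hx hy
  | smul t x _ hx => rw [smul_mul_assoc]; exact Submodule.smul_mem _ t hx

omit [IsUltrametricDist C] [AddCommGroup V] in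
theorem span_eq_top_of_separates {H : Subring (V → C)}
    (hsep : ∀ x y, (∀ f ∈ H, f x = f y) → x = y) :
    Submodule.span C (H : Set (V → C)) = ⊤ := by
  classical
  set P := Submodule.span C (H : Set (V → C))
  have hone : (1 : V → C) ∈ P := Submodule.subset_span H.one_mem
  have hfac : ∀ v w : V, v ≠ w → ∃ f ∈ P, f v = 1 ∧ f w = 0 := by
    intro v w hvw
    obtain ⟨f, hf, hne⟩ : ∃ f ∈ H, f v ≠ f w := by
      by_contra h
      push Not at h
      exact hvw (hsep v w h)
    refine ⟨(f v - f w)⁻¹ • (f - f w • (1 : V → C)),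
      P.smul_mem _ (P.sub_mem (Submodule.subset_span hf) (P.smul_mem _ hone)), ?_, by simp⟩
    simp [inv_mul_cancel₀ (sub_ne_zero.mpr hne)]
  refine eq_top_iff.mpr fun F _ => ?_
  have hind : ∀ v, Pi.single v (1 : C) ∈ P := by
    intro v
    have key : ∀ s : Finset V, v ∉ s → ∃ f ∈ P, f v = 1 ∧ ∀ w ∈ s, f w = 0 := by
      intro s
      induction s using Finset.induction with
      | empty => exact fun _ => ⟨1, hone, rfl, by simp⟩
      | insert w s hws ih =>
        intro hv
        rw [Finset.mem_insert, not_or] at hv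
        obtain ⟨f, hf, hfv, hfs⟩ := ih hv.2
        obtain ⟨g, hg, hgv, hgw⟩ := hfac v w hv.1
        refine ⟨f * g, mul_mem_span hf hg, by simp [hfv, hgv], fun z hz => ?_⟩
        rcases Finset.mem_insert.mp hz with rfl | hz
        · simp [hgw]
        · simp [hfs z hz]
    obtain ⟨f, hf, hfv, hfs⟩ := key (Finset.univ.erase v) (Finset.notMem_erase v _)
    convert hf
    funext w
    rcases eq_or_ne w v with rfl | hw
    · simp [hfv]
    · simp [hw, hfs w (Finset.mem_erase.mpr ⟨hw, Finset.mem_univ w⟩)]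
  rw [pi_eq_sum_univ' F]
  exact P.sum_mem fun v _ => P.smul_mem _ (hind v)

end Products

variable (p : ℕ) [Fact p.Prime] {V : Type} [AddCommGroup V] [Fintype V]

/-- A flat model with values in `PadicAlgCl p`. -/
structure IsPadicModel (act : LocalGal p → V → V) (H : Subring (V → PadicAlgCl p)) : Prop where
  coalg : IsCoalg (H : Set (V → PadicAlgCl p))
  equivariant : ∀ f ∈ H, ∀ σ x, f (act σ x) = σ (f x)
  separates : ∀ x y, (∀ f ∈ H, f x = f y) → x = y
  exists_functional : ∀ u : H →+ PadicAlgCl p, ∃ l, ∀ f : H, pair l (f : V → PadicAlgCl p) = u f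

theorem natCast_p_ne_zero : (p : PadicAlgCl p) ≠ 0 :=
  Nat.cast_ne_zero.mpr (Fact.out : p.Prime).ne_zero

theorem norm_natCast_p : ‖(p : PadicAlgCl p)‖ = (p : ℝ)⁻¹ := by
  rw [← map_natCast (algebraMap ℚ_[p] (PadicAlgCl p)), PadicAlgCl.norm_extends, Padic.norm_p]

theorem norm_natCast_p_lt_one : ‖(p : PadicAlgCl p)‖ < 1 := by
  rw [norm_natCast_p]
  exact inv_lt_one_of_one_lt₀ (by exact_mod_cast (Fact.out : p.Prime).one_lt)

variable {p}

theorem norm_le_one_of_isIntegral {R : Type} [CommRing R] [Algebra R (PadicAlgCl p)]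
    (hR : ∀ r : R, ‖algebraMap R (PadicAlgCl p) r‖ ≤ 1) {x : PadicAlgCl p} (hx : IsIntegral R x) :
    ‖x‖ ≤ 1 := by
  by_contra hlt
  push Not at hlt
  obtain ⟨f, hf, hfx⟩ := hx
  rw [Polynomial.eval₂_eq_sum_range, Finset.sum_range_succ, hf.coeff_natDegree, map_one,
    one_mul] at hfx
  have h1 : ‖x ^ f.natDegree‖ ≤ ‖∑ i ∈ Finset.range f.natDegree,
      algebraMap R (PadicAlgCl p) (f.coeff i) * x ^ i‖ := by
    rw [eq_neg_of_add_eq_zero_right hfx, norm_neg]
  rcases Nat.eq_zero_or_pos f.natDegree with h0 | h0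
  · rw [h0] at hfx; simp at hfx
  have h2 : ‖∑ i ∈ Finset.range f.natDegree, algebraMap R (PadicAlgCl p) (f.coeff i) * x ^ i‖ ≤
      ‖x‖ ^ (f.natDegree - 1) := by
    refine IsUltrametricDist.norm_sum_le_of_forall_le_of_nonneg (by positivity) fun i hi => ?_
    rw [norm_mul, norm_pow]
    refine (mul_le_of_le_one_left (by positivity) (hR _)).trans ?_
    exact pow_le_pow_right₀ hlt.le (by have := Finset.mem_range.mp hi; omega)
  rw [norm_pow] at h1
  exact absurd (h1.trans h2) (not_le.mpr (pow_lt_pow_right₀ hlt (by omega)))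

/-- A basis of functions in `H` in which the coefficients of `H` are integral. -/
def HasIntegralBasis (H : Subring (V → PadicAlgCl p)) : Prop :=
  ∃ (n : ℕ) (b : Fin n → V → PadicAlgCl p), LinearIndependent (PadicAlgCl p) b ∧ (∀ i, b i ∈ H) ∧
    ∀ f ∈ H, ∃ o : Fin n → PadicAlgCl p, (∀ i, ‖o i‖ ≤ 1) ∧ f = ∑ i, o i • b i

variable (p) in
/-- The functions of a flat model, with values in `PadicAlgCl p`. -/
def padicFun (H₀ : Subalgebra (GaloisRep.ratLocalizedAt p) (V → AlgebraicClosure ℚ)) :
    Subring (V → PadicAlgCl p) :=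
  H₀.toSubring.map ((padicEmbedding p).toRingHom.compLeft V)

theorem padicFun_spec
    {act : (AlgebraicClosure ℚ ≃ₐ[ℚ] AlgebraicClosure ℚ) →* AddMonoid.End V}
    {H₀ : Subalgebra (GaloisRep.ratLocalizedAt p) (V → AlgebraicClosure ℚ)}
    (h₀ : FiniteFlat.IsFlatModel p act H₀) :
    IsPadicModel p (fun σ x => act (toGlobal p σ) x) (padicFun p H₀) ∧
      (∃ E : IntermediateField ℚ_[p] (PadicAlgCl p), FiniteDimensional ℚ_[p] E ∧
        ∀ f ∈ padicFun p H₀, ∀ x, f x ∈ E) ∧ HasIntegralBasis (padicFun p H₀) := by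
  classical
  let e := padicEmbedding p
  let E : (V → AlgebraicClosure ℚ) →+* (V → PadicAlgCl p) := e.toRingHom.compLeft V
  let H := padicFun p H₀
  have hrat : ∀ r : GaloisRep.ratLocalizedAt p,
      ‖e (algebraMap (GaloisRep.ratLocalizedAt p) (AlgebraicClosure ℚ) r)‖ ≤ 1 := by
    intro r
    have : e (algebraMap (GaloisRep.ratLocalizedAt p) (AlgebraicClosure ℚ) r) =
        algebraMap ℚ_[p] (PadicAlgCl p) ((r : ℚ) : ℚ_[p]) := by
      rw [map_ratCast]
      show e (algebraMap ℚ _ (r : ℚ)) = _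
      rw [eq_ratCast, map_ratCast]
    rw [this, PadicAlgCl.norm_extends]
    refine Padic.norm_rat_le_one fun hd => ?_
    exact (Fact.out : p.Prime).ne_one
      (Nat.eq_one_of_dvd_coprimes ((FiniteFlat.mem_ratLocalizedAt_iff _).mp r.2) hd dvd_rfl)
  have hnorm : ∀ f ∈ H₀, ∀ x, ‖e (f x)‖ ≤ 1 := by
    intro f hf x
    let : Algebra (GaloisRep.ratLocalizedAt p) (PadicAlgCl p) :=
      (e.toRingHom.comp (algebraMap (GaloisRep.ratLocalizedAt p) (AlgebraicClosure ℚ))).toAlgebra
    let e' : AlgebraicClosure ℚ →ₐ[GaloisRep.ratLocalizedAt p] PadicAlgCl p :=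
      { e.toRingHom with commutes' := fun _ => rfl }
    exact norm_le_one_of_isIntegral hrat ((h₀.integral f hf x).map e')
  have hsep : ∀ x y, (∀ f ∈ H, f x = f y) → x = y := fun x y hxy =>
    h₀.separates x y fun f hf => e.toRingHom.injective (hxy (E f) ⟨f, hf, rfl⟩)
  have hcom : ∀ f ∈ H, ∃ (n : ℕ) (g k : Fin n → V → PadicAlgCl p), (∀ i, g i ∈ H) ∧
      (∀ i, k i ∈ H) ∧ ∀ x y, f (x + y) = ∑ i, g i x * k i y := by
    rintro _ ⟨f, hf, rfl⟩
    obtain ⟨s, hs⟩ := TensorProduct.exists_finset (h₀.comulHom ⟨f, hf⟩)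
    refine ⟨s.card, fun i => E ((s.equivFin.symm i).1.1 : V → AlgebraicClosure ℚ),
      fun i => E ((s.equivFin.symm i).1.2 : V → AlgebraicClosure ℚ),
      fun i => ⟨_, (s.equivFin.symm i).1.1.2, rfl⟩, fun i => ⟨_, (s.equivFin.symm i).1.2.2, rfl⟩,
      fun x y => ?_⟩
    have := h₀.mulMap_comulHom ⟨f, hf⟩ (x, y)
    rw [hs, map_sum, Finset.sum_apply] at this
    simp only [FiniteFlat.IsFlatModel.mulMap_tmul] at this
    show e (f (x + y)) = _
    rw [← this, map_sum, ← Finset.sum_coe_sort, ← s.equivFin.symm.sum_comp]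
    exact Finset.sum_congr rfl fun i _ => map_mul e _ _
  have hS : IsCoalg (H : Set (V → PadicAlgCl p)) :=
    ⟨by rintro _ ⟨f, hf, rfl⟩ x; exact hnorm f hf x, hcom, span_eq_top_of_separates hsep⟩
  obtain ⟨_, _⟩ := h₀.finite_and_free
  let b := Module.Free.chooseBasis (GaloisRep.ratLocalizedAt p) H₀
  let v : Module.Free.ChooseBasisIndex (GaloisRep.ratLocalizedAt p) H₀ → (V → PadicAlgCl p) :=
    fun i => E (b i : V → AlgebraicClosure ℚ)
  have hgen : ∀ f : H₀, E (f : V → AlgebraicClosure ℚ) =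
      ∑ i, e (algebraMap _ (AlgebraicClosure ℚ) (b.repr f i)) • v i := by
    intro f
    funext x
    rw [Finset.sum_apply]
    conv_lhs => rw [← b.sum_repr f]
    simp only [AddSubmonoidClass.coe_finsetSum, SetLike.val_smul, map_sum]
    refine (Finset.sum_apply _ _ _).trans (Finset.sum_congr rfl fun i _ => ?_)
    show e ((b.repr f i • (b i : V → AlgebraicClosure ℚ)) x) = _
    rw [Pi.smul_apply, Algebra.smul_def, map_mul]
    rfl
  have hspan : ⊤ ≤ Submodule.span (PadicAlgCl p) (Set.range v) := by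
    rw [← hS.span_eq_top, Submodule.span_le]
    rintro _ ⟨f, hf, rfl⟩
    rw [hgen ⟨f, hf⟩]
    exact Submodule.sum_mem _ fun i _ => Submodule.smul_mem _ _ (Submodule.subset_span ⟨i, rfl⟩)
  have hcard : Fintype.card (Module.Free.ChooseBasisIndex (GaloisRep.ratLocalizedAt p) H₀) =
      Module.finrank (PadicAlgCl p) (V → PadicAlgCl p) := by
    refine le_antisymm ?_ ?_
    · have := (h₀.linearIndependent_basis b).fintype_card_le_finrank
      rwa [Module.finrank_pi] at this ⊢
    · rw [← finrank_top (PadicAlgCl p) (V → PadicAlgCl p), ← top_le_iff.mp hspan]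
      exact finrank_range_le_card v
  refine ⟨⟨hS, ?_, hsep, fun u => ?_⟩, ?_, ?_⟩
  · rintro _ ⟨f, hf, rfl⟩ σ x
    show e (f (act (toGlobal p σ) x)) = σ (e (f x))
    rw [h₀.equivariant f hf, padicEmbedding_localGaloisToGlobal]
  rotate_left
  · obtain ⟨L, hL, -, hval⟩ := h₀.exists_valueField
    have := hL
    let b := Module.finBasis ℚ L
    refine ⟨IntermediateField.adjoin ℚ_[p] (Set.range fun i => e (b i : AlgebraicClosure ℚ)),
      IntermediateField.finiteDimensional_adjoin fun x _ => Algebra.IsIntegral.isIntegral x, ?_⟩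
    rintro _ ⟨f, hf, rfl⟩ x
    show e (f x) ∈ _
    have hx := b.sum_repr ⟨f x, hval f hf x⟩
    rw [show f x = ((⟨f x, hval f hf x⟩ : L) : AlgebraicClosure ℚ) from rfl, ← hx,
      AddSubmonoidClass.coe_finsetSum, map_sum]
    refine sum_mem fun i _ => ?_
    rw [IntermediateField.coe_smul, Rat.smul_def, map_mul, map_ratCast,
      ← map_ratCast (algebraMap ℚ_[p] (PadicAlgCl p))]
    exact mul_mem (IntermediateField.algebraMap_mem _ _)
      (IntermediateField.subset_adjoin _ _ ⟨i, rfl⟩)
  · refine ⟨_, fun i => v ((Fintype.equivFin _).symm i),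
      (linearIndependent_of_top_le_span_of_card_eq_finrank hspan hcard).comp _
        (Fintype.equivFin _).symm.injective, fun i => ⟨_, (b _).2, rfl⟩, ?_⟩
    rintro _ ⟨f, hf, rfl⟩
    refine ⟨fun i => e (algebraMap _ (AlgebraicClosure ℚ) (b.repr ⟨f, hf⟩
      ((Fintype.equivFin _).symm i))), fun i => hrat _, (hgen ⟨f, hf⟩).trans ?_⟩
    exact ((Fintype.equivFin _).symm.sum_comp
      (fun i => e (algebraMap _ (AlgebraicClosure ℚ) (b.repr ⟨f, hf⟩ i)) • v i)).symm
  let B := Module.Basis.mk (linearIndependent_of_top_le_span_of_card_eq_finrank hspan hcard) hspan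
  let L := B.constr (PadicAlgCl p) fun i => u ⟨v i, ⟨_, (b i).2, rfl⟩⟩
  refine ⟨∑ x, single x (L (Pi.single x 1)), ?_⟩
  rintro ⟨_, f, hf, rfl⟩
  have hpair : ∀ g : V → PadicAlgCl p, pair (∑ x, single x (L (Pi.single x 1))) g = L g := by
    intro g
    rw [pair_sum_left]
    conv_rhs => rw [pi_eq_sum_univ' g, map_sum]
    simp only [pair_single, map_smul, smul_eq_mul, mul_comm]
  rw [hpair]
  show L (E f) = _
  refine (congrArg L (hgen ⟨f, hf⟩)).trans ((map_sum L _ _).trans ?_)
  have hu : ∀ (r : GaloisRep.ratLocalizedAt p) (g : H₀),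
      u ⟨E (r • g : H₀), ⟨_, (r • g : H₀).2, rfl⟩⟩ =
        e (algebraMap _ (AlgebraicClosure ℚ) r) * u ⟨E g, ⟨_, g.2, rfl⟩⟩ := by
    intro r g
    have hden : (((r : ℚ).den : ℕ) : PadicAlgCl p) ≠ 0 := Nat.cast_ne_zero.mpr (r : ℚ).den_nz
    refine mul_left_cancel₀ hden ?_
    have h1 : e (algebraMap _ (AlgebraicClosure ℚ) r) = ((r : ℚ) : PadicAlgCl p) := by
      show e (algebraMap ℚ _ (r : ℚ)) = _
      rw [eq_ratCast, map_ratCast]
    rw [← nsmul_eq_mul, ← map_nsmul, ← mul_assoc, h1, mul_comm (((r : ℚ).den : ℕ) : PadicAlgCl p),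
      ← Rat.cast_natCast, ← Rat.cast_mul, Rat.mul_den_eq_num, Rat.cast_intCast, ← zsmul_eq_mul,
      ← map_zsmul]
    refine congrArg u (Subtype.ext (funext fun x => ?_))
    show (r : ℚ).den • e ((r • (g : V → AlgebraicClosure ℚ)) x) =
      (r : ℚ).num • e ((g : V → AlgebraicClosure ℚ) x)
    rw [show (r • (g : V → AlgebraicClosure ℚ)) x =
      algebraMap _ (AlgebraicClosure ℚ) r * (g : V → AlgebraicClosure ℚ) x from by
      rw [Pi.smul_apply]; exact Algebra.smul_def r _,
      map_mul, h1, ← smul_mul_assoc, nsmul_eq_mul,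
      mul_comm (((r : ℚ).den : ℕ) : PadicAlgCl p), ← Rat.cast_natCast, ← Rat.cast_mul,
      Rat.mul_den_eq_num, Rat.cast_intCast, zsmul_eq_mul]
  calc ∑ i, L (e (algebraMap _ (AlgebraicClosure ℚ) (b.repr ⟨f, hf⟩ i)) • v i)
      = ∑ i, e (algebraMap _ (AlgebraicClosure ℚ) (b.repr ⟨f, hf⟩ i)) *
          u ⟨v i, ⟨_, (b i).2, rfl⟩⟩ := by
        refine Finset.sum_congr rfl fun i _ => ?_
        rw [map_smul, smul_eq_mul]
        exact congrArg (_ * ·) ((congrArg L (Module.Basis.mk_apply _ hspan i).symm).trans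
          (B.constr_basis _ _ i))
    _ = u ⟨E f, ⟨f, hf, rfl⟩⟩ := by
        simp only [v, ← hu]
        rw [← map_sum]
        refine congrArg u (Subtype.ext ?_)
        rw [AddSubmonoidClass.coe_finsetSum]
        show ∑ i, E ((b.repr ⟨f, hf⟩ i • b i : H₀) : V → AlgebraicClosure ℚ) = E f
        rw [← map_sum, ← AddSubmonoidClass.coe_finsetSum, b.sum_repr]

/-- A flat model over `ℤ_(p)` gives one with values in `PadicAlgCl p`. -/
theorem exists_isPadicModel
    {act : (AlgebraicClosure ℚ ≃ₐ[ℚ] AlgebraicClosure ℚ) →* AddMonoid.End V}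
    (h : FiniteFlat.HasFlatModel p act) :
    ∃ H : Subring (V → PadicAlgCl p), IsPadicModel p (fun σ x => act (toGlobal p σ) x) H ∧
      ∃ E : IntermediateField ℚ_[p] (PadicAlgCl p), FiniteDimensional ℚ_[p] E ∧
        ∀ f ∈ H, ∀ x, f x ∈ E := by
  obtain ⟨H₀, h₀⟩ := h
  exact ⟨_, (padicFun_spec h₀).1, (padicFun_spec h₀).2.1⟩

namespace IsPadicModel

variable {act : LocalGal p → V → V} {H : Subring (V → PadicAlgCl p)}

theorem bd_single (h : IsPadicModel p act H) (x : V) :
    Bd (H : Set (V → PadicAlgCl p)) 1 (single x (1 : PadicAlgCl p)) := fun f hf => by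
  rw [pair_single, one_mul]; exact h.coalg.norm_le f hf x

/-- Two points whose coordinates are closer than `|p| ^ (1 / (p - 1))` are equal. -/
theorem eq_of_close (h : IsPadicModel p act H) (hV : ∀ x : V, p • x = 0) {c : ℝ} (hc : 0 ≤ c)
    (hc' : c ^ (p - 1) < ‖(p : PadicAlgCl p)‖) {x y : V}
    (hxy : ∀ f ∈ H, ‖f x - f y‖ ≤ c) : x = y := by
  have h1 : Bd (H : Set (V → PadicAlgCl p)) c
      (single (x - y) (1 : PadicAlgCl p) - 1) := by
    have h2 : Bd (H : Set (V → PadicAlgCl p)) c
        (single x (1 : PadicAlgCl p) - single y 1) := fun f hf => by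
      rw [pair_sub_left, pair_single, pair_single, one_mul, one_mul]
      exact hxy f hf
    have h3 := h2.mul h.coalg hc zero_le_one (h.bd_single (-y))
    rwa [sub_mul, AddMonoidAlgebra.single_mul_single, AddMonoidAlgebra.single_mul_single,
      one_mul, mul_one, ← sub_eq_add_neg, add_neg_cancel, ← AddMonoidAlgebra.one_def] at h3
  have h4 := eq_of_pow_eq_one (p := p) h.coalg (natCast_p_ne_zero p) hc
    (theta_lt_one (natCast_p_ne_zero p) (norm_natCast_p_lt_one p) hc')
    (Bd.one h.coalg) (by rw [AddMonoidAlgebra.single_pow, one_pow, hV]; rfl) (one_pow p) h1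
  rw [AddMonoidAlgebra.one_def, AddMonoidAlgebra.single_left_inj one_ne_zero, sub_eq_zero] at h4
  exact h4

/-- An approximate point is close to a point. -/
theorem exists_point (h : IsPadicModel p act H) (hV : ∀ x : V, p • x = 0) {ε : ℝ} (hε : 0 ≤ ε)
    (hε' : ε ^ (p - 1) < ‖(p : PadicAlgCl p)‖) (u : H →+ PadicAlgCl p) (h1 : u 1 = 1)
    (hint : ∀ f : H, ‖u f‖ ≤ 1)
    (hmul : ∀ f g : H, ‖u (f * g) - u f * u g‖ ≤ ‖(p : PadicAlgCl p)‖ * ε) :
    ∃! x : V, ∀ f : H, ‖(f : V → PadicAlgCl p) x - u f‖ ≤ ε := by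
  classical
  have hθ := theta_lt_one (natCast_p_ne_zero p) (norm_natCast_p_lt_one p) hε'
  set S : Set (V → PadicAlgCl p) := (H : Set (V → PadicAlgCl p))
  obtain ⟨l₀, hl₀⟩ := h.exists_functional u
  set M := ‖(p : PadicAlgCl p)‖ * ε
  have hM : 0 ≤ M := by positivity
  have hMε : M ≤ ε := mul_le_of_le_one_left hε (norm_natCast_p_lt_one p).le
  have hbd : Bd S 1 l₀ := fun f hf => by rw [hl₀ ⟨f, hf⟩]; exact hint _
  have hpow : ∀ (n : ℕ) (f : V → PadicAlgCl p), f ∈ H →
      (0 < n → (fun x => f (n • x)) ∈ H) ∧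
      ‖pair (l₀ ^ n) f - pair l₀ (fun x => f (n • x))‖ ≤ M := by
    intro n
    induction n with
    | zero =>
      refine fun f hf => ⟨fun h => absurd h (lt_irrefl 0), ?_⟩
      have : (fun x : V => f (0 • x)) = f 0 • ((1 : H) : V → PadicAlgCl p) := by
        funext x; simp
      rw [pow_zero, pair_one, this, pair_smul_right, hl₀, h1, mul_one, sub_self, norm_zero]
      exact hM
    | succ n ih =>
      intro f hf
      obtain ⟨m, g, k, hg, hk, hgk⟩ := h.coalg.comul f hf
      rcases Nat.eq_zero_or_pos n with rfl | hn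
      · refine ⟨fun _ => by simpa using hf, ?_⟩
        simp only [zero_add, pow_one, one_smul, sub_self, norm_zero]
        exact hM
      have hmem : ∀ i, (fun x => g i (n • x)) ∈ H := fun i => (ih (g i) (hg i)).1 hn
      have hf' : (fun x => f ((n + 1) • x)) = ∑ i, (fun x => g i (n • x)) * k i := by
        funext x
        simp [succ_nsmul, hgk]
      refine ⟨fun _ => hf' ▸ H.sum_mem fun i _ => H.mul_mem (hmem i) (hk i), ?_⟩
      rw [hf', pair_sum_right, pow_succ, pair_mul _ _ hgk, ← Finset.sum_sub_distrib]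
      refine IsUltrametricDist.norm_sum_le_of_forall_le_of_nonneg hM fun i _ => ?_
      have e1 : pair l₀ ((fun x => g i (n • x)) * k i) = u (⟨_, hmem i⟩ * ⟨k i, hk i⟩) := by
        rw [← hl₀]; rfl
      rw [← sub_add_sub_cancel _ (pair l₀ (fun x => g i (n • x)) * pair l₀ (k i))]
      refine (IsUltrametricDist.norm_add_le_max _ _).trans (max_le ?_ ?_)
      · rw [← sub_mul, norm_mul]
        exact (mul_le_of_le_one_right (norm_nonneg _) (hbd _ (hk i))).trans (ih (g i) (hg i)).2
      · rw [e1, hl₀ ⟨_, hmem i⟩, hl₀ ⟨_, hk i⟩, norm_sub_rev]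
        exact hmul _ _
  have hp' : Bd S M (l₀ ^ p - 1) := fun f hf => by
    have h2 := (hpow p f hf).2
    have : (fun x : V => f (p • x)) = f 0 • ((1 : H) : V → PadicAlgCl p) := by
      funext x; simp [hV]
    rw [this, pair_smul_right, hl₀, h1, mul_one] at h2
    rwa [pair_sub_left, pair_one]
  have : FiniteDimensional ℚ_[p]
      (IntermediateField.adjoin ℚ_[p] (Set.range fun v => l₀.coeff v)) :=
    IntermediateField.finiteDimensional_adjoin fun x _ => Algebra.IsIntegral.isIntegral x
  set E := IntermediateField.adjoin ℚ_[p] (Set.range fun v => l₀.coeff v)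
  have : CompleteSpace E.toSubfield := FiniteDimensional.complete ℚ_[p] E
  obtain ⟨L, hL, hLl₀, hLp⟩ := exists_pow_eq_one (p := p) h.coalg (natCast_p_ne_zero p)
    (norm_natCast_p_lt_one p).le E.toSubfield hε hθ hbd
    (fun v => IntermediateField.subset_adjoin _ _ ⟨v, rfl⟩) hp'
  have hLu : ∀ f : H, ‖pair L (f : V → PadicAlgCl p) - u f‖ ≤ ε := fun f => by
    rw [← hl₀, ← pair_sub_left]; exact hLl₀ _ f.2
  -- `L` is multiplicative
  set Δ := AddMonoidAlgebra.mapDomainRingHom (PadicAlgCl p)
    ((AddMonoidHom.id V).prod (AddMonoidHom.id V))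
  set LL := AddMonoidAlgebra.mapDomainRingHom (PadicAlgCl p) (AddMonoidHom.inl V V) L *
    AddMonoidAlgebra.mapDomainRingHom (PadicAlgCl p) (AddMonoidHom.inr V V) L
  have hdiag : ∀ f g : V → PadicAlgCl p,
      pair (Δ L) (fun q => f q.1 * g q.2) = pair L (f * g) := fun f g => pair_mapDomain _ _ _
  have hb1 : Bd (outerSet S) 1 (Δ L) := by
    rintro _ ⟨f, hf, g, hg, rfl⟩
    rw [hdiag]
    exact hL _ (H.mul_mem hf hg)
  have hb2 : Bd (outerSet S) 1 LL := by
    rintro _ ⟨f, hf, g, hg, rfl⟩
    rw [pair_outer, norm_mul]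
    exact mul_le_one₀ (hL f hf) (norm_nonneg _) (hL g hg)
  have hb3 : Bd (outerSet S) ε (Δ L - LL) := by
    rintro _ ⟨f, hf, g, hg, rfl⟩
    rw [pair_sub_left, hdiag, pair_outer]
    have e : ‖pair L (f * g) - u (⟨f, hf⟩ * ⟨g, hg⟩)‖ ≤ ε := by
      have h2 := hLu (⟨f, hf⟩ * ⟨g, hg⟩)
      rwa [Subring.coe_mul] at h2
    rw [← sub_add_sub_cancel _ (u (⟨f, hf⟩ * ⟨g, hg⟩))]
    refine (IsUltrametricDist.norm_add_le_max _ _).trans (max_le e ?_)
    rw [← sub_add_sub_cancel _ (u ⟨f, hf⟩ * u ⟨g, hg⟩)]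
    refine (IsUltrametricDist.norm_add_le_max _ _).trans (max_le ((hmul _ _).trans hMε) ?_)
    rw [← sub_add_sub_cancel _ (pair L f * u ⟨g, hg⟩)]
    refine (IsUltrametricDist.norm_add_le_max _ _).trans (max_le ?_ ?_)
    · rw [← sub_mul, norm_mul, norm_sub_rev]
      exact (mul_le_of_le_one_right (norm_nonneg _) (hint _)).trans (hLu ⟨f, hf⟩)
    · rw [← mul_sub, norm_mul, norm_sub_rev]
      exact (mul_le_of_le_one_left (norm_nonneg _) (hL f hf)).trans (hLu ⟨g, hg⟩)
  have heq : Δ L = LL := eq_of_pow_eq_one (p := p) (isCoalg_outerSet h.coalg)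
    (natCast_p_ne_zero p) hε hθ hb2 (by rw [← map_pow, hLp, map_one])
    (by rw [mul_pow, ← map_pow, ← map_pow, hLp, map_one, map_one, one_mul]) hb3
  have hmulL : ∀ f g, pair L (f * g) = pair L f * pair L g := fun f g => by
    rw [← hdiag, heq, pair_outer]
  have hone : pair L 1 = 1 := by
    have := congrArg (fun l => pair l (fun _ : V => (1 : PadicAlgCl p))) hLp
    have hall : ∀ n : ℕ, pair (L ^ n) (fun _ : V => (1 : PadicAlgCl p)) = pair L 1 ^ n := by
      intro n
      induction n with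
      | zero => rw [pow_zero, pair_one, pow_zero]
      | succ n ih =>
        rw [pow_succ, pair_mul (n := 1) (g := fun _ _ => 1) (h := fun _ _ => 1) _ _
          (fun x y => by simp), Fin.sum_univ_one, ih, pow_succ]
        rfl
    have hsq : pair L 1 * pair L 1 = pair L 1 := by rw [← hmulL, one_mul]
    rcases (mul_eq_zero.mp
      (show pair L 1 * (pair L 1 - 1) = 0 by rw [mul_sub, hsq, mul_one, sub_self]))
      with h0 | h0
    · simp only [hall, h0, zero_pow (Fact.out : p.Prime).ne_zero, pair_one] at this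
      exact absurd this zero_ne_one
    · exact sub_eq_zero.mp h0
  have hcoeff : ∀ v, pair L (Pi.single v 1) = L.coeff v := fun v => by
    simp [pair, Pi.single_apply]
  obtain ⟨v, hv⟩ : ∃ v, L.coeff v ≠ 0 := by
    by_contra hall
    push Not at hall
    rw [show L = 0 from AddMonoidAlgebra.ext (Finsupp.ext hall)] at hone
    simp at hone
  have hev : ∀ f, pair L f = f v := fun f => by
    have e1 := hmulL f (Pi.single v 1)
    rw [show f * Pi.single v 1 = f v • Pi.single v 1 by
      funext w; rcases eq_or_ne w v with rfl | hw <;> simp [*], pair_smul_right, hcoeff] at e1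
    exact (mul_right_cancel₀ hv e1).symm
  refine ⟨v, fun f => by rw [← hev (f : V → PadicAlgCl p)]; exact hLu f, fun w hw => ?_⟩
  refine h.eq_of_close hV hε hε' fun f hf => ?_
  rw [← sub_add_sub_cancel _ (u ⟨f, hf⟩)]
  refine (IsUltrametricDist.norm_add_le_max _ _).trans (max_le (hw ⟨f, hf⟩) ?_)
  rw [norm_sub_rev, ← hev f]
  exact hLu ⟨f, hf⟩

/-- The points reducing to the origin. -/
def connectedPart (h : IsPadicModel p act H) : AddSubgroup V where
  carrier := {x | ∀ f ∈ H, ‖f x - f 0‖ < 1}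
  zero_mem' f _ := by simp
  add_mem' := by
    intro x y hx hy f hf
    obtain ⟨n, g, k, hg, hk, hgk⟩ := h.coalg.comul f hf
    have e : f (x + y) - f 0 = (∑ i, (g i x - g i 0) * k i y) + (f y - f 0) := by
      have e2 : f y = ∑ i, g i 0 * k i y := by rw [← hgk, zero_add]
      rw [hgk, e2, add_sub, ← Finset.sum_add_distrib]
      exact congrArg (· - f 0) (Finset.sum_congr rfl fun i _ => by ring)
    rw [e]
    refine (IsUltrametricDist.norm_add_le_max _ _).trans_lt (max_lt ?_ (hy f hf))
    rcases isEmpty_or_nonempty (Fin n) with hn | hn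
    · simp
    · obtain ⟨i, -, hi⟩ := IsUltrametricDist.exists_norm_finsetSum_le_of_nonempty
        (Finset.univ_nonempty (α := Fin n)) (fun i => (g i x - g i 0) * k i y)
      refine hi.trans_lt ?_
      rw [norm_mul]
      exact (mul_le_of_le_one_right (norm_nonneg _) (h.coalg.norm_le _ (hk i) y)).trans_lt
        (hx _ (hg i))
  neg_mem' := by
    intro x hx f hf
    obtain ⟨n, g, k, hg, hk, hgk⟩ := h.coalg.comul f hf
    have e : f (-x) - f 0 = -∑ i, (g i x - g i 0) * k i (-x) := by
      have e1 : f 0 = ∑ i, g i x * k i (-x) := by rw [← hgk, add_neg_cancel]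
      have e2 : f (-x) = ∑ i, g i 0 * k i (-x) := by rw [← hgk, zero_add]
      rw [e1, e2, ← Finset.sum_neg_distrib, ← Finset.sum_sub_distrib]
      exact Finset.sum_congr rfl fun i _ => by ring
    rw [e, norm_neg]
    rcases isEmpty_or_nonempty (Fin n) with hn | hn
    · simp
    · obtain ⟨i, -, hi⟩ := IsUltrametricDist.exists_norm_finsetSum_le_of_nonempty
        (Finset.univ_nonempty (α := Fin n)) (fun i => (g i x - g i 0) * k i (-x))
      refine hi.trans_lt ?_
      rw [norm_mul]
      exact (mul_le_of_le_one_right (norm_nonneg _) (h.coalg.norm_le _ (hk i) _)).trans_lt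
        (hx _ (hg i))

end IsPadicModel

end FLTAgent.FlatBound
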