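import Fermat.Agent.TWPrimes.Flat.Kills

/-!
# Kummer levels in tame extensions

Binomial estimates, the normal form modulo `p`-th powers (`IsTame.exists_normal_form`), and the
consequence for roots inside point fields of flat models: they have level at least `e`
(`exists_level_root`). Used by `Flat.Inertia`.
-/

set_option autoImplicit false

noncomputable section

open scoped IntermediateField

namespace FLTAgent.FlatBound

open FLTAgent.LocalDuality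

variable {p : ℕ} [Fact p.Prime]

theorem norm_binomial_le {t : PadicAlgCl p} (ht : ‖t‖ ≤ 1) :
    ‖(1 + t) ^ p - 1 - t ^ p‖ ≤ ‖(p : PadicAlgCl p)‖ * ‖t‖ := by
  have hp := (Fact.out : p.Prime)
  have e : (1 + t) ^ p - 1 - t ^ p =
      ∑ k ∈ Finset.Ico 1 p, (p.choose k : PadicAlgCl p) * t ^ k := by
    rw [add_comm (1 : PadicAlgCl p) t, add_pow, Finset.sum_range_succ,
      Finset.sum_range_eq_add_Ico _ hp.pos]
    simp [mul_comm]
    ring
  rw [e]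
  refine IsUltrametricDist.norm_sum_le_of_forall_le_of_nonneg (by positivity) fun k hk => ?_
  rw [Finset.mem_Ico] at hk
  obtain ⟨m, hm⟩ := hp.dvd_choose_self (by omega) hk.2
  rw [hm, Nat.cast_mul, norm_mul, norm_mul, norm_pow]
  exact mul_le_mul (mul_le_of_le_one_right (norm_nonneg _)
    (IsUltrametricDist.norm_natCast_le_one _ _)) (pow_le_of_le_one (norm_nonneg _) ht (by omega))
    (by positivity) (norm_nonneg _)

theorem norm_one_add {x : PadicAlgCl p} (hx : ‖x‖ < 1) : ‖1 + x‖ = 1 := by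
  rw [IsUltrametricDist.norm_add_eq_max_of_norm_ne_norm
    ((norm_one (α := PadicAlgCl p)).symm ▸ hx.ne'), norm_one, max_eq_left hx.le]

theorem norm_eq_one_of_pow_sub_one {z : PadicAlgCl p} (h : ‖z ^ p - 1‖ < 1) : ‖z‖ = 1 := by
  have h1 : ‖z ^ p‖ = 1 := by
    rw [← add_sub_cancel 1 (z ^ p)]; exact norm_one_add h
  exact (pow_eq_one_iff_of_nonneg (norm_nonneg _) (Fact.out : p.Prime).ne_zero).mp
    (by rw [← norm_pow, h1])

theorem norm_sub_one_le_one {z : PadicAlgCl p} (hz : ‖z‖ ≤ 1) : ‖z - 1‖ ≤ 1 := by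
  rw [sub_eq_add_neg]
  exact (IsUltrametricDist.norm_add_le_max _ _).trans (max_le hz (by rw [norm_neg, norm_one]))

variable {ζ : PadicAlgCl p} (hζ : IsPrimitiveRoot ζ p)
include hζ

theorem norm_zeta_sub_one_pow :
    ‖ζ - 1‖ ^ p = ‖(p : PadicAlgCl p)‖ * ‖ζ - 1‖ := by
  rw [← (norm_zeta_sub_one hζ).1, ← pow_succ, Nat.sub_add_cancel (Fact.out : p.Prime).one_lt.le]

theorem norm_zeta_sub_one_pos : 0 < ‖ζ - 1‖ :=
  norm_pos_iff.mpr (sub_ne_zero.mpr (hζ.ne_one (Fact.out : p.Prime).one_lt))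

theorem norm_zeta_sub_one_lt_one : ‖ζ - 1‖ < 1 := by
  by_contra hle
  push Not at hle
  have h := (one_le_pow₀ hle).trans (norm_zeta_sub_one hζ).1.le
  exact absurd h (not_le.mpr (norm_natCast_p_lt_one p))

theorem norm_p_mul_lt {r : ℝ} (hr : ‖ζ - 1‖ < r) : ‖(p : PadicAlgCl p)‖ * r < r ^ p := by
  have hp := (Fact.out : p.Prime)
  have hr0 : 0 < r := (norm_nonneg _).trans_lt hr
  rw [show r ^ p = r ^ (p - 1) * r by rw [← pow_succ, Nat.sub_add_cancel hp.one_lt.le],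
    mul_lt_mul_iff_left₀ hr0, ← (norm_zeta_sub_one hζ).1]
  exact pow_lt_pow_left₀ hr (norm_nonneg _) (Nat.sub_ne_zero_of_lt hp.one_lt)

/-- A `p`-th power close to one, above the level of `ζ`. -/
theorem norm_pow_sub_one_of_lt {z : PadicAlgCl p} (hz : ‖z‖ ≤ 1) (h : ‖ζ - 1‖ < ‖z - 1‖) :
    ‖z ^ p - 1‖ = ‖z - 1‖ ^ p := by
  set t := z - 1
  have h1 := (norm_binomial_le (t := t) (norm_sub_one_le_one hz)).trans_lt (norm_p_mul_lt hζ h)
  have e : z ^ p - 1 = t ^ p + ((1 + t) ^ p - 1 - t ^ p) := by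
    simp only [t, add_sub_cancel]
  rw [e, IsUltrametricDist.norm_add_eq_max_of_norm_ne_norm (by rw [norm_pow]; exact h1.ne'),
    norm_pow, max_eq_left h1.le]

/-- A `p`-th power close to one, at or below the level of `ζ`. -/
theorem norm_pow_sub_one_le {z : PadicAlgCl p} (hz : ‖z‖ ≤ 1) (h : ‖z - 1‖ ≤ ‖ζ - 1‖) :
    ‖z ^ p - 1‖ ≤ ‖ζ - 1‖ ^ p := by
  set t := z - 1
  have e : z ^ p - 1 = t ^ p + ((1 + t) ^ p - 1 - t ^ p) := by
    simp only [t, add_sub_cancel]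
  rw [e]
  refine (IsUltrametricDist.norm_add_le_max _ _).trans (max_le ?_ ?_)
  · rw [norm_pow]; exact pow_le_pow_left₀ (norm_nonneg _) h p
  · refine (norm_binomial_le (norm_sub_one_le_one hz)).trans ?_
    rw [norm_zeta_sub_one_pow hζ]
    exact mul_le_mul_of_nonneg_left h (norm_nonneg _)

omit hζ
section Tame

variable {L K₀ : IntermediateField ℚ_[p] (PadicAlgCl p)} {l : PadicAlgCl p} {e : ℕ}
  [FiniteDimensional ℚ_[p] L]

theorem exists_pow_sub_lt {a : PadicAlgCl p} (ha : a ∈ L)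
    (ha1 : ‖a‖ ≤ 1) : ∃ b ∈ L, ‖b‖ ≤ 1 ∧ ‖b ^ p - a‖ < 1 := by
  set κ := residueSubfield L
  have : CharP κ p := (κ.subtype.charP_iff Subtype.val_injective p).mpr inferInstance
  obtain ⟨c, hc⟩ := (Finite.injective_iff_surjective.mp
    (frobenius_inj κ p)) ⟨red a, red_mem_residueSubfield L ha ha1⟩
  obtain ⟨b, hb, hb1, hbc⟩ := (mem_residueSubfield L).mp c.2
  refine ⟨b, hb, hb1, ?_⟩
  rw [← red_eq_iff (by rw [norm_pow]; exact pow_le_one₀ (norm_nonneg _) hb1) ha1, red_pow hb1, hbc]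
  exact congrArg Subtype.val hc

/-- Elements of a tame extension close to one whose level is divisible by `p` improve. -/
theorem IsTame.exists_improve (hL : IsTame L K₀ l e) (hζ : IsPrimitiveRoot ζ p)
    {x : PadicAlgCl p} (hx : x ∈ L) {j : ℕ} (hj : 0 < j) (hxi : ‖x - 1‖ = ‖l‖ ^ (p * j))
    (hlow : ‖ζ - 1‖ < ‖l‖ ^ j) :
    ∃ z ∈ L, z ≠ 0 ∧ ‖x * z ^ p - 1‖ < ‖x - 1‖ := by
  have hl := hL.totRam.norm_pos
  have hl0 := hL.totRam.ne_zero
  set a := (x - 1) / l ^ (p * j) with ha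
  have haL : a ∈ L := L.div_mem (L.sub_mem hx L.one_mem) (_root_.pow_mem hL.totRam.mem _)
  have han : ‖a‖ = 1 := by rw [norm_div, norm_pow, hxi, div_self (pow_ne_zero _ hl.ne')]
  obtain ⟨b, hbL, hb1, hba⟩ := exists_pow_sub_lt (neg_mem haL) ((norm_neg a).trans han).le
  have hbn : ‖b‖ = 1 := by
    refine le_antisymm hb1 (not_lt.mp fun hlt => ?_)
    have h1 : ‖b ^ p‖ < 1 := by
      rw [norm_pow]; exact pow_lt_one₀ (norm_nonneg _) hlt (Fact.out : p.Prime).ne_zero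
    have h2 : ‖-a‖ < 1 := by
      rw [← sub_sub_cancel (b ^ p) (-a), sub_eq_add_neg (b ^ p)]
      exact (IsUltrametricDist.norm_add_le_max _ _).trans_lt
        (max_lt h1 (by rw [norm_neg]; exact hba))
    rw [norm_neg, han] at h2
    exact lt_irrefl _ h2
  set t := b * l ^ j with ht
  have htn : ‖t‖ = ‖l‖ ^ j := by rw [norm_mul, hbn, one_mul, norm_pow]
  have ht1 : ‖t‖ < 1 := htn ▸ pow_lt_one₀ hl.le hL.totRam.norm_lt_one hj.ne'
  have hz : ‖1 + t‖ = 1 := norm_one_add ht1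
  refine ⟨1 + t, L.add_mem L.one_mem (mul_mem hbL (_root_.pow_mem hL.totRam.mem _)),
    norm_pos_iff.mp (hz ▸ one_pos), ?_⟩
  have hlt : ‖(1 + t) ^ p - 1 - t ^ p‖ < ‖x - 1‖ := by
    refine (norm_binomial_le ht1.le).trans_lt ?_
    rw [hxi, mul_comm p, pow_mul, ← htn]
    exact norm_p_mul_lt hζ (htn ▸ hlow)
  have hzp : ‖(1 + t) ^ p - 1‖ ≤ ‖x - 1‖ := by
    rw [← sub_add_cancel ((1 + t) ^ p - 1) (t ^ p)]
    refine (IsUltrametricDist.norm_add_le_max _ _).trans (max_le hlt.le ?_)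
    rw [norm_pow, htn, ← pow_mul, mul_comm j, hxi]
  have e1 : x * (1 + t) ^ p - 1 = (x - 1) * ((1 + t) ^ p - 1) +
      ((x - 1 + t ^ p) + ((1 + t) ^ p - 1 - t ^ p)) := by ring
  rw [e1]
  have hxpos : 0 < ‖x - 1‖ := hxi ▸ pow_pos hl _
  refine (IsUltrametricDist.norm_add_le_max _ _).trans_lt (max_lt ?_
    ((IsUltrametricDist.norm_add_le_max _ _).trans_lt (max_lt ?_ hlt)))
  · rw [norm_mul]
    exact mul_lt_of_lt_one_right hxpos (hzp.trans_lt
      (hxi ▸ pow_lt_one₀ hl.le hL.totRam.norm_lt_one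
        (Nat.mul_ne_zero (Fact.out : p.Prime).ne_zero hj.ne')))
  · have e2 : x - 1 + t ^ p = (b ^ p - -a) * l ^ (p * j) := by
      rw [ht, mul_pow, ← pow_mul, mul_comm j p, ha, sub_neg_eq_add, add_mul,
        div_mul_cancel₀ _ (pow_ne_zero _ hl0)]
      ring
    rw [e2, norm_mul, norm_pow, ← hxi]
    exact mul_lt_of_lt_one_left hxpos hba

/-- Normal forms of elements of a tame extension modulo `p`-th powers. -/
theorem IsTame.exists_normal_form (hL : IsTame L K₀ l e) (hζ : IsPrimitiveRoot ζ p)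
    {x : PadicAlgCl p} (hx : x ∈ L) (hx0 : x ≠ 0) :
    ∃ z ∈ L, z ≠ 0 ∧ ((∃ m : ℤ, ¬ (p : ℤ) ∣ m ∧ ‖x * z ^ p‖ = ‖l‖ ^ m) ∨
      (∃ i : ℕ, 0 < i ∧ i < e ∧ ¬ p ∣ i ∧ ‖x * z ^ p - 1‖ = ‖l‖ ^ i) ∨
      ‖x * z ^ p - 1‖ ≤ ‖(p : PadicAlgCl p)‖) := by
  classical
  have hl := hL.totRam.norm_pos
  have hl1 := hL.totRam.norm_lt_one
  have hl0 := hL.totRam.ne_zero
  obtain ⟨m, hm⟩ := hL.totRam.values x hx hx0
  by_cases hpm : (p : ℤ) ∣ m
  swap
  · exact ⟨1, L.one_mem, one_ne_zero, Or.inl ⟨m, hpm, by rw [one_pow, mul_one, hm]⟩⟩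
  obtain ⟨q, rfl⟩ := hpm
  set u := x * (l ^ (-q)) ^ p
  have huL : u ∈ L := mul_mem hx (_root_.pow_mem (_root_.zpow_mem hL.totRam.mem _) _)
  have hu1 : ‖u‖ = 1 := by
    rw [norm_mul, norm_pow, norm_zpow, hm, ← zpow_natCast, ← zpow_mul, ← zpow_add₀ hl.ne',
      show (p : ℤ) * q + -q * p = 0 by ring, zpow_zero]
  have hu0 : u ≠ 0 := norm_pos_iff.mp (hu1 ▸ one_pos)
  obtain ⟨b, hbL, hb1, hbu⟩ := exists_pow_sub_lt (inv_mem huL)
    (by rw [norm_inv, hu1, inv_one])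
  have hb0 : b ≠ 0 := by
    rintro rfl
    rw [zero_pow (Fact.out : p.Prime).ne_zero, zero_sub, norm_neg, norm_inv, hu1, inv_one] at hbu
    exact lt_irrefl _ hbu
  set Q : ℕ → Prop := fun i => ∃ z ∈ L, z ≠ 0 ∧ ‖x * z ^ p - 1‖ ≤ ‖l‖ ^ i with hQ
  have hQ1 : Q 1 := by
    refine ⟨l ^ (-q) * b, mul_mem (_root_.zpow_mem hL.totRam.mem _) hbL,
      mul_ne_zero (zpow_ne_zero _ hl0) hb0, ?_⟩
    rw [mul_pow, ← mul_assoc]
    show ‖u * b ^ p - 1‖ ≤ _
    have hlt : ‖u * b ^ p - 1‖ < 1 := by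
      rw [← mul_inv_cancel₀ hu0, ← mul_sub, norm_mul, hu1, one_mul]; exact hbu
    rcases eq_or_ne (u * b ^ p - 1) 0 with h0 | h0
    · rw [h0, norm_zero]; positivity
    obtain ⟨k, hk⟩ := hL.totRam.values _
      (L.sub_mem (mul_mem huL (_root_.pow_mem hbL _)) L.one_mem) h0
    rw [hk] at hlt ⊢
    rw [pow_one, ← zpow_one ‖l‖, ← zpow_mul, one_mul]
    refine zpow_le_zpow_right_of_le_one₀ hl hl1.le ?_
    rw [← zpow_zero ‖l‖] at hlt
    exact (zpow_lt_zpow_iff_right_of_lt_one₀ hl hl1).mp hlt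
  set i := Nat.findGreatest Q e with hi
  have hi1 : 1 ≤ i := Nat.le_findGreatest hL.totRam.pos hQ1
  have hie : i ≤ e := Nat.findGreatest_le e
  obtain ⟨z, hzL, hz0, hz⟩ : Q i := Nat.findGreatest_spec hL.totRam.pos hQ1
  refine ⟨z, hzL, hz0, Or.inr ?_⟩
  rcases hie.eq_or_lt with heq | hlt
  · right; rw [← hL.totRam.norm_pow, ← heq]; exact hz
  have hnext : ¬ Q (i + 1) := Nat.findGreatest_is_greatest (Nat.lt_succ_self i) hlt
  have hstep : ∀ y ∈ L, y ≠ 0 → ‖y - 1‖ < ‖l‖ ^ i → ‖y - 1‖ ≤ ‖l‖ ^ (i + 1) := by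
    intro y hy _ hyl
    rcases eq_or_ne (y - 1) 0 with h0 | h0
    · rw [h0, norm_zero]; positivity
    obtain ⟨k, hk⟩ := hL.totRam.values _ (L.sub_mem hy L.one_mem) h0
    rw [hk, ← zpow_natCast] at hyl ⊢
    refine zpow_le_zpow_right_of_le_one₀ hl hl1.le ?_
    have := (zpow_lt_zpow_iff_right_of_lt_one₀ hl hl1).mp hyl
    push_cast
    omega
  have hxz : x * z ^ p ∈ L := mul_mem hx (_root_.pow_mem hzL _)
  have hxz0 : x * z ^ p ≠ 0 := mul_ne_zero hx0 (pow_ne_zero _ hz0)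
  have hex : ‖x * z ^ p - 1‖ = ‖l‖ ^ i :=
    le_antisymm hz (not_lt.mp fun h => hnext ⟨z, hzL, hz0, hstep _ hxz hxz0 h⟩)
  by_cases hpi : p ∣ i
  swap
  · exact Or.inl ⟨i, hi1, hlt, hpi, hex⟩
  exfalso
  obtain ⟨j, hj⟩ := hpi
  have hjlow : ‖ζ - 1‖ < ‖l‖ ^ j := by
    by_contra hle
    push Not at hle
    have h1 : ‖l‖ ^ i ≤ ‖(p : PadicAlgCl p)‖ * ‖ζ - 1‖ := by
      rw [← norm_zeta_sub_one_pow hζ, hj, mul_comm p, pow_mul]
      exact pow_le_pow_left₀ (by positivity) hle p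
    have h2 : ‖(p : PadicAlgCl p)‖ * ‖ζ - 1‖ < ‖(p : PadicAlgCl p)‖ :=
      mul_lt_of_lt_one_right (norm_pos_iff.mpr (natCast_p_ne_zero p))
        (norm_zeta_sub_one_lt_one hζ)
    have h3 : ‖l‖ ^ e < ‖l‖ ^ i := pow_lt_pow_right_of_lt_one₀ hl hl1 hlt
    rw [hL.totRam.norm_pow] at h3
    linarith
  obtain ⟨w, hwL, hw0, hw⟩ := hL.exists_improve hζ hxz (j := j)
    (by rcases Nat.eq_zero_or_pos j with rfl | h
        · simp at hj; omega
        · exact h) (hj ▸ hex) hjlow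
  refine hnext ⟨z * w, mul_mem hzL hwL, mul_ne_zero hz0 hw0, ?_⟩
  rw [mul_pow, ← mul_assoc]
  exact hstep _ (mul_mem hxz (_root_.pow_mem hwL _)) (mul_ne_zero hxz0 (pow_ne_zero _ hw0))
    (hex ▸ hw)

/-- A `p`-th root inside a point field can be moved to level `e`. -/
theorem exists_level_root (hst : ∀ σ : LocalGal p, ∀ x ∈ L, σ x ∈ L) (hL : IsTame L K₀ l e)
    (hζ : IsPrimitiveRoot ζ p) {ι : Type} [Finite ι] (M : ι → PModel p)
    {y : PadicAlgCl p} (hy : y ^ p ∈ L) (hy0 : y ≠ 0) (hyF : y ∈ pointField L M) :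
    ∃ z ∈ L, z ≠ 0 ∧ ‖(y * z) ^ p - 1‖ ≤ ‖(p : PadicAlgCl p)‖ := by
  obtain ⟨z, hzL, hz0, hcase⟩ := hL.exists_normal_form hζ hy (pow_ne_zero _ hy0)
  rw [← mul_pow] at hcase
  have hyzF : y * z ∈ pointField L M := mul_mem hyF (le_pointField L M hzL)
  have hyzL : (y * z) ^ p ∈ L := by rw [mul_pow]; exact mul_mem hy (_root_.pow_mem hzL _)
  have hp := (Fact.out : p.Prime)
  obtain ⟨hζ1, -⟩ := norm_zeta_sub_one hζ
  have hP0 : 0 < ‖(p : PadicAlgCl p)‖ := norm_pos_iff.mpr (natCast_p_ne_zero p)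
  refine ⟨z, hzL, hz0, ?_⟩
  rcases hcase with ⟨m, hm, hnorm⟩ | ⟨i, hi, hie, hpi, hnorm⟩ | h
  · exfalso
    refine not_mem_pointField_of_lt L M hst hL hζ (c := 0) (zero_mem K₀) hyzL hm
      (by rw [sub_zero, ← norm_pow, hnorm]) (δ := ‖ζ - 1‖) (norm_nonneg _) (by rw [sub_zero])
      ?_ hyzF
    rw [mul_comm, pow_mul, hζ1]
    exact pow_lt_self_of_lt_one₀ hP0 (norm_natCast_p_lt_one p) hp.one_lt
  · exfalso
    have hbig : ‖(p : PadicAlgCl p)‖ < ‖(y * z) ^ p - 1‖ := by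
      rw [hnorm, ← hL.totRam.norm_pow]
      exact pow_lt_pow_right_of_lt_one₀ hL.totRam.norm_pos hL.totRam.norm_lt_one hie
    have hlt1 : ‖(y * z) ^ p - 1‖ < 1 := hnorm ▸ pow_lt_one₀ hL.totRam.norm_pos.le
      hL.totRam.norm_lt_one hi.ne'
    have hu1 : ‖y * z‖ = 1 := norm_eq_one_of_pow_sub_one hlt1
    have habove : ‖ζ - 1‖ < ‖y * z - 1‖ := by
      by_contra hle
      push Not at hle
      refine absurd ((norm_pow_sub_one_le hζ hu1.le hle).trans ?_) (not_le.mpr hbig)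
      rw [norm_zeta_sub_one_pow hζ]
      exact mul_le_of_le_one_right hP0.le (norm_zeta_sub_one_lt_one hζ).le
    have heq := norm_pow_sub_one_of_lt hζ hu1.le habove
    have hupos : 0 < ‖y * z - 1‖ := (norm_nonneg _).trans_lt habove
    refine not_mem_pointField_of_lt L M hst hL hζ (c := 1) (one_mem K₀) hyzL
      (m := (i : ℤ)) (fun h => hpi (by exact_mod_cast h))
      (by rw [← heq, hnorm, zpow_natCast]) (δ := ‖ζ - 1‖ / ‖y * z - 1‖) (by positivity)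
      (by rw [hu1, mul_one, div_mul_cancel₀ _ hupos.ne']) ?_ hyzF
    rw [div_pow, div_lt_iff₀ (by positivity), pow_mul ‖y * z - 1‖, ← heq, mul_comm p, pow_mul, hζ1]
    have e1 : ‖(p : PadicAlgCl p)‖ ^ p =
        ‖(p : PadicAlgCl p)‖ * ‖(p : PadicAlgCl p)‖ ^ (p - 1) := by
      rw [← pow_succ', Nat.sub_add_cancel hp.one_lt.le]
    rw [e1, mul_lt_mul_iff_right₀ hP0]
    exact pow_lt_pow_left₀ hbig (norm_nonneg _) (Nat.sub_ne_zero_of_lt hp.one_lt)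
  · exact h

end Tame

end FLTAgent.FlatBound
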