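import Fermat.Agent.TWPrimes.Flat.Triangular

/-!
# The dimension of flat classes in a triangular frame

For a `Triangle`: at most one class when the extension is wild (`classDim_le_one`), at most two
otherwise (`classDim_le_two`). Used by `Flat.Lower` and `Flat.Main`.
-/

set_option autoImplicit false
set_option linter.unusedSectionVars false

open Matrix Module

noncomputable section

namespace FLTAgent.TWPrimes

open FLTAgent.LocalDuality FLTAgent.FlatBound
open FLTAgent.Density (GalQ Qbar)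

variable {k : Type} [Field k] [Finite k] {p : ℕ} [Fact p.Prime] [CharP k p] [Algebra (ZMod p) k]

/-- An upper triangular representation over a tame field trivialising its diagonal. -/
structure Triangle (r : GalQ →* GL (Fin 2) k) (W : Submodule k (GalQ → Matrix (Fin 2) (Fin 2) k))
    (F K L : IntermediateField ℚ_[p] (PadicAlgCl p)) (ζ l : PadicAlgCl p) (e : ℕ) (τ : LocalGal p) :
    Prop where
  flat : FlatLevel r W F K ζ
  upper : IsUpper p r
  ks : KummerSetting L F K l e ζ
  gen : IsTameGen (L := L) K l e τ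
  diag : ∀ σ : LocalGal p, (∀ x ∈ L, σ x = x) → dA p r σ = 1 ∧ dD p r σ = 1
  odd : p ≠ 2

variable {r : GalQ →* GL (Fin 2) k} {W : Submodule k (GalQ → Matrix (Fin 2) (Fin 2) k)}
  {F K L : IntermediateField ℚ_[p] (PadicAlgCl p)} {ζ l : PadicAlgCl p} {e : ℕ} {τ : LocalGal p}
  [FiniteDimensional ℚ_[p] F] [FiniteDimensional ℚ_[p] L]

theorem finrank_lead_self :
    finrank (Resid p) (Lead p (Resid p) k) = finrank (ZMod p) k :=
  haveI : Module.Finite (ZMod p) k := Module.Finite.of_finite
  finrank_lead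

namespace Triangle

variable (T : Triangle r W F K L ζ l e τ)
include T

theorem upAct_trivial (σ : LocalGal p) (hσ : ∀ x ∈ L, σ x = x) (x : k) :
    upAct p r σ x = x ∧ lowAct p r σ x = x := by
  simp [upAct, lowAct, T.diag σ hσ]

theorem eigS_id_eq_bot :
    ∃ e', ‖ζ - 1‖ = ‖l‖ ^ e' ∧ (p - 1) * e' = e ∧ IsPrimitiveRoot (red (τ l / l)) e := by
  obtain ⟨e', hnorm, hmul⟩ := T.ks.exists_exponent
  refine ⟨e', hnorm, hmul, ?_⟩
  have hn1 := (T.ks.norm_apply_div τ).le
  refine IsPrimitiveRoot.mk_of_lt _ T.ks.tame.totRam.pos ?_ fun j hj hje h1 => ?_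
  · rw [← red_pow hn1, T.gen.primitive.pow_eq_one, red_one]
  · refine T.gen.primitive.pow_ne_one_of_pos_of_lt hj.ne' hje ?_
    refine eq_of_pow_eq_one_of_red_eq T.ks.tame.not_dvd ?_ (one_pow e) ?_
    · rw [← pow_mul, mul_comm, pow_mul, T.gen.primitive.pow_eq_one, one_pow]
    · rw [red_pow hn1, h1, red_one]

/-- The extension class is a class, nonzero above the tame level when the extension is wild. -/
theorem ext_twisted :
    IsTwisted L F (upAct p r) fun g => mat (locHom p r) g 0 1 / dD p r g :=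
  (isCocycle_ext T.upper).isTwisted (isAction_upAct T.upper)
    (fun σ hσ x => (T.upAct_trivial σ hσ x).1) fun σ hσ => by
      have h1 : mat (locHom p r) σ = 1 := by rw [mat, T.flat.kill σ hσ]; rfl
      simp [h1]

theorem span_ext_inf {σ : LocalGal p} (hσ : ∀ x ∈ L, σ x = x) (hne : locHom p r σ ≠ 1) :
    mat (locHom p r) σ 0 1 / dD p r σ ≠ 0 := by
  intro h0
  refine hne (Units.ext (Matrix.ext fun i j => ?_))
  obtain ⟨hA, hD⟩ := T.diag σ hσ
  rw [hD, div_one] at h0
  fin_cases i <;> fin_cases j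
  exacts [hA, h0, T.upper σ, hD]

/-- In the wild case the diagonal characters differ on tame inertia, and the extension class fills
the whole range. -/
theorem wild_facts {σ₀ : LocalGal p} (hσ₀ : ∀ x ∈ L, σ₀ x = x) (hne : locHom p r σ₀ ≠ 1) {e' : ℕ}
    (hnorm : ‖ζ - 1‖ = ‖l‖ ^ e') (hmul : (p - 1) * e' = e) :
    dA p r τ ≠ dD p r τ ∧ eigS (κ := Resid p) (red (τ l / l)) e e' (upAct p r τ⁻¹) = ⊤ := by
  obtain ⟨e'', hn'', hm'', hθ⟩ := T.eigS_id_eq_bot
  have : Module.Finite (ZMod p) k := Module.Finite.of_finite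
  set u : LocalGal p → k := fun g => mat (locHom p r) g 0 1 / dD p r g
  have hu : u σ₀ ≠ 0 := T.span_ext_inf hσ₀ hne
  have hU : ∀ c ∈ Submodule.span k {u}, IsTwisted L F (upAct p r) c := by
    intro c hc
    obtain ⟨t, rfl⟩ := Submodule.mem_span_singleton.mp hc
    have h := T.ext_twisted
    refine ⟨fun σ τ hσ hτ => ?_, fun g σ hσ => ?_, fun σ hσ => ?_⟩
    · simp only [Pi.smul_apply, u, h.add σ τ hσ hτ, smul_add]
    · simp only [Pi.smul_apply, u, h.equiv g σ hσ, smul_eq_mul, upAct, LinearMap.mulLeft_apply]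
      ring
    · simp only [Pi.smul_apply, u, h.kill σ hσ, smul_zero]
  refine ⟨fun heq => ?_, ?_⟩
  · have hid : upAct p r τ⁻¹ = (LinearMap.id : k →ₗ[ZMod p] k) := by
      refine LinearMap.ext fun x => ?_
      obtain ⟨hA, hD⟩ := dA_ne_zero T.upper τ
      obtain ⟨hi1, hi2, -⟩ := upper_inv T.upper τ
      show dA p r τ⁻¹ / dD p r τ⁻¹ * x = x
      rw [show dA p r τ⁻¹ = (dA p r τ)⁻¹ from hi1, show dD p r τ⁻¹ = (dD p r τ)⁻¹ from hi2, heq,
        div_self (inv_ne_zero hD), one_mul]
    have := T.ks.le_vanish hnorm hmul (isAction_upAct T.upper) T.gen _ hU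
      (by rw [hid]; exact eigS_id hθ T.ks.tame.totRam.pos hmul T.odd)
    exact hu (mem_vanishK.mp (this (Submodule.mem_span_singleton_self u)) σ₀ hσ₀)
  · have : Module.Finite (ZMod p) (Submodule.span k {u}) := Module.Finite.trans k _
    have : Module.Finite (ZMod p) ((Submodule.span k {u}).restrictScalars (ZMod p)) :=
      (inferInstance : Module.Finite (ZMod p) (Submodule.span k {u}))
    have h1 := T.ks.finrank_le_add hnorm hmul (isAction_upAct T.upper).surjective T.gen
      ((Submodule.span k {u}).restrictScalars (ZMod p)) fun c hc => hU c hc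
    have h2 : (Submodule.span k {u}).restrictScalars (ZMod p) ⊓ vanishOn L k = ⊥ := by
      rw [eq_bot_iff]
      rintro c ⟨hc, hv⟩
      obtain ⟨t, rfl⟩ := Submodule.mem_span_singleton.mp
        (show c ∈ Submodule.span k {u} from hc)
      have h3 := mem_vanishOn.mp hv σ₀ hσ₀
      rw [Pi.smul_apply, smul_eq_mul, mul_eq_zero, or_iff_left hu] at h3
      simp [h3]
    have h4 : finrank (ZMod p) ((Submodule.span k {u}).restrictScalars (ZMod p)) =
        finrank (ZMod p) k := by
      show finrank (ZMod p) (Submodule.span k {u}) = _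
      rw [← Module.finrank_mul_finrank (ZMod p) k (Submodule.span k {u}),
        finrank_span_singleton (fun h0 => hu (congr_fun h0 σ₀)), mul_one]
    rw [h2, finrank_bot, zero_add, h4] at h1
    refine Submodule.eq_top_of_finrank_eq (le_antisymm ?_ ?_)
    · exact Submodule.finrank_le _
    · rw [finrank_lead_self]; exact h1

/-- The functions after killing the lower left entry and the diagonal. -/
theorem classDim_le_reduce (hne : dA p r τ ≠ dD p r τ)
    (h10 : ∀ c ∈ W.map (resLin p), ∀ σ : LocalGal p, (∀ x ∈ L, σ x = x) → c σ 1 0 = 0)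
    [Module.Finite k W] :
    ∃ W₂ : Submodule k (LocalGal p → Matrix (Fin 2) (Fin 2) k), Module.Finite k W₂ ∧
      classDim (locHom p r) (W.map (resLin p)) ≤ classDim (locHom p r) W₂ + 1 ∧
      ∀ c ∈ W₂, c ∈ goodSub p r F ∧ (∀ g, c g 1 0 = 0) ∧ (∀ g, c g 1 1 = 0) ∧
        ∀ g, c g 0 0 = 0 := by
  have : Module.Finite k (W.map (resLin p)) := Module.Finite.map W _
  have : Module.Finite k (adCob (locHom p r)) := by
    unfold adCob; exact Module.Finite.map _ _
  set W₁ := (W.map (resLin p) ⊔ adCob (locHom p r)) ⊓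
    LinearMap.ker (entryLin k p 1 0)
  have : Module.Finite k W₁ := Submodule.finiteDimensional_of_le inf_le_left
  have hgood : ∀ c ∈ W₁, c ∈ goodSub p r F ∧ ∀ g, c g 1 0 = 0 := fun c hc =>
    ⟨(sup_le T.flat.map_le_goodSub T.flat.adCob_le_goodSub) hc.1,
      fun g => congr_fun (LinearMap.mem_ker.mp hc.2) g⟩
  obtain ⟨hA, hD⟩ := dA_ne_zero T.upper τ
  have hfree : ∀ x : k, lowAct p r τ x = x → x = 0 := fun x hx => by
    simp only [lowAct, LinearMap.mulLeft_apply, mul_left_eq_self₀, div_eq_one_iff_eq hA] at hx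
    exact hx.resolve_left hne.symm
  have hsub : W.map (resLin p) ≤ W₁ ⊔ adCob (locHom p r) := by
    intro c hc
    have hcg := T.flat.map_le_goodSub hc
    obtain ⟨m, hm⟩ := exists_cob_on_inertia (isAction_lowAct T.upper)
      (isCocycle_entry10 T.upper hcg) T.ks.tame T.gen (fun σ hσ x => (T.upAct_trivial σ hσ x).2)
      (fun σ hσ => h10 c hc σ hσ)
    set M : Matrix (Fin 2) (Fin 2) k := !![0, 0; m, 0]
    set d : LocalGal p → Matrix (Fin 2) (Fin 2) k := fun g => adAct (locHom p r) g M - M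
    have hd : d ∈ adCob (locHom p r) :=
      mem_adCob_iff.mpr ⟨M, by simp [M, Matrix.trace_fin_two], fun g => rfl⟩
    have hz : ∀ g, (c - d) g 1 0 = 0 := by
      refine eq_zero_of_free (isAction_lowAct T.upper)
        (isCocycle_entry10 T.upper (Submodule.sub_mem _ hcg (T.flat.adCob_le_goodSub hd)))
        T.flat.normal (fun σ hσ => ?_) T.gen.fixed hfree
      show c σ 1 0 - (adAct (locHom p r) σ M 1 0 - M 1 0) = 0
      rw [(adAct_upper T.upper σ M).1, hm σ hσ]
      simp [lowAct, M]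
    refine Submodule.mem_sup.mpr ⟨c - d, ⟨Submodule.sub_mem _ (Submodule.mem_sup_left hc)
      (Submodule.mem_sup_right hd), LinearMap.mem_ker.mpr (funext hz)⟩, d, hd, sub_add_cancel _ _⟩
  obtain ⟨φ, hφ⟩ := exists_local_frobenius p
  let ev : W₁ →ₗ[k] k :=
    (LinearMap.proj φ ∘ₗ entryLin k p 1 1) ∘ₗ W₁.subtype
  set W₂ := W₁ ⊓ LinearMap.ker (LinearMap.proj φ ∘ₗ entryLin k p 1 1)
  have : Module.Finite k W₂ := Submodule.finiteDimensional_of_le inf_le_left
  refine ⟨W₂, inferInstance, ?_, fun c hc => ?_⟩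
  · refine (classDim_mono_sup _ hsub).trans (classDim_le_add _ inf_le_left ?_)
    have h1 := ev.finrank_range_add_finrank_ker
    have h2 : finrank k (LinearMap.range ev) ≤ 1 :=
      (Submodule.finrank_le _).trans_eq (Module.finrank_self k)
    have h3 : finrank k (LinearMap.ker ev) ≤ finrank k W₂ :=
      LinearMap.finrank_le_finrank_of_injective (f :=
        ({ toFun := fun c => ⟨c.1.1, c.1.2, c.2⟩
           map_add' := fun _ _ => rfl
           map_smul' := fun _ _ => rfl } : LinearMap.ker ev →ₗ[k] W₂))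
        fun a b hab => Subtype.ext (Subtype.ext (congrArg Subtype.val hab :))
    show finrank k W₁ ≤ finrank k W₂ + 1
    omega
  · obtain ⟨hcg, hc10⟩ := hgood c hc.1
    have hφ0 : c φ 1 1 = 0 := LinearMap.mem_ker.mp hc.2
    -- the lower diagonal entry is an additive map
    have hact : IsAction (fun _ : LocalGal p => (LinearMap.id : k →ₗ[ZMod p] k)) :=
      ⟨fun _ => rfl, fun _ _ _ => rfl⟩
    have hcoc := isCocycle_entry11 T.upper hcg hc10
    obtain ⟨e', hnorm, hmul, hθ⟩ := T.eigS_id_eq_bot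
    let u : LocalGal p → k := fun g => c g 1 1
    have hU : ∀ v ∈ Submodule.span k {u},
        IsTwisted L F (fun _ => (LinearMap.id : k →ₗ[ZMod p] k)) v := by
      intro v hv
      obtain ⟨t, rfl⟩ := Submodule.mem_span_singleton.mp hv
      refine IsCocycleFor.isTwisted hact (fun g h => ?_) (fun _ _ _ => rfl) fun σ hσ => ?_
      · simp only [Pi.smul_apply, u, hcoc g h, LinearMap.id_apply, smul_add]
      · simp [u, mem_vanishK.mp hcg.2 σ hσ]
    have hvan := T.ks.le_vanish hnorm hmul hact T.gen _ hU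
      (eigS_id hθ T.ks.tame.totRam.pos hmul T.odd)
    obtain ⟨m, hm⟩ := exists_cob_on_inertia hact hcoc T.ks.tame T.gen (fun _ _ _ => rfl)
      (mem_vanishK.mp (hvan (Submodule.mem_span_singleton_self u)))
    let N : LocalGal p → Matrix (Fin 2) (Fin 2) k := fun g => !![0, c g 1 1; 0, 0]
    have hN1 : N ∈ goodSub p (1 : GalQ →* GL (Fin 2) k) F := by
      refine ⟨⟨fun g => by simp [N, Matrix.trace_fin_two], fun g h => ?_⟩,
        mem_vanishK.mpr fun σ hσ => ?_⟩
      · have h1 : c (g * h) 1 1 = c g 1 1 + c h 1 1 := hcoc g h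
        ext i j
        fin_cases i <;> fin_cases j <;> simp [N, adAct, mat, locHom, h1]
      · ext i j
        fin_cases i <;> fin_cases j <;> simp [N, mem_vanishK.mp hcg.2 σ hσ]
    have hN : N = 0 := eq_zero_of_frobenius_of_inertia (r := (1 : GalQ →* GL (Fin 2) k))
      ⟨hN1.1, localLevel_of_mem_goodSub hN1⟩ hφ
      (by ext i j; fin_cases i <;> fin_cases j <;> simp [N, hφ0]) fun σ hσ => by
        have h0 : c σ 1 1 = 0 := by
          rw [hm σ ((mem_inertiaAt_iff T.flat.unram).mp (isLocalInertia_le F hσ))]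
          simp
        ext i j; fin_cases i <;> fin_cases j <;> simp [N, h0]
    have h11 : ∀ g, c g 1 1 = 0 := fun g => by
      simpa [N] using congr_fun (congr_fun (congr_fun hN g) 0) 1
    refine ⟨hcg, hc10, h11, fun g => ?_⟩
    have := hcg.1.1 g
    rw [Matrix.trace_fin_two, h11, add_zero] at this
    exact this

/-- An upper right class vanishing above the tame level is a coboundary. -/
theorem mem_adCob_of_vanish (hne : dA p r τ ≠ dD p r τ)
    {c : LocalGal p → Matrix (Fin 2) (Fin 2) k} (hc : c ∈ goodSub p r F)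
    (h10 : ∀ g, c g 1 0 = 0) (h11 : ∀ g, c g 1 1 = 0) (h00 : ∀ g, c g 0 0 = 0)
    (hv : ∀ σ : LocalGal p, (∀ x ∈ L, σ x = x) → c σ 0 1 = 0) : c ∈ adCob (locHom p r) := by
  have hcoc := isCocycle_entry01 T.upper hc h10 h11
  obtain ⟨m, hm⟩ := exists_cob_on_inertia (isAction_upAct T.upper) hcoc T.ks.tame T.gen
    (fun σ hσ x => (T.upAct_trivial σ hσ x).1) hv
  obtain ⟨hA, hD⟩ := dA_ne_zero T.upper τ
  have hfree : ∀ x : k, upAct p r τ x = x → x = 0 := fun x hx => by
    simp only [upAct, LinearMap.mulLeft_apply, mul_left_eq_self₀, div_eq_one_iff_eq hD] at hx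
    exact hx.resolve_left hne
  have hcoc' : IsCocycleFor (upAct p r) fun g => c g 0 1 - (upAct p r g m - m) := fun g h => by
    simp only [hcoc g h, (isAction_upAct T.upper).mul, map_sub]
    abel
  have hz : ∀ g, c g 0 1 = upAct p r g m - m := fun g =>
    sub_eq_zero.mp (eq_zero_of_free (isAction_upAct T.upper) hcoc' T.flat.normal
      (fun σ hσ => sub_eq_zero.mpr (hm σ hσ)) T.gen.fixed hfree g)
  refine mem_adCob_iff.mpr ⟨!![0, m; 0, 0], by simp [Matrix.trace_fin_two], fun g => ?_⟩
  obtain ⟨e10, e⟩ := adAct_upper T.upper g !![0, m; 0, 0]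
  obtain ⟨e11, e00, e01⟩ := e (by simp)
  ext i j
  fin_cases i <;> fin_cases j
  · simp [Matrix.sub_apply, h00, e00]
  · simp [Matrix.sub_apply, hz, e01, upAct]
  · simp [Matrix.sub_apply, h10, e10]
  · simp [Matrix.sub_apply, h11, e11]

/-- At most two classes. -/
theorem classDim_le_two (hne : dA p r τ ≠ dD p r τ)
    (h10 : ∀ c ∈ W.map (resLin p), ∀ σ : LocalGal p, (∀ x ∈ L, σ x = x) → c σ 1 0 = 0)
    [Module.Finite k W] : classDim (locHom p r) (W.map (resLin p)) ≤ 2 := by
  have : Module.Finite (ZMod p) k := Module.Finite.of_finite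
  obtain ⟨W₂, hfin, hdim, hW₂⟩ := T.classDim_le_reduce hne h10
  obtain ⟨e', hnorm, hmul⟩ := T.ks.exists_exponent
  set W₃ := W₂ ⊓ (vanishK k L k).comap (entryLin k p 0 1)
  have : Module.Finite k (W₂.map (entryLin k p 0 1)) := Module.Finite.map _ _
  have h1 := T.ks.finrank_le_vanish hnorm hmul (isAction_upAct T.upper) T.gen
    (W₂.map (entryLin k p 0 1)) (fun v hv => by
      obtain ⟨c, hc, rfl⟩ := hv
      obtain ⟨hcg, hc10, hc11, -⟩ := hW₂ c hc
      exact (isCocycle_entry01 T.upper hcg hc10 hc11).isTwisted (isAction_upAct T.upper)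
        (fun σ hσ x => (T.upAct_trivial σ hσ x).1) fun σ hσ => by
          show c σ 0 1 = 0
          rw [mem_vanishK.mp hcg.2 σ hσ]; rfl)
    (d := 1) (by rw [one_mul]; exact (Submodule.finrank_le _).trans finrank_lead_self.le)
  set f := (entryLin k p 0 1).domRestrict W₂
  have hinj : Function.Injective f := fun a b hab => by
    obtain ⟨-, ha10, ha11, ha00⟩ := hW₂ a a.2
    obtain ⟨-, hb10, hb11, hb00⟩ := hW₂ b b.2
    refine Subtype.ext (funext fun g => Matrix.ext fun i j => ?_)
    fin_cases i <;> fin_cases j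
    exacts [(ha00 g).trans (hb00 g).symm, congr_fun hab g, (ha10 g).trans (hb10 g).symm,
      (ha11 g).trans (hb11 g).symm]
  have h2 : finrank k W₂ = finrank k (W₂.map (entryLin k p 0 1)) := by
    rw [← LinearMap.range_domRestrict, LinearMap.finrank_range_of_inj hinj]
  have h3 : finrank k (W₂.map (entryLin k p 0 1) ⊓ vanishK k L k :
      Submodule k (LocalGal p → k)) ≤ finrank k W₃ := by
    have : Module.Finite k W₃ := Submodule.finiteDimensional_of_le inf_le_left
    refine (Submodule.finrank_mono ?_).trans (Submodule.finrank_map_le (entryLin k p 0 1) W₃)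
    rintro _ ⟨⟨c, hc, rfl⟩, hv⟩
    exact ⟨c, ⟨hc, hv⟩, rfl⟩
  have h4 : classDim (locHom p r) W₃ = 0 := classDim_eq_zero _ fun c hc => by
    obtain ⟨hcg, hc10, hc11, hc00⟩ := hW₂ c hc.1
    exact T.mem_adCob_of_vanish hne hcg hc10 hc11 hc00 fun σ hσ => mem_vanishK.mp hc.2 σ hσ
  have h5 := classDim_le_add (locHom p r) (W := W₂) (W' := W₃) inf_le_left (d := 1) (by omega)
  omega

/-- At most one class in the wild case. -/
theorem classDim_le_one {σ₀ : LocalGal p} (hσ₀ : ∀ x ∈ L, σ₀ x = x) (hwild : locHom p r σ₀ ≠ 1)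
    (h10 : ∀ c ∈ W.map (resLin p), ∀ σ : LocalGal p, (∀ x ∈ L, σ x = x) → c σ 1 0 = 0)
    [Module.Finite k W] : classDim (locHom p r) (W.map (resLin p)) ≤ 1 := by
  have : Module.Finite (ZMod p) k := Module.Finite.of_finite
  obtain ⟨e', hnorm, hmul⟩ := T.ks.exists_exponent
  obtain ⟨hne, -⟩ := T.wild_facts hσ₀ hwild hnorm hmul
  obtain ⟨W₂, hfin, hdim, hW₂⟩ := T.classDim_le_reduce hne h10
  set u : LocalGal p → k := fun g => mat (locHom p r) g 0 1 / dD p r g
  have hu0 : u σ₀ ≠ 0 := T.span_ext_inf hσ₀ hwild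
  set U := W₂.map (entryLin k p 0 1) ⊔ Submodule.span k {u}
  have : Module.Finite k (W₂.map (entryLin k p 0 1)) := Module.Finite.map _ _
  have hU : ∀ v ∈ U, IsTwisted L F (upAct p r) v := by
    intro v hv
    obtain ⟨_, ⟨c, hc, rfl⟩, _, hb, rfl⟩ := Submodule.mem_sup.mp hv
    obtain ⟨t, rfl⟩ := Submodule.mem_span_singleton.mp hb
    obtain ⟨hcg, hc10, hc11, -⟩ := hW₂ c hc
    refine IsCocycleFor.isTwisted (isAction_upAct T.upper) (fun g h => ?_)
      (fun σ hσ x => (T.upAct_trivial σ hσ x).1) fun σ hσ => ?_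
    · simp only [Pi.add_apply, Pi.smul_apply, u, entryLin_apply,
        isCocycle_entry01 T.upper hcg hc10 hc11 g h, isCocycle_ext T.upper g h, map_add,
        smul_eq_mul, upAct, LinearMap.mulLeft_apply]
      ring
    · simp only [Pi.add_apply, Pi.smul_apply, u, entryLin_apply, mem_vanishK.mp hcg.2 σ hσ,
        T.ext_twisted.kill σ hσ, smul_zero, add_zero]
      rfl
  have h1 := T.ks.finrank_le_vanish hnorm hmul (isAction_upAct T.upper) T.gen U hU (d := 1)
    (by rw [one_mul]; exact (Submodule.finrank_le _).trans finrank_lead_self.le)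
  have hdis : Disjoint (U ⊓ vanishK k L k) (Submodule.span k {u}) := by
    rw [disjoint_iff_inf_le]
    rintro v ⟨⟨-, hv⟩, hs⟩
    obtain ⟨t, rfl⟩ := Submodule.mem_span_singleton.mp hs
    have h3 := mem_vanishK.mp hv σ₀ hσ₀
    rw [Pi.smul_apply, smul_eq_mul, mul_eq_zero, or_iff_left hu0] at h3
    simp [h3]
  have hspan : U ⊓ vanishK k L k ⊔ Submodule.span k {u} = U := by
    refine Submodule.eq_of_le_of_finrank_le (sup_le inf_le_left le_sup_right) ?_
    have h2 := Submodule.finrank_sup_add_finrank_inf_eq (U ⊓ vanishK k L k) (Submodule.span k {u})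
    rw [hdis.eq_bot, finrank_bot, add_zero,
      finrank_span_singleton (fun h0 => hu0 (congr_fun h0 σ₀))]
      at h2
    rw [h2]
    exact h1
  have h4 : classDim (locHom p r) W₂ = 0 := classDim_eq_zero _ fun c hc => by
    obtain ⟨hcg, hc10, hc11, hc00⟩ := hW₂ c hc
    have hmem : entryLin k p 0 1 c ∈ U ⊓ vanishK k L k ⊔ Submodule.span k {u} := by
      rw [hspan]; exact Submodule.mem_sup_left ⟨c, hc, rfl⟩
    obtain ⟨w, hw, _, hb, hwb⟩ := Submodule.mem_sup.mp hmem
    obtain ⟨t, rfl⟩ := Submodule.mem_span_singleton.mp hb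
    have h2k : (2 : k) ≠ 0 := fun h0 => T.odd (by
      have h := (CharP.cast_eq_zero_iff k p 2).mp (by exact_mod_cast h0)
      exact (Nat.prime_dvd_prime_iff_eq (Fact.out : p.Prime) Nat.prime_two).mp h)
    let M : Matrix (Fin 2) (Fin 2) k := !![-t / 2, 0; 0, t / 2]
    set d : LocalGal p → Matrix (Fin 2) (Fin 2) k := fun g => adAct (locHom p r) g M - M
    have hd : d ∈ adCob (locHom p r) :=
      mem_adCob_iff.mpr ⟨M, by simp [M, Matrix.trace_fin_two]; ring, fun g => rfl⟩
    have he : ∀ g, d g 1 0 = 0 ∧ d g 1 1 = 0 ∧ d g 0 0 = 0 ∧ d g 0 1 = t * u g := by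
      intro g
      obtain ⟨e10, e⟩ := adAct_upper T.upper g M
      obtain ⟨e11, e00, e01⟩ := e (by simp [M])
      refine ⟨?_, ?_, ?_, ?_⟩
      · simp [d, e10, M]
      · simp [d, e11]
      · simp [d, e00]
      · simp only [d, Matrix.sub_apply, e01, u, M]
        simp only [Matrix.of_apply, Matrix.cons_val', Matrix.cons_val_zero, Matrix.cons_val_one,
          Matrix.cons_val_fin_one, Matrix.empty_val', mul_zero, zero_add, sub_zero]
        field_simp
        ring
    have hcd : c - d ∈ adCob (locHom p r) := T.mem_adCob_of_vanish hne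
      (Submodule.sub_mem _ hcg (T.flat.adCob_le_goodSub hd))
      (fun g => by simp [hc10 g, (he g).1]) (fun g => by simp [hc11 g, (he g).2.1])
      (fun g => by simp [hc00 g, (he g).2.2.1]) fun σ hσ => by
        have h5 : c σ 0 1 = w σ + t * u σ := (congr_fun hwb σ).symm
        simp [h5, (he σ).2.2.2, mem_vanishK.mp hw.2 σ hσ]
    simpa using Submodule.add_mem _ hcd hd
  omega

/-- The lower left entry vanishes above the tame level, unless `p = 3` and tame inertia acts by
`-1` on it. -/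
theorem entry10_vanish {σ₀ : LocalGal p} (hσ₀ : ∀ x ∈ L, σ₀ x = x) (hwild : locHom p r σ₀ ≠ 1)
    (hexc : p = 3 → dA p r τ ≠ -dD p r τ) [Module.Finite k W] :
    ∀ c ∈ W.map (resLin p), ∀ σ : LocalGal p, (∀ x ∈ L, σ x = x) → c σ 1 0 = 0 := by
  have : Module.Finite (ZMod p) k := Module.Finite.of_finite
  have : Module.Finite k (W.map (resLin p)) := Module.Finite.map W _
  have : Module.Finite k ((W.map (resLin p)).map (entryLin k p 1 0)) := Module.Finite.map _ _
  obtain ⟨e', hnorm, hmul, hθ⟩ := T.eigS_id_eq_bot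
  obtain ⟨-, htop⟩ := T.wild_facts hσ₀ hwild hnorm hmul
  obtain ⟨hA, hD⟩ := dA_ne_zero T.upper τ⁻¹
  obtain ⟨hA', hD'⟩ := dA_ne_zero T.upper τ
  obtain ⟨hi1, hi2, -⟩ := upper_inv T.upper τ
  have hbot := eigS_inv_eq_bot hθ T.ks.tame.totRam.pos hmul T.odd
    (f := upAct p r τ⁻¹) (g := lowAct p r τ⁻¹)
    (LinearMap.ext fun x => by simp [upAct, lowAct]; field_simp)
    (fun hp3 => by
      refine (injective_iff_map_eq_zero _).mpr fun x hx => ?_
      simp only [upAct, LinearMap.add_apply, LinearMap.mulLeft_apply, LinearMap.id_apply] at hx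
      rw [show dA p r τ⁻¹ = (dA p r τ)⁻¹ from hi1, show dD p r τ⁻¹ = (dD p r τ)⁻¹ from hi2] at hx
      rcases mul_eq_zero.mp (show ((dA p r τ)⁻¹ / (dD p r τ)⁻¹ + 1) * x = 0 by
        rw [add_mul, one_mul, hx]) with h | h
      · refine absurd ?_ (hexc hp3)
        field_simp at h
        linear_combination h
      · exact h) htop
  intro c hc σ hσ
  have hle := T.ks.le_vanish hnorm hmul (isAction_lowAct T.upper) T.gen
    ((W.map (resLin p)).map (entryLin k p 1 0)) (fun v hv => by
      obtain ⟨d, hd, rfl⟩ := hv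
      have hdg := T.flat.map_le_goodSub hd
      exact (isCocycle_entry10 T.upper hdg).isTwisted (isAction_lowAct T.upper)
        (fun ρ hρ x => (T.upAct_trivial ρ hρ x).2) fun ρ hρ => by
          show d ρ 1 0 = 0
          rw [mem_vanishK.mp hdg.2 ρ hρ]; rfl) hbot
  exact mem_vanishK.mp (hle ⟨c, hc, rfl⟩) σ hσ

end Triangle

end FLTAgent.TWPrimes
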