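import Fermat.Agent.TWPrimes.Flat.Fontaine

/-!
# Point fields of flat models are rigid

`isRigid_of_models`: let `F` be generated over the unramified `K` by coordinates of points of flat
models killed by `p` and a tame radical; an approximate root of the minimal polynomial of a
uniformiser gives approximate points, hence points, so it generates a field containing `F`.
-/

set_option autoImplicit false

noncomputable section

open Polynomial
open scoped IntermediateField

namespace FLTAgent.FlatBound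

open FLTAgent.LocalDuality

variable {p : ℕ} [Fact p.Prime] {K F : IntermediateField ℚ_[p] (PadicAlgCl p)}
  {ϖ : PadicAlgCl p} {n : ℕ} [FiniteDimensional ℚ_[p] K]

/-- The integers of a subfield. -/
def intSubring (K : IntermediateField ℚ_[p] (PadicAlgCl p)) : Subring K where
  carrier := {a | ‖(a : PadicAlgCl p)‖ ≤ 1}
  zero_mem' := by simp
  one_mem' := by simp
  mul_mem' {a b} ha hb := by
    show ‖((a * b : K) : PadicAlgCl p)‖ ≤ 1
    rw [IntermediateField.coe_mul, norm_mul]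
    exact mul_le_one₀ ha (norm_nonneg _) hb
  add_mem' {a b} ha hb := by
    show ‖((a + b : K) : PadicAlgCl p)‖ ≤ 1
    rw [IntermediateField.coe_add]
    exact (IsUltrametricDist.norm_add_le_max _ _).trans (max_le ha hb)
  neg_mem' {a} ha := by
    show ‖((-a : K) : PadicAlgCl p)‖ ≤ 1
    rw [IntermediateField.coe_neg, norm_neg]
    exact ha

omit [FiniteDimensional ℚ_[p] K] in
theorem norm_aeval_le_one {P : K[X]} (hP : ∀ i, ‖(P.coeff i : PadicAlgCl p)‖ ≤ 1)
    {α : PadicAlgCl p} (hα : ‖α‖ ≤ 1) : ‖aeval α P‖ ≤ 1 := by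
  rw [aeval_eq_sum_range]
  refine IsUltrametricDist.norm_sum_le_of_forall_le_of_nonneg zero_le_one fun i _ => ?_
  rw [Algebra.smul_def, norm_mul, _root_.norm_pow, IntermediateField.algebraMap_apply]
  exact mul_le_one₀ (hP i) (by positivity) (pow_le_one₀ (norm_nonneg _) hα)

namespace IsTotRam

variable (h : IsTotRam K F ϖ n)
include h

/-- The expansion polynomial of an element. -/
def coordPoly (z : F) : K[X] := (h.exists_coord_poly z.2).choose

theorem coordPoly_natDegree (z : F) : (h.coordPoly z).natDegree < n :=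
  (h.exists_coord_poly z.2).choose_spec.1

theorem aeval_coordPoly (z : F) : aeval ϖ (h.coordPoly z) = z :=
  (h.exists_coord_poly z.2).choose_spec.2.1

theorem coordPoly_eq (z : F) {P : K[X]} (hP : P.natDegree < n) (hz : aeval ϖ P = z) :
    h.coordPoly z = P :=
  sub_eq_zero.mp (h.eq_zero_of_aeval ((natDegree_sub_le _ _).trans_lt
    (max_lt (h.coordPoly_natDegree z) hP)) (by rw [map_sub, h.aeval_coordPoly, hz, sub_self]))

theorem coordPoly_coeff_le_one (z : F) (hz : ‖(z : PadicAlgCl p)‖ ≤ 1) (i : ℕ) :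
    ‖((h.coordPoly z).coeff i : PadicAlgCl p)‖ ≤ 1 := by
  rcases lt_or_ge i n with hi | hi
  · exact h.norm_coeff_le_one hz ((h.coordPoly z).coeff i).2 hi
      ((h.exists_coord_poly z.2).choose_spec.2.2 i)
  · rw [coeff_eq_zero_of_natDegree_lt ((h.coordPoly_natDegree z).trans_le hi)]
    simp

theorem coordPoly_add (z w : F) : h.coordPoly (z + w) = h.coordPoly z + h.coordPoly w :=
  h.coordPoly_eq _ ((natDegree_add_le _ _).trans_lt
    (max_lt (h.coordPoly_natDegree z) (h.coordPoly_natDegree w)))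
    (by rw [map_add, h.aeval_coordPoly, h.aeval_coordPoly]; rfl)

/-- Transport of expansions to another element. -/
def psi (α : PadicAlgCl p) : F →+ PadicAlgCl p :=
  AddMonoidHom.mk' (fun z => aeval α (h.coordPoly z)) fun z w => by
    rw [h.coordPoly_add, map_add]

theorem psi_algebraMap (α : PadicAlgCl p) {c : PadicAlgCl p} (hc : c ∈ K) :
    h.psi α ⟨c, h.le hc⟩ = c := by
  show aeval α (h.coordPoly _) = c
  rw [h.coordPoly_eq _ (P := C ⟨c, hc⟩) (by rw [natDegree_C]; exact h.pos) (by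
    rw [aeval_C]; rfl), aeval_C]
  rfl

theorem norm_psi_le_one {α : PadicAlgCl p} (hα : ‖α‖ ≤ 1) (z : F)
    (hz : ‖(z : PadicAlgCl p)‖ ≤ 1) : ‖h.psi α z‖ ≤ 1 :=
  norm_aeval_le_one (h.coordPoly_coeff_le_one z hz) hα

theorem norm_le_norm_psi {α : PadicAlgCl p} (hα : ‖α‖ = ‖ϖ‖) (z : F) :
    ‖(z : PadicAlgCl p)‖ ≤ ‖h.psi α z‖ := by
  have e : ∀ β : PadicAlgCl p, aeval β (h.coordPoly z) =
      ∑ j : Fin n, ((h.coordPoly z).coeff j : PadicAlgCl p) * β ^ (j : ℕ) := fun β => by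
    rw [aeval_eq_sum_range' (h.coordPoly_natDegree z), ← Fin.sum_univ_eq_sum_range
      (fun i => (h.coordPoly z).coeff i • β ^ i) n]
    exact Finset.sum_congr rfl fun j _ => by
      rw [Algebra.smul_def, IntermediateField.algebraMap_apply]
  show _ ≤ ‖aeval α (h.coordPoly z)‖
  rw [← h.aeval_coordPoly z, e, e]
  refine IsUltrametricDist.norm_sum_le_of_forall_le_of_nonneg (norm_nonneg _) fun j _ => ?_
  refine le_trans (le_of_eq ?_) (h.norm_term_le_of_norm_eq hα
    (fun j => ((h.coordPoly z).coeff j : PadicAlgCl p)) (fun j => ((h.coordPoly z).coeff j).2) j)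
  rw [norm_mul, norm_mul, _root_.norm_pow, _root_.norm_pow, hα]

theorem norm_psi_mul {α : PadicAlgCl p} (hα : ‖α‖ ≤ 1) {M : ℝ}
    (hM : ‖aeval α (minpoly K ϖ)‖ ≤ M) (z w : F) (hz : ‖(z : PadicAlgCl p)‖ ≤ 1)
    (hw : ‖(w : PadicAlgCl p)‖ ≤ 1) :
    ‖h.psi α (z * w) - h.psi α z * h.psi α w‖ ≤ M := by
  set g := minpoly K ϖ
  have hg : g.Monic := minpoly.monic (Algebra.IsIntegral.isIntegral ϖ)
  obtain ⟨hgd, -, hgi⟩ := h.minpoly_spec
  change g.natDegree = n at hgd
  set D := h.coordPoly (z * w) - h.coordPoly z * h.coordPoly w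
  have hzw : ‖((z * w : F) : PadicAlgCl p)‖ ≤ 1 := by
    rw [IntermediateField.coe_mul, norm_mul]
    exact mul_le_one₀ hz (norm_nonneg _) hw
  set T := intSubring K
  have hlift : ∀ y : F, ‖(y : PadicAlgCl p)‖ ≤ 1 →
      h.coordPoly y ∈ Polynomial.lifts T.subtype := fun y hy =>
    (lifts_iff_coeff_lifts _).mpr fun i => ⟨⟨_, h.coordPoly_coeff_le_one y hy i⟩, rfl⟩
  have hgl : g ∈ Polynomial.lifts T.subtype := (lifts_iff_coeff_lifts _).mpr fun i => by
    refine ⟨⟨g.coeff i, ?_⟩, rfl⟩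
    show ‖(g.coeff i : PadicAlgCl p)‖ ≤ 1
    rcases lt_trichotomy i n with hi | hi | hi
    · exact (hgi i hi).trans (norm_natCast_p_lt_one p).le
    · rw [hi, ← hgd, hg.coeff_natDegree]; simp
    · rw [coeff_eq_zero_of_natDegree_lt (hgd.symm ▸ hi)]; simp
  obtain ⟨D₀, hD₀⟩ : D ∈ (Polynomial.mapRingHom T.subtype).range := by
    have hr : ∀ y : F, ‖(y : PadicAlgCl p)‖ ≤ 1 →
        h.coordPoly y ∈ (Polynomial.mapRingHom T.subtype).range := fun y hy => by
      obtain ⟨q, hq⟩ := (mem_lifts _).mp (hlift y hy); exact ⟨q, hq⟩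
    exact sub_mem (hr _ hzw) (mul_mem (hr z hz) (hr w hw))
  obtain ⟨g₀, hg₀, -, hg₀m⟩ := lifts_and_degree_eq_and_monic hgl hg
  have hD0 : D %ₘ g = 0 := by
    refine h.eq_zero_of_aeval ?_ ?_
    · rw [← hgd]
      exact natDegree_modByMonic_lt _ hg (fun h1 => by
        rw [h1, natDegree_one] at hgd; exact h.pos.ne hgd)
    · rw [aeval_modByMonic_eq_self_of_root (minpoly.aeval K ϖ)]
      simp [D, h.aeval_coordPoly]
  have hq : ∀ i, ‖((D /ₘ g).coeff i : PadicAlgCl p)‖ ≤ 1 := by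
    intro i
    rw [← hD₀, ← hg₀, coe_mapRingHom, ← map_divByMonic _ hg₀m, coeff_map]
    exact ((D₀ /ₘ g₀).coeff i).2
  show ‖aeval α (h.coordPoly (z * w)) - aeval α (h.coordPoly z) * aeval α (h.coordPoly w)‖ ≤ M
  rw [← map_mul, ← map_sub]
  show ‖aeval α D‖ ≤ M
  rw [← modByMonic_add_div D g, hD0, zero_add, map_mul, norm_mul]
  exact (mul_le_of_le_one_right (norm_nonneg _) (norm_aeval_le_one hq hα)).trans hM

end IsTotRam

/-- Evaluation of a model at a point, into a field containing its values. -/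
def coordEval {V : Type} {H : Subring (V → PadicAlgCl p)} (hval : ∀ f ∈ H, ∀ x, f x ∈ F) (y : V) :
    H →+ F :=
  AddMonoidHom.mk' (fun g => ⟨(g : V → PadicAlgCl p) y, hval _ g.2 y⟩) fun _ _ => rfl

theorem coe_coordEval {V : Type} {H : Subring (V → PadicAlgCl p)}
    (hval : ∀ f ∈ H, ∀ x, f x ∈ F) (y : V) (g : H) :
    (coordEval hval y g : PadicAlgCl p) = (g : V → PadicAlgCl p) y := rfl

theorem coordEval_one {V : Type} {H : Subring (V → PadicAlgCl p)}
    (hval : ∀ f ∈ H, ∀ x, f x ∈ F) (y : V) : coordEval hval y 1 = ⟨1, F.one_mem⟩ :=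
  Subtype.ext rfl

theorem coordEval_mul {V : Type} {H : Subring (V → PadicAlgCl p)}
    (hval : ∀ f ∈ H, ∀ x, f x ∈ F) (y : V) (g g' : H) :
    coordEval hval y (g * g') = coordEval hval y g * coordEval hval y g' :=
  Subtype.ext rfl

/-- Galois elements fixing an approximate root fix the coordinates of the points. -/
theorem apply_value_eq (h : IsTotRam K F ϖ n) {V : Type} [AddCommGroup V] [Fintype V]
    {act : LocalGal p → V → V} {H : Subring (V → PadicAlgCl p)} (hH : IsPadicModel p act H)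
    (hV : ∀ x : V, p • x = 0) (hval : ∀ f ∈ H, ∀ x, f x ∈ F) {α : PadicAlgCl p} {ε : ℝ}
    (hε : 0 ≤ ε) (hε' : ε ^ (p - 1) < ‖(p : PadicAlgCl p)‖) (hαϖ : ‖α‖ = ‖ϖ‖) (hα1 : ‖α‖ ≤ 1)
    (hsmall : ‖aeval α (minpoly K ϖ)‖ ≤ ‖(p : PadicAlgCl p)‖ * ε)
    (σ : PadicAlgCl p ≃ₐ[K] PadicAlgCl p) (hσα : σ α = α) (f : V → PadicAlgCl p) (hf : f ∈ H)
    (x : V) : σ (f x) = f x := by
  have hσψ : ∀ z : F, σ (h.psi α z) = h.psi α z := fun z => by
    show σ (aeval α _) = aeval α _
    rw [← aeval_algHom_apply, hσα]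
  set u : V → (H →+ PadicAlgCl p) := fun y => (h.psi α).comp (coordEval hval y) with hudef
  have hua : ∀ (y : V) (g : H), u y g = h.psi α (coordEval hval y g) := fun y g => rfl
  have hint : ∀ (y : V) (g : H), ‖(coordEval hval y g : PadicAlgCl p)‖ ≤ 1 := fun y g => by
    rw [coe_coordEval]; exact hH.coalg.norm_le _ g.2 y
  have h1 : ∀ y, u y 1 = 1 := fun y => by
    rw [hua, coordEval_one]; exact h.psi_algebraMap α K.one_mem
  have hu : ∀ y, ∃! y', ∀ g : H, ‖(g : V → PadicAlgCl p) y' - u y g‖ ≤ ε := fun y =>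
    hH.exists_point hV hε hε' (u y) (h1 y)
      (fun g => by rw [hua]; exact h.norm_psi_le_one hα1 _ (hint y g))
      (fun g g' => by
        rw [hua, hua, hua, coordEval_mul]
        exact h.norm_psi_mul hα1 hsmall (coordEval hval y g) (coordEval hval y g')
          (hint y g) (hint y g'))
  choose pt hpt huniq using hu
  have hinj : Function.Injective pt := by
    intro y z hyz
    refine hH.eq_of_close hV hε hε' fun g hg => ?_
    show ‖((coordEval hval y ⟨g, hg⟩ - coordEval hval z ⟨g, hg⟩ : F) : PadicAlgCl p)‖ ≤ ε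
    refine (h.norm_le_norm_psi hαϖ _).trans ?_
    rw [map_sub, ← hua, ← hua]
    rw [← sub_add_sub_cancel _ (g (pt y))]
    refine (IsUltrametricDist.norm_add_le_max _ _).trans (max_le ?_ ?_)
    · rw [norm_sub_rev]; exact hpt y ⟨g, hg⟩
    · rw [hyz]; exact hpt z ⟨g, hg⟩
  obtain ⟨y, rfl⟩ := (Finite.injective_iff_surjective.mp hinj) x
  have hfix : act (σ.restrictScalars ℚ_[p]) (pt y) = pt y := by
    refine huniq y _ fun g => ?_
    rw [hH.equivariant _ g.2]
    show ‖σ ((g : V → PadicAlgCl p) (pt y)) - u y g‖ ≤ ε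
    rw [show u y g = σ (u y g) from (hσψ _).symm, ← map_sub, norm_base_galois]
    exact hpt y g
  have := hH.equivariant f hf (σ.restrictScalars ℚ_[p]) (pt y)
  rw [hfix] at this
  exact this.symm

/-- Point fields of flat models killed by `p`, with a tame radical, are rigid. -/
theorem isRigid_of_models (h : IsTotRam K F ϖ n) {ι : Type} {V : ι → Type}
    [∀ i, AddCommGroup (V i)] [∀ i, Fintype (V i)] {act : ∀ i, LocalGal p → V i → V i}
    {H : ∀ i, Subring (V i → PadicAlgCl p)} (hH : ∀ i, IsPadicModel p (act i) (H i))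
    (hV : ∀ i, ∀ x : V i, p • x = 0) (hval : ∀ i, ∀ f ∈ H i, ∀ x, f x ∈ F)
    {l : PadicAlgCl p} {e : ℕ} (hlF : l ∈ F) (hlK : l ^ e ∈ K)
    (hln : ‖l‖ ^ e = ‖(p : PadicAlgCl p)‖) (he : ¬ p ∣ e)
    (hμ : ∀ ζ : PadicAlgCl p, ζ ^ e = 1 → ζ ∈ K)
    (hgen : ∀ σ : PadicAlgCl p ≃ₐ[K] PadicAlgCl p,
      (∀ i, ∀ f ∈ H i, ∀ x, σ (f x) = f x) → σ l = l → ∀ x ∈ F, σ x = x) :
    IsRigid K F ϖ n := by
  intro α ε hε hε' hαn hsmall σ hσα
  have hp0 : 0 < ‖(p : PadicAlgCl p)‖ := norm_pos_iff.mpr (natCast_p_ne_zero p)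
  have hαϖ : ‖α‖ = ‖ϖ‖ := (pow_left_inj₀ (norm_nonneg _) (norm_nonneg _) h.pos.ne').mp
    (hαn.trans h.norm_pow.symm)
  have hα1 : ‖α‖ ≤ 1 := hαϖ ▸ h.norm_lt_one.le
  have he0 : e ≠ 0 := fun h0 => he (h0 ▸ dvd_zero p)
  have hσψ : ∀ z : F, σ (h.psi α z) = h.psi α z := fun z => by
    show σ (aeval α _) = aeval α _
    rw [← aeval_algHom_apply, hσα]
  refine hgen σ (fun i f hf x => apply_value_eq h (hH i) (hV i) (hval i) hε hε' hαϖ hα1 hsmall σ
    hσα f hf x) ?_
  · set β := h.psi α ⟨l, hlF⟩ with hβ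
    have hl0 : l ≠ 0 := fun h0 => by
      rw [h0, norm_zero, zero_pow he0] at hln; exact hp0.ne hln
    have hl1 : ‖l‖ ≤ 1 := by
      by_contra hlt
      push Not at hlt
      exact absurd ((one_le_pow₀ hlt.le).trans hln.le) (not_le.mpr (norm_natCast_p_lt_one p))
    let L' : F := ⟨l, hlF⟩
    have hL' : ∀ m : ℕ, ((L' ^ m : F) : PadicAlgCl p) = l ^ m := fun m => rfl
    have hpows : ∀ m : ℕ, 1 ≤ m →
        ‖h.psi α (L' ^ m) - β ^ m‖ ≤ ‖(p : PadicAlgCl p)‖ * ε := by
      intro m hm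
      induction m, hm using Nat.le_induction with
      | base => rw [pow_one, pow_one, sub_self, norm_zero]; exact mul_nonneg (norm_nonneg _) hε
      | succ m _ ih =>
        have hlm : ‖((L' ^ m : F) : PadicAlgCl p)‖ ≤ 1 := by
          rw [hL', _root_.norm_pow]; exact pow_le_one₀ (norm_nonneg _) hl1
        have h1 := h.norm_psi_mul hα1 hsmall (L' ^ m) L' hlm hl1
        rw [← pow_succ L' m] at h1
        rw [pow_succ β m, ← sub_add_sub_cancel _ (h.psi α (L' ^ m) * β)]
        refine (IsUltrametricDist.norm_add_le_max _ _).trans (max_le h1 ?_)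
        rw [← sub_mul, norm_mul]
        exact (mul_le_of_le_one_right (norm_nonneg _) (h.norm_psi_le_one hα1 L' hl1)).trans ih
    have hεlt : ε < 1 := by
      by_contra hle
      push Not at hle
      exact absurd ((one_le_pow₀ hle).trans hε'.le) (not_le.mpr (norm_natCast_p_lt_one p))
    have hbe : ‖l ^ e - β ^ e‖ < ‖l ^ e‖ := by
      have h1 := hpows e (Nat.one_le_iff_ne_zero.mpr he0)
      rw [show (L' ^ e : F) = ⟨l ^ e, h.le hlK⟩ from Subtype.ext (hL' e),
        h.psi_algebraMap α hlK] at h1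
      refine h1.trans_lt ?_
      rw [_root_.norm_pow, hln]
      exact mul_lt_of_lt_one_right hp0 hεlt
    have hle0 : l ^ e ≠ 0 := pow_ne_zero e hl0
    have hw1 : ‖β ^ e / l ^ e - 1‖ < 1 := by
      rw [div_sub_one hle0, norm_div, norm_sub_rev, div_lt_one (norm_pos_iff.mpr hle0)]
      exact hbe
    obtain ⟨r, ⟨hr, hr1⟩, hruniq⟩ := existsUnique_root (norm_natCast_eq_one he)
      (norm_one (α := PadicAlgCl p)) (w := β ^ e / l ^ e) (by rwa [one_pow, norm_sub_rev])
    have hr0 : r ≠ 0 := by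
      intro h0
      rw [h0, zero_sub, norm_neg, norm_one] at hr1
      exact lt_irrefl _ hr1
    have hσβ : σ β = β := hσψ _
    have hσr : σ r = r := by
      refine hruniq _ ⟨?_, ?_⟩
      · rw [← map_pow, hr, map_div₀, map_pow, hσβ,
          show σ (l ^ e) = l ^ e from σ.commutes ⟨l ^ e, hlK⟩]
      · rw [← map_one σ, ← map_sub, norm_base_galois]; exact hr1
    have hζ : (β / r / l) ^ e = 1 := by
      rw [div_pow, div_pow, hr, div_div_cancel₀, div_self hle0]
      intro hb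
      rw [hb, sub_zero] at hbe
      exact lt_irrefl _ hbe
    have hσζ : σ (β / r / l) = β / r / l := σ.commutes ⟨_, hμ _ hζ⟩
    rw [map_div₀, map_div₀, hσβ, hσr] at hσζ
    have hne : β / r ≠ 0 := fun h0 => by
      rw [h0, zero_div, zero_pow he0] at hζ; exact zero_ne_one hζ
    have := hσζ
    rw [div_eq_mul_inv, div_eq_mul_inv _ l] at this
    exact inv_injective (mul_left_cancel₀ hne this)

end FLTAgent.FlatBound
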