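import Fermat.Agent.TWPrimes.Flat.Counting
import Fermat.Agent.TWPrimes.Flat.Connected
import Fermat.Agent.TWPrimes.LocalUnramified

/-!
# The level of finitely many flat classes

`FlatLevel`: one finite Galois extension of `ℚ_p` carrying the points of the models of finitely
many flat classes (`exists_flatLevel`), and invariance of local class dimensions under a change of
frame (`classDim_le_conj`).
-/

set_option autoImplicit false
set_option linter.unusedSectionVars false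

open Matrix Module
open scoped IntermediateField

noncomputable section

namespace FLTAgent.TWPrimes

open FLTAgent.LocalDuality FLTAgent.FlatBound
open FLTAgent.Density (GalQ Qbar)

variable {k : Type} [Field k] [Finite k] {p : ℕ} [Fact p.Prime] [CharP k p]

/-- A level carrying the models of all the classes in `W`. -/
structure FlatLevel (r : GalQ →* GL (Fin 2) k) (W : Submodule k (GalQ → Matrix (Fin 2) (Fin 2) k))
    (F K : IntermediateField ℚ_[p] (PadicAlgCl p)) (ζ : PadicAlgCl p) : Prop where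
  stable : ∀ g : LocalGal p, ∀ x ∈ F, g x ∈ F
  unram : IsUnramifiedPart F K
  prim : IsPrimitiveRoot ζ p
  kill : ∀ σ : LocalGal p, (∀ x ∈ F, σ x = x) → locHom p r σ = 1
  killW : ∀ c ∈ W, ∀ σ : LocalGal p, (∀ x ∈ F, σ x = x) → c (toGlobal p σ) = 0
  det : ∀ g : LocalGal p, ∃ a : ℕ, g ζ = ζ ^ a ∧ (mat (locHom p r) g).det = (a : k)
  level : ∀ (L K' : IntermediateField ℚ_[p] (PadicAlgCl p)) [FiniteDimensional ℚ_[p] L]
    (l : PadicAlgCl p) (e : ℕ), (∀ g : LocalGal p, ∀ x ∈ L, g x ∈ L) → IsTame L K' l e → ζ ∈ L →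
    ∀ y ∈ F, y ≠ 0 → y ^ p ∈ L → ∃ z ∈ L, z ≠ 0 ∧ ‖(y * z) ^ p - 1‖ ≤ ‖(p : PadicAlgCl p)‖
  models : ∀ c ∈ W, ∃ (hc : IsAdCocycleOn r c)
    (H₀ : Subalgebra (GaloisRep.ratLocalizedAt p)
      ((Fin 2 → k) × (Fin 2 → k) → AlgebraicClosure ℚ)),
    FiniteFlat.IsFlatModel p (liftAct r c hc) H₀ ∧ ∀ f ∈ padicFun p H₀, ∀ x, f x ∈ F

theorem killed_prod (x : (Fin 2 → k) × (Fin 2 → k)) : p • x = 0 := by
  ext i <;> simp [nsmul_eq_mul]

theorem liftAct_apply {Γ : Type} [Group Γ] (r : Γ →* GL (Fin 2) k)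
    (c : Γ → Matrix (Fin 2) (Fin 2) k) (hc : IsAdCocycleOn r c) (g : Γ)
    (v : (Fin 2 → k) × (Fin 2 → k)) :
    liftAct r c hc g v = (mat r g *ᵥ v.1, mat r g *ᵥ v.2 + (c g * mat r g) *ᵥ v.1) := rfl

theorem exists_flatLevel (r : GalQ →* GL (Fin 2) k)
    (hdet : ∀ g, (mat r g).det =
      ZMod.castHom (dvd_refl p) k (ExtCitation.cycloChar p g : ZMod p))
    (W : Submodule k (GalQ → Matrix (Fin 2) (Fin 2) k)) [Module.Finite k W]
    (hW : ∀ c ∈ W, IsFlatClass p r c) :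
    ∃ (F K : IntermediateField ℚ_[p] (PadicAlgCl p)) (ζ : PadicAlgCl p),
      FiniteDimensional ℚ_[p] F ∧ FlatLevel r W F K ζ := by
  classical
  have : Fintype k := Fintype.ofFinite k
  have : Finite W := Module.finite_of_finite k
  have : NeZero p := ⟨(Fact.out : p.Prime).ne_zero⟩
  choose hc hlev H₀ hH₀ using fun c : W => hW c c.2
  obtain ⟨ζ₀, hζ₀⟩ : ∃ ζ₀ : Qbar, IsPrimitiveRoot ζ₀ p :=
    (inferInstance : HasEnoughRootsOfUnity Qbar p).prim
  set ζ := padicEmbedding p ζ₀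
  have hζ : IsPrimitiveRoot ζ p := hζ₀.map_of_injective (padicEmbedding p).toRingHom.injective
  let M : W → PModel p := fun c =>
    { V := (Fin 2 → k) × (Fin 2 → k)
      act := fun σ x => liftAct r c.1 (hc c) (toGlobal p σ) x
      H := padicFun p (H₀ c)
      isModel := (padicFun_spec (hH₀ c)).1
      killed := killed_prod
      finite_values := (padicFun_spec (hH₀ c)).2.1 }
  have := IntermediateField.adjoin.finiteDimensional (Algebra.IsIntegral.isIntegral (R := ℚ_[p]) ζ)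
  obtain ⟨hcst, -⟩ := exists_isTame_cyclotomic hζ
  have hF := finiteDimensional_pointField ℚ_[p]⟮ζ⟯ M
  obtain ⟨K, hK⟩ := exists_isUnramifiedPart (pointField ℚ_[p]⟮ζ⟯ M)
  have hfix : ∀ c : W, ∀ σ : LocalGal p, (∀ x ∈ pointField ℚ_[p]⟮ζ⟯ M, σ x = x) →
      liftAct r c.1 (hc c) (toGlobal p σ) = 1 := fun c σ hσ =>
    AddMonoidHom.ext fun x => (M c).isModel.separates _ _ fun f hf => by
      have := (M c).isModel.equivariant f hf σ x
      rwa [hσ _ (value_mem_pointField _ M c hf x)] at this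
  have hkill : ∀ σ : LocalGal p, (∀ x ∈ pointField ℚ_[p]⟮ζ⟯ M, σ x = x) →
      mat r (toGlobal p σ) = 1 ∧ ∀ c : W, c.1 (toGlobal p σ) = 0 := by
    intro σ hσ
    have h1 : mat r (toGlobal p σ) = 1 := Matrix.ext_iff_mulVec.mpr fun v => by
      rw [Matrix.one_mulVec]
      exact congrArg Prod.fst (DFunLike.congr_fun (hfix ⟨0, W.zero_mem⟩ σ hσ) (v, 0))
    refine ⟨h1, fun c => Matrix.ext_iff_mulVec.mpr fun v => ?_⟩
    have := congrArg Prod.snd (DFunLike.congr_fun (hfix c σ hσ) (v, 0))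
    rw [liftAct_apply, h1, mul_one] at this
    rw [Matrix.zero_mulVec]
    simpa using this
  have hdet' : ∀ g : LocalGal p, ∃ a : ℕ, g ζ = ζ ^ a ∧
      (mat (locHom p r) g).det = (a : k) := fun g => by
    refine ⟨((cyclo p (toGlobal p g) : (ZMod p)ˣ) : ZMod p).val, ?_, ?_⟩
    · rw [← padicEmbedding_localGaloisToGlobal, cyclo_spec p _ hζ₀.pow_eq_one, map_pow]
    · show (mat r (toGlobal p g)).det = _
      rw [hdet, cyclo_eq_cycloChar, ZMod.castHom_apply, ZMod.cast_eq_val]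
  have hlevel : ∀ (L K' : IntermediateField ℚ_[p] (PadicAlgCl p)) [FiniteDimensional ℚ_[p] L]
      (l : PadicAlgCl p) (e : ℕ), (∀ g : LocalGal p, ∀ x ∈ L, g x ∈ L) → IsTame L K' l e →
      ζ ∈ L → ∀ y ∈ pointField ℚ_[p]⟮ζ⟯ M, y ≠ 0 → y ^ p ∈ L →
      ∃ z ∈ L, z ≠ 0 ∧ ‖(y * z) ^ p - 1‖ ≤ ‖(p : PadicAlgCl p)‖ := by
    intro L K' _ l e hst hL hζL y hy hy0 hyp
    refine exists_level_root hst hL hζ M hyp hy0 ?_
    exact IntermediateField.adjoin.mono ℚ_[p] _ _ (Set.union_subset_union_left _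
      (IntermediateField.adjoin_simple_le_iff.mpr hζL)) hy
  have hmodels : ∀ c ∈ W, ∃ (hc : IsAdCocycleOn r c)
      (H : Subalgebra (GaloisRep.ratLocalizedAt p)
        ((Fin 2 → k) × (Fin 2 → k) → AlgebraicClosure ℚ)),
      FiniteFlat.IsFlatModel p (liftAct r c hc) H ∧
        ∀ f ∈ padicFun p H, ∀ x, f x ∈ pointField ℚ_[p]⟮ζ⟯ M := fun c hcW =>
    ⟨hc ⟨c, hcW⟩, H₀ ⟨c, hcW⟩, hH₀ ⟨c, hcW⟩, fun f hf x =>
      value_mem_pointField ℚ_[p]⟮ζ⟯ M (⟨c, hcW⟩ : W) (f := f) hf x⟩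
  exact ⟨pointField ℚ_[p]⟮ζ⟯ M, K, ζ, hF, pointField_stable _ M hcst, hK, hζ,
    fun σ hσ => Units.ext (hkill σ hσ).1, fun c hcW σ hσ => (hkill σ hσ).2 ⟨c, hcW⟩,
    hdet', hlevel, hmodels⟩

theorem IsAdCocycleOn.conj {Γ : Type} [Group Γ] {r : Γ →* GL (Fin 2) k}
    {c : Γ → Matrix (Fin 2) (Fin 2) k} (hc : IsAdCocycleOn r c) (P : GL (Fin 2) k) :
    IsAdCocycleOn ((MulAut.conj P⁻¹).toMonoidHom.comp r)
      fun g => (P⁻¹ : GL (Fin 2) k).1 * c g * P.1 := by
  refine ⟨fun g => ?_, fun g h => ?_⟩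
  · rw [Matrix.trace_mul_cycle, ← Units.val_mul, mul_inv_cancel, Units.val_one, one_mul]
    exact hc.1 g
  · simp only [hc.2 g h, adAct, mat, MonoidHom.comp_apply, MulEquiv.coe_toMonoidHom,
      MulAut.conj_apply, inv_inv, Units.val_mul, mul_add, add_mul, mul_assoc,
      Units.mul_inv_cancel_left]

/-- Conjugation of matrix valued functions. -/
def conjFun (Γ : Type) (P : GL (Fin 2) k) :
    (Γ → Matrix (Fin 2) (Fin 2) k) →ₗ[k] (Γ → Matrix (Fin 2) (Fin 2) k) where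
  toFun c g := (P⁻¹ : GL (Fin 2) k).1 * c g * P.1
  map_add' a b := funext fun g => by simp [mul_add, add_mul]
  map_smul' t a := funext fun g => by simp

theorem conjFun_apply {Γ : Type} (P : GL (Fin 2) k) (c : Γ → Matrix (Fin 2) (Fin 2) k) (g : Γ) :
    conjFun Γ P c g = (P⁻¹ : GL (Fin 2) k).1 * c g * P.1 := rfl

theorem conjFun_conjFun {Γ : Type} (P : GL (Fin 2) k) (c : Γ → Matrix (Fin 2) (Fin 2) k) :
    conjFun Γ P⁻¹ (conjFun Γ P c) = c := funext fun g => by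
  simp only [conjFun_apply, inv_inv, mul_assoc, Units.mul_inv_cancel_left, Units.mul_inv, mul_one]

/-- A level stays one after a change of frame. -/
theorem FlatLevel.conj {r : GalQ →* GL (Fin 2) k}
    {W : Submodule k (GalQ → Matrix (Fin 2) (Fin 2) k)}
    {F K : IntermediateField ℚ_[p] (PadicAlgCl p)} {ζ : PadicAlgCl p} (D : FlatLevel r W F K ζ)
    (P : GL (Fin 2) k) :
    FlatLevel ((MulAut.conj P⁻¹).toMonoidHom.comp r) (W.map (conjFun GalQ P)) F K ζ where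
  stable := D.stable
  unram := D.unram
  prim := D.prim
  kill σ hσ := by
    show MulAut.conj P⁻¹ (locHom p r σ) = 1
    rw [D.kill σ hσ, map_one]
  killW := by
    rintro _ ⟨c, hc, rfl⟩ σ hσ
    rw [conjFun_apply, D.killW c hc σ hσ, mul_zero, zero_mul]
  det g := by
    obtain ⟨a, ha, hdet⟩ := D.det g
    refine ⟨a, ha, ?_⟩
    rw [← hdet]
    show ((P⁻¹ * locHom p r g * P⁻¹⁻¹ : GL (Fin 2) k).1).det = _
    rw [Units.val_mul, Units.val_mul, inv_inv, Matrix.det_units_conj' P]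
  level := D.level
  models := by
    classical
    have : Fintype k := Fintype.ofFinite k
    rintro _ ⟨c, hcW, rfl⟩
    obtain ⟨hc, H₀, h₀, hv⟩ := D.models c hcW
    let ι : (Fin 2 → k) × (Fin 2 → k) →+ (Fin 2 → k) × (Fin 2 → k) :=
      AddMonoidHom.mk' (fun v => (P.1 *ᵥ v.1, P.1 *ᵥ v.2)) fun v w => by
        simp [Matrix.mulVec_add]
    refine ⟨hc.conj P, H₀.map (FiniteFlat.pullback p ι),
      isFlatModel_map_pullback h₀ ι ?_ fun σ x => ?_, fun f hf x => ?_⟩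
    · intro v w h
      have hinj : Function.Injective fun u : Fin 2 → k => P.1 *ᵥ u :=
        Matrix.mulVec_injective_iff_isUnit.mpr P.isUnit
      exact Prod.ext (hinj (congrArg Prod.fst h)) (hinj (congrArg Prod.snd h))
    · show (P.1 *ᵥ (mat ((MulAut.conj P⁻¹).toMonoidHom.comp r) σ *ᵥ x.1),
          P.1 *ᵥ (mat ((MulAut.conj P⁻¹).toMonoidHom.comp r) σ *ᵥ x.2 +
            (conjFun GalQ P c σ * mat ((MulAut.conj P⁻¹).toMonoidHom.comp r) σ) *ᵥ x.1)) =
        (mat r σ *ᵥ (P.1 *ᵥ x.1), mat r σ *ᵥ (P.1 *ᵥ x.2) + (c σ * mat r σ) *ᵥ (P.1 *ᵥ x.1))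
      simp only [conjFun_apply, mat, MonoidHom.comp_apply,
        MulEquiv.coe_toMonoidHom, MulAut.conj_apply, inv_inv, Units.val_mul, Matrix.mulVec_add,
        Matrix.mulVec_mulVec, mul_assoc, Units.mul_inv_cancel_left]
    · obtain ⟨g, hg, rfl⟩ := mem_padicFun_pullback ι hf
      exact hv g hg _

/-- The dimension of classes does not depend on the frame. -/
theorem classDim_le_conj {Γ : Type} [Group Γ] (r : Γ →* GL (Fin 2) k) (P : GL (Fin 2) k)
    (W : Submodule k (Γ → Matrix (Fin 2) (Fin 2) k)) [Module.Finite k W] :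
    classDim r W ≤ classDim ((MulAut.conj P⁻¹).toMonoidHom.comp r) (W.map (conjFun Γ P)) := by
  set r' := (MulAut.conj P⁻¹).toMonoidHom.comp r with hr'
  have hcob : adCob r' ≤ (adCob r).comap (conjFun Γ P⁻¹) := by
    intro c hc
    obtain ⟨m, hm, hcm⟩ := mem_adCob_iff.mp hc
    refine mem_adCob_iff.mpr ⟨P.1 * m * (P⁻¹ : GL (Fin 2) k).1, ?_, fun g => ?_⟩
    · rw [Matrix.trace_mul_cycle, ← Units.val_mul, inv_mul_cancel, Units.val_one, one_mul]
      exact hm
    · rw [conjFun_apply, inv_inv, hcm]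
      simp only [hr', adAct, mat, MonoidHom.comp_apply, MulEquiv.coe_toMonoidHom,
        MulAut.conj_apply, inv_inv, Units.val_mul, mul_sub, sub_mul, mul_assoc,
        Units.mul_inv_cancel_left, Units.mul_inv, mul_one]
  let Ξ : ((Γ → Matrix (Fin 2) (Fin 2) k) ⧸ adCob r') →ₗ[k]
      ((Γ → Matrix (Fin 2) (Fin 2) k) ⧸ adCob r) :=
    Submodule.mapQ _ _ (conjFun Γ P⁻¹) hcob
  have heq : W.map (adCob r).mkQ = ((W.map (conjFun Γ P)).map (adCob r').mkQ).map Ξ := by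
    rw [← Submodule.map_comp, ← Submodule.map_comp]
    refine congrArg (fun f => W.map f) (LinearMap.ext fun c => ?_)
    show (adCob r).mkQ c = Ξ (Submodule.Quotient.mk (conjFun Γ P c))
    rw [Submodule.mapQ_apply, conjFun_conjFun]
    rfl
  unfold classDim
  rw [heq]
  exact Submodule.finrank_map_le Ξ _

end FLTAgent.TWPrimes
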