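import Fermat.Agent.TWPrimes.Flat.Rigid

/-!
# Galois subfields, unramified parts and tame extensions

`IsTame L K l e`, its existence for a finite Galois extension of degree of ramification prime to
`p` (`exists_isTame`), and the norm of `ζ - 1`. Used by `Flat.KummerBound`.
-/

set_option autoImplicit false

noncomputable section

open Polynomial
open scoped IntermediateField

namespace FLTAgent.FlatBound

open FLTAgent.LocalDuality

variable {p : ℕ} [Fact p.Prime]

theorem mem_of_forall_fixed (E : IntermediateField ℚ_[p] (PadicAlgCl p)) {x : PadicAlgCl p}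
    (h : ∀ σ : LocalGal p, (∀ a ∈ E, σ a = a) → σ x = x) : x ∈ E := by
  rw [← InfiniteGalois.fixedField_fixingSubgroup E]
  intro σ
  exact h σ ((IntermediateField.mem_fixingSubgroup_iff E _).mp σ.2)

theorem finiteDimensional_of_le {A B : IntermediateField ℚ_[p] (PadicAlgCl p)}
    [FiniteDimensional ℚ_[p] B] (h : A ≤ B) : FiniteDimensional ℚ_[p] A :=
  FiniteDimensional.of_injective (IntermediateField.inclusion h).toLinearMap
    (IntermediateField.inclusion_injective h)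

/-- Upgrade a local Galois element fixing `K` to a `K`-automorphism. -/
def toBase {K : IntermediateField ℚ_[p] (PadicAlgCl p)} (σ : LocalGal p)
    (h : ∀ a ∈ K, σ a = a) : PadicAlgCl p ≃ₐ[K] PadicAlgCl p :=
  { σ.toRingEquiv with commutes' := fun a => h a a.2 }

namespace IsUnramifiedPart

variable {E K : IntermediateField ℚ_[p] (PadicAlgCl p)}

theorem apply_eq_of_fixed [FiniteDimensional ℚ_[p] E] (hK : IsUnramifiedPart E K) {σ : LocalGal p}
    (hσ : ∀ a ∈ K, σ a = a) : ∀ z ∈ residueSubfield E, galRed σ z = z := by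
  intro z hz
  rw [← hK.residue] at hz
  obtain ⟨x, hxK, hx1, rfl⟩ := hz
  rw [galRed_red σ hx1, hσ x hxK]

theorem mono [FiniteDimensional ℚ_[p] E] {L K' : IntermediateField ℚ_[p] (PadicAlgCl p)}
    [FiniteDimensional ℚ_[p] L] (hK : IsUnramifiedPart E K) (hK' : IsUnramifiedPart L K')
    (hLE : L ≤ E) : K' ≤ K := by
  intro x hx
  refine mem_of_forall_fixed K fun σ hσ => ?_
  refine hK'.fixed σ (fun z hz => hK.apply_eq_of_fixed hσ z ?_) x hx
  obtain ⟨y, hy, hy1, rfl⟩ := hz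
  exact red_mem_residueSubfield E (hLE hy) hy1

theorem exists_isTotRam [FiniteDimensional ℚ_[p] E] (hK : IsUnramifiedPart E K) :
    ∃ ϖ n, IsTotRam K E ϖ n := by
  obtain ⟨ϖ, hϖ, n, hn, -, hpow, hval⟩ := exists_uniformizer E
  exact ⟨ϖ, n, { pos := hn, norm_pow := hpow, values_base := hK.values, le := hK.le, mem := hϖ,
                 values := hval, residue := hK.residue.ge }⟩

end IsUnramifiedPart

/-- A tame extension with a radical generator. -/
structure IsTame (L K : IntermediateField ℚ_[p] (PadicAlgCl p)) (l : PadicAlgCl p) (e : ℕ) :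
    Prop where
  totRam : IsTotRam K L l e
  not_dvd : ¬ p ∣ e
  pow_mem : l ^ e ∈ K
  roots : ∀ ζ : PadicAlgCl p, ζ ^ e = 1 → ζ ∈ K
  unram : IsUnramifiedPart L K

theorem IsTame.apply_eq {L K : IntermediateField ℚ_[p] (PadicAlgCl p)}
    [FiniteDimensional ℚ_[p] L] [FiniteDimensional ℚ_[p] K]
    {l : PadicAlgCl p} {e : ℕ} (h : IsTame L K l e) {σ : LocalGal p} (hσ : ∀ a ∈ K, σ a = a)
    (hl : σ l = l) : ∀ a ∈ L, σ a = a := by
  intro a ha
  obtain ⟨c, hc, rfl⟩ := h.totRam.exists_coord ha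
  rw [map_sum]
  exact Finset.sum_congr rfl fun j _ => by rw [map_mul, map_pow, hσ _ (hc j), hl]

/-- A Galois extension whose ramification index is prime to `p` is tame. -/
theorem exists_isTame (L : IntermediateField ℚ_[p] (PadicAlgCl p)) [FiniteDimensional ℚ_[p] L]
    (hst : ∀ σ : LocalGal p, ∀ x ∈ L, σ x ∈ L)
    (htame : ∀ ϖ ∈ L, ∀ n : ℕ, ‖ϖ‖ ^ n = ‖(p : PadicAlgCl p)‖ →
      (∀ x ∈ L, x ≠ 0 → ∃ k : ℤ, ‖x‖ = ‖ϖ‖ ^ k) → ¬ p ∣ n) :
    ∃ K l e, IsTame L K l e := by
  classical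
  obtain ⟨K, hK⟩ := exists_isUnramifiedPart L
  have := finiteDimensional_of_le hK.le
  obtain ⟨ϖ, n, hT⟩ := hK.exists_isTotRam
  have hn : ¬ p ∣ n := htame ϖ hT.mem n hT.norm_pow hT.values
  have hp0 := natCast_p_ne_zero p
  set u := ϖ ^ n / (p : PadicAlgCl p) with hu
  have huL : u ∈ L := L.div_mem (pow_mem hT.mem n) (natCast_mem L p)
  have hu1 : ‖u‖ = 1 := by
    rw [norm_div, _root_.norm_pow, hT.norm_pow, div_self (norm_ne_zero_iff.mpr hp0)]
  obtain ⟨w, hwK, hw1, hwu⟩ :=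
    (mem_residueSubfield K).mp (hK.residue.ge (red_mem_residueSubfield L huL hu1.le))
  have hlt := (red_eq_iff hw1 hu1.le).mp hwu
  have hwn : ‖w‖ = 1 := by
    rw [← sub_add_cancel w u, IsUltrametricDist.norm_add_eq_max_of_norm_ne_norm (hu1 ▸ hlt.ne),
      max_eq_right (hu1 ▸ hlt.le), hu1]
  have hw0 : w ≠ 0 := norm_pos_iff.mp (hwn ▸ one_pos)
  obtain ⟨r, ⟨hr, hr1⟩, hruniq⟩ := existsUnique_root (norm_natCast_eq_one hn)
    (norm_one (α := PadicAlgCl p)) (w := u / w) (by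
      rw [one_pow, norm_sub_rev, div_sub_one hw0, norm_div, hwn, div_one, norm_sub_rev]
      exact hlt)
  have hrL : r ∈ L := mem_of_forall_fixed L fun σ hσ => hruniq _
    ⟨by rw [← map_pow, hr, hσ _ (L.div_mem huL (hK.le hwK))],
      by rw [← map_one σ, ← map_sub, norm_galois]; exact hr1⟩
  have hrn : ‖r‖ = 1 := by
    rw [← sub_add_cancel r 1, IsUltrametricDist.norm_add_eq_max_of_norm_ne_norm
      ((norm_one (α := PadicAlgCl p)).symm ▸ hr1.ne), norm_one, max_eq_right hr1.le]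
  have hr0 : r ≠ 0 := norm_pos_iff.mp (hrn ▸ one_pos)
  set l := ϖ / r
  have hln : ‖l‖ = ‖ϖ‖ := by rw [norm_div, hrn, div_one]
  have hlK : l ^ n ∈ K := by
    have e : ϖ ^ n / (u / w) = (p : PadicAlgCl p) * w := by
      rw [hu]
      field_simp [pow_ne_zero n hT.ne_zero]
    rw [div_pow, hr, e]
    exact mul_mem (natCast_mem K p) hwK
  have hT' : IsTotRam K L l n :=
    { pos := hT.pos, norm_pow := by rw [hln]; exact hT.norm_pow, values_base := hK.values,
      le := hK.le, mem := L.div_mem hT.mem hrL, values := fun x hx hx0 => by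
        obtain ⟨k, hk⟩ := hT.values x hx hx0; exact ⟨k, by rw [hln]; exact hk⟩
      residue := hK.residue.ge }
  refine ⟨K, l, n, hT', hn, hlK, ?_, hK⟩
  -- the conjugates of `l` give all the `n`-th roots of unity
  intro ζ hζ
  have hl0 : l ≠ 0 := hT'.ne_zero
  have hconj : ∀ r ∈ conjRoots K l, (r / l) ^ n = 1 ∧ r ∈ L := by
    intro r hr
    obtain ⟨σ, rfl⟩ := mem_conjRoots_iff.mp hr
    refine ⟨?_, hT'.galois_mem hst σ hT'.mem⟩
    rw [div_pow, ← map_pow, show σ (l ^ n) = l ^ n from σ.commutes ⟨_, hlK⟩,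
      div_self (pow_ne_zero n hl0)]
  let S := (conjRoots K l).image fun r => r / l
  have hcard : S.card = n := by
    rw [Finset.card_image_of_injective _ (fun a b hab => (div_left_inj' hl0).mp hab),
      hT'.card_conjRoots]
  have hS : ∀ z ∈ S, z ∈ (X ^ n - C (1 : PadicAlgCl p)).roots.toFinset := by
    intro z hz
    obtain ⟨r, hr, rfl⟩ := Finset.mem_image.mp hz
    rw [Multiset.mem_toFinset, mem_roots (X_pow_sub_C_ne_zero hT.pos 1), IsRoot.def, eval_sub,
      eval_pow, eval_X, eval_C, (hconj r hr).1, sub_self]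
  have hζS : ζ ∈ S := by
    have heq := Finset.eq_of_subset_of_card_le hS (by
      rw [hcard]
      exact (Multiset.toFinset_card_le _).trans ((card_roots' _).trans natDegree_X_pow_sub_C.le))
    rw [heq, Multiset.mem_toFinset, mem_roots (X_pow_sub_C_ne_zero hT.pos 1), IsRoot.def, eval_sub,
      eval_pow, eval_X, eval_C, hζ, sub_self]
  obtain ⟨r, hr, rfl⟩ := Finset.mem_image.mp hζS
  have hrl : r / l ∈ L := L.div_mem (hconj r hr).2 hT'.mem
  refine hK.roots _ ⟨n, hn, hζ⟩ (red_mem_residueSubfield L hrl ?_)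
  exact ((pow_eq_one_iff_of_nonneg (norm_nonneg _) hT.pos.ne').mp
    (by rw [← _root_.norm_pow, hζ, norm_one])).le

/-- `|ζ - 1| ^ (p - 1) = |p|` for a primitive `p`-th root of unity, and `|ζ ^ i - 1| ≤ |ζ - 1|`. -/
theorem norm_zeta_sub_one {ζ : PadicAlgCl p} (hζ : IsPrimitiveRoot ζ p) :
    ‖ζ - 1‖ ^ (p - 1) = ‖(p : PadicAlgCl p)‖ ∧
      ∀ η : PadicAlgCl p, η ^ p = 1 → ‖η - 1‖ ≤ ‖ζ - 1‖ := by
  classical
  have hp := (Fact.out : p.Prime)
  have hη1 : ∀ η : PadicAlgCl p, η ^ p = 1 → ‖η‖ = 1 := fun η hη =>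
    (pow_eq_one_iff_of_nonneg (norm_nonneg _) hp.ne_zero).mp
      (by rw [← _root_.norm_pow, hη, norm_one])
  have hle : ∀ a b : PadicAlgCl p, IsPrimitiveRoot a p → b ^ p = 1 → ‖b - 1‖ ≤ ‖a - 1‖ := by
    intro a b ha hb
    have : NeZero p := ⟨hp.ne_zero⟩
    obtain ⟨i, -, rfl⟩ := ha.eq_pow_of_pow_eq_one hb
    rw [← geom_sum_mul, norm_mul]
    refine mul_le_of_le_one_left (norm_nonneg _) ?_
    refine IsUltrametricDist.norm_sum_le_of_forall_le_of_nonneg zero_le_one fun j _ => ?_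
    rw [_root_.norm_pow, hη1 a ha.pow_eq_one, one_pow]
  refine ⟨?_, fun η hη => hle ζ η hζ hη⟩
  have : NeZero p := ⟨hp.ne_zero⟩
  have hprod : ∏ μ ∈ primitiveRoots p (PadicAlgCl p), (1 - μ) = (p : PadicAlgCl p) := by
    rw [← eval_one_cyclotomic_prime (R := PadicAlgCl p) (p := p),
      cyclotomic_eq_prod_X_sub_primitiveRoots hζ, eval_prod]
    simp
  rw [← hprod, norm_prod, Finset.prod_congr rfl (g := fun _ => ‖ζ - 1‖), Finset.prod_const,
    hζ.card_primitiveRoots, Nat.totient_prime hp]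
  intro μ hμ
  rw [mem_primitiveRoots hp.pos] at hμ
  rw [norm_sub_rev]
  exact le_antisymm (hle ζ μ hζ hμ.pow_eq_one) (hle μ ζ hμ hζ.pow_eq_one)

end FLTAgent.FlatBound
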