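import Fermat.Agent.TWPrimes.Flat.Triangular

/-!
# Flat classes of a tame representation

`classDim_le_of_tame`: over the tame field trivialising the representation the classes are
unramified up to one line, unless `p = 3` and tame inertia has eigenvalue `-1` on the adjoint
representation. Used by `Flat.Main`.
-/

set_option autoImplicit false

open Matrix Module

noncomputable section

namespace FLTAgent.TWPrimes

open FLTAgent.LocalDuality FLTAgent.FlatBound
open FLTAgent.Density (GalQ Qbar)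

variable {k : Type} [Field k]

theorem finrank_sl2 : finrank k (Sl2 k) = 3 := by
  have h := (Matrix.traceLinearMap (Fin 2) k k).finrank_range_add_finrank_ker
  have hr : LinearMap.range (Matrix.traceLinearMap (Fin 2) k k) = ⊤ :=
    LinearMap.range_eq_top.mpr fun x => ⟨!![x, 0; 0, 0], by simp [Matrix.trace_fin_two]⟩
  rw [hr, finrank_top, Module.finrank_self, Module.finrank_matrix] at h
  simp at h
  show finrank k (LinearMap.ker (Matrix.traceLinearMap (Fin 2) k k)) = 3
  omega

/-- A matrix turning an invertible matrix into its transpose. -/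
theorem exists_transpose_intertwiner (R : Matrix (Fin 2) (Fin 2) k) :
    ∃ P : GL (Fin 2) k, P.1 * R = Rᵀ * P.1 := by
  by_cases hb : R 0 1 = 0
  swap
  · refine ⟨GeneralLinearGroup.mkOfDetNeZero !![R 0 0 - R 1 1, R 0 1; R 0 1, 0]
      (by simp [Matrix.det_fin_two, hb]), ?_⟩
    ext i j
    fin_cases i <;> fin_cases j <;>
      simp [GeneralLinearGroup.mkOfDetNeZero, Matrix.mul_apply, Fin.sum_univ_two] <;> ring
  by_cases hc : R 1 0 = 0
  swap
  · refine ⟨GeneralLinearGroup.mkOfDetNeZero !![0, R 1 0; R 1 0, R 1 1 - R 0 0]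
      (by simp [Matrix.det_fin_two, hc]), ?_⟩
    ext i j
    fin_cases i <;> fin_cases j <;>
      simp [GeneralLinearGroup.mkOfDetNeZero, Matrix.mul_apply, Fin.sum_univ_two] <;> ring
  refine ⟨1, ?_⟩
  ext i j
  fin_cases i <;> fin_cases j <;> simp [hb, hc]

variable [Finite k] {p : ℕ} [Fact p.Prime] [CharP k p] [Algebra (ZMod p) k]
  {r : GalQ →* GL (Fin 2) k} {W : Submodule k (GalQ → Matrix (Fin 2) (Fin 2) k)}
  {F K L : IntermediateField ℚ_[p] (PadicAlgCl p)} {ζ l : PadicAlgCl p} {e : ℕ}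
  [FiniteDimensional ℚ_[p] F] [FiniteDimensional ℚ_[p] L]

/-- The tame bound. -/
theorem classDim_le_of_tame (hp2 : p ≠ 2) (hr : GaloisFactorsThroughFiniteLevel r)
    (D : FlatLevel r W F K ζ) [Module.Finite k W] (hLF : L ≤ F)
    (hst : ∀ g : LocalGal p, ∀ x ∈ L, g x ∈ L) (hL : IsTame L K l e) (hζL : ζ ∈ L)
    {τ : LocalGal p} (hτ : IsTameGen (L := L) K l e τ)
    (hρ : ∀ σ : LocalGal p, (∀ x ∈ L, σ x = x) → locHom p r σ = 1)
    (h3 : p = 3 → ∀ m : Matrix (Fin 2) (Fin 2) k, m.trace = 0 →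
      adAct (locHom p r) τ m = -m → m = 0) :
    classDim (locHom p r) (W.map (resLin p)) ≤ finrank k (adFixed (locHom p r)) + 1 := by
  classical
  have : Module.Finite (ZMod p) k := Module.Finite.of_finite
  have : Module.Finite (ZMod p) (Sl2 k) := Module.Finite.trans k _
  have : Module.Finite k (W.map (resLin p)) := Module.Finite.map W _
  have S := D.kummer hLF hst hL hζL
  obtain ⟨e', hnorm, hmul⟩ := S.exists_exponent
  set A : LocalGal p → Sl2 k →ₗ[ZMod p] Sl2 k := fun g => adSl p (locHom p r) g with hAdef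
  have hAapp : ∀ g (x : Sl2 k), (A g x : Matrix (Fin 2) (Fin 2) k) = adAct (locHom p r) g x :=
    fun _ _ => rfl
  have hA : IsAction A := ⟨fun x => Subtype.ext (adAct_one _ _),
    fun g h x => Subtype.ext (adAct_mul _ _ _ _)⟩
  have hAL : ∀ σ : LocalGal p, (∀ x ∈ L, σ x = x) → ∀ x, A σ x = x := fun σ hσ x => Subtype.ext (by
    rw [hAapp]
    simp [adAct, mat, map_inv, hρ σ hσ])
  have hθ : IsPrimitiveRoot (red (τ l / l)) e := by
    have hn1 := (S.norm_apply_div τ).le
    refine IsPrimitiveRoot.mk_of_lt _ hL.totRam.pos ?_ fun j hj hje h1 => ?_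
    · rw [← red_pow hn1, hτ.primitive.pow_eq_one, red_one]
    · refine hτ.primitive.pow_ne_one_of_pos_of_lt hj.ne' hje ?_
      refine eq_of_pow_eq_one_of_red_eq hL.not_dvd ?_ (one_pow e) ?_
      · rw [← pow_mul, mul_comm, pow_mul, hτ.primitive.pow_eq_one, one_pow]
      · rw [red_pow hn1, h1, red_one]
  -- the eigenspaces fill at most one line
  set R := mat (locHom p r) τ⁻¹
  obtain ⟨P, hP⟩ := exists_transpose_intertwiner R
  have hRinv : R * mat (locHom p r) τ = 1 := mat_inv_mul _
  have hRinv' : mat (locHom p r) τ * R = 1 := mul_eq_one_comm.mp hRinv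
  let Ψ : Sl2 k ≃ₗ[ZMod p] Sl2 k :=
    { toFun := fun m => ⟨(P⁻¹ : GL (Fin 2) k).1 * m.1ᵀ * P.1, mem_sl2_iff.mpr (by
        rw [Matrix.trace_mul_cycle, ← Units.val_mul, mul_inv_cancel, Units.val_one, one_mul,
          Matrix.trace_transpose, Sl2.trace_eq_zero])⟩
      invFun := fun m => ⟨(P.1 * m.1 * (P⁻¹ : GL (Fin 2) k).1)ᵀ, mem_sl2_iff.mpr (by
        rw [Matrix.trace_transpose, Matrix.trace_mul_cycle, ← Units.val_mul, inv_mul_cancel,
          Units.val_one, one_mul, Sl2.trace_eq_zero])⟩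
      map_add' := fun a b => Subtype.ext (by
        show _ * (a.1 + b.1)ᵀ * _ = _ * a.1ᵀ * _ + _ * b.1ᵀ * _
        simp [Matrix.transpose_add, mul_add, add_mul])
      map_smul' := fun t a => Subtype.ext (by
        show _ * (t • a.1)ᵀ * _ = t • (_ * a.1ᵀ * _)
        simp [Matrix.transpose_smul])
      left_inv := fun m => Subtype.ext (by
        simp only [mul_assoc, Units.mul_inv_cancel_left, Units.mul_inv, mul_one,
          Matrix.transpose_transpose])
      right_inv := fun m => Subtype.ext (by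
        simp only [Matrix.transpose_transpose, mul_assoc, Units.inv_mul_cancel_left, Units.inv_mul,
          mul_one]) }
  have hΨ : ∀ x, Ψ (A τ⁻¹ x) = A τ (Ψ x) := fun x => Subtype.ext (by
    show (P⁻¹ : GL (Fin 2) k).1 * (R * x.1 * mat (locHom p r) τ⁻¹⁻¹)ᵀ * P.1 =
      mat (locHom p r) τ * ((P⁻¹ : GL (Fin 2) k).1 * x.1ᵀ * P.1) * R
    have e1 : (P⁻¹ : GL (Fin 2) k).1 * (mat (locHom p r) τ)ᵀ =
        mat (locHom p r) τ * (P⁻¹ : GL (Fin 2) k).1 := by
      have h1 : (mat (locHom p r) τ)ᵀ * P.1 = P.1 * mat (locHom p r) τ := by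
        calc (mat (locHom p r) τ)ᵀ * P.1
            = (mat (locHom p r) τ)ᵀ * (P.1 * R) * mat (locHom p r) τ := by
              rw [mul_assoc, mul_assoc, hRinv, mul_one]
          _ = (mat (locHom p r) τ)ᵀ * (Rᵀ * P.1) * mat (locHom p r) τ := by rw [hP]
          _ = P.1 * mat (locHom p r) τ := by
              rw [← mul_assoc _ Rᵀ, ← Matrix.transpose_mul, hRinv, Matrix.transpose_one, one_mul]
      calc (P⁻¹ : GL (Fin 2) k).1 * (mat (locHom p r) τ)ᵀ
          = (P⁻¹ : GL (Fin 2) k).1 * ((mat (locHom p r) τ)ᵀ * P.1) * (P⁻¹ : GL (Fin 2) k).1 := by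
            rw [mul_assoc, mul_assoc, Units.mul_inv, mul_one]
        _ = _ := by rw [h1, ← mul_assoc, Units.inv_mul, one_mul]
    rw [inv_inv, Matrix.transpose_mul, Matrix.transpose_mul, ← mul_assoc _ _ P.1]
    simp only [← mul_assoc, e1]
    simp only [mul_assoc, hP])
  set t := (R 0 0 + R 1 1) / 2
  obtain ⟨m₀, hm₀, hfix⟩ : ∃ m₀ : Sl2 k, m₀ ≠ 0 ∧ A τ⁻¹ m₀ = m₀ := by
    have h2 : (2 : k) ≠ 0 := fun h0 => hp2 (by
      have h := (CharP.cast_eq_zero_iff k p 2).mp (by exact_mod_cast h0)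
      exact (Nat.prime_dvd_prime_iff_eq (Fact.out : p.Prime) Nat.prime_two).mp h)
    by_cases hR : R = t • 1
    · refine ⟨⟨!![1, 0; 0, -1], by simp [Matrix.trace_fin_two]⟩, fun h => ?_, Subtype.ext ?_⟩
      · simpa using congr_fun (congr_fun (congrArg Subtype.val h) 0) 0
      · rw [hAapp]
        show R * _ * mat (locHom p r) τ⁻¹⁻¹ = _
        rw [inv_inv]
        have hc : ∀ M : Matrix (Fin 2) (Fin 2) k, R * M * mat (locHom p r) τ = M := fun M => by
          rw [show R * M = M * R by rw [hR]; simp, mul_assoc, hRinv, mul_one]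
        exact hc _
    · refine ⟨⟨R - t • 1, ?_⟩, fun h => hR (sub_eq_zero.mp (congrArg Subtype.val h)),
        Subtype.ext ?_⟩
      · simp [Matrix.trace_fin_two, t]
        field_simp
        ring
      · rw [hAapp]
        show R * (R - t • 1) * mat (locHom p r) τ⁻¹⁻¹ = R - t • 1
        rw [inv_inv, mul_sub, sub_mul, Matrix.mul_smul, mul_one, Matrix.smul_mul, hRinv, mul_assoc,
          hRinv, mul_one]
  have hS := finrank_eigS_le (κ := Resid p) hθ hL.totRam.pos hmul hp2
    (f := A τ⁻¹) (g := A τ) (hA.apply_inv τ)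
      (fun hp3 => (injective_iff_map_eq_zero _).mpr fun x hx =>
      by
        have h1 : A τ⁻¹ x = -x := eq_neg_of_add_eq_zero_left hx
        have h2 : A τ (A τ⁻¹ x) = x := by rw [← hA.mul, mul_inv_cancel, hA.one]
        rw [h1, map_neg] at h2
        refine Subtype.ext (h3 hp3 x.1 (Sl2.trace_eq_zero x) ?_)
        rw [← hAapp, neg_eq_iff_eq_neg.mp h2]
        rfl) Ψ hΨ
    ((LinearMap.toSpanSingleton k (Sl2 k) m₀).restrictScalars (ZMod p))
    (fun a b hab => smul_left_injective k hm₀ hab)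
    (fun a => by
      show A τ⁻¹ (a • m₀) = a • m₀
      refine Subtype.ext ?_
      rw [hAapp]
      conv_rhs => rw [← hfix]
      exact adAct_smul _ _ _ _)
  rw [← Module.finrank_mul_finrank (ZMod p) k (Sl2 k), finrank_sl2] at hS
  have hd : finrank (Resid p) (eigS (κ := Resid p) (red (τ l / l)) e e' (A τ⁻¹)) ≤
      1 * finrank (ZMod p) k := by omega
  -- counting
  let ι : (LocalGal p → Sl2 k) →ₗ[k] (LocalGal p → Matrix (Fin 2) (Fin 2) k) :=
    (Sl2 k).subtype.compLeft (LocalGal p)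
  have hι : Function.Injective ι := fun a b hab => funext fun g => Subtype.ext (congr_fun hab g)
  set U := (W.map (resLin p)).comap ι
  have : Module.Finite k U := Module.Finite.of_injective
    (({ toFun := fun c => ⟨ι c.1, c.2⟩
        map_add' := fun _ _ => Subtype.ext (map_add ι _ _)
        map_smul' := fun _ _ => Subtype.ext (map_smul ι _ _) } : U →ₗ[k] W.map (resLin p)))
    fun a b hab => Subtype.ext (hι (congrArg Subtype.val hab))
  have h1 := S.finrank_le_vanish hnorm hmul hA hτ U (fun c hc => by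
    have hg := D.map_le_goodSub hc
    exact IsCocycleFor.isTwisted hA (fun g h => Subtype.ext (hg.1.2 g h)) hAL fun σ hσ =>
      Subtype.ext (mem_vanishK.mp hg.2 σ hσ)) hd
  set W₃ := W.map (resLin p) ⊓ vanishK k L (Matrix (Fin 2) (Fin 2) k)
  have : Module.Finite k W₃ := Submodule.finiteDimensional_of_le inf_le_left
  have h2 : finrank k (W.map (resLin p)) ≤ finrank k U := by
    refine LinearMap.finrank_le_finrank_of_injective (f :=
      ({ toFun := fun c => ⟨fun g => ⟨c.1 g, mem_sl2_iff.mpr ((D.map_le_goodSub c.2).1.1 g)⟩, c.2⟩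
         map_add' := fun _ _ => rfl
         map_smul' := fun _ _ => rfl } : W.map (resLin p) →ₗ[k] U)) ?_
    intro a b hab
    exact Subtype.ext (funext fun g =>
      congrArg (fun x : U => (x.1 g : Matrix (Fin 2) (Fin 2) k)) hab)
  have h4 : finrank k (U ⊓ vanishK k L (Sl2 k) : Submodule k (LocalGal p → Sl2 k)) ≤
      finrank k W₃ :=
    LinearMap.finrank_le_finrank_of_injective (f :=
      ({ toFun := fun c => ⟨ι c.1, c.2.1, mem_vanishK.mpr fun σ hσ =>
            congrArg Subtype.val (mem_vanishK.mp c.2.2 σ hσ)⟩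
         map_add' := fun _ _ => Subtype.ext (map_add ι _ _)
         map_smul' := fun _ _ => Subtype.ext (map_smul ι _ _) } :
        (U ⊓ vanishK k L (Sl2 k) : Submodule k (LocalGal p → Sl2 k)) →ₗ[k] W₃))
      fun a b hab => Subtype.ext (hι (congrArg Subtype.val hab))
  have h5 : classDim (locHom p r) W₃ ≤ finrank k (adFixed (locHom p r)) := by
    refine (classDim_le_of_unramified p r hr W₃ fun c hc => ?_).2
    have hg := D.map_le_goodSub hc.1
    refine ⟨hg.1, localLevel_of_mem_goodSub hg, ?_⟩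
    obtain ⟨m, hm⟩ := exists_cob_on_inertia
      (c := fun g => (⟨c g, mem_sl2_iff.mpr (hg.1.1 g)⟩ : Sl2 k))
      hA (fun g h => Subtype.ext (hg.1.2 g h)) hL hτ hAL
      fun σ hσ => Subtype.ext (mem_vanishK.mp hc.2 σ hσ)
    exact ⟨m.1, Sl2.trace_eq_zero m, fun σ hσ => congrArg Subtype.val
      (hm σ ((mem_inertiaAt_iff D.unram).mp (isLocalInertia_le F hσ)))⟩
  have h6 := classDim_le_add (locHom p r) (W := W.map (resLin p)) (W' := W₃) inf_le_left (d := 1)
    (by omega)
  omega

end FLTAgent.TWPrimes
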