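import Fermat.Agent.TWPrimes.Flat.LocalField
import Mathlib.FieldTheory.Galois.Infinite
import Mathlib.Analysis.Normed.Module.FiniteDimension

/-!
# Totally ramified extensions: expansions in a uniformiser

`IsTotRam K F ϖ n`: coordinates in powers of `ϖ` with norm control (`exists_coord`), the minimal
polynomial (`minpoly_spec`) and the conjugates (`conjRoots`). Used by `Flat.Fontaine`.
-/

set_option autoImplicit false
set_option linter.unusedSectionVars false

noncomputable section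

open Filter Topology Polynomial
open scoped IntermediateField

namespace FLTAgent.FlatBound

open FLTAgent.LocalDuality

variable {p : ℕ} [Fact p.Prime]

instance normal_base (K : IntermediateField ℚ_[p] (PadicAlgCl p)) : Normal K (PadicAlgCl p) := by
  have : Algebra.IsAlgebraic K (PadicAlgCl p) := Algebra.IsAlgebraic.tower_top (K := ℚ_[p]) K
  have : IsAlgClosure K (PadicAlgCl p) := ⟨inferInstance, inferInstance⟩
  exact IsAlgClosure.normal K (PadicAlgCl p)

instance isGalois_base (K : IntermediateField ℚ_[p] (PadicAlgCl p)) :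
    IsGalois K (PadicAlgCl p) := ⟨⟩

theorem norm_base_galois {K : IntermediateField ℚ_[p] (PadicAlgCl p)}
    (σ : PadicAlgCl p ≃ₐ[K] PadicAlgCl p) (x : PadicAlgCl p) : ‖σ x‖ = ‖x‖ :=
  norm_galois (σ.restrictScalars ℚ_[p]) x

/-- An element of norm `|p| ^ (1 / n)` over an unramified base. -/
structure IsUnif (K : IntermediateField ℚ_[p] (PadicAlgCl p)) (ϖ : PadicAlgCl p) (n : ℕ) :
    Prop where
  pos : 0 < n
  norm_pow : ‖ϖ‖ ^ n = ‖(p : PadicAlgCl p)‖
  values_base : ∀ x ∈ K, x ≠ 0 → ∃ k : ℤ, ‖x‖ = ‖(p : PadicAlgCl p)‖ ^ k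

/-- `F / K` is totally ramified of degree `n` with uniformiser `ϖ`, over an unramified base. -/
structure IsTotRam (K F : IntermediateField ℚ_[p] (PadicAlgCl p)) (ϖ : PadicAlgCl p) (n : ℕ) : Prop
    extends IsUnif K ϖ n where
  le : K ≤ F
  mem : ϖ ∈ F
  values : ∀ x ∈ F, x ≠ 0 → ∃ k : ℤ, ‖x‖ = ‖ϖ‖ ^ k
  residue : residueSubfield F ≤ residueSubfield K

/-- The conjugates of `x` over `K`. -/
def conjRoots (K : IntermediateField ℚ_[p] (PadicAlgCl p)) (x : PadicAlgCl p) :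
    Finset (PadicAlgCl p) :=
  haveI := Classical.decEq (PadicAlgCl p)
  ((minpoly K x).aroots (PadicAlgCl p)).toFinset

theorem mem_conjRoots_iff {K : IntermediateField ℚ_[p] (PadicAlgCl p)} {x r : PadicAlgCl p} :
    r ∈ conjRoots K x ↔ ∃ σ : PadicAlgCl p ≃ₐ[K] PadicAlgCl p, σ x = r := by
  classical
  rw [conjRoots, Multiset.mem_toFinset, mem_aroots]
  have : Algebra.IsAlgebraic K (PadicAlgCl p) := Algebra.IsAlgebraic.tower_top (K := ℚ_[p]) K
  constructor
  · rintro ⟨-, hr⟩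
    exact minpoly.exists_algEquiv_of_root' (Algebra.IsAlgebraic.isAlgebraic x) hr
  · rintro ⟨σ, rfl⟩
    refine ⟨minpoly.ne_zero (Algebra.IsIntegral.isIntegral _), ?_⟩
    rw [aeval_algHom_apply, minpoly.aeval, map_zero]

theorem self_mem_conjRoots (K : IntermediateField ℚ_[p] (PadicAlgCl p)) (x : PadicAlgCl p) :
    x ∈ conjRoots K x := mem_conjRoots_iff.mpr ⟨1, rfl⟩

theorem aeval_minpoly_eq_prod (K : IntermediateField ℚ_[p] (PadicAlgCl p)) (x α : PadicAlgCl p) :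
    aeval α (minpoly K x) = ∏ r ∈ conjRoots K x, (α - r) := by
  classical
  have : Algebra.IsAlgebraic K (PadicAlgCl p) := Algebra.IsAlgebraic.tower_top (K := ℚ_[p]) K
  rw [conjRoots, Finset.prod_eq_multiset_prod, Multiset.toFinset_val, Multiset.dedup_eq_self.mpr
    (Polynomial.nodup_roots (show (minpoly K x).Separable from
      Algebra.IsSeparable.isSeparable K x).map), aeval_def, ← eval_map]
  exact (IsAlgClosed.splits _).eval_eq_prod_roots_of_monic
    ((minpoly.monic (Algebra.IsIntegral.isIntegral x)).map _) α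

theorem card_conjRoots (K : IntermediateField ℚ_[p] (PadicAlgCl p)) (x : PadicAlgCl p) :
    (conjRoots K x).card = (minpoly K x).natDegree := by
  classical
  rw [conjRoots, Multiset.toFinset_card_of_nodup (Polynomial.nodup_roots
      (show (minpoly K x).Separable from Algebra.IsSeparable.isSeparable K x).map),
    ← (IsAlgClosed.splits _).natDegree_eq_card_roots, natDegree_map]

namespace IsUnif

variable {K : IntermediateField ℚ_[p] (PadicAlgCl p)} {ϖ : PadicAlgCl p} {n : ℕ}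
  (h : IsUnif K ϖ n)
include h

theorem norm_pos : 0 < ‖ϖ‖ := by
  refine lt_of_le_of_ne (norm_nonneg _) fun h0 => ?_
  have := h.norm_pow
  rw [← h0, zero_pow h.pos.ne'] at this
  exact natCast_p_ne_zero p (norm_eq_zero.mp this.symm)

theorem norm_lt_one : ‖ϖ‖ < 1 := by
  by_contra hle
  push Not at hle
  exact absurd ((one_le_pow₀ hle).trans h.norm_pow.le) (not_le.mpr (norm_natCast_p_lt_one p))

theorem ne_zero : ϖ ≠ 0 := norm_pos_iff.mp h.norm_pos

theorem zpow_inj {a b : ℤ} (hab : ‖ϖ‖ ^ a = ‖ϖ‖ ^ b) : a = b :=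
  zpow_right_injective₀ h.norm_pos h.norm_lt_one.ne hab

theorem exists_monomial (k : ℤ) :
    ∃ (a : ℤ) (j : Fin n), k = (n : ℤ) * a + j ∧
      ‖(p : PadicAlgCl p) ^ a * ϖ ^ (j : ℕ)‖ = ‖ϖ‖ ^ k := by
  have hn : (0 : ℤ) < n := by exact_mod_cast h.pos
  have h0 := Int.emod_nonneg k hn.ne'
  have h1 := Int.emod_lt_of_pos k hn
  refine ⟨k / n, ⟨(k % n).toNat, by omega⟩, ?_, ?_⟩
  · show k = n * (k / n) + ((k % n).toNat : ℤ)
    rw [Int.toNat_of_nonneg h0, Int.mul_ediv_add_emod]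
  · rw [norm_mul, norm_zpow, _root_.norm_pow, ← h.norm_pow, ← zpow_natCast ‖ϖ‖ n, ← zpow_mul,
      ← zpow_natCast ‖ϖ‖ (k % n).toNat, ← zpow_add₀ h.norm_pos.ne', Int.toNat_of_nonneg h0,
      Int.mul_ediv_add_emod]

theorem term_norm {a : PadicAlgCl p} (ha : a ∈ K) (ha0 : a ≠ 0) (l : ℕ) :
    ∃ k : ℤ, ‖a * ϖ ^ l‖ = ‖ϖ‖ ^ ((n : ℤ) * k + l) := by
  obtain ⟨k, hk⟩ := h.values_base a ha ha0
  refine ⟨k, ?_⟩
  rw [norm_mul, _root_.norm_pow, hk, ← h.norm_pow, ← zpow_natCast ‖ϖ‖ n, ← zpow_mul,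
    ← zpow_natCast ‖ϖ‖ l, ← zpow_add₀ h.norm_pos.ne']

/-- The terms of an expansion in powers of the uniformiser do not cancel. -/
theorem norm_term_le_of_norm_eq {α : PadicAlgCl p} (hα : ‖α‖ = ‖ϖ‖) (a : Fin n → PadicAlgCl p)
    (ha : ∀ i, a i ∈ K) (i : Fin n) :
    ‖a i * α ^ (i : ℕ)‖ ≤ ‖∑ j, a j * α ^ (j : ℕ)‖ := by
  have hα0 : α ≠ 0 := norm_pos_iff.mp (hα ▸ h.norm_pos)
  classical
  rcases eq_or_ne (a i) 0 with hi | hi
  · simp [hi]
  obtain ⟨m, -, hm⟩ := Finset.exists_max_image Finset.univ (fun j => ‖a j * α ^ (j : ℕ)‖)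
    ⟨i, Finset.mem_univ i⟩
  have hm0 : a m ≠ 0 := by
    intro h0
    have := hm i (Finset.mem_univ i)
    rw [h0, zero_mul, norm_zero] at this
    exact mul_ne_zero hi (pow_ne_zero _ hα0) (norm_le_zero_iff.mp this)
  have hlt : ∀ j ≠ m, ‖a j * α ^ (j : ℕ)‖ < ‖a m * α ^ (m : ℕ)‖ := by
    intro j hj
    refine lt_of_le_of_ne (hm j (Finset.mem_univ j)) fun heq => ?_
    rcases eq_or_ne (a j) 0 with hj0 | hj0
    · rw [hj0, zero_mul, norm_zero] at heq
      exact mul_ne_zero hm0 (pow_ne_zero _ hα0) (norm_eq_zero.mp heq.symm)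
    have hsame : ∀ (b : PadicAlgCl p) (l : ℕ), ‖b * α ^ l‖ = ‖b * ϖ ^ l‖ := fun b l => by
      rw [norm_mul, norm_mul, _root_.norm_pow, _root_.norm_pow, hα]
    rw [hsame, hsame] at heq
    obtain ⟨k, hk⟩ := h.term_norm (ha j) hj0 j
    obtain ⟨k', hk'⟩ := h.term_norm (ha m) hm0 m
    have h2 := h.zpow_inj (hk.symm.trans (heq.trans hk'))
    have hmod := congrArg (· % (n : ℤ)) h2
    simp only [Int.mul_add_emod_self_left] at hmod
    rw [Int.emod_eq_of_lt (by positivity) (by exact_mod_cast j.2),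
      Int.emod_eq_of_lt (by positivity) (by exact_mod_cast m.2)] at hmod
    exact hj (Fin.ext (by exact_mod_cast hmod))
  rw [← Finset.add_sum_erase _ _ (Finset.mem_univ m)]
  have hrest : ‖∑ j ∈ Finset.univ.erase m, a j * α ^ (j : ℕ)‖ < ‖a m * α ^ (m : ℕ)‖ := by
    rcases (Finset.univ.erase m).eq_empty_or_nonempty with he | he
    · rw [he, Finset.sum_empty, norm_zero]
      exact norm_pos_iff.mpr (mul_ne_zero hm0 (pow_ne_zero _ hα0))
    · obtain ⟨j, hj, hle⟩ := IsUltrametricDist.exists_norm_finsetSum_le_of_nonempty he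
        (fun j => a j * α ^ (j : ℕ))
      exact hle.trans_lt (hlt j (Finset.ne_of_mem_erase hj))
  rw [IsUltrametricDist.norm_add_eq_max_of_norm_ne_norm hrest.ne', max_eq_left hrest.le]
  exact hm i (Finset.mem_univ i)

theorem norm_term_le (a : Fin n → PadicAlgCl p) (ha : ∀ i, a i ∈ K) (i : Fin n) :
    ‖a i * ϖ ^ (i : ℕ)‖ ≤ ‖∑ j, a j * ϖ ^ (j : ℕ)‖ :=
  h.norm_term_le_of_norm_eq rfl a ha i

theorem eq_zero_of_sum_eq_zero (a : Fin n → PadicAlgCl p) (ha : ∀ i, a i ∈ K)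
    (hs : ∑ j, a j * ϖ ^ (j : ℕ) = 0) (i : Fin n) : a i = 0 := by
  have := h.norm_term_le a ha i
  rw [hs, norm_zero] at this
  exact (mul_eq_zero.mp (norm_le_zero_iff.mp this)).resolve_right (pow_ne_zero _ h.ne_zero)

theorem aeval_sum (a : Fin n → K) (α : PadicAlgCl p) :
    aeval α (∑ j, C (a j) * X ^ (j : ℕ)) = ∑ j, (a j : PadicAlgCl p) * α ^ (j : ℕ) := by
  simp [map_sum, aeval_C, IntermediateField.algebraMap_apply]

theorem eq_zero_of_aeval {P : K[X]} (hP : P.natDegree < n) (h0 : aeval ϖ P = 0) : P = 0 := by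
  rw [aeval_eq_sum_range' hP, ← Fin.sum_univ_eq_sum_range
    (fun i => P.coeff i • ϖ ^ i) n] at h0
  refine Polynomial.ext fun i => ?_
  rcases lt_or_ge i n with hi | hi
  · have := h.eq_zero_of_sum_eq_zero (fun j => (P.coeff j : PadicAlgCl p)) (fun j => (P.coeff j).2)
      (by simpa [Algebra.smul_def, IntermediateField.algebraMap_apply] using h0) ⟨i, hi⟩
    rw [coeff_zero]
    exact Subtype.ext this
  · rw [coeff_zero, coeff_eq_zero_of_natDegree_lt (hP.trans_le hi)]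

theorem norm_coeff_le_one {x : PadicAlgCl p} (hx1 : ‖x‖ ≤ 1) {a : PadicAlgCl p} (ha : a ∈ K) {i : ℕ}
    (hi : i < n) (hle : ‖a * ϖ ^ i‖ ≤ ‖x‖) : ‖a‖ ≤ 1 := by
  rcases eq_or_ne a 0 with rfl | ha0
  · simp
  obtain ⟨k, hk⟩ := h.values_base a ha ha0
  have hk0 : 0 ≤ k := by
    by_contra hneg
    push Not at hneg
    obtain ⟨k', hk'⟩ := h.term_norm ha ha0 i
    have : k' = k := by
      rw [norm_mul, _root_.norm_pow, hk, ← h.norm_pow, ← zpow_natCast ‖ϖ‖ n, ← zpow_mul,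
        ← zpow_natCast ‖ϖ‖ i, ← zpow_add₀ h.norm_pos.ne'] at hk'
      have := h.zpow_inj hk'
      have hn : (n : ℤ) ≠ 0 := by exact_mod_cast h.pos.ne'
      exact mul_left_cancel₀ hn (by linarith)
    subst this
    have h2 := (hle.trans hx1)
    rw [hk'] at h2
    have h3 : (n : ℤ) * k' + i < 0 := by nlinarith
    exact absurd h2 (not_le.mpr (one_lt_zpow_of_neg₀ h.norm_pos h.norm_lt_one h3))
  rw [hk]
  exact zpow_le_one₀ (norm_pos_iff.mpr (natCast_p_ne_zero p))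
    (norm_natCast_p_lt_one p).le hk0

end IsUnif

namespace IsTotRam

variable {K F : IntermediateField ℚ_[p] (PadicAlgCl p)} {ϖ : PadicAlgCl p} {n : ℕ}
  (h : IsTotRam K F ϖ n)
include h

variable [FiniteDimensional ℚ_[p] K]

/-- Every element has an expansion in powers of the uniformiser. -/
theorem exists_coord {x : PadicAlgCl p} (hx : x ∈ F) :
    ∃ a : Fin n → PadicAlgCl p, (∀ i, a i ∈ K) ∧ x = ∑ j, a j * ϖ ^ (j : ℕ) := by
  classical
  let Φ : (Fin n → K) →ₗ[ℚ_[p]] PadicAlgCl p :=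
    { toFun := fun a => ∑ j, (a j : PadicAlgCl p) * ϖ ^ (j : ℕ)
      map_add' := fun a b => by simp [add_mul, Finset.sum_add_distrib]
      map_smul' := fun c a => by
        simp only [Pi.smul_apply, RingHom.id_apply, IntermediateField.coe_smul, smul_mul_assoc,
          Finset.smul_sum] }
  set W := LinearMap.range Φ
  have hW : IsClosed (W : Set (PadicAlgCl p)) := W.closed_of_finiteDimensional
  have hF : ∀ y ∈ W, y ∈ F := by
    rintro _ ⟨a, rfl⟩
    show ∑ j, (a j : PadicAlgCl p) * ϖ ^ (j : ℕ) ∈ F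
    exact sum_mem fun j _ => mul_mem (h.le (a j).2) (pow_mem h.mem _)
  have step : ∀ y ∈ F, ∃ w ∈ W, ‖y - w‖ ≤ ‖ϖ‖ * ‖y‖ := by
    intro y hy
    rcases eq_or_ne y 0 with rfl | hy0
    · exact ⟨0, W.zero_mem, by simp⟩
    obtain ⟨k, hk⟩ := h.values y hy hy0
    obtain ⟨a, j, -, hcn⟩ := h.exists_monomial k
    have hc0 : (p : PadicAlgCl p) ^ a * ϖ ^ (j : ℕ) ≠ 0 :=
      mul_ne_zero (zpow_ne_zero _ (natCast_p_ne_zero p)) (pow_ne_zero _ h.ne_zero)
    set c := (p : PadicAlgCl p) ^ a * ϖ ^ (j : ℕ) with hc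
    have hcF : c ∈ F := mul_mem (zpow_mem (natCast_mem F p) a) (pow_mem h.mem _)
    have hu1 : ‖y / c‖ = 1 := by
      rw [norm_div, hcn, hk, div_self (zpow_ne_zero _ h.norm_pos.ne')]
    obtain ⟨b, hbK, hb1, hbr⟩ :=
      h.residue (red_mem_residueSubfield F (F.div_mem hy hcF) hu1.le)
    have hlt := (red_eq_iff hu1.le hb1).mp hbr.symm
    have hwW : b * c ∈ W := by
      refine ⟨Pi.single j ⟨b * (p : PadicAlgCl p) ^ a,
        mul_mem hbK (zpow_mem (natCast_mem K p) a)⟩, ?_⟩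
      show ∑ i, ((Pi.single j _ : Fin n → K) i : PadicAlgCl p) * ϖ ^ (i : ℕ) = _
      rw [Finset.sum_eq_single j (fun i _ hi => by simp [Pi.single_eq_of_ne hi])
        (fun hne => absurd (Finset.mem_univ j) hne), Pi.single_eq_same, hc, mul_assoc]
    refine ⟨b * c, hwW, ?_⟩
    have hylt : ‖y - b * c‖ < ‖y‖ := by
      have e : y - b * c = (y / c - b) * c := by rw [sub_mul, div_mul_cancel₀ _ hc0]
      rw [e, norm_mul, hk, ← hcn]
      exact mul_lt_of_lt_one_left (norm_pos_iff.mpr hc0) hlt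
    rcases eq_or_ne (y - b * c) 0 with h0 | h0
    · rw [h0, norm_zero]; positivity
    obtain ⟨k', hk'⟩ := h.values _ (F.sub_mem hy (hF _ hwW)) h0
    rw [hk', hk] at hylt ⊢
    have hkk : k + 1 ≤ k' := (zpow_lt_zpow_iff_right_of_lt_one₀ h.norm_pos h.norm_lt_one).mp hylt
    rw [mul_comm, ← zpow_add_one₀ h.norm_pos.ne']
    exact zpow_le_zpow_right_of_le_one₀ h.norm_pos h.norm_lt_one.le hkk
  have key : ∀ m : ℕ, ∃ w ∈ W, ‖x - w‖ ≤ ‖ϖ‖ ^ m * ‖x‖ := by
    intro m
    induction m with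
    | zero => exact ⟨0, W.zero_mem, by simp⟩
    | succ m ih =>
      obtain ⟨w, hw, hle⟩ := ih
      obtain ⟨w', hw', hle'⟩ := step (x - w) (F.sub_mem hx (hF w hw))
      refine ⟨w + w', W.add_mem hw hw', ?_⟩
      rw [← sub_sub, pow_succ', mul_assoc]
      exact hle'.trans (mul_le_mul_of_nonneg_left hle (norm_nonneg _))
  choose w hwW hwle using key
  have hxW : x ∈ W := by
    refine hW.mem_of_tendsto (b := atTop) (f := w) ?_ (Eventually.of_forall hwW)
    refine tendsto_iff_norm_sub_tendsto_zero.mpr (squeeze_zero (fun m => norm_nonneg _)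
      (fun m => (norm_sub_rev (w m) x).trans_le (hwle m)) ?_)
    simpa using (tendsto_pow_atTop_nhds_zero_of_lt_one (norm_nonneg _) h.norm_lt_one).mul_const ‖x‖
  obtain ⟨a, ha⟩ := hxW
  exact ⟨fun j => (a j : PadicAlgCl p), fun j => (a j).2, ha.symm⟩

theorem exists_coord_poly {x : PadicAlgCl p} (hx : x ∈ F) :
    ∃ P : K[X], P.natDegree < n ∧ aeval ϖ P = x ∧
      ∀ i, ‖(P.coeff i : PadicAlgCl p) * ϖ ^ i‖ ≤ ‖x‖ := by
  obtain ⟨a, ha, hxa⟩ := h.exists_coord hx
  let b : Fin n → K := fun j => ⟨a j, ha j⟩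
  have hco : ∀ i, (∑ j, C (b j) * X ^ (j : ℕ)).coeff i = if hi : i < n then b ⟨i, hi⟩ else 0 := by
    intro i
    simp only [finsetSum_coeff, coeff_C_mul_X_pow]
    split_ifs with hi
    · rw [Finset.sum_eq_single ⟨i, hi⟩ (fun j _ hj => if_neg fun he => hj (Fin.ext he.symm))
        (fun hne => absurd (Finset.mem_univ _) hne), if_pos rfl]
    · exact Finset.sum_eq_zero fun j _ => if_neg fun (he : i = j) => hi (he ▸ j.2)
  refine ⟨∑ j, C (b j) * X ^ (j : ℕ), ?_, by rw [h.aeval_sum, hxa], fun i => ?_⟩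
  · have hle : (∑ j, C (b j) * X ^ (j : ℕ)).natDegree ≤ n - 1 := by
      refine natDegree_le_iff_coeff_eq_zero.mpr fun i hi => ?_
      rw [hco, dif_neg (by omega)]
    have := h.pos
    omega
  · rw [hco]
    split_ifs with hi
    · rw [hxa]; exact h.norm_term_le a ha ⟨i, hi⟩
    · simp

/-- The minimal polynomial of the uniformiser is Eisenstein of degree `n`. -/
theorem minpoly_spec :
    (minpoly K ϖ).natDegree = n ∧ ‖((minpoly K ϖ).coeff 0 : PadicAlgCl p)‖ = ‖(p : PadicAlgCl p)‖ ∧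
      ∀ i < n, ‖((minpoly K ϖ).coeff i : PadicAlgCl p)‖ ≤ ‖(p : PadicAlgCl p)‖ := by
  have hp0 : (0 : ℝ) < ‖(p : PadicAlgCl p)‖ := norm_pos_iff.mpr (natCast_p_ne_zero p)
  obtain ⟨P, hP, hPx, hPle⟩ := h.exists_coord_poly (F.toSubfield.pow_mem h.mem n)
  have hint : IsIntegral K ϖ := Algebra.IsIntegral.isIntegral ϖ
  have hdeg : n ≤ (minpoly K ϖ).natDegree := by
    by_contra hlt
    push Not at hlt
    exact minpoly.ne_zero hint (h.eq_zero_of_aeval hlt (minpoly.aeval K ϖ))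
  have hlt : P.degree < (n : ℕ) := by
    exact degree_le_natDegree.trans_lt (by exact_mod_cast hP)
  have hM : (X ^ n - P).Monic := monic_X_pow_sub hlt
  have hMdeg : (X ^ n - P).natDegree = n := by
    rw [natDegree_sub_eq_left_of_natDegree_lt (by rwa [natDegree_X_pow]), natDegree_X_pow]
  have heq : minpoly K ϖ = X ^ n - P := by
    refine (eq_of_monic_of_dvd_of_natDegree_le (minpoly.monic hint) hM
      (minpoly.dvd K ϖ (by rw [map_sub, aeval_X_pow, hPx, sub_self])) (hMdeg.trans_le hdeg)).symm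
  have hbound : ∀ i < n, ‖((minpoly K ϖ).coeff i : PadicAlgCl p)‖ ≤ ‖(p : PadicAlgCl p)‖ := by
    intro i hi
    rw [heq, coeff_sub, coeff_X_pow, if_neg hi.ne, zero_sub]
    show ‖-(P.coeff i : PadicAlgCl p)‖ ≤ _
    rw [norm_neg]
    rcases eq_or_ne (P.coeff i : PadicAlgCl p) 0 with h0 | h0
    · rw [h0, norm_zero]; exact hp0.le
    obtain ⟨k, hk⟩ := h.values_base _ (P.coeff i).2 h0
    have h2 := hPle i
    rw [norm_mul, _root_.norm_pow, _root_.norm_pow, hk, h.norm_pow] at h2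
    have hk1 : 1 ≤ k := by
      by_contra hk0
      push Not at hk0
      have h3 : (1 : ℝ) ≤ ‖(p : PadicAlgCl p)‖ ^ k :=
        one_le_zpow_of_nonpos₀ hp0 (norm_natCast_p_lt_one p).le (by omega)
      have h4 : ‖ϖ‖ ^ n < ‖ϖ‖ ^ i := pow_lt_pow_right_of_lt_one₀ h.norm_pos h.norm_lt_one hi
      rw [h.norm_pow] at h4
      nlinarith [pow_pos h.norm_pos i]
    rw [hk]
    exact (zpow_le_zpow_right_of_le_one₀ hp0 (norm_natCast_p_lt_one p).le hk1).trans_eq (zpow_one _)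
  refine ⟨heq ▸ hMdeg, ?_, hbound⟩
  refine le_antisymm (hbound 0 h.pos) ?_
  have hev := congrArg (fun x => ‖x‖) (minpoly.aeval K ϖ)
  simp only [norm_zero] at hev
  have hdn : (minpoly K ϖ).natDegree = n := by rw [heq]; exact hMdeg
  have hcn : (minpoly K ϖ).coeff n = 1 := hdn ▸ (minpoly.monic hint).coeff_natDegree
  rw [aeval_eq_sum_range, hdn, Finset.sum_range_succ, hcn, one_smul, norm_eq_zero,
    Finset.sum_range_eq_add_Ico _ h.pos, add_comm, add_eq_zero_iff_eq_neg] at hev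
  by_contra hlt0
  push Not at hlt0
  have h1 : ‖∑ i ∈ Finset.Ico 1 n, (minpoly K ϖ).coeff i • ϖ ^ i‖ < ‖ϖ ^ n‖ := by
    rcases (Finset.Ico 1 n).eq_empty_or_nonempty with he | he
    · rw [he, Finset.sum_empty, norm_zero, _root_.norm_pow, h.norm_pow]; exact hp0
    · obtain ⟨i, hi, hle⟩ := IsUltrametricDist.exists_norm_finsetSum_le_of_nonempty he
        (fun i => (minpoly K ϖ).coeff i • ϖ ^ i)
      refine hle.trans_lt ?_
      rw [Finset.mem_Ico] at hi
      rw [Algebra.smul_def, norm_mul, _root_.norm_pow, _root_.norm_pow,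
        IntermediateField.algebraMap_apply,
        h.norm_pow]
      exact (mul_le_mul_of_nonneg_right (hbound i hi.2) (by positivity)).trans_lt
        (mul_lt_of_lt_one_right hp0 (pow_lt_one₀ h.norm_pos.le h.norm_lt_one (by omega)))
  have h2 : ‖(minpoly K ϖ).coeff 0 • ϖ ^ 0‖ < ‖ϖ ^ n‖ := by
    rw [pow_zero, Algebra.smul_def, mul_one, _root_.norm_pow, h.norm_pow,
      IntermediateField.algebraMap_apply]
    exact hlt0
  have h3 := (IsUltrametricDist.norm_add_le_max _ _).trans_lt (max_lt h2 h1)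
  rw [← norm_neg, ← hev] at h3
  exact lt_irrefl _ h3

theorem card_conjRoots : (conjRoots K ϖ).card = n := by
  rw [FlatBound.card_conjRoots, h.minpoly_spec.1]

omit [FiniteDimensional ℚ_[p] K] in
theorem galois_mem (hst : ∀ σ : LocalGal p, ∀ x ∈ F, σ x ∈ F)
    (σ : PadicAlgCl p ≃ₐ[K] PadicAlgCl p) {x : PadicAlgCl p} (hx : x ∈ F) : σ x ∈ F :=
  hst (σ.restrictScalars ℚ_[p]) x hx

end IsTotRam

end FLTAgent.FlatBound
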