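import Fermat.Agent.TWPrimes.Flat.Cocycles

/-!
# Flat classes in a triangular frame

Local classes of a representation upper triangular at `p` (`IsUpper`, diagonal characters `dA`,
`dD`) over a tame field trivialising them: Kummer settings, the actions on the entries and the
entry cocycles used by the bounds of `Flat.Ordinary` and `Flat.TameBound`.
-/

set_option autoImplicit false
set_option linter.unusedSectionVars false

open Matrix Module

noncomputable section

namespace FLTAgent.TWPrimes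

open FLTAgent.LocalDuality FLTAgent.FlatBound
open FLTAgent.Density (GalQ Qbar)

variable {k : Type} [Field k] [Finite k] {p : ℕ} [Fact p.Prime] [CharP k p]
  {r : GalQ →* GL (Fin 2) k} {W : Submodule k (GalQ → Matrix (Fin 2) (Fin 2) k)}
  {F K L : IntermediateField ℚ_[p] (PadicAlgCl p)} {ζ l : PadicAlgCl p} {e : ℕ}
  [FiniteDimensional ℚ_[p] F] [FiniteDimensional ℚ_[p] L]

theorem FlatLevel.normal (D : FlatLevel r W F K ζ) (g σ : LocalGal p)
    (hσ : ∀ x ∈ K, σ x = x) : ∀ x ∈ K, (g * σ * g⁻¹) x = x :=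
  (mem_inertiaAt_iff D.unram).mp
    ((inertiaAt_normal F D.stable).conj_mem σ ((mem_inertiaAt_iff D.unram).mpr hσ) g)

theorem FlatLevel.kummer (D : FlatLevel r W F K ζ) (hLF : L ≤ F)
    (hst : ∀ g : LocalGal p, ∀ x ∈ L, g x ∈ L) (hL : IsTame L K l e) (hζL : ζ ∈ L) :
    KummerSetting L F K l e ζ where
  le := hLF
  stableL := hst
  stableF := D.stable
  tame := hL
  prim := D.prim
  mem := hζL
  inert _ hσ := (mem_inertiaAt_iff D.unram).mpr fun x hx => hσ x (hL.totRam.le hx)
  level := D.level L K l e hst hL hζL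

/-- At `p = 3` tame inertia moves `ζ` by `-1`. -/
theorem FlatLevel.det_tau (D : FlatLevel r W F K ζ) (hLF : L ≤ F)
    (hst : ∀ g : LocalGal p, ∀ x ∈ L, g x ∈ L) (hL : IsTame L K l e) (hζL : ζ ∈ L)
    (hp3 : p = 3) {τ : LocalGal p} (hτ : IsTameGen (L := L) K l e τ) :
    (mat (locHom p r) τ).det = -1 ∧ ∃ a : ℕ, τ ζ = ζ ^ a ∧ (a : ZMod p) ≠ 1 := by
  have S := D.kummer hLF hst hL hζL
  obtain ⟨e', hnorm, hmul⟩ := S.exists_exponent
  obtain ⟨a, ha, hdet⟩ := D.det τ
  have h1 := S.natCast_eq_pow hnorm hmul hτ.fixed ha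
  subst hp3
  have hn1 := (S.norm_apply_div τ).le
  have hpos := hL.totRam.pos
  have hee : e = e' + e' := by omega
  have hηe : (red (τ l / l) ^ e') * red (τ l / l) ^ e' = 1 := by
    rw [← pow_add, ← hee, ← red_pow hn1, hτ.primitive.pow_eq_one, red_one]
  have hne : red (τ l / l) ^ e' ≠ 1 := fun h => by
    refine hτ.primitive.pow_ne_one_of_pos_of_lt (by omega) (show e' < e by omega) ?_
    refine eq_of_pow_eq_one_of_red_eq hL.not_dvd ?_ (one_pow e) ?_
    · rw [← pow_mul, mul_comm, pow_mul, hτ.primitive.pow_eq_one, one_pow]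
    · rw [red_pow hn1, h, red_one]
  have hneg := (mul_self_eq_one_iff.mp hηe).resolve_left hne
  rw [hneg] at h1
  have h2 : ((a + 1 : ℕ) : Resid 3) = 0 := by push_cast; rw [h1, neg_add_cancel]
  rw [CharP.cast_eq_zero_iff (Resid 3) 3] at h2
  refine ⟨?_, a, ha, fun h => ?_⟩
  · rw [hdet]
    have h3 : ((a + 1 : ℕ) : k) = 0 := (CharP.cast_eq_zero_iff k 3 _).mpr h2
    push_cast at h3
    exact eq_neg_of_add_eq_zero_left h3
  · rw [← Nat.cast_one, ZMod.natCast_eq_natCast_iff'] at h
    omega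

variable (p) in
/-- Local cocycles killing the level `F`. -/
def goodSub (r : GalQ →* GL (Fin 2) k) (F : IntermediateField ℚ_[p] (PadicAlgCl p)) :
    Submodule k (LocalGal p → Matrix (Fin 2) (Fin 2) k) :=
  adCocycles (locHom p r) ⊓ vanishK k F (Matrix (Fin 2) (Fin 2) k)

theorem localLevel_of_mem_goodSub {c : LocalGal p → Matrix (Fin 2) (Fin 2) k}
    (hc : c ∈ goodSub p r F) : LocalLevel p c := by
  obtain ⟨E, hE, hle⟩ := exists_level_le p F
  refine ⟨E, hE, fun g s hs => ?_⟩
  have hfix := (IntermediateField.mem_fixingSubgroup_iff F s).mp (hle hs)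
  rw [hc.1.2, mem_vanishK.mp hc.2 s hfix]
  simp [adAct]

theorem FlatLevel.adCob_le_goodSub (D : FlatLevel r W F K ζ) :
    adCob (locHom p r) ≤ goodSub p r F := fun c hc => by
  refine ⟨adCob_le_adCocycles _ hc, mem_vanishK.mpr fun σ hσ => ?_⟩
  obtain ⟨m, -, hm⟩ := mem_adCob_iff.mp hc
  rw [hm]
  simp [adAct, mat, map_inv, D.kill σ hσ]

theorem FlatLevel.map_le_goodSub (D : FlatLevel r W F K ζ) :
    W.map (resLin p) ≤ goodSub p r F := by
  rintro _ ⟨c, hc, rfl⟩
  obtain ⟨hco, -, -, -⟩ := D.models c hc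
  refine ⟨⟨fun g => hco.1 _, fun g h => ?_⟩, mem_vanishK.mpr fun σ hσ => D.killW c hc σ hσ⟩
  show c (toGlobal p (g * h)) = _
  rw [map_mul, hco.2]
  simp [adAct, mat, locHom, resLin]

/-- The representation is upper triangular at `p`. -/
def IsUpper (p : ℕ) [Fact p.Prime] (r : GalQ →* GL (Fin 2) k) : Prop :=
  ∀ g : LocalGal p, mat (locHom p r) g 1 0 = 0

section Entries

variable (p) (r) in
/-- The upper diagonal character. -/
def dA (g : LocalGal p) : k := mat (locHom p r) g 0 0

variable (p) (r) in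
/-- The lower diagonal character. -/
def dD (g : LocalGal p) : k := mat (locHom p r) g 1 1

variable (hup : IsUpper p r)
include hup

theorem upper_mul (g h : LocalGal p) : dA p r (g * h) = dA p r g * dA p r h ∧
    dD p r (g * h) = dD p r g * dD p r h ∧
    mat (locHom p r) (g * h) 0 1 =
      dA p r g * mat (locHom p r) h 0 1 + mat (locHom p r) g 0 1 * dD p r h := by
  simp [dA, dD, mat_mul, Matrix.mul_apply, Fin.sum_univ_two, hup g, hup h]

theorem det_upper (g : LocalGal p) : (mat (locHom p r) g).det = dA p r g * dD p r g := by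
  rw [Matrix.det_fin_two, hup g, mul_zero, sub_zero]
  rfl

theorem dA_ne_zero (g : LocalGal p) : dA p r g ≠ 0 ∧ dD p r g ≠ 0 := by
  have h : IsUnit (mat (locHom p r) g).det := (Matrix.isUnit_iff_isUnit_det _).mp
    ((locHom p r g).isUnit)
  rw [det_upper hup] at h
  exact mul_ne_zero_iff.mp h.ne_zero

theorem dA_one : dA p r 1 = 1 ∧ dD p r 1 = 1 := by simp [dA, dD, mat_one]

theorem upper_inv (g : LocalGal p) : mat (locHom p r) g⁻¹ 0 0 = (dA p r g)⁻¹ ∧
    mat (locHom p r) g⁻¹ 1 1 = (dD p r g)⁻¹ ∧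
    mat (locHom p r) g⁻¹ 0 1 = -mat (locHom p r) g 0 1 / (dA p r g * dD p r g) := by
  obtain ⟨hA, hD⟩ := dA_ne_zero hup g
  obtain ⟨h1, h2, h3⟩ := upper_mul hup g g⁻¹
  rw [mul_inv_cancel, (dA_one hup).1] at h1
  rw [mul_inv_cancel, (dA_one hup).2] at h2
  rw [mul_inv_cancel, mat_one, Matrix.one_apply_ne (by decide)] at h3
  have e1 : dA p r g⁻¹ = (dA p r g)⁻¹ := eq_inv_of_mul_eq_one_right h1.symm
  have e2 : dD p r g⁻¹ = (dD p r g)⁻¹ := eq_inv_of_mul_eq_one_right h2.symm
  refine ⟨e1, e2, ?_⟩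
  rw [e2] at h3
  field_simp at h3 ⊢
  linear_combination -h3

theorem adAct_upper (g : LocalGal p) (m : Matrix (Fin 2) (Fin 2) k) :
    adAct (locHom p r) g m 1 0 = dD p r g / dA p r g * m 1 0 ∧
    (m 1 0 = 0 → adAct (locHom p r) g m 1 1 = m 1 1 ∧ adAct (locHom p r) g m 0 0 = m 0 0 ∧
      adAct (locHom p r) g m 0 1 = dA p r g / dD p r g * m 0 1 +
        mat (locHom p r) g 0 1 / dD p r g * (m 1 1 - m 0 0)) := by
  obtain ⟨hA, hD⟩ := dA_ne_zero hup g
  obtain ⟨h00, h11, h01⟩ := upper_inv hup g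
  simp only [adAct, Matrix.mul_apply, Fin.sum_univ_two, hup g, hup g⁻¹, h00, h11, h01]
  refine ⟨?_, fun hm => ⟨?_, ?_, ?_⟩⟩
  · simp only [dD]; ring
  · simp only [hm, dD] at hD ⊢
    field_simp
    ring
  · simp only [hm, dA] at hA ⊢
    field_simp
    ring
  · simp only [hm, dA, dD] at hA hD ⊢
    field_simp
    ring

variable [Algebra (ZMod p) k]

variable (p) (r) in
/-- Multiplication by the ratio of the diagonal characters. -/
def upAct (g : LocalGal p) : k →ₗ[ZMod p] k :=
  LinearMap.mulLeft (ZMod p) (dA p r g / dD p r g)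

variable (p) (r) in
/-- Multiplication by the inverse ratio. -/
def lowAct (g : LocalGal p) : k →ₗ[ZMod p] k :=
  LinearMap.mulLeft (ZMod p) (dD p r g / dA p r g)

theorem isAction_upAct : IsAction (upAct p r) := by
  refine ⟨fun x => by simp [upAct, dA_one hup], fun g h x => ?_⟩
  simp only [upAct, LinearMap.mulLeft_apply, (upper_mul hup g h).1, (upper_mul hup g h).2.1]
  ring

theorem isAction_lowAct : IsAction (lowAct p r) := by
  refine ⟨fun x => by simp [lowAct, dA_one hup], fun g h x => ?_⟩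
  simp only [lowAct, LinearMap.mulLeft_apply, (upper_mul hup g h).1, (upper_mul hup g h).2.1]
  ring

theorem isCocycle_entry10 {c : LocalGal p → Matrix (Fin 2) (Fin 2) k}
    (hc : c ∈ goodSub p r F) : IsCocycleFor (lowAct p r) fun g => c g 1 0 := fun g h => by
  dsimp only
  rw [hc.1.2, Matrix.add_apply, (adAct_upper hup g _).1]
  rfl

theorem isCocycle_entry11 {c : LocalGal p → Matrix (Fin 2) (Fin 2) k}
    (hc : c ∈ goodSub p r F) (h10 : ∀ g, c g 1 0 = 0) :
    IsCocycleFor (fun _ => (LinearMap.id : k →ₗ[ZMod p] k)) fun g => c g 1 1 := fun g h => by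
  dsimp only
  rw [hc.1.2, Matrix.add_apply, ((adAct_upper hup g _).2 (h10 h)).1]
  rfl

theorem isCocycle_entry01 {c : LocalGal p → Matrix (Fin 2) (Fin 2) k}
    (hc : c ∈ goodSub p r F) (h10 : ∀ g, c g 1 0 = 0) (h11 : ∀ g, c g 1 1 = 0) :
    IsCocycleFor (upAct p r) fun g => c g 0 1 := fun g h => by
  have h00 : c h 0 0 = 0 := by
    have := hc.1.1 h
    rw [Matrix.trace_fin_two, h11, add_zero] at this
    exact this
  dsimp only
  rw [hc.1.2, Matrix.add_apply, ((adAct_upper hup g _).2 (h10 h)).2.2, h11, h00]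
  simp [upAct]

/-- The extension class of the representation. -/
theorem isCocycle_ext :
    IsCocycleFor (upAct p r) fun g => mat (locHom p r) g 0 1 / dD p r g := fun g h => by
  obtain ⟨-, hDg⟩ := dA_ne_zero hup g
  obtain ⟨-, hDh⟩ := dA_ne_zero hup h
  simp only [upAct, LinearMap.mulLeft_apply, (upper_mul hup g h).2.1, (upper_mul hup g h).2.2]
  field_simp
  ring

end Entries

variable (p) (k) in
/-- An entry of a matrix valued function. -/
def entryLin (i j : Fin 2) :
    (LocalGal p → Matrix (Fin 2) (Fin 2) k) →ₗ[k] (LocalGal p → k) :=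
  (Matrix.entryLinearMap k k i j).compLeft (LocalGal p)

theorem entryLin_apply (i j : Fin 2) (c : LocalGal p → Matrix (Fin 2) (Fin 2) k) (g : LocalGal p) :
    entryLin k p i j c g = c g i j := rfl

end FLTAgent.TWPrimes
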